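import Fermat.Agent.S17.Cube.Defs

/-!
# S17, chapter CUBE: the GRID lemma

If `T(s,t)(J₁,I₁) * G(s,t)(J₂) ≠ 0` for some `s, t` in the span of the vectors `rv a x`, then the
same holds for some `s = sOf a γ`, `t = sOf a γ'` with `γ, γ'` on the integer grid `{0..D}`,
`D = #n₂ + #n₀'`.
-/

set_option autoImplicit false

namespace Fermat.Agent.S17Lib

open Matrix MvPolynomial

/-- a nonzero polynomial of degree `≤ D` in each variable is nonzero on the grid `{0..D}`. -/
theorem GR_grid {X K : Type*} [Finite X] [Field K] [CharZero K] (P : MvPolynomial X K) (D : ℕ)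
    (hdeg : ∀ i, P.degreeOf i ≤ D) (hP : P ≠ 0) :
    ∃ γ : X → ℕ, (∀ x, γ x ≤ D) ∧ eval (fun x => (γ x : K)) P ≠ 0 := by
  classical
  by_contra hcon
  push Not at hcon
  apply hP
  refine MvPolynomial.eq_zero_of_eval_zero_at_prod_finset P
    (fun _ => (Finset.range (D + 1)).image (fun n : ℕ => (n : K))) (fun i => ?_) (fun x hx => ?_)
  · rw [Finset.card_image_of_injective _ Nat.cast_injective, Finset.card_range]
    exact Nat.lt_succ_of_le (hdeg i)
  · have h1 : ∀ i, ∃ n : ℕ, n ≤ D ∧ (n : K) = x i := by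
      intro i
      obtain ⟨n, hn, hnx⟩ := Finset.mem_image.mp (hx i)
      exact ⟨n, Nat.lt_succ_iff.mp (Finset.mem_range.mp hn), hnx⟩
    choose γ hγ hγx using h1
    have h2 := hcon γ hγ
    have h3 : (fun i => (γ i : K)) = x := funext hγx
    rwa [h3] at h2

/-- degree of a determinant, column-wise bounds -/
theorem GR_degreeOf_det {σ K n : Type*} [CommRing K] [Fintype n] [DecidableEq n]
    (M : Matrix n n (MvPolynomial σ K)) (i : σ) (d : n → ℕ)
    (hM : ∀ r c, (M r c).degreeOf i ≤ d c) : (M.det).degreeOf i ≤ ∑ c, d c := by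
  rw [Matrix.det_apply]
  refine (degreeOf_sum_le i _ _).trans (Finset.sup_le fun τ _ => ?_)
  have h1 : (Equiv.Perm.sign τ • ∏ c, M (τ c) c).degreeOf i ≤ (∏ c, M (τ c) c).degreeOf i := by
    rcases Int.units_eq_one_or (Equiv.Perm.sign τ) with h | h
    · rw [h, one_smul]
    · rw [h, Units.neg_smul, one_smul, degreeOf_neg]
  refine h1.trans ((degreeOf_prod_le i _ _).trans (Finset.sum_le_sum fun c _ => hM _ _))

section Nat

variable {R S : Type*} [CommRing R] [CommRing S] [Algebra ℚ R] [Algebra ℚ S]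
variable {ιm ι0 ι1 ι2 n0 n1 n2 : Type*} [Fintype ιm] [Fintype ι0] [Fintype ι1] [Fintype ι2]
  [Fintype n0] [DecidableEq n0] [Fintype n1] [DecidableEq n1] [Fintype n2] [DecidableEq n2]

theorem GR_mulC_map {ι ι' : Type*} [Fintype ι] (f : R →ₐ[ℚ] S) (c : ιm → ι → ι' → ℚ)
    (s : ιm → R) (z : ι → R) (k : ι') :
    f (mulC c s z k) = mulC c (fun i => f (s i)) (fun j => f (z j)) k := by
  simp only [mulC, map_sum, map_mul, AlgHom.commutes]

theorem GR_Tdet_map (f : R →ₐ[ℚ] S) (c12 : ιm → ι1 → ι2 → ℚ) (ε : n1 ⊕ n1 ≃ n0 ⊕ n2)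
    (b' : Matrix n1 ι1 R) (s t : ιm → R) (J : n0 → ι1 ⊕ ι1) (I : n2 → ι2) :
    f (Tdet c12 ε b' s t J I) =
      Tdet c12 ε (b'.map f) (fun i => f (s i)) (fun i => f (t i)) J I := by
  unfold Tdet
  rw [AlgHom.map_det]
  congr 1
  ext r q
  simp only [AlgHom.mapMatrix_apply, Matrix.map_apply, Tmat, Matrix.of_apply]
  rcases q with j | i
  · simp only [Sum.elim_inl, Urow]
    rcases ε.symm r with x | x <;> rcases J j with y | y <;> simp
  · simp only [Sum.elim_inr, UMrow]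
    rcases ε.symm r with x | x
    · simp only [Sum.elim_inl]
      rw [GR_mulC_map]
      rfl
    · simp only [Sum.elim_inr]
      rw [GR_mulC_map]
      rfl

theorem GR_Gplu_map (f : R →ₐ[ℚ] S) (c01 : ιm → ι0 → ι1 → ℚ) (b0 : Matrix n0 ι0 R)
    (s t : ιm → R) (J : n0 → ι1 ⊕ ι1) :
    f (Gplu c01 b0 s t J) = Gplu c01 (b0.map f) (fun i => f (s i)) (fun i => f (t i)) J := by
  unfold Gplu plu
  rw [AlgHom.map_det]
  congr 1
  ext r q
  simp only [AlgHom.mapMatrix_apply, Matrix.map_apply, Matrix.submatrix_apply, Gmat,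
    Matrix.of_apply, id]
  rcases J q with y | y
  · simp only [Sum.elim_inl]
    rw [GR_mulC_map]
    rfl
  · simp only [Sum.elim_inr, Pi.neg_apply, map_neg]
    rw [GR_mulC_map]
    rfl

end Nat

section Main

variable {K : Type*} [Field K] [CharZero K] [Algebra ℚ K]
variable {ιm ι0 ι1 ι2 n0 n0' n1 n2 X : Type*} [Fintype ιm] [Fintype ι0] [Fintype ι1] [Fintype ι2]
  [Fintype n0] [DecidableEq n0] [Fintype n0'] [DecidableEq n0'] [Fintype n1] [DecidableEq n1]
  [Fintype n2] [DecidableEq n2] [Fintype X]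

/-- the generic linear combination of the vectors `v x`, variables `e x` -/
noncomputable def GR_gen {Y : Type*} (v : X → ιm → K) (e : X → Y) : ιm → MvPolynomial Y K :=
  fun i => ∑ x, MvPolynomial.X (e x) * C (v x i)

theorem GR_gen_degreeOf {Y : Type*} (v : X → ιm → K) (e : X → Y) (i : ιm) (y : Y) :
    (GR_gen v e i).degreeOf y ≤ 1 := by
  classical
  unfold GR_gen
  refine (degreeOf_sum_le y _ _).trans (Finset.sup_le fun x _ => ?_)
  refine (degreeOf_mul_le y _ _).trans ?_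
  rw [degreeOf_C, add_zero, degreeOf_X]
  split_ifs <;> omega

theorem GR_gen_eval {Y : Type*} (v : X → ιm → K) (e : X → Y) (w : Y → K) (i : ιm) :
    eval w (GR_gen v e i) = (∑ x, w (e x) • v x) i := by
  simp [GR_gen, Finset.sum_apply]

theorem GR_mulC_degreeOf {Y ι ι' : Type*} [Fintype ι] (c : ιm → ι → ι' → ℚ)
    (s : ιm → MvPolynomial Y K) (z : ι → K) (k : ι') (y : Y) (hs : ∀ i, (s i).degreeOf y ≤ 1) :
    (mulC c s (fun j => C (z j)) k).degreeOf y ≤ 1 := by
  unfold mulC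
  refine (degreeOf_sum_le y _ _).trans (Finset.sup_le fun i _ => ?_)
  refine (degreeOf_sum_le y _ _).trans (Finset.sup_le fun j _ => ?_)
  refine (degreeOf_mul_le y _ _).trans ?_
  rw [degreeOf_C, add_zero]
  refine (degreeOf_mul_le y _ _).trans ?_
  rw [MvPolynomial.algebraMap_apply, degreeOf_C, zero_add]
  exact hs i

/-- **GRID lemma**, abstract spanning family `v`. -/
theorem GR_exists_grid (c12 : ιm → ι1 → ι2 → ℚ) (c01 : ιm → ι0 → ι1 → ℚ)
    (ε : n1 ⊕ n1 ≃ n0 ⊕ n2) (b' : Matrix n1 ι1 K) (b0 : Matrix n0' ι0 K) (v : X → ιm → K)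
    (J1 : n0 → ι1 ⊕ ι1) (I1 : n2 → ι2) (J2 : n0' → ι1 ⊕ ι1) (cs ct : X → K)
    (hne : Tdet c12 ε b' (∑ x, cs x • v x) (∑ x, ct x • v x) J1 I1 *
      Gplu c01 b0 (∑ x, cs x • v x) (∑ x, ct x • v x) J2 ≠ 0) :
    ∃ γ γ' : X → ℕ, (∀ x, γ x ≤ Fintype.card n2 + Fintype.card n0') ∧
      (∀ x, γ' x ≤ Fintype.card n2 + Fintype.card n0') ∧
      Tdet c12 ε b' (∑ x, (γ x : K) • v x) (∑ x, (γ' x : K) • v x) J1 I1 *
        Gplu c01 b0 (∑ x, (γ x : K) • v x) (∑ x, (γ' x : K) • v x) J2 ≠ 0 := by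
  classical
  set sg : ιm → MvPolynomial (X ⊕ X) K := GR_gen v Sum.inl with hsg
  set tg : ιm → MvPolynomial (X ⊕ X) K := GR_gen v Sum.inr with htg
  set PT : MvPolynomial (X ⊕ X) K := Tdet c12 ε (b'.map C) sg tg J1 I1 with hPT
  set PG : MvPolynomial (X ⊕ X) K := Gplu c01 (b0.map C) sg tg J2 with hPG
  -- evaluation
  have hev : ∀ w : X ⊕ X → K, eval w (PT * PG) =
      Tdet c12 ε b' (∑ x, w (Sum.inl x) • v x) (∑ x, w (Sum.inr x) • v x) J1 I1 *
        Gplu c01 b0 (∑ x, w (Sum.inl x) • v x) (∑ x, w (Sum.inr x) • v x) J2 := by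
    intro w
    have e1 : ∀ p : MvPolynomial (X ⊕ X) K, eval w p = (aeval w : _ →ₐ[K] K) p := fun p => by
      rw [MvPolynomial.aeval_eq_eval]
    have e2 := GR_Tdet_map ((aeval w : MvPolynomial (X ⊕ X) K →ₐ[K] K).restrictScalars ℚ)
      c12 ε (b'.map C) sg tg J1 I1
    have e3 := GR_Gplu_map ((aeval w : MvPolynomial (X ⊕ X) K →ₐ[K] K).restrictScalars ℚ)
      c01 (b0.map C) sg tg J2
    simp only [AlgHom.restrictScalars_apply, ← e1] at e2 e3
    rw [map_mul, hPT, hPG, e2, e3]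
    have h1 : (fun i => eval w (sg i)) = ∑ x, w (Sum.inl x) • v x :=
      funext fun i => GR_gen_eval v Sum.inl w i
    have h2 : (fun i => eval w (tg i)) = ∑ x, w (Sum.inr x) • v x :=
      funext fun i => GR_gen_eval v Sum.inr w i
    have h3 : (b'.map C).map
        (⇑((aeval w : MvPolynomial (X ⊕ X) K →ₐ[K] K).restrictScalars ℚ)) = b' := by
      ext r q; simp
    have h4 : (b0.map C).map
        (⇑((aeval w : MvPolynomial (X ⊕ X) K →ₐ[K] K).restrictScalars ℚ)) = b0 := by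
      ext r q; simp
    rw [h1, h2, h3, h4]
  -- degrees
  have hdT : ∀ y, PT.degreeOf y ≤ Fintype.card n2 := by
    intro y
    have := GR_degreeOf_det (Tmat c12 ε (b'.map C) sg tg J1 I1) y
      (Sum.elim (fun _ => 0) (fun _ => 1)) (by
        intro r q
        simp only [Tmat, Matrix.of_apply]
        rcases q with j | i
        · simp only [Sum.elim_inl, Urow]
          rcases ε.symm r with x | x <;> rcases J1 j with z | z <;> simp
        · simp only [Sum.elim_inr, UMrow]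
          rcases ε.symm r with x | x
          · exact GR_mulC_degreeOf c12 sg (b' x) (I1 i) y (fun i => GR_gen_degreeOf v _ i y)
          · exact GR_mulC_degreeOf c12 tg (b' x) (I1 i) y (fun i => GR_gen_degreeOf v _ i y))
    have h2 : (∑ q : n0 ⊕ n2, (Sum.elim (fun _ => 0) (fun _ => 1) : n0 ⊕ n2 → ℕ) q) =
        Fintype.card n2 := by simp [Fintype.sum_sum_type]
    rw [h2] at this
    exact this
  have hdG : ∀ y, PG.degreeOf y ≤ Fintype.card n0' := by
    intro y
    have := GR_degreeOf_det ((Gmat c01 (b0.map C) sg tg).submatrix id J2) y (fun _ => 1) (by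
        intro r q
        simp only [Matrix.submatrix_apply, Gmat, Matrix.of_apply, id]
        rcases J2 q with z | z
        · exact GR_mulC_degreeOf c01 tg (b0 r) z y (fun i => GR_gen_degreeOf v _ i y)
        · simp only [Sum.elim_inr, Pi.neg_apply, degreeOf_neg]
          exact GR_mulC_degreeOf c01 sg (b0 r) z y (fun i => GR_gen_degreeOf v _ i y))
    have h2 : (∑ _q : n0', 1) = Fintype.card n0' := by simp
    rw [h2] at this
    exact this
  have hP : PT * PG ≠ 0 := by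
    intro h0
    apply hne
    have := hev (Sum.elim cs ct)
    rw [h0, map_zero] at this
    simpa using this.symm
  obtain ⟨γ, hγ, hγne⟩ := GR_grid (PT * PG) (Fintype.card n2 + Fintype.card n0')
    (fun y => (degreeOf_mul_le y _ _).trans (add_le_add (hdT y) (hdG y))) hP
  refine ⟨fun x => γ (Sum.inl x), fun x => γ (Sum.inr x), fun x => hγ _, fun x => hγ _, ?_⟩
  rw [hev] at hγne
  exact hγne

/-- the rows of `a` are combinations of the vectors `rv a I k` as soon as `plu a I ≠ 0`. -/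
theorem GR_row_eq {n : Type*} [Fintype n] [DecidableEq n] (a : Matrix n ιm K) (I : n → ιm)
    (hI : plu a I ≠ 0) (l : n) :
    a l = ∑ k, ((plu a I)⁻¹ * a l (I k)) • rv a I k := by
  have h1 : (a.submatrix id I) * ((a.submatrix id I).adjugate * a) = plu a I • a := by
    rw [← Matrix.mul_assoc, Matrix.mul_adjugate, Matrix.smul_mul, Matrix.one_mul]
    rfl
  have h2 : ∀ j, (plu a I • a) l j = ∑ k, a l (I k) * rv a I k j := by
    intro j
    rw [← h1, Matrix.mul_apply]
    rfl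
  funext j
  rw [Finset.sum_apply]
  simp only [Pi.smul_apply, smul_eq_mul, mul_assoc]
  rw [← Finset.mul_sum, ← h2 j, Matrix.smul_apply, smul_eq_mul, ← mul_assoc,
    inv_mul_cancel₀ hI, one_mul]

/-- every element of the row space of `a` is a combination of the vectors `rv a x.1 x.2`. -/
theorem GR_exists_coeff {n : Type*} [Fintype n] [DecidableEq n] (a : Matrix n ιm K)
    (ha : plu a ≠ 0) (s : ιm → K) (hs : s ∈ Submodule.span K (Set.range a)) :
    ∃ cs : (n → ιm) × n → K, s = ∑ x, cs x • rv a x.1 x.2 := by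
  classical
  obtain ⟨I, hI⟩ := Function.ne_iff.mp ha
  have hI' : plu a I ≠ 0 := hI
  have hle : Submodule.span K (Set.range a) ≤
      Submodule.span K (Set.range fun x : (n → ιm) × n => rv a x.1 x.2) := by
    rw [Submodule.span_le]
    rintro _ ⟨l, rfl⟩
    rw [GR_row_eq a I hI' l]
    exact Submodule.sum_mem _ fun k _ => Submodule.smul_mem _ _
      (Submodule.subset_span ⟨(I, k), rfl⟩)
  obtain ⟨cs, hcs⟩ := (Submodule.mem_span_range_iff_exists_fun K).mp (hle hs)
  exact ⟨cs, hcs.symm⟩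

/-- **GRID lemma** in the shape used by the cube: `s, t` in the row space of `a`. -/
theorem exists_grid {n : Type*} [Fintype n] [DecidableEq n]
    (c12 : ιm → ι1 → ι2 → ℚ) (c01 : ιm → ι0 → ι1 → ℚ)
    (ε : n1 ⊕ n1 ≃ n0 ⊕ n2) (a : Matrix n ιm K) (ha : plu a ≠ 0)
    (b' : Matrix n1 ι1 K) (b0 : Matrix n0' ι0 K)
    (J1 : n0 → ι1 ⊕ ι1) (I1 : n2 → ι2) (J2 : n0' → ι1 ⊕ ι1) (s t : ιm → K)
    (hs : s ∈ Submodule.span K (Set.range a)) (ht : t ∈ Submodule.span K (Set.range a))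
    (hne : Tdet c12 ε b' s t J1 I1 * Gplu c01 b0 s t J2 ≠ 0) :
    ∃ γ γ' : (n → ιm) × n → ℕ, (∀ x, γ x ≤ Fintype.card n2 + Fintype.card n0') ∧
      (∀ x, γ' x ≤ Fintype.card n2 + Fintype.card n0') ∧
      Tdet c12 ε b' (sOf a γ) (sOf a γ') J1 I1 * Gplu c01 b0 (sOf a γ) (sOf a γ') J2 ≠ 0 := by
  obtain ⟨cs, hcs⟩ := GR_exists_coeff a ha s hs
  obtain ⟨ct, hct⟩ := GR_exists_coeff a ha t ht
  have key := GR_exists_grid (X := (n → ιm) × n) c12 c01 ε b' b0 (fun x => rv a x.1 x.2) J1 I1 J2 cs ct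
  rw [hcs, hct] at hne
  obtain ⟨γ, γ', h1, h2, h3⟩ := key hne
  refine ⟨γ, γ', h1, h2, ?_⟩
  unfold sOf
  exact h3
end Main

end Fermat.Agent.S17Lib
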