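import Fermat.Agent.S17.Cube.Defs

/-!
# S17, chapter CUBE, leaf NAT: naturality and semi-invariance

All constructions of `Cube/Defs.lean` commute with `ℚ`-algebra homomorphisms and are
semi-invariant under change of basis.  The polynomial family `Qpoly` is the product
`T_{E₁} ⊗ G_{E₂}` at the generic point; `NAT_aeval_Qpoly` evaluates it and `NAT_hsemi` is the
hypothesis `hsemi` of `semi_bound`.
-/

set_option autoImplicit false
set_option linter.unusedSectionVars false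

namespace Fermat.Agent.S17Lib

open Matrix MvPolynomial

section Map

variable {R R' : Type*} [CommRing R] [CommRing R']

theorem NAT_map_plu {n ι : Type*} [Fintype n] [DecidableEq n] (φ : R →+* R') (a : Matrix n ι R)
    (I : n → ι) : φ (plu a I) = plu (a.map φ) I := by
  rw [plu, plu, RingHom.map_det, RingHom.mapMatrix_apply, Matrix.submatrix_map]

theorem NAT_map_rv {n ι : Type*} [Fintype n] [DecidableEq n] (φ : R →+* R') (a : Matrix n ι R)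
    (I : n → ι) (l : n) (j : ι) : φ (rv a I l j) = rv (a.map φ) I l j := by
  have h : ((a.submatrix id I).adjugate * a).map φ
      = ((a.map φ).submatrix id I).adjugate * a.map φ := by
    have h1 := RingHom.map_adjugate φ (a.submatrix id I)
    simp only [RingHom.mapMatrix_apply] at h1
    rw [Matrix.map_mul, Matrix.submatrix_map, h1]
  exact congrFun (congrFun h l) j

theorem NAT_map_sOf {n ι : Type*} [Fintype n] [DecidableEq n] [Fintype ι] (φ : R →+* R')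
    (a : Matrix n ι R) (γ : (n → ι) × n → ℕ) (j : ι) : φ (sOf a γ j) = sOf (a.map φ) γ j := by
  simp only [sOf, Finset.sum_apply, Pi.smul_apply, smul_eq_mul, map_sum, map_mul, map_natCast,
    NAT_map_rv]

theorem NAT_map_sOf' {n ι : Type*} [Fintype n] [DecidableEq n] [Fintype ι] (φ : R →+* R')
    (a : Matrix n ι R) (γ : (n → ι) × n → ℕ) : φ ∘ sOf a γ = sOf (a.map φ) γ :=
  funext fun j => NAT_map_sOf φ a γ j

variable [Algebra ℚ R] [Algebra ℚ R']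

theorem NAT_map_mulC {ιm ι ι' : Type*} [Fintype ιm] [Fintype ι] (φ : R →ₐ[ℚ] R')
    (c : ιm → ι → ι' → ℚ) (s : ιm → R) (z : ι → R) (k : ι') :
    φ (mulC c s z k) = mulC c (φ ∘ s) (φ ∘ z) k := by
  simp [mulC, map_sum]

variable {ιm ι0 ι1 ι2 n0 n1 n2 : Type*} [Fintype ιm] [Fintype ι0] [Fintype ι1] [Fintype ι2]
  [Fintype n0] [DecidableEq n0] [Fintype n1] [DecidableEq n1] [Fintype n2] [DecidableEq n2]

theorem NAT_map_Tdet (φ : R →ₐ[ℚ] R') (c12 : ιm → ι1 → ι2 → ℚ) (ε : n1 ⊕ n1 ≃ n0 ⊕ n2)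
    (b' : Matrix n1 ι1 R) (s t : ιm → R) (J : n0 → ι1 ⊕ ι1) (I : n2 → ι2) :
    φ (Tdet c12 ε b' s t J I) = Tdet c12 ε (b'.map φ) (φ ∘ s) (φ ∘ t) J I := by
  rw [Tdet, Tdet, AlgHom.map_det]
  congr 1
  ext r q
  rw [AlgHom.mapMatrix_apply, Matrix.map_apply]
  rcases q with j | i
  · simp only [Tmat, Matrix.of_apply, Sum.elim_inl]
    rcases ε.symm r with x | x <;> rcases J j with y | y <;> simp [Urow]
  · simp only [Tmat, Matrix.of_apply, Sum.elim_inr]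
    rcases ε.symm r with x | x
    · simp only [UMrow, Sum.elim_inl, NAT_map_mulC]; rfl
    · simp only [UMrow, Sum.elim_inr, NAT_map_mulC]; rfl

theorem NAT_map_Gplu (φ : R →ₐ[ℚ] R') (c01 : ιm → ι0 → ι1 → ℚ) (b0 : Matrix n0 ι0 R)
    (s t : ιm → R) (J : n0 → ι1 ⊕ ι1) :
    φ (Gplu c01 b0 s t J) = Gplu c01 (b0.map φ) (φ ∘ s) (φ ∘ t) J := by
  rw [Gplu, Gplu, ← AlgHom.coe_toRingHom, NAT_map_plu]
  congr 1
  ext i q
  rcases q with y | y
  · simp only [Gmat, Matrix.map_apply, Matrix.of_apply, Sum.elim_inl, AlgHom.coe_toRingHom,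
      NAT_map_mulC]; rfl
  · simp only [Gmat, Matrix.map_apply, Matrix.of_apply, Sum.elim_inr, AlgHom.coe_toRingHom,
      Pi.neg_apply, map_neg, NAT_map_mulC]; rfl

end Map

section Semi

variable {R : Type*} [CommRing R]

theorem NAT_submatrix_mul {n ι : Type*} [Fintype n] (g : Matrix n n R) (a : Matrix n ι R)
    (I : n → ι) : (g * a).submatrix id I = g * a.submatrix id I := by
  ext i j; simp [Matrix.mul_apply]

theorem NAT_plu_mul {n ι : Type*} [Fintype n] [DecidableEq n] (g : Matrix n n R) (a : Matrix n ι R)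
    (I : n → ι) : plu (g * a) I = g.det * plu a I := by
  rw [plu, plu, NAT_submatrix_mul, Matrix.det_mul]

theorem NAT_plu_smul {n ι : Type*} [Fintype n] [DecidableEq n] (x : R) (a : Matrix n ι R)
    (I : n → ι) : plu (x • a) I = x ^ Fintype.card n * plu a I := by
  have h : (x • a).submatrix id I = x • a.submatrix id I := rfl
  rw [plu, plu, h, Matrix.det_smul]

theorem NAT_rv_mul {n ι : Type*} [Fintype n] [DecidableEq n] (g : Matrix n n R) (a : Matrix n ι R)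
    (I : n → ι) (l : n) : rv (g * a) I l = g.det • rv a I l := by
  have h : ((g * a).submatrix id I).adjugate * (g * a)
      = g.det • ((a.submatrix id I).adjugate * a) := by
    rw [NAT_submatrix_mul, Matrix.adjugate_mul_distrib, Matrix.mul_assoc,
      ← Matrix.mul_assoc g.adjugate, Matrix.adjugate_mul, Matrix.smul_mul, Matrix.one_mul,
      Matrix.mul_smul]
  exact congrFun h l

theorem NAT_sOf_mul {n ι : Type*} [Fintype n] [DecidableEq n] [Fintype ι] (g : Matrix n n R)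
    (a : Matrix n ι R) (γ : (n → ι) × n → ℕ) : sOf (g * a) γ = g.det • sOf a γ := by
  simp only [sOf, NAT_rv_mul, Finset.smul_sum]
  exact Finset.sum_congr rfl fun x _ => smul_comm _ _ _

variable [Algebra ℚ R]

theorem NAT_mulC_smul_left {ιm ι ι' : Type*} [Fintype ιm] [Fintype ι] (c : ιm → ι → ι' → ℚ)
    (x : R) (s : ιm → R) (z : ι → R) : mulC c (x • s) z = x • mulC c s z := by
  funext k
  simp only [mulC, Pi.smul_apply, smul_eq_mul, Finset.mul_sum]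
  exact Finset.sum_congr rfl fun i _ => Finset.sum_congr rfl fun j _ => by ring

theorem NAT_mulC_mul_right {ιm ι ι' n : Type*} [Fintype ιm] [Fintype ι] [Fintype n]
    (c : ιm → ι → ι' → ℚ) (s : ιm → R) (g : Matrix n n R) (b : Matrix n ι R) (i : n) (k : ι') :
    mulC c s ((g * b) i) k = ∑ l, g i l * mulC c s (b l) k := by
  simp only [mulC, Matrix.mul_apply, Finset.mul_sum]
  rw [Finset.sum_comm (s := (Finset.univ : Finset n))]
  refine Finset.sum_congr rfl fun i' _ => ?_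
  rw [Finset.sum_comm (s := (Finset.univ : Finset n))]
  refine Finset.sum_congr rfl fun j _ => Finset.sum_congr rfl fun l _ => by ring

variable {ιm ι0 ι1 ι2 n0 n1 n2 : Type*} [Fintype ιm] [Fintype ι0] [Fintype ι1] [Fintype ι2]
  [Fintype n0] [DecidableEq n0] [Fintype n1] [DecidableEq n1] [Fintype n2] [DecidableEq n2]

/-- `Tmat` before reindexing of the rows. -/
def NAT_T0 (c12 : ιm → ι1 → ι2 → ℚ) (b' : Matrix n1 ι1 R) (s t : ιm → R)
    (J : n0 → ι1 ⊕ ι1) (I : n2 → ι2) : Matrix (n1 ⊕ n1) (n0 ⊕ n2) R :=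
  Matrix.of fun x => Sum.elim (fun j => Urow b' x (J j)) (fun i => UMrow c12 b' s t x (I i))

theorem NAT_Tmat_eq (c12 : ιm → ι1 → ι2 → ℚ) (ε : n1 ⊕ n1 ≃ n0 ⊕ n2) (b' : Matrix n1 ι1 R)
    (s t : ιm → R) (J : n0 → ι1 ⊕ ι1) (I : n2 → ι2) :
    Tmat c12 ε b' s t J I = (NAT_T0 c12 b' s t J I).submatrix ε.symm id := rfl

theorem NAT_T0_mul (c12 : ιm → ι1 → ι2 → ℚ) (g : Matrix n1 n1 R) (b' : Matrix n1 ι1 R)
    (s t : ιm → R) (J : n0 → ι1 ⊕ ι1) (I : n2 → ι2) :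
    NAT_T0 c12 (g * b') s t J I = Matrix.fromBlocks g 0 0 g * NAT_T0 c12 b' s t J I := by
  ext x q
  rw [Matrix.mul_apply, Fintype.sum_sum_type]
  rcases x with x | x <;> rcases q with j | i
  · simp only [NAT_T0, Matrix.of_apply, Sum.elim_inl, Matrix.fromBlocks_apply₁₁,
      Matrix.fromBlocks_apply₁₂, Matrix.zero_apply, zero_mul, Finset.sum_const_zero, add_zero]
    rcases J j with y | y <;> simp [Urow, Matrix.mul_apply]
  · simp only [NAT_T0, Matrix.of_apply, Sum.elim_inr, Matrix.fromBlocks_apply₁₁,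
      Matrix.fromBlocks_apply₁₂, Matrix.zero_apply, zero_mul, Finset.sum_const_zero, add_zero,
      UMrow, Sum.elim_inl, NAT_mulC_mul_right]
  · simp only [NAT_T0, Matrix.of_apply, Sum.elim_inl, Matrix.fromBlocks_apply₂₁,
      Matrix.fromBlocks_apply₂₂, Matrix.zero_apply, zero_mul, Finset.sum_const_zero, zero_add]
    rcases J j with y | y <;> simp [Urow, Matrix.mul_apply]
  · simp only [NAT_T0, Matrix.of_apply, Sum.elim_inr, Matrix.fromBlocks_apply₂₁,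
      Matrix.fromBlocks_apply₂₂, Matrix.zero_apply, zero_mul, Finset.sum_const_zero, zero_add,
      UMrow, NAT_mulC_mul_right]

theorem NAT_Tdet_mul (c12 : ιm → ι1 → ι2 → ℚ) (ε : n1 ⊕ n1 ≃ n0 ⊕ n2) (g : Matrix n1 n1 R)
    (b' : Matrix n1 ι1 R) (s t : ιm → R) (J : n0 → ι1 ⊕ ι1) (I : n2 → ι2) :
    Tdet c12 ε (g * b') s t J I = g.det ^ 2 * Tdet c12 ε b' s t J I := by
  have h : Tmat c12 ε (g * b') s t J I
      = (Matrix.fromBlocks g 0 0 g).submatrix ε.symm ε.symm * Tmat c12 ε b' s t J I := by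
    rw [NAT_Tmat_eq, NAT_Tmat_eq, NAT_T0_mul, Matrix.submatrix_mul_equiv]
  rw [Tdet, Tdet, h, Matrix.det_mul, Matrix.det_submatrix_equiv_self,
    Matrix.det_fromBlocks_zero₁₂, sq]

theorem NAT_Tdet_smul (c12 : ιm → ι1 → ι2 → ℚ) (ε : n1 ⊕ n1 ≃ n0 ⊕ n2) (x : R)
    (b' : Matrix n1 ι1 R) (s t : ιm → R) (J : n0 → ι1 ⊕ ι1) (I : n2 → ι2) :
    Tdet c12 ε b' (x • s) (x • t) J I = x ^ Fintype.card n2 * Tdet c12 ε b' s t J I := by
  have h : Tmat c12 ε b' (x • s) (x • t) J I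
      = Matrix.of fun r q => (Sum.elim (fun _ : n0 => (1 : R)) (fun _ : n2 => x)) q
          * Tmat c12 ε b' s t J I r q := by
    ext r q
    rcases q with j | i
    · simp [Tmat]
    · simp only [Tmat, Matrix.of_apply, Sum.elim_inr]
      rcases ε.symm r with y | y <;> simp [UMrow, NAT_mulC_smul_left]
  rw [Tdet, Tdet, h, Matrix.det_mul_row, Fintype.prod_sum_type]
  simp

theorem NAT_Gmat_mul (c01 : ιm → ι0 → ι1 → ℚ) (g : Matrix n0 n0 R) (b0 : Matrix n0 ι0 R)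
    (s t : ιm → R) : Gmat c01 (g * b0) s t = g * Gmat c01 b0 s t := by
  ext i q
  rw [Matrix.mul_apply]
  rcases q with y | y
  · simp only [Gmat, Matrix.of_apply, Sum.elim_inl, NAT_mulC_mul_right]
  · simp only [Gmat, Matrix.of_apply, Sum.elim_inr, Pi.neg_apply, NAT_mulC_mul_right, mul_neg,
      Finset.sum_neg_distrib]

theorem NAT_Gplu_mul (c01 : ιm → ι0 → ι1 → ℚ) (g : Matrix n0 n0 R) (b0 : Matrix n0 ι0 R)
    (s t : ιm → R) (J : n0 → ι1 ⊕ ι1) :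
    Gplu c01 (g * b0) s t J = g.det * Gplu c01 b0 s t J := by
  rw [Gplu, Gplu, NAT_Gmat_mul, NAT_plu_mul]

theorem NAT_Gplu_smul (c01 : ιm → ι0 → ι1 → ℚ) (x : R) (b0 : Matrix n0 ι0 R)
    (s t : ιm → R) (J : n0 → ι1 ⊕ ι1) :
    Gplu c01 b0 (x • s) (x • t) J = x ^ Fintype.card n0 * Gplu c01 b0 s t J := by
  have h : Gmat c01 b0 (x • s) (x • t) = x • Gmat c01 b0 s t := by
    ext i q
    rcases q with y | y <;> simp [Gmat, NAT_mulC_smul_left]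
  rw [Gplu, Gplu, h, NAT_plu_smul]

end Semi

section Poly

variable {n ιm n1 ι1 n0' ι0 : Type}

/-- generic first block -/
noncomputable def NAT_gen1 (n ιm n1 ι1 n0' ι0 : Type) :
    Matrix n ιm (MvPolynomial (Var3 n ιm n1 ι1 n0' ι0) ℚ) :=
  Matrix.of fun l j => X (Sum.inl (l, j))

/-- generic second block -/
noncomputable def NAT_gen2 (n ιm n1 ι1 n0' ι0 : Type) :
    Matrix n1 ι1 (MvPolynomial (Var3 n ιm n1 ι1 n0' ι0) ℚ) :=
  Matrix.of fun l j => X (Sum.inr (Sum.inl (l, j)))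

/-- generic third block -/
noncomputable def NAT_gen3 (n ιm n1 ι1 n0' ι0 : Type) :
    Matrix n0' ι0 (MvPolynomial (Var3 n ιm n1 ι1 n0' ι0) ℚ) :=
  Matrix.of fun l j => X (Sum.inr (Sum.inr (l, j)))

variable {R : Type*} [CommRing R] [Algebra ℚ R]

theorem NAT_gen1_map (a : Matrix n ιm R) (b' : Matrix n1 ι1 R) (b0 : Matrix n0' ι0 R) :
    (NAT_gen1 n ιm n1 ι1 n0' ι0).map (aeval (R := ℚ) (pack3 a b' b0)) = a := by
  ext l j; simp [NAT_gen1, pack3]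

theorem NAT_gen2_map (a : Matrix n ιm R) (b' : Matrix n1 ι1 R) (b0 : Matrix n0' ι0 R) :
    (NAT_gen2 n ιm n1 ι1 n0' ι0).map (aeval (R := ℚ) (pack3 a b' b0)) = b' := by
  ext l j; simp [NAT_gen2, pack3]

theorem NAT_gen3_map (a : Matrix n ιm R) (b' : Matrix n1 ι1 R) (b0 : Matrix n0' ι0 R) :
    (NAT_gen3 n ιm n1 ι1 n0' ι0).map (aeval (R := ℚ) (pack3 a b' b0)) = b0 := by
  ext l j; simp [NAT_gen3, pack3]

variable {ι2 n0 n2 : Type} [Fintype ιm] [Fintype ι0] [Fintype ι1] [Fintype ι2]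
  [Fintype n] [DecidableEq n] [Fintype n0] [DecidableEq n0] [Fintype n1] [DecidableEq n1]
  [Fintype n2] [DecidableEq n2] [Fintype n0'] [DecidableEq n0']

/-- the product family `T_{E₁}(s_γ, t_γ')(J₁, I₁) * G_{E₂}(s_γ, t_γ')(J₂)` at the generic point;
blocks `(a, b'₁, b0₂)`. -/
noncomputable def Qpoly (c01 : ιm → ι0 → ι1 → ℚ) (c12 : ιm → ι1 → ι2 → ℚ)
    (ε : n1 ⊕ n1 ≃ n0 ⊕ n2) (γ γ' : (n → ιm) × n → ℕ) (J1 : n0 → ι1 ⊕ ι1) (I1 : n2 → ι2)
    (J2 : n0' → ι1 ⊕ ι1) : MvPolynomial (Var3 n ιm n1 ι1 n0' ι0) ℚ :=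
  Tdet c12 ε (NAT_gen2 n ιm n1 ι1 n0' ι0) (sOf (NAT_gen1 n ιm n1 ι1 n0' ι0) γ)
      (sOf (NAT_gen1 n ιm n1 ι1 n0' ι0) γ') J1 I1 *
    Gplu c01 (NAT_gen3 n ιm n1 ι1 n0' ι0) (sOf (NAT_gen1 n ιm n1 ι1 n0' ι0) γ)
      (sOf (NAT_gen1 n ιm n1 ι1 n0' ι0) γ') J2

theorem NAT_aeval_Qpoly (c01 : ιm → ι0 → ι1 → ℚ) (c12 : ιm → ι1 → ι2 → ℚ)
    (ε : n1 ⊕ n1 ≃ n0 ⊕ n2) (γ γ' : (n → ιm) × n → ℕ) (J1 : n0 → ι1 ⊕ ι1) (I1 : n2 → ι2)
    (J2 : n0' → ι1 ⊕ ι1) (a : Matrix n ιm R) (b' : Matrix n1 ι1 R) (b0 : Matrix n0' ι0 R) :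
    aeval (pack3 a b' b0) (Qpoly c01 c12 ε γ γ' J1 I1 J2) =
      Tdet c12 ε b' (sOf a γ) (sOf a γ') J1 I1 * Gplu c01 b0 (sOf a γ) (sOf a γ') J2 := by
  have hs : ∀ δ : (n → ιm) × n → ℕ,
      ⇑(aeval (R := ℚ) (pack3 a b' b0)) ∘ sOf (NAT_gen1 n ιm n1 ι1 n0' ι0) δ = sOf a δ := by
    intro δ
    have := NAT_map_sOf' (aeval (R := ℚ) (pack3 a b' b0)).toRingHom
      (NAT_gen1 n ιm n1 ι1 n0' ι0) δ
    have h2 : (NAT_gen1 n ιm n1 ι1 n0' ι0).map ⇑(aeval (R := ℚ) (pack3 a b' b0)).toRingHom = a :=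
      NAT_gen1_map a b' b0
    rw [h2] at this
    exact this
  rw [Qpoly, map_mul, NAT_map_Tdet, NAT_map_Gplu, hs, hs, NAT_gen2_map, NAT_gen3_map]

theorem NAT_eval_Qpoly (c01 : ιm → ι0 → ι1 → ℚ) (c12 : ιm → ι1 → ι2 → ℚ)
    (ε : n1 ⊕ n1 ≃ n0 ⊕ n2) (γ γ' : (n → ιm) × n → ℕ) (J1 : n0 → ι1 ⊕ ι1) (I1 : n2 → ι2)
    (J2 : n0' → ι1 ⊕ ι1) (a : Matrix n ιm ℚ) (b' : Matrix n1 ι1 ℚ) (b0 : Matrix n0' ι0 ℚ) :
    eval (pack3 a b' b0) (Qpoly c01 c12 ε γ γ' J1 I1 J2) =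
      Tdet c12 ε b' (sOf a γ) (sOf a γ') J1 I1 * Gplu c01 b0 (sOf a γ) (sOf a γ') J2 := by
  rw [← NAT_aeval_Qpoly]
  exact (DFunLike.congr_fun (MvPolynomial.coe_aeval_eq_eval (pack3 a b' b0)) _).symm

/-- the value of the family is semi-invariant of weights `(card n2 + card n0', 2, 1)`. -/
theorem NAT_semi (c01 : ιm → ι0 → ι1 → ℚ) (c12 : ιm → ι1 → ι2 → ℚ)
    (ε : n1 ⊕ n1 ≃ n0 ⊕ n2) (γ γ' : (n → ιm) × n → ℕ) (J1 : n0 → ι1 ⊕ ι1) (I1 : n2 → ι2)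
    (J2 : n0' → ι1 ⊕ ι1) (g1 : Matrix n n R) (g2 : Matrix n1 n1 R) (g3 : Matrix n0' n0' R)
    (a : Matrix n ιm R) (b' : Matrix n1 ι1 R) (b0 : Matrix n0' ι0 R) :
    Tdet c12 ε (g2 * b') (sOf (g1 * a) γ) (sOf (g1 * a) γ') J1 I1 *
        Gplu c01 (g3 * b0) (sOf (g1 * a) γ) (sOf (g1 * a) γ') J2 =
      g1.det ^ (Fintype.card n2 + Fintype.card n0') * g2.det ^ 2 * g3.det ^ 1 *
        (Tdet c12 ε b' (sOf a γ) (sOf a γ') J1 I1 * Gplu c01 b0 (sOf a γ) (sOf a γ') J2) := by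
  rw [NAT_sOf_mul, NAT_sOf_mul, NAT_Tdet_smul, NAT_Tdet_mul, NAT_Gplu_smul, NAT_Gplu_mul]
  ring

/-- `hsemi` of `semi_bound` for `Qpoly`. -/
theorem NAT_hsemi (c01 : ιm → ι0 → ι1 → ℚ) (c12 : ιm → ι1 → ι2 → ℚ)
    (ε : n1 ⊕ n1 ≃ n0 ⊕ n2) (γ γ' : (n → ιm) × n → ℕ) (J1 : n0 → ι1 ⊕ ι1) (I1 : n2 → ι2)
    (J2 : n0' → ι1 ⊕ ι1) (g1 : Matrix n n ℚ) (g2 : Matrix n1 n1 ℚ) (g3 : Matrix n0' n0' ℚ)
    (a : Matrix n ιm ℚ) (b' : Matrix n1 ι1 ℚ) (b0 : Matrix n0' ι0 ℚ) :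
    eval (pack3 (g1 * a) (g2 * b') (g3 * b0)) (Qpoly c01 c12 ε γ γ' J1 I1 J2) =
      g1.det ^ (Fintype.card n2 + Fintype.card n0') * g2.det ^ 2 * g3.det ^ 1 *
        eval (pack3 a b' b0) (Qpoly c01 c12 ε γ γ' J1 I1 J2) := by
  rw [NAT_eval_Qpoly, NAT_eval_Qpoly, NAT_semi]

end Poly

end Fermat.Agent.S17Lib
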