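import Mathlib

/-!
# S17, chapter CUBE: definitions (Mathlib only)

Stiefel coordinates: a subspace is given by a matrix `a : Matrix n ι R` (rows = basis vectors in the
coordinates `ι`).  `plu a` is its Pluecker vector (indexed by ALL functions `n → ι`).
All constructions are polynomial in the entries and make sense over every commutative `ℚ`-algebra.

* `rv a I l`      : semi-invariant vectors of the row space (`rv (g * a) = det g • rv a`)
* `mulC c s z`    : multiplication `V_m × V_b → V_{b+m}` in coordinates (structure constants `c`)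
* `sOf a γ`       : the element `∑ γ(I,l) rv a I l` of the row space of `a`
* `Tdet`          : the determinant `det [ U_J | (U M_{s,t})_I ]`, `U = diag(b', b')`
* `Gplu`          : the Pluecker vector of `{(t z, - s z) : z ∈ W₀}`
* `Qfam`          : the product family `T_{E₁} ⊗ G_{E₂}` on the integer grid
-/

set_option autoImplicit false

namespace Fermat.Agent.S17Lib

open Matrix

section Defs

variable {R : Type*} [CommRing R]

/-- Pluecker vector of a matrix (all functions `n → ι` as index set). -/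
def plu {n ι : Type*} [Fintype n] [DecidableEq n] (a : Matrix n ι R) : (n → ι) → R :=
  fun I => (a.submatrix id I).det

/-- semi-invariant vectors of the row space of `a`. -/
def rv {n ι : Type*} [Fintype n] [DecidableEq n] (a : Matrix n ι R) (I : n → ι) (l : n) : ι → R :=
  ((a.submatrix id I).adjugate * a) l

/-- multiplication in coordinates. -/
def mulC [Algebra ℚ R] {ιm ι ι' : Type*} [Fintype ιm] [Fintype ι] (c : ιm → ι → ι' → ℚ)
    (s : ιm → R) (z : ι → R) : ι' → R :=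
  fun k => ∑ i, ∑ j, algebraMap ℚ R (c i j k) * s i * z j

/-- the element of the row space of `a` with (natural number) coordinates `γ`. -/
def sOf {n ι : Type*} [Fintype n] [DecidableEq n] [Fintype ι] (a : Matrix n ι R)
    (γ : (n → ι) × n → ℕ) : ι → R :=
  ∑ x, (γ x : R) • rv a x.1 x.2

variable [Algebra ℚ R]
variable {ιm ι0 ι1 ι2 n0 n1 n2 : Type*} [Fintype ιm] [Fintype ι0] [Fintype ι1] [Fintype ι2]
  [Fintype n0] [DecidableEq n0] [Fintype n1] [DecidableEq n1] [Fintype n2] [DecidableEq n2]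

/-- rows of `U = diag(b', b')`. -/
def Urow (b' : Matrix n1 ι1 R) : n1 ⊕ n1 → ι1 ⊕ ι1 → R :=
  Sum.elim (fun i => Sum.elim (b' i) 0) (fun i => Sum.elim 0 (b' i))

/-- rows of `U M_{s,t}`: `s u_i` and `t u_i`. -/
def UMrow (c12 : ιm → ι1 → ι2 → ℚ) (b' : Matrix n1 ι1 R) (s t : ιm → R) : n1 ⊕ n1 → ι2 → R :=
  Sum.elim (fun i => mulC c12 s (b' i)) (fun i => mulC c12 t (b' i))

/-- the matrix `[ U_J | (U M)_I ]`, rows reindexed by `ε`. -/
def Tmat (c12 : ιm → ι1 → ι2 → ℚ) (ε : n1 ⊕ n1 ≃ n0 ⊕ n2) (b' : Matrix n1 ι1 R) (s t : ιm → R)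
    (J : n0 → ι1 ⊕ ι1) (I : n2 → ι2) : Matrix (n0 ⊕ n2) (n0 ⊕ n2) R :=
  Matrix.of fun r => Sum.elim (fun j => Urow b' (ε.symm r) (J j))
    (fun i => UMrow c12 b' s t (ε.symm r) (I i))

/-- `T(J,I)(s,t) = det [ U_J | (U M_{s,t})_I ]`. -/
def Tdet (c12 : ιm → ι1 → ι2 → ℚ) (ε : n1 ⊕ n1 ≃ n0 ⊕ n2) (b' : Matrix n1 ι1 R) (s t : ιm → R)
    (J : n0 → ι1 ⊕ ι1) (I : n2 → ι2) : R :=
  (Tmat c12 ε b' s t J I).det

/-- rows `(t z_i, - s z_i)`. -/
def Gmat (c01 : ιm → ι0 → ι1 → ℚ) (b0 : Matrix n0 ι0 R) (s t : ιm → R) : Matrix n0 (ι1 ⊕ ι1) R :=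
  Matrix.of fun i => Sum.elim (mulC c01 t (b0 i)) (-(mulC c01 s (b0 i)))

/-- `G(J)(s,t)`. -/
def Gplu (c01 : ιm → ι0 → ι1 → ℚ) (b0 : Matrix n0 ι0 R) (s t : ιm → R) (J : n0 → ι1 ⊕ ι1) : R :=
  plu (Gmat c01 b0 s t) J

end Defs

/-- three Stiefel blocks of variables -/
abbrev Var3 (n₁ ι₁ n₂ ι₂ n₃ ι₃ : Type) : Type := (n₁ × ι₁) ⊕ ((n₂ × ι₂) ⊕ (n₃ × ι₃))

/-- a point of the three blocks -/
def pack3 {R : Type*} {n₁ ι₁ n₂ ι₂ n₃ ι₃ : Type} (a₁ : Matrix n₁ ι₁ R) (a₂ : Matrix n₂ ι₂ R)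
    (a₃ : Matrix n₃ ι₃ R) : Var3 n₁ ι₁ n₂ ι₂ n₃ ι₃ → R :=
  Sum.elim (fun x => a₁ x.1 x.2) (Sum.elim (fun x => a₂ x.1 x.2) (fun x => a₃ x.1 x.2))

end Fermat.Agent.S17Lib
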