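import Mathlib
import Fermat.Agent.S17.UnifAbs
import Fermat.Agent.S17.Cube.Defs

/-!
# S17, chapter CUBE: (SEMI) the height of a semi-invariant family in Stiefel coordinates
-/

set_option autoImplicit false

namespace Fermat.Agent.S17Lib

open Matrix MvPolynomial Height

section oneblock

variable {K : Type*} [Field K] {n ι : Type*} [Fintype n] [DecidableEq n]

theorem SM_submatrix_mul (g : Matrix n n K) (a : Matrix n ι K) (I : n → ι) :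
    (g * a).submatrix id I = g * a.submatrix id I := by
  ext i j
  simp [Matrix.mul_apply]

theorem SM_adj_mul_apply (a : Matrix n ι K) (I : n → ι) (l : n) (j : ι) :
    ((a.submatrix id I).adjugate * a) l j = plu a (Function.update I l j) := by
  have h1 : ((a.submatrix id I).adjugate * a) l j =
      ((a.submatrix id I).adjugate.mulVec fun r ↦ a r j) l := by
    simp [Matrix.mul_apply, Matrix.mulVec, dotProduct]
  rw [h1, ← Matrix.cramer_eq_adjugate_mulVec, Matrix.cramer_apply, plu]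
  congr 1
  ext r c
  by_cases hc : c = l
  · subst hc
    simp
  · simp [hc]

/-- the normalising matrix -/
noncomputable def SMg (a : Matrix n ι K) (I : n → ι) : Matrix n n K := (a.submatrix id I)⁻¹

theorem SM_det_g (a : Matrix n ι K) (I : n → ι) : (SMg a I).det = (plu a I)⁻¹ := by
  unfold SMg plu
  rw [Matrix.det_nonsing_inv, Ring.inverse_eq_inv']

theorem SM_chart (a : Matrix n ι K) (I : n → ι) (hI : plu a I ≠ 0) :
    (SMg a I * a).submatrix id I = 1 := by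
  rw [SM_submatrix_mul]
  exact Matrix.nonsing_inv_mul _ (isUnit_iff_ne_zero.mpr hI)

theorem SM_entry (a : Matrix n ι K) (I : n → ι) (l : n) (j : ι) :
    (SMg a I * a) l j = (plu a I)⁻¹ * plu a (Function.update I l j) := by
  unfold SMg
  rw [Matrix.inv_def, Matrix.smul_mul, Matrix.smul_apply, SM_adj_mul_apply, Ring.inverse_eq_inv',
    smul_eq_mul]
  rfl

theorem SM_entry_le (v : AbsoluteValue K ℝ) (a : Matrix n ι K) (I : n → ι) (hI : plu a I ≠ 0)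
    (hmax : ∀ J, v (plu a J) ≤ v (plu a I)) (l : n) (j : ι) : v ((SMg a I * a) l j) ≤ 1 := by
  rw [SM_entry, map_mul, map_inv₀, inv_mul_le_iff₀ (v.pos hI), mul_one]
  exact hmax _

theorem SM_exists_max [Finite ι] (v : AbsoluteValue K ℝ) (a : Matrix n ι K) (ha : plu a ≠ 0) :
    ∃ I, plu a I ≠ 0 ∧ ∀ J, v (plu a J) ≤ v (plu a I) := by
  obtain ⟨I1, hI1⟩ := Function.ne_iff.mp ha
  have : Nonempty (n → ι) := ⟨I1⟩
  obtain ⟨I0, hI0⟩ := Finite.exists_max (fun I : n → ι ↦ v (plu a I))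
  refine ⟨I0, ?_, hI0⟩
  intro h0
  have h1 := hI0 I1
  simp only [h0, map_zero] at h1
  exact absurd h1 (not_le.mpr (v.pos hI1))

end oneblock

section threeblocks

variable {n₁ ι₁ n₂ ι₂ n₃ ι₃ : Type}

/-- the three blocks of a point -/
def un1 {R : Type*} (x : Var3 n₁ ι₁ n₂ ι₂ n₃ ι₃ → R) : Matrix n₁ ι₁ R :=
  fun l j ↦ x (Sum.inl (l, j))

/-- second block -/
def un2 {R : Type*} (x : Var3 n₁ ι₁ n₂ ι₂ n₃ ι₃ → R) : Matrix n₂ ι₂ R :=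
  fun l j ↦ x (Sum.inr (Sum.inl (l, j)))

/-- third block -/
def un3 {R : Type*} (x : Var3 n₁ ι₁ n₂ ι₂ n₃ ι₃ → R) : Matrix n₃ ι₃ R :=
  fun l j ↦ x (Sum.inr (Sum.inr (l, j)))

theorem pack3_un {R : Type*} (x : Var3 n₁ ι₁ n₂ ι₂ n₃ ι₃ → R) :
    pack3 (un1 x) (un2 x) (un3 x) = x := by
  funext i
  rcases i with ⟨l, j⟩ | ⟨l, j⟩ | ⟨l, j⟩ <;> rfl

variable [DecidableEq n₁] [DecidableEq n₂] [DecidableEq n₃]

/-- chart equations of the three blocks -/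
def ceq1 (I : n₁ → ι₁) : Set (MvPolynomial (Var3 n₁ ι₁ n₂ ι₂ n₃ ι₃) ℚ) :=
  Set.range fun ll : n₁ × n₁ ↦ X (Sum.inl (ll.1, I ll.2)) - C ((1 : Matrix n₁ n₁ ℚ) ll.1 ll.2)

/-- second block -/
def ceq2 (I : n₂ → ι₂) : Set (MvPolynomial (Var3 n₁ ι₁ n₂ ι₂ n₃ ι₃) ℚ) :=
  Set.range fun ll : n₂ × n₂ ↦
    X (Sum.inr (Sum.inl (ll.1, I ll.2))) - C ((1 : Matrix n₂ n₂ ℚ) ll.1 ll.2)

/-- third block -/
def ceq3 (I : n₃ → ι₃) : Set (MvPolynomial (Var3 n₁ ι₁ n₂ ι₂ n₃ ι₃) ℚ) :=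
  Set.range fun ll : n₃ × n₃ ↦
    X (Sum.inr (Sum.inr (ll.1, I ll.2))) - C ((1 : Matrix n₃ n₃ ℚ) ll.1 ll.2)

theorem SM_algebraMap_one {n : Type} [DecidableEq n] {L : Type*} [Field L] [Algebra ℚ L]
    (l l' : n) : algebraMap ℚ L ((1 : Matrix n n ℚ) l l') = (1 : Matrix n n L) l l' := by
  by_cases h : l = l'
  · subst h; simp
  · simp [Matrix.one_apply_ne h]

variable [Fintype n₁] [Fintype n₂] [Fintype n₃]

theorem SM_plu_ne_of_chart {n ι : Type} [Fintype n] [DecidableEq n] {L : Type*} [Field L]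
    (a : Matrix n ι L) (I : n → ι) (h : ∀ l l', a l (I l') = (1 : Matrix n n L) l l') :
    plu a ≠ 0 := by
  refine Function.ne_iff.mpr ⟨I, ?_⟩
  have : a.submatrix id I = 1 := by
    ext l l'
    exact h l l'
  simp [plu, this]

variable [Fintype ι₁] [Fintype ι₂] [Fintype ι₃]

/-- (SEMI): the height of a semi-invariant family. -/
theorem semi_bound {κ : Type} [Fintype κ]
    (p : κ → MvPolynomial (Var3 n₁ ι₁ n₂ ι₂ n₃ ι₃) ℚ)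
    (Z : Set (MvPolynomial (Var3 n₁ ι₁ n₂ ι₂ n₃ ι₃) ℚ)) (d₁ d₂ d₃ : ℕ)
    (hsemi : ∀ (g₁ : Matrix n₁ n₁ ℚ) (g₂ : Matrix n₂ n₂ ℚ) (g₃ : Matrix n₃ n₃ ℚ)
      (a₁ : Matrix n₁ ι₁ ℚ) (a₂ : Matrix n₂ ι₂ ℚ) (a₃ : Matrix n₃ ι₃ ℚ) (j : κ),
      eval (pack3 (g₁ * a₁) (g₂ * a₂) (g₃ * a₃)) (p j) =
        g₁.det ^ d₁ * g₂.det ^ d₂ * g₃.det ^ d₃ * eval (pack3 a₁ a₂ a₃) (p j))
    (hZ : ∀ (g₁ : Matrix n₁ n₁ ℚ) (g₂ : Matrix n₂ n₂ ℚ) (g₃ : Matrix n₃ n₃ ℚ)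
      (a₁ : Matrix n₁ ι₁ ℚ) (a₂ : Matrix n₂ ι₂ ℚ) (a₃ : Matrix n₃ ι₃ ℚ),
      (∀ f ∈ Z, eval (pack3 a₁ a₂ a₃) f = 0) →
        ∀ f ∈ Z, eval (pack3 (g₁ * a₁) (g₂ * a₂) (g₃ * a₃)) f = 0)
    (hnv : ∀ (a₁ : Matrix n₁ ι₁ (AlgebraicClosure ℚ)) (a₂ : Matrix n₂ ι₂ (AlgebraicClosure ℚ))
      (a₃ : Matrix n₃ ι₃ (AlgebraicClosure ℚ)), (∀ f ∈ Z, aeval (pack3 a₁ a₂ a₃) f = 0) →
      plu a₁ ≠ 0 → plu a₂ ≠ 0 → plu a₃ ≠ 0 → ∃ j, aeval (pack3 a₁ a₂ a₃) (p j) ≠ 0) :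
    ∃ C : ℝ, ∀ (a₁ : Matrix n₁ ι₁ ℚ) (a₂ : Matrix n₂ ι₂ ℚ) (a₃ : Matrix n₃ ι₃ ℚ),
      (∀ f ∈ Z, eval (pack3 a₁ a₂ a₃) f = 0) → plu a₁ ≠ 0 → plu a₂ ≠ 0 → plu a₃ ≠ 0 →
      |logHeight (fun j ↦ eval (pack3 a₁ a₂ a₃) (p j)) -
        (d₁ * logHeight (plu a₁) + d₂ * logHeight (plu a₂) + d₃ * logHeight (plu a₃))| ≤ C := by
  classical
  obtain ⟨C, hC⟩ := S17Lib.abs_bound (K := ℚ) (Ch := (n₁ → ι₁) × ((n₂ → ι₂) × (n₃ → ι₃))) p
    (fun c ↦ Z ∪ (ceq1 c.1 ∪ (ceq2 c.2.1 ∪ ceq3 c.2.2)))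
    (by
      intro c x hx
      rw [← pack3_un x] at hx ⊢
      refine hnv _ _ _ (fun f hf ↦ hx f (Or.inl hf)) ?_ ?_ ?_
      · refine SM_plu_ne_of_chart _ c.1 fun l l' ↦ ?_
        have := hx _ (Or.inr (Or.inl ⟨(l, l'), rfl⟩))
        simp only [map_sub, aeval_X, aeval_C, sub_eq_zero, SM_algebraMap_one] at this
        exact this
      · refine SM_plu_ne_of_chart _ c.2.1 fun l l' ↦ ?_
        have := hx _ (Or.inr (Or.inr (Or.inl ⟨(l, l'), rfl⟩)))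
        simp only [map_sub, aeval_X, aeval_C, sub_eq_zero, SM_algebraMap_one] at this
        exact this
      · refine SM_plu_ne_of_chart _ c.2.2 fun l l' ↦ ?_
        have := hx _ (Or.inr (Or.inr (Or.inr ⟨(l, l'), rfl⟩)))
        simp only [map_sub, aeval_X, aeval_C, sub_eq_zero, SM_algebraMap_one] at this
        exact this)
    (fun x ↦ (∀ f ∈ Z, eval x f = 0) ∧ plu (un1 x) ≠ 0 ∧ plu (un2 x) ≠ 0 ∧ plu (un3 x) ≠ 0)
    (fun x c ↦ plu (un1 x) c.1 ^ d₁ * (plu (un2 x) c.2.1 ^ d₂ * plu (un3 x) c.2.2 ^ d₃))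
    (by
      rintro x ⟨hxZ, h1, h2, h3⟩ v
      obtain ⟨I₁, hI₁, hm₁⟩ := SM_exists_max v _ h1
      obtain ⟨I₂, hI₂, hm₂⟩ := SM_exists_max v _ h2
      obtain ⟨I₃, hI₃, hm₃⟩ := SM_exists_max v _ h3
      refine ⟨(I₁, (I₂, I₃)), pack3 (SMg (un1 x) I₁ * un1 x) (SMg (un2 x) I₂ * un2 x)
        (SMg (un3 x) I₃ * un3 x), ?_, ?_, ?_, ?_, ?_⟩
      · rintro (⟨l, j⟩ | ⟨l, j⟩ | ⟨l, j⟩)
        · exact SM_entry_le v _ I₁ hI₁ hm₁ l j
        · exact SM_entry_le v _ I₂ hI₂ hm₂ l j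
        · exact SM_entry_le v _ I₃ hI₃ hm₃ l j
      · rintro f (hf | ⟨⟨l, l'⟩, rfl⟩ | ⟨⟨l, l'⟩, rfl⟩ | ⟨⟨l, l'⟩, rfl⟩)
        · exact hZ _ _ _ _ _ _ (by rw [pack3_un]; exact hxZ) f hf
        · have := congrFun (congrFun (SM_chart (un1 x) I₁ hI₁) l) l'
          simp only [map_sub, eval_X, eval_C, sub_eq_zero]
          exact this
        · have := congrFun (congrFun (SM_chart (un2 x) I₂ hI₂) l) l'
          simp only [map_sub, eval_X, eval_C, sub_eq_zero]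
          exact this
        · have := congrFun (congrFun (SM_chart (un3 x) I₃ hI₃) l) l'
          simp only [map_sub, eval_X, eval_C, sub_eq_zero]
          exact this
      · exact mul_ne_zero (pow_ne_zero _ hI₁) (mul_ne_zero (pow_ne_zero _ hI₂) (pow_ne_zero _ hI₃))
      · rintro ⟨J₁, J₂, J₃⟩
        simp only [map_mul, map_pow]
        have e1 := pow_le_pow_left₀ (v.nonneg _) (hm₁ J₁) d₁
        have e2 := pow_le_pow_left₀ (v.nonneg _) (hm₂ J₂) d₂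
        have e3 := pow_le_pow_left₀ (v.nonneg _) (hm₃ J₃) d₃
        have p1 : 0 ≤ v (plu (un1 x) J₁) ^ d₁ := pow_nonneg (v.nonneg _) _
        have p2 : 0 ≤ v (plu (un2 x) J₂) ^ d₂ := pow_nonneg (v.nonneg _) _
        have p3 : 0 ≤ v (plu (un3 x) J₃) ^ d₃ := pow_nonneg (v.nonneg _) _
        have q1 : 0 ≤ v (plu (un1 x) I₁) ^ d₁ := pow_nonneg (v.nonneg _) _
        have q2 : 0 ≤ v (plu (un2 x) I₂) ^ d₂ := pow_nonneg (v.nonneg _) _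
        exact mul_le_mul e1 (mul_le_mul e2 e3 p3 q2) (mul_nonneg p2 p3) q1
      · intro j
        rw [hsemi, SM_det_g, SM_det_g, SM_det_g, pack3_un]
        have t1 : plu (un1 x) I₁ ^ d₁ * ((plu (un1 x) I₁)⁻¹) ^ d₁ = 1 := by
          rw [← mul_pow, mul_inv_cancel₀ hI₁, one_pow]
        have t2 : plu (un2 x) I₂ ^ d₂ * ((plu (un2 x) I₂)⁻¹) ^ d₂ = 1 := by
          rw [← mul_pow, mul_inv_cancel₀ hI₂, one_pow]
        have t3 : plu (un3 x) I₃ ^ d₃ * ((plu (un3 x) I₃)⁻¹) ^ d₃ = 1 := by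
          rw [← mul_pow, mul_inv_cancel₀ hI₃, one_pow]
        calc eval x (p j) = 1 * 1 * 1 * eval x (p j) := by ring
          _ = (plu (un1 x) I₁ ^ d₁ * ((plu (un1 x) I₁)⁻¹) ^ d₁) *
              (plu (un2 x) I₂ ^ d₂ * ((plu (un2 x) I₂)⁻¹) ^ d₂) *
              (plu (un3 x) I₃ ^ d₃ * ((plu (un3 x) I₃)⁻¹) ^ d₃) * eval x (p j) := by
                rw [t1, t2, t3]
          _ = _ := by ring)
  refine ⟨C, fun a₁ a₂ a₃ hZa h1 h2 h3 ↦ ?_⟩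
  have key := hC (pack3 a₁ a₂ a₃) ⟨hZa, h1, h2, h3⟩
  have hw : logHeight (fun c : (n₁ → ι₁) × ((n₂ → ι₂) × (n₃ → ι₃)) ↦
      plu a₁ c.1 ^ d₁ * (plu a₂ c.2.1 ^ d₂ * plu a₃ c.2.2 ^ d₃)) =
      d₁ * logHeight (plu a₁) + d₂ * logHeight (plu a₂) + d₃ * logHeight (plu a₃) := by
    have n1 : (plu a₁) ^ d₁ ≠ 0 := by
      obtain ⟨i, hi⟩ := Function.ne_iff.mp h1
      exact Function.ne_iff.mpr ⟨i, pow_ne_zero _ hi⟩
    have n2 : (plu a₂) ^ d₂ ≠ 0 := by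
      obtain ⟨i, hi⟩ := Function.ne_iff.mp h2
      exact Function.ne_iff.mpr ⟨i, pow_ne_zero _ hi⟩
    have n3 : (plu a₃) ^ d₃ ≠ 0 := by
      obtain ⟨i, hi⟩ := Function.ne_iff.mp h3
      exact Function.ne_iff.mpr ⟨i, pow_ne_zero _ hi⟩
    have n23 : (fun c : (n₂ → ι₂) × (n₃ → ι₃) ↦ ((plu a₂) ^ d₂) c.1 * ((plu a₃) ^ d₃) c.2) ≠ 0 := by
      obtain ⟨i, hi⟩ := Function.ne_iff.mp n2
      obtain ⟨j, hj⟩ := Function.ne_iff.mp n3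
      exact Function.ne_iff.mpr ⟨(i, j), mul_ne_zero hi hj⟩
    have e1 := logHeight_fun_mul_eq n1 n23
    have e2 := logHeight_fun_mul_eq n2 n3
    rw [e2, logHeight_pow, logHeight_pow, logHeight_pow] at e1
    rw [add_assoc, ← e1]
    rfl
  rw [← hw]
  exact key

end threeblocks

end Fermat.Agent.S17Lib
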