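import Fermat.Agent.S17.Cube.Defs2
import Fermat.Agent.S17.Cube.Nat
import Fermat.Agent.S17.Cube.Semi
import Fermat.Agent.S17.Cube.Grid
import Fermat.Agent.S17.Closed.Bridge
import Fermat.Agent.S17.Frame.LA

/-!
# S17, chapter CUBE, leaf HQ: the height of the product family `Q = T ⊗ G`.
-/

set_option autoImplicit false
set_option linter.unusedSectionVars false

namespace Fermat.Agent.S17Lib

open Matrix MvPolynomial

local notation "Qb" => AlgebraicClosure ℚ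

section LA

variable {K : Type*} [Field K] [Algebra ℚ K]
variable {ιm ι0 ι1 ι2 n0 n1 n2 m0 : Type*} [Fintype ιm] [Fintype ι0] [Fintype ι1] [Fintype ι2]
  [DecidableEq ι1]
  [Fintype n0] [DecidableEq n0] [Fintype n1] [DecidableEq n1] [Fintype n2] [DecidableEq n2]
  [Fintype m0] [DecidableEq m0]

theorem HQ_mulC_sum {ι ι' : Type*} [Fintype ι] (c : ιm → ι → ι' → ℚ) (t : ιm → K) (w : m0 → K)
    (b : m0 → ι → K) (k : ι') :
    mulC c t (∑ i, w i • b i) k = ∑ i, w i * mulC c t (b i) k := by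
  simp only [mulC, Finset.sum_apply, Pi.smul_apply, smul_eq_mul, Finset.mul_sum]
  rw [Finset.sum_comm (s := (Finset.univ : Finset m0))]
  refine Finset.sum_congr rfl fun i' _ => ?_
  rw [Finset.sum_comm (s := (Finset.univ : Finset m0))]
  refine Finset.sum_congr rfl fun j _ => Finset.sum_congr rfl fun l _ => by ring

theorem HQ_G_ne_zero (c01 : ιm → ι0 → ι1 → ℚ)
    (hdom : ∀ (t : ιm → K) (z : ι0 → K), mulC c01 t z = 0 → t = 0 ∨ z = 0)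
    (b0 : Matrix m0 ι0 K) (hb0 : plu b0 ≠ 0) (s t : ιm → K) (hst : s ≠ 0 ∨ t ≠ 0) :
    ∃ J, Gplu c01 b0 s t J ≠ 0 := by
  have hli0 : LinearIndependent K b0.row := LA_linearIndependent_of_plu_ne_zero b0 hb0
  have hli : LinearIndependent K (Gmat c01 b0 s t).row := by
    rw [Fintype.linearIndependent_iff]
    intro w hw
    have hz : (∑ i, w i • b0 i) = 0 := by
      rcases hst with hs | ht
      · have h1 : mulC c01 s (∑ i, w i • b0 i) = 0 := by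
          funext k
          rw [HQ_mulC_sum]
          have h2 := congrFun hw (Sum.inr k)
          simp only [Finset.sum_apply, Pi.smul_apply, smul_eq_mul, Matrix.row, Gmat,
            Matrix.of_apply, Sum.elim_inr, Pi.neg_apply, Pi.zero_apply, mul_neg,
            Finset.sum_neg_distrib, neg_eq_zero] at h2
          exact h2
        exact (hdom _ _ h1).resolve_left hs
      · have h1 : mulC c01 t (∑ i, w i • b0 i) = 0 := by
          funext k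
          rw [HQ_mulC_sum]
          have h2 := congrFun hw (Sum.inl k)
          simp only [Finset.sum_apply, Pi.smul_apply, smul_eq_mul, Matrix.row, Gmat,
            Matrix.of_apply, Sum.elim_inl, Pi.zero_apply] at h2
          exact h2
        exact (hdom _ _ h1).resolve_left ht
    exact Fintype.linearIndependent_iff.mp hli0 w hz
  exact Function.ne_iff.mp (LA_plu_ne_zero _ hli)

theorem HQ_T_zero [Nonempty n2] (c12 : ιm → ι1 → ι2 → ℚ) (ε : n1 ⊕ n1 ≃ n0 ⊕ n2)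
    (b' : Matrix n1 ι1 K) (J : n0 → ι1 ⊕ ι1) (I : n2 → ι2) : Tdet c12 ε b' 0 0 J I = 0 := by
  obtain ⟨i0⟩ := ‹Nonempty n2›
  refine Matrix.det_eq_zero_of_column_eq_zero (Sum.inr i0) fun r => ?_
  simp only [Tmat, Matrix.of_apply, Sum.elim_inr, UMrow]
  rcases ε.symm r with x | x <;> simp [mulC]

end LA

variable {ιm ι0 ι1 ι2 na n0 n1 n2 m0 : Type} [Fintype ιm] [DecidableEq ιm] [Fintype ι0]
  [DecidableEq ι0] [Fintype ι1] [DecidableEq ι1] [Fintype ι2] [DecidableEq ι2]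
  [Fintype na] [DecidableEq na] [Fintype n0] [DecidableEq n0] [Fintype n1] [DecidableEq n1]
  [Fintype n2] [DecidableEq n2] [Fintype m0] [DecidableEq m0]

/-- the grid of pencils -/
def HQ_grid (na ιm : Type) [Fintype na] [DecidableEq na] [Fintype ιm] [DecidableEq ιm] (D : ℕ) :
    Finset (Gam na ιm) :=
  (Fintype.piFinset fun _ => Finset.range (D + 1)) ×ˢ
    (Fintype.piFinset fun _ => Finset.range (D + 1))

theorem HQ_mem_grid (D : ℕ) (γ γ' : (na → ιm) × na → ℕ) (h : ∀ x, γ x ≤ D)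
    (h' : ∀ x, γ' x ≤ D) : ((γ, γ') : Gam na ιm) ∈ HQ_grid na ιm D := by
  rw [HQ_grid, Finset.mem_product]
  constructor
  · rw [Fintype.mem_piFinset]
    exact fun x => Finset.mem_range.mpr (Nat.lt_succ_of_le (h x))
  · rw [Fintype.mem_piFinset]
    exact fun x => Finset.mem_range.mpr (Nat.lt_succ_of_le (h' x))

theorem HQ_pack3_map (a : Matrix na ιm ℚ) (b' : Matrix n1 ι1 ℚ) (b0 : Matrix m0 ι0 ℚ) :
    pack3 (a.map (algebraMap ℚ Qb)) (b'.map (algebraMap ℚ Qb)) (b0.map (algebraMap ℚ Qb)) =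
      fun i => algebraMap ℚ Qb (pack3 a b' b0 i) := by
  funext i
  rcases i with x | x | x <;> rfl

theorem HQ_plu_map {n ι : Type*} [Fintype n] [DecidableEq n] (a : Matrix n ι ℚ) (h : plu a ≠ 0) :
    plu (a.map (algebraMap ℚ Qb)) ≠ 0 := by
  obtain ⟨I, hI⟩ := Function.ne_iff.mp h
  refine Function.ne_iff.mpr ⟨I, ?_⟩
  rw [← NAT_map_plu]
  exact (map_ne_zero (algebraMap ℚ Qb)).mpr hI

/-- non-vanishing over `Qb` on the grid -/
theorem HQ_nv [Nonempty n2] (c01 : ιm → ι0 → ι1 → ℚ) (c12 : ιm → ι1 → ι2 → ℚ)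
    (ε : n1 ⊕ n1 ≃ n0 ⊕ n2)
    (hdom : ∀ (t : ιm → Qb) (z : ι0 → Qb), mulC c01 t z = 0 → t = 0 ∨ z = 0)
    (a : Matrix na ιm Qb) (b' : Matrix n1 ι1 Qb) (b0 : Matrix m0 ι0 Qb)
    (ha : plu a ≠ 0) (hb0 : plu b0 ≠ 0)
    (hT : ∃ s ∈ rsp a, ∃ t ∈ rsp a, ∃ J I, Tdet c12 ε b' s t J I ≠ 0) :
    ∃ γ ∈ HQ_grid na ιm (Fintype.card n2 + Fintype.card m0),
      ∃ x : ((n0 → ι1 ⊕ ι1) × (n2 → ι2)) × (m0 → ι1 ⊕ ι1), Qval c01 c12 ε a b' b0 γ x ≠ 0 := by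
  obtain ⟨s, hs, t, ht, J, I, hne⟩ := hT
  have hst : s ≠ 0 ∨ t ≠ 0 := by
    by_contra hcon
    push Not at hcon
    apply hne
    rw [hcon.1, hcon.2]
    exact HQ_T_zero c12 ε b' J I
  obtain ⟨J2, hG⟩ := HQ_G_ne_zero c01 hdom b0 hb0 s t hst
  obtain ⟨γ, γ', h1, h2, h3⟩ := exists_grid c12 c01 ε a ha b' b0 J I J2 s t hs ht
    (mul_ne_zero hne hG)
  exact ⟨(γ, γ'), HQ_mem_grid _ γ γ' h1 h2, ((J, I), J2), h3⟩

/-- **HQ** -/
theorem HQ_bound [Nonempty n2] (c01 : ιm → ι0 → ι1 → ℚ) (c12 : ιm → ι1 → ι2 → ℚ)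
    (ε : n1 ⊕ n1 ≃ n0 ⊕ n2)
    (hdom : ∀ (t : ιm → Qb) (z : ι0 → Qb), mulC c01 t z = 0 → t = 0 ∨ z = 0)
    (ZA : Set (MvPolynomial (na × ιm) ℚ)) (ZB : Set (MvPolynomial (n1 × ι1) ℚ))
    (hZA : ∀ (g : Matrix na na ℚ) (a : Matrix na ιm ℚ),
      (∀ f ∈ ZA, aeval (fun x : na × ιm => a x.1 x.2) f = 0) →
        ∀ f ∈ ZA, aeval (fun x : na × ιm => (g * a) x.1 x.2) f = 0)
    (hZB : ∀ (g : Matrix n1 n1 ℚ) (a : Matrix n1 ι1 ℚ),
      (∀ f ∈ ZB, aeval (fun x : n1 × ι1 => a x.1 x.2) f = 0) →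
        ∀ f ∈ ZB, aeval (fun x : n1 × ι1 => (g * a) x.1 x.2) f = 0)
    (hT : ∀ (a : Matrix na ιm Qb) (b' : Matrix n1 ι1 Qb),
      (∀ f ∈ ZA, aeval (fun x : na × ιm => a x.1 x.2) f = 0) →
      (∀ f ∈ ZB, aeval (fun x : n1 × ι1 => b' x.1 x.2) f = 0) → plu a ≠ 0 → plu b' ≠ 0 →
      ∃ s ∈ rsp a, ∃ t ∈ rsp a, ∃ J I, Tdet c12 ε b' s t J I ≠ 0) :
    ∃ Γ₀ : Finset (Gam na ιm), ∀ Γ : Finset (Gam na ιm), Γ₀ ⊆ Γ → ∃ C : ℝ,
      ∀ (a : Matrix na ιm ℚ) (b' : Matrix n1 ι1 ℚ) (b0 : Matrix m0 ι0 ℚ),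
      (∀ f ∈ ZA, aeval (fun x : na × ιm => a x.1 x.2) f = 0) →
      (∀ f ∈ ZB, aeval (fun x : n1 × ι1 => b' x.1 x.2) f = 0) →
      plu a ≠ 0 → plu b' ≠ 0 → plu b0 ≠ 0 →
      (fun x : Γ × (((n0 → ι1 ⊕ ι1) × (n2 → ι2)) × (m0 → ι1 ⊕ ι1)) =>
          Qval c01 c12 ε a b' b0 x.1.1 x.2) ≠ 0 ∧
      |Height.logHeight (fun x : Γ × (((n0 → ι1 ⊕ ι1) × (n2 → ι2)) × (m0 → ι1 ⊕ ι1)) =>
          Qval c01 c12 ε a b' b0 x.1.1 x.2) -
        (((Fintype.card n2 + Fintype.card m0 : ℕ) : ℝ) * Height.logHeight (plu a) +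
          2 * Height.logHeight (plu b') + Height.logHeight (plu b0))| ≤ C := by
  refine ⟨HQ_grid na ιm (Fintype.card n2 + Fintype.card m0), fun Γ hΓ => ?_⟩
  set p : Γ × (((n0 → ι1 ⊕ ι1) × (n2 → ι2)) × (m0 → ι1 ⊕ ι1)) →
      MvPolynomial (Var3 na ιm n1 ι1 m0 ι0) ℚ :=
    fun x => Qpoly c01 c12 ε x.1.1.1 x.1.1.2 x.2.1.1 x.2.1.2 x.2.2 with hp
  set Z : Set (MvPolynomial (Var3 na ιm n1 ι1 m0 ι0) ℚ) :=
    CL_in1 n1 ι1 m0 ι0 ZA ∪ CL_in2 na ιm m0 ι0 ZB with hZdef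
  -- membership in `Z`
  have hZiff : ∀ {R : Type} [CommRing R] [Algebra ℚ R] (a : Matrix na ιm R) (b' : Matrix n1 ι1 R)
      (b0 : Matrix m0 ι0 R), (∀ f ∈ Z, aeval (pack3 a b' b0) f = 0) ↔
        ((∀ f ∈ ZA, aeval (fun x : na × ιm => a x.1 x.2) f = 0) ∧
          (∀ f ∈ ZB, aeval (fun x : n1 × ι1 => b' x.1 x.2) f = 0)) := by
    intro R _ _ a b' b0
    rw [← CL_in1_iff ZA a b' b0, ← CL_in2_iff ZB a b' b0]
    constructor
    · intro h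
      exact ⟨fun f hf => h f (Or.inl hf), fun f hf => h f (Or.inr hf)⟩
    · rintro ⟨h1, h2⟩ f (hf | hf)
      · exact h1 f hf
      · exact h2 f hf
  have hev : ∀ (x : Var3 na ιm n1 ι1 m0 ι0 → ℚ) (f : MvPolynomial (Var3 na ιm n1 ι1 m0 ι0) ℚ),
      eval x f = aeval x f := fun x f => by rw [MvPolynomial.aeval_eq_eval]
  -- non-vanishing over `Qb`
  have hnv : ∀ (a : Matrix na ιm Qb) (b' : Matrix n1 ι1 Qb) (b0 : Matrix m0 ι0 Qb),
      (∀ f ∈ Z, aeval (pack3 a b' b0) f = 0) → plu a ≠ 0 → plu b' ≠ 0 → plu b0 ≠ 0 →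
      ∃ j, aeval (pack3 a b' b0) (p j) ≠ 0 := by
    intro a b' b0 hz ha hb' hb0
    obtain ⟨hA, hB⟩ := (hZiff a b' b0).mp hz
    obtain ⟨γ, hγ, x, hx⟩ := HQ_nv c01 c12 ε hdom a b' b0 ha hb0 (hT a b' hA hB ha hb')
    refine ⟨(⟨γ, hΓ hγ⟩, x), ?_⟩
    rw [hp]
    simp only
    rw [NAT_aeval_Qpoly]
    exact hx
  obtain ⟨C, hC⟩ := semi_bound p Z (Fintype.card n2 + Fintype.card m0) 2 1
    (fun g₁ g₂ g₃ a₁ a₂ a₃ j => NAT_hsemi c01 c12 ε _ _ _ _ _ g₁ g₂ g₃ a₁ a₂ a₃)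
    (by
      intro g₁ g₂ g₃ a₁ a₂ a₃ h
      simp only [hev] at h ⊢
      obtain ⟨hA, hB⟩ := (hZiff a₁ a₂ a₃).mp h
      exact (hZiff _ _ _).mpr ⟨hZA g₁ a₁ hA, hZB g₂ a₂ hB⟩)
    hnv
  refine ⟨C, fun a b' b0 hA hB ha hb' hb0 => ?_⟩
  have hfun : (fun x : Γ × (((n0 → ι1 ⊕ ι1) × (n2 → ι2)) × (m0 → ι1 ⊕ ι1)) =>
      Qval c01 c12 ε a b' b0 x.1.1 x.2) = fun j => eval (pack3 a b' b0) (p j) := by
    funext x
    rw [hp]
    simp only
    rw [NAT_eval_Qpoly]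
    rfl
  have hz : ∀ f ∈ Z, eval (pack3 a b' b0) f = 0 := by
    simp only [hev]
    exact (hZiff a b' b0).mpr ⟨hA, hB⟩
  constructor
  · rw [hfun]
    -- base change to `Qb`
    have hz' : ∀ f ∈ Z, aeval (pack3 (a.map (algebraMap ℚ Qb)) (b'.map (algebraMap ℚ Qb))
        (b0.map (algebraMap ℚ Qb))) f = 0 := by
      intro f hf
      rw [HQ_pack3_map]
      exact (CL_eval_eq_zero_iff _ f).mp (hz f hf)
    obtain ⟨j, hj⟩ := hnv _ _ _ hz' (HQ_plu_map a ha) (HQ_plu_map b' hb') (HQ_plu_map b0 hb0)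
    refine Function.ne_iff.mpr ⟨j, ?_⟩
    intro h0
    apply hj
    rw [HQ_pack3_map]
    exact (CL_eval_eq_zero_iff _ (p j)).mp h0
  · rw [hfun]
    have := hC a b' b0 hz ha hb' hb0
    simpa using this

end Fermat.Agent.S17Lib
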