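import Fermat.Agent.S17.Cube.NVgeo

/-!
# S17, chapter CUBE: hedge for leaf TNZ (`rank (U M) ≥ card n2` implies some `Tdet ≠ 0`)
-/

set_option autoImplicit false
set_option linter.unusedSectionVars false

namespace Fermat.Agent.S17Lib

open Matrix

section

variable {k : Type*} [Field k] [Algebra ℚ k]
variable {ιm ι1 ι2 n0 n1 n2 : Type*} [Fintype ιm] [Fintype ι1] [Fintype ι2]
  [Fintype n0] [DecidableEq n0] [Fintype n1] [DecidableEq n1] [Fintype n2] [DecidableEq n2]

theorem TZ_exists_basis {V : Type*} [AddCommGroup V] [Module k V] (W : Submodule k V)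
    [FiniteDimensional k W] (m : Type*) [Fintype m] (hm : Fintype.card m = Module.finrank k W) :
    ∃ z : m → V, LinearIndependent k z ∧ ∀ j, z j ∈ W := by
  let bs := Module.finBasis k W
  let e : m ≃ Fin (Module.finrank k W) := Fintype.equivFinOfCardEq hm
  refine ⟨fun j => (bs (e j) : V), ?_, fun j => (bs (e j)).2⟩
  have h1 : LinearIndependent k (fun j => bs (e j)) := bs.linearIndependent.comp e e.injective
  exact h1.map' W.subtype (Submodule.ker_subtype W)

theorem TZ_X_li (ε : n1 ⊕ n1 ≃ n0 ⊕ n2) (b' : Matrix n1 ι1 k) (hb : plu b' ≠ 0) :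
    LinearIndependent k (NV_X ε b').row := by
  have hb' : Function.Injective (fun v : n1 → k => v ᵥ* b') :=
    (Matrix.vecMul_injective_iff (M := b')).mpr (CL_li_of_plu_ne_zero b' hb)
  rw [← Matrix.vecMul_injective_iff]
  have hz : ∀ v : n0 ⊕ n2 → k, v ᵥ* NV_X ε b' = 0 → v = 0 := by
    intro v hv
    have h1 := NV_vecMul_X ε b' (v ∘ ε)
    have h2 : (v ∘ ε) ∘ ε.symm = v := by funext r; simp
    rw [h2, hv] at h1
    have h3 : ((v ∘ ε) ∘ Sum.inl) ᵥ* b' = 0 := by
      funext j; exact (congrFun h1 (Sum.inl j)).symm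
    have h4 : ((v ∘ ε) ∘ Sum.inr) ᵥ* b' = 0 := by
      funext j; exact (congrFun h1 (Sum.inr j)).symm
    have h5 : (v ∘ ε) ∘ Sum.inl = 0 := hb' (by simpa using h3)
    have h6 : (v ∘ ε) ∘ Sum.inr = 0 := hb' (by simpa using h4)
    funext r
    obtain ⟨x, rfl⟩ := ε.surjective r
    rcases x with x | x
    · exact congrFun h5 x
    · exact congrFun h6 x
  intro v w hvw
  have : (v - w) ᵥ* NV_X ε b' = 0 := by
    rw [Matrix.sub_vecMul]; exact sub_eq_zero.mpr hvw
  exact sub_eq_zero.mp (hz _ this)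

/-- hedge of **TNZ**. -/
theorem TZ_TNZ (c12 : ιm → ι1 → ι2 → ℚ)
    (ε : n1 ⊕ n1 ≃ n0 ⊕ n2) (b' : Matrix n1 ι1 k) (s t : ιm → k) (hb : plu b' ≠ 0)
    (hr : Fintype.card n2 ≤
      Module.finrank k (Submodule.span k (Set.range (UMrow c12 b' s t)))) :
    ∃ J I, Tdet c12 ε b' s t J I ≠ 0 := by
  classical
  set X := NV_X ε b' with hX
  set Y := NV_Y c12 ε b' s t with hY
  -- column rank of `Y`
  have hrange : Set.range Y.row = Set.range (UMrow c12 b' s t) := by
    ext v
    constructor
    · rintro ⟨r, rfl⟩; exact ⟨ε.symm r, rfl⟩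
    · rintro ⟨x, rfl⟩
      refine ⟨ε x, ?_⟩
      show UMrow c12 b' s t (ε.symm (ε x)) = _
      rw [Equiv.symm_apply_apply]
  have hcol : Fintype.card n2 ≤ Module.finrank k (Submodule.span k (Set.range Y.col)) := by
    rw [← Matrix.rank_eq_finrank_span_cols, Matrix.rank_eq_finrank_span_row, hrange]
    exact hr
  obtain ⟨f, hf, -, hli⟩ := Submodule.exists_fun_fin_finrank_span_eq k (Set.range Y.col)
  choose I0 hI0 using hf
  let e2 : n2 ≃ Fin (Fintype.card n2) := Fintype.equivFin n2
  let I : n2 → ι2 := fun i => I0 (Fin.castLE hcol (e2 i))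
  set Y' : Matrix (n0 ⊕ n2) n2 k := Y.submatrix id I with hY'
  have hY'col : LinearIndependent k Y'.col := by
    have : Y'.col = f ∘ (fun i => Fin.castLE hcol (e2 i)) := by
      funext i
      rw [Function.comp_apply, ← hI0]
      rfl
    rw [this]
    exact hli.comp _ ((Fin.castLE_injective _).comp e2.injective)
  -- `Q`
  obtain ⟨L, hL⟩ := LA_exists_right_inverse Y'.transpose
    ((Matrix.vecMul_injective_iff (M := Y'.transpose)).mpr (by simpa using hY'col))
  set Q : Matrix n2 (n0 ⊕ n2) k := L.transpose with hQ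
  have hQY : Q * Y' = 1 := by
    have := congrArg Matrix.transpose hL
    rw [Matrix.transpose_mul, Matrix.transpose_transpose, Matrix.transpose_one] at this
    exact this
  -- `P`
  let φ : (n0 ⊕ n2 → k) →ₗ[k] (n2 → k) := Y'.vecMulLinear
  have hsurj : LinearMap.range φ = ⊤ := by
    rw [LinearMap.range_eq_top]
    intro w
    refine ⟨w ᵥ* Q, ?_⟩
    show (w ᵥ* Q) ᵥ* Y' = w
    rw [Matrix.vecMul_vecMul, hQY, Matrix.vecMul_one]
  have hker : Fintype.card n0 = Module.finrank k (LinearMap.ker φ) := by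
    have h1 := LinearMap.finrank_range_add_finrank_ker φ
    rw [hsurj, finrank_top, Module.finrank_fintype_fun_eq_card, Module.finrank_fintype_fun_eq_card,
      Fintype.card_sum] at h1
    omega
  obtain ⟨z, hzli, hz⟩ := TZ_exists_basis (LinearMap.ker φ) n0 hker
  set P : Matrix n0 (n0 ⊕ n2) k := Matrix.of z with hP
  have hPY : P * Y' = 0 := by
    ext j i
    have h1 : (P * Y') j = 0 := by
      rw [Matrix.mul_apply_eq_vecMul]
      exact hz j
    exact congrFun h1 i
  have hPXli : LinearIndependent k (P * X).row := by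
    rw [← Matrix.vecMul_injective_iff]
    have h1 : Function.Injective (fun v : n0 → k => v ᵥ* P) :=
      (Matrix.vecMul_injective_iff (M := P)).mpr hzli
    have h2 : Function.Injective (fun v : n0 ⊕ n2 → k => v ᵥ* X) :=
      (Matrix.vecMul_injective_iff (M := X)).mpr (TZ_X_li ε b' hb)
    intro v w hvw
    apply h1
    apply h2
    simpa [Matrix.vecMul_vecMul] using hvw
  obtain ⟨J, hJ⟩ := Function.ne_iff.mp (LA_plu_ne_zero _ hPXli)
  refine ⟨J, I, ?_⟩
  have hfact := NV_fact X Y' P Q hPY J id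
  unfold Tdet
  rw [NV_Tmat_eq]
  intro h0
  have h3 : (Matrix.fromCols (X.submatrix id J) (Y'.submatrix id id)).det = 0 := h0
  rw [h3, mul_zero, hQY] at hfact
  have h4 : ((1 : Matrix n2 n2 k).submatrix id id).det = 1 := by simp
  rw [h4, mul_one] at hfact
  exact hJ hfact.symm

end

end Fermat.Agent.S17Lib
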