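import Fermat.Agent.S17.Cube.Ident
import Fermat.Agent.S17.Cube.HQ
import Fermat.Agent.S17.Cube.TnzH

/-!
# S17, chapter CUBE: the abstract cube `cube_abs`
-/

set_option autoImplicit false
set_option linter.unusedSectionVars false

namespace Fermat.Agent.S17Lib

open Matrix MvPolynomial Height

local notation "Qb" => AlgebraicClosure ℚ

theorem CM_rv_mem {k : Type*} [Field k] {n ι : Type*} [Fintype n] [DecidableEq n]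
    (a : Matrix n ι k) (I : n → ι) (l : n) : rv a I l ∈ rsp a := by
  have h : rv a I l = ∑ j, ((a.submatrix id I).adjugate l j) • a.row j := by
    funext x
    simp [rv, Matrix.mul_apply, Matrix.row]
  rw [h]
  exact Submodule.sum_mem _ fun j _ => Submodule.smul_mem _ _ (Submodule.subset_span ⟨j, rfl⟩)

theorem CM_sOf_mem {k : Type*} [Field k] {n ι : Type*} [Fintype n] [DecidableEq n] [Fintype ι]
    (a : Matrix n ι k) (γ : (n → ι) × n → ℕ) : sOf a γ ∈ rsp a := by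
  unfold sOf
  exact Submodule.sum_mem _ fun x _ => Submodule.smul_mem _ _ (CM_rv_mem a x.1 x.2)

theorem CM_plu_inl {k : Type*} [Field k] {n φ ι : Type*} [Fintype n] [DecidableEq n] [Fintype φ]
    [DecidableEq φ] [Fintype ι] (b : Matrix n ι k) (y : Matrix φ ι k)
    (h : plu (Matrix.fromRows b y) ≠ 0) : plu b ≠ 0 := by
  classical
  rw [LA_plu_ne_zero_iff] at h ⊢
  have := h.comp Sum.inl Sum.inl_injective
  exact this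

section point

variable {n ιm ι0 ι1 ι2 : Type} [Fintype n] [DecidableEq n] [Fintype ιm] [Fintype ι0] [Fintype ι1]
  [Fintype ι2]
variable {p0 p1 p2 q0 q1 q2 : Type} [Fintype p0] [DecidableEq p0] [Fintype p1] [DecidableEq p1]
  [Fintype p2] [DecidableEq p2] [Fintype q0] [DecidableEq q0] [Fintype q1] [DecidableEq q1]
  [Fintype q2] [DecidableEq q2]

/-- the pointwise step (after helper5's `MA5_cube_point`, for a finite set of pencils). -/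
theorem CM_point (Γ : Finset (Gam n ιm)) (c01 : ιm → ι0 → ι1 → ℚ) (c12 : ιm → ι1 → ι2 → ℚ)
    (ε₁ : p1 ⊕ p1 ≃ p0 ⊕ p2) (ε₂ : q1 ⊕ q1 ≃ q0 ⊕ q2) (a : Matrix n ιm ℚ)
    (b0₁ : Matrix p0 ι0 ℚ) (b'₁ : Matrix p1 ι1 ℚ) (b''₁ : Matrix p2 ι2 ℚ)
    (b0₂ : Matrix q0 ι0 ℚ) (b'₂ : Matrix q1 ι1 ℚ) (b''₂ : Matrix q2 ι2 ℚ)
    (w C₁ C₂ : ℝ)
    (h12 : |logHeight (fun x : Γ × (((p0 → ι1 ⊕ ι1) × (p2 → ι2)) × (q0 → ι1 ⊕ ι1)) =>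
          Qval c01 c12 ε₁ a b'₁ b0₂ x.1.1 x.2) -
      (w * logHeight (plu a) + 2 * logHeight (plu b'₁) + logHeight (plu b0₂))| ≤ C₁)
    (h21 : |logHeight (fun x : Γ × (((q0 → ι1 ⊕ ι1) × (q2 → ι2)) × (p0 → ι1 ⊕ ι1)) =>
          Qval c01 c12 ε₂ a b'₂ b0₁ x.1.1 x.2) -
      (w * logHeight (plu a) + 2 * logHeight (plu b'₂) + logHeight (plu b0₁))| ≤ C₂)
    (hQ : (fun x : Γ × (((p0 → ι1 ⊕ ι1) × (p2 → ι2)) × (q0 → ι1 ⊕ ι1)) =>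
          Qval c01 c12 ε₁ a b'₁ b0₂ x.1.1 x.2) ≠ 0)
    (hb₁ : plu b''₁ ≠ 0) (hb₂ : plu b''₂ ≠ 0)
    (κ : ℚ) (hκ : κ ≠ 0)
    (hrel : ∀ (γ : Gam n ιm) (J₁ : p0 → ι1 ⊕ ι1) (I₁ : p2 → ι2) (J₂ : q0 → ι1 ⊕ ι1)
      (I₂ : q2 → ι2),
      Tdet c12 ε₁ b'₁ (sOf a γ.1) (sOf a γ.2) J₁ I₁ * Gplu c01 b0₂ (sOf a γ.1) (sOf a γ.2) J₂ *
        plu b''₂ I₂ =
      κ * (Tdet c12 ε₂ b'₂ (sOf a γ.1) (sOf a γ.2) J₂ I₂ *
        Gplu c01 b0₁ (sOf a γ.1) (sOf a γ.2) J₁ * plu b''₁ I₁)) :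
    |(2 * logHeight (plu b'₁) - logHeight (plu b0₁) - logHeight (plu b''₁)) -
      (2 * logHeight (plu b'₂) - logHeight (plu b0₂) - logHeight (plu b''₂))| ≤ C₁ + C₂ := by
  classical
  set Q12 := (fun x : Γ × (((p0 → ι1 ⊕ ι1) × (p2 → ι2)) × (q0 → ι1 ⊕ ι1)) =>
          Qval c01 c12 ε₁ a b'₁ b0₂ x.1.1 x.2) with hQ12
  set Q21 := (fun x : Γ × (((q0 → ι1 ⊕ ι1) × (q2 → ι2)) × (p0 → ι1 ⊕ ι1)) =>
          Qval c01 c12 ε₂ a b'₂ b0₁ x.1.1 x.2) with hQ21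
  have hQ' : Q21 ≠ 0 := by
    intro h0
    obtain ⟨x, hx⟩ := Function.ne_iff.mp hQ
    obtain ⟨I₂, hI₂⟩ := Function.ne_iff.mp hb₂
    have h1 := hrel x.1.1 x.2.1.1 x.2.1.2 x.2.2 I₂
    have h2 : Tdet c12 ε₂ b'₂ (sOf a x.1.1.1) (sOf a x.1.1.2) x.2.2 I₂ *
        Gplu c01 b0₁ (sOf a x.1.1.1) (sOf a x.1.1.2) x.2.1.1 = 0 :=
      congrFun h0 (x.1, (x.2.2, I₂), x.2.1.1)
    rw [h2, zero_mul, mul_zero] at h1
    exact (mul_ne_zero hx hI₂) h1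
  have e1 := logHeight_fun_mul_eq hQ hb₂
  have e2 := logHeight_fun_mul_eq hQ' hb₁
  let e : ((Γ × (((p0 → ι1 ⊕ ι1) × (p2 → ι2)) × (q0 → ι1 ⊕ ι1))) × (q2 → ι2)) ≃
      ((Γ × (((q0 → ι1 ⊕ ι1) × (q2 → ι2)) × (p0 → ι1 ⊕ ι1))) × (p2 → ι2)) :=
    { toFun := fun x => ((x.1.1, (x.1.2.2, x.2), x.1.2.1.1), x.1.2.1.2)
      invFun := fun y => ((y.1.1, (y.1.2.2, y.2), y.1.2.1.1), y.1.2.1.2)
      left_inv := fun x => rfl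
      right_inv := fun y => rfl }
  have e3 : (fun x : (Γ × (((p0 → ι1 ⊕ ι1) × (p2 → ι2)) × (q0 → ι1 ⊕ ι1))) × (q2 → ι2) =>
      Q12 x.1 * plu b''₂ x.2) =
      κ • ((fun y : (Γ × (((q0 → ι1 ⊕ ι1) × (q2 → ι2)) × (p0 → ι1 ⊕ ι1))) × (p2 → ι2) =>
      Q21 y.1 * plu b''₁ y.2) ∘ e) := by
    funext x
    exact hrel x.1.1.1 x.1.2.1.1 x.1.2.1.2 x.1.2.2 x.2
  have e4 : logHeight (fun x : (Γ × (((p0 → ι1 ⊕ ι1) × (p2 → ι2)) × (q0 → ι1 ⊕ ι1))) ×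
      (q2 → ι2) => Q12 x.1 * plu b''₂ x.2) =
      logHeight (fun y : (Γ × (((q0 → ι1 ⊕ ι1) × (q2 → ι2)) × (p0 → ι1 ⊕ ι1))) × (p2 → ι2) =>
      Q21 y.1 * plu b''₁ y.2) := by
    rw [e3, logHeight_smul_eq_logHeight _ hκ, logHeight_comp_equiv]
  rw [e1, e2] at e4
  rw [abs_le] at h12 h21 ⊢
  constructor <;> linarith [h12.1, h12.2, h21.1, h21.2]

end point

section Main

variable {ιm ι0 ι1 ι2 na n0 n1 n2 φ : Type} [Fintype ιm] [Fintype ι0] [Fintype ι1] [Fintype ι2]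
  [DecidableEq ιm] [DecidableEq ι0] [DecidableEq ι1] [DecidableEq ι2]
  [Fintype na] [DecidableEq na]
  [Fintype n0] [DecidableEq n0] [Fintype n1] [DecidableEq n1] [Fintype n2] [DecidableEq n2]
  [Fintype φ] [DecidableEq φ]

/-- **The abstract cube.** -/
theorem cube_abs [Nonempty n2] (c01 : ιm → ι0 → ι1 → ℚ) (c12 : ιm → ι1 → ι2 → ℚ) (ε : n1 ⊕ n1 ≃ n0 ⊕ n2)
    (hcomm : ∀ (s t : ιm → ℚ) (z : ι0 → ℚ),
      mulC c12 s (mulC c01 t z) = mulC c12 t (mulC c01 s z))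
    (hdom : ∀ (t : ιm → Qb) (z : ι0 → Qb), mulC c01 t z = 0 → t = 0 ∨ z = 0)
    (ZA : Set (MvPolynomial (na × ιm) ℚ)) (ZB : Set (MvPolynomial (n1 × ι1) ℚ))
    (ZB' : Set (MvPolynomial ((n1 ⊕ φ) × ι1) ℚ))
    (hZA : ∀ (g : Matrix na na ℚ) (a : Matrix na ιm ℚ),
      (∀ f ∈ ZA, aeval (fun x : na × ιm => a x.1 x.2) f = 0) →
        ∀ f ∈ ZA, aeval (fun x : na × ιm => (g * a) x.1 x.2) f = 0)
    (hZB : ∀ (g : Matrix n1 n1 ℚ) (a : Matrix n1 ι1 ℚ),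
      (∀ f ∈ ZB, aeval (fun x : n1 × ι1 => a x.1 x.2) f = 0) →
        ∀ f ∈ ZB, aeval (fun x : n1 × ι1 => (g * a) x.1 x.2) f = 0)
    (hZB' : ∀ (g : Matrix (n1 ⊕ φ) (n1 ⊕ φ) ℚ) (a : Matrix (n1 ⊕ φ) ι1 ℚ),
      (∀ f ∈ ZB', aeval (fun x : (n1 ⊕ φ) × ι1 => a x.1 x.2) f = 0) →
        ∀ f ∈ ZB', aeval (fun x : (n1 ⊕ φ) × ι1 => (g * a) x.1 x.2) f = 0)
    (hT : ∀ (a : Matrix na ιm Qb) (b' : Matrix n1 ι1 Qb),
      (∀ f ∈ ZA, aeval (fun x : na × ιm => a x.1 x.2) f = 0) →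
      (∀ f ∈ ZB, aeval (fun x : n1 × ι1 => b' x.1 x.2) f = 0) → plu a ≠ 0 → plu b' ≠ 0 →
      ∃ s ∈ rsp a, ∃ t ∈ rsp a, Fintype.card n2 ≤
        Module.finrank Qb (Submodule.span Qb (Set.range (UMrow c12 b' s t))))
    (hT' : ∀ (a : Matrix na ιm Qb) (b' : Matrix (n1 ⊕ φ) ι1 Qb),
      (∀ f ∈ ZA, aeval (fun x : na × ιm => a x.1 x.2) f = 0) →
      (∀ f ∈ ZB', aeval (fun x : (n1 ⊕ φ) × ι1 => b' x.1 x.2) f = 0) → plu a ≠ 0 → plu b' ≠ 0 →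
      ∃ s ∈ rsp a, ∃ t ∈ rsp a, Fintype.card (n2 ⊕ φ) ≤
        Module.finrank Qb (Submodule.span Qb (Set.range (UMrow c12 b' s t)))) :
    ∃ C : ℝ, ∀ (a : Matrix na ιm ℚ)
      (b0 : Matrix n0 ι0 ℚ) (y0 : Matrix φ ι0 ℚ) (b' : Matrix n1 ι1 ℚ) (y' : Matrix φ ι1 ℚ)
      (b'' : Matrix n2 ι2 ℚ) (y'' : Matrix φ ι2 ℚ),
      (∀ f ∈ ZA, aeval (fun x : na × ιm => a x.1 x.2) f = 0) →
      (∀ f ∈ ZB, aeval (fun x : n1 × ι1 => b' x.1 x.2) f = 0) →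
      (∀ f ∈ ZB', aeval (fun x : (n1 ⊕ φ) × ι1 => (Matrix.fromRows b' y') x.1 x.2) f = 0) →
      plu a ≠ 0 → plu (Matrix.fromRows b0 y0) ≠ 0 → plu (Matrix.fromRows b' y') ≠ 0 →
      plu (Matrix.fromRows b'' y'') ≠ 0 →
      (∀ s ∈ rsp a, ∀ z ∈ rsp b0, mulC c01 s z ∈ rsp b') →
      (∀ s ∈ rsp a, ∀ z ∈ rsp (Matrix.fromRows b0 y0),
        mulC c01 s z ∈ rsp (Matrix.fromRows b' y')) →
      (∀ s ∈ rsp a, ∀ z ∈ rsp b', mulC c12 s z ∈ rsp b'') →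
      (∀ s ∈ rsp a, ∀ z ∈ rsp (Matrix.fromRows b' y'),
        mulC c12 s z ∈ rsp (Matrix.fromRows b'' y'')) →
      (∃ t0 ∈ rsp a,
        (∀ z ∈ rsp (Matrix.fromRows b0 y0), mulC c01 t0 z ∈ rsp b' → z ∈ rsp b0) ∧
        (∀ z ∈ rsp (Matrix.fromRows b' y'), mulC c12 t0 z ∈ rsp b'' → z ∈ rsp b')) →
      |(Height.logHeight (plu (Matrix.fromRows b'' y'')) + Height.logHeight (plu (Matrix.fromRows b0 y0))
          - 2 * Height.logHeight (plu (Matrix.fromRows b' y'))) -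
        (Height.logHeight (plu b'') + Height.logHeight (plu b0)
          - 2 * Height.logHeight (plu b'))| ≤ C := by
  classical
  obtain ⟨Γ1, h1⟩ := HQ_bound (m0 := n0) c01 c12 (cubeEps φ ε) hdom ZA ZB' hZA hZB'
    (fun a b' ha hb pa pb => by
      obtain ⟨s, hs, t, ht, hr⟩ := hT' a b' ha hb pa pb
      exact ⟨s, hs, t, ht, TZ_TNZ c12 (cubeEps φ ε) b' s t pb hr⟩)
  obtain ⟨Γ2, h2⟩ := HQ_bound (m0 := n0 ⊕ φ) c01 c12 ε hdom ZA ZB hZA hZB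
    (fun a b' ha hb pa pb => by
      obtain ⟨s, hs, t, ht, hr⟩ := hT a b' ha hb pa pb
      exact ⟨s, hs, t, ht, TZ_TNZ c12 ε b' s t pb hr⟩)
  obtain ⟨C1, hC1⟩ := h1 (Γ1 ∪ Γ2) Finset.subset_union_left
  obtain ⟨C2, hC2⟩ := h2 (Γ1 ∪ Γ2) Finset.subset_union_right
  refine ⟨C1 + C2, ?_⟩
  intro a b0 y0 b' y' b'' y'' zA zB zB' pa p0 p1 p2 m01 m01' m12 m12' ⟨t0, ht0, ht01, ht12⟩
  obtain ⟨hQ, e1⟩ := hC1 a (Matrix.fromRows b' y') b0 zA zB' pa p1 (CM_plu_inl b0 y0 p0)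
  obtain ⟨-, e2⟩ := hC2 a b' (Matrix.fromRows b0 y0) zA zB pa (CM_plu_inl b' y' p1) p0
  obtain ⟨κ, hκ, hid⟩ := cube_ident c01 c12 hcomm ε (rsp a) b0 y0 b' y' b'' y'' p0 p1 p2
    m01 m01' m12 m12' t0 ht0 ht01 ht12
  have hw : ((Fintype.card n2 + Fintype.card (n0 ⊕ φ) : ℕ) : ℝ) =
      ((Fintype.card (n2 ⊕ φ) + Fintype.card n0 : ℕ) : ℝ) := by
    simp only [Fintype.card_sum]
    push_cast
    ring
  rw [hw] at e2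
  have key := CM_point (Γ1 ∪ Γ2) c01 c12 (cubeEps φ ε) ε a (Matrix.fromRows b0 y0)
    (Matrix.fromRows b' y') (Matrix.fromRows b'' y'') b0 b' b'' _ C1 C2 e1 e2 hQ p2
    (CM_plu_inl b'' y'' p2) κ hκ
    (fun γ J₁ I₁ J₂ I₂ => hid _ (CM_sOf_mem a _) _ (CM_sOf_mem a _) J₁ I₁ J₂ I₂)
  rw [← abs_neg]
  convert key using 2
  ring

end Main

end Fermat.Agent.S17Lib
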