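import Fermat.Agent.S17.Cube.Defs

/-!
# S17, chapter CUBE: definitions, part 2 (row spaces, reindexing of the big side, product family)
-/

set_option autoImplicit false

namespace Fermat.Agent.S17Lib

open Matrix

/-- row space -/
abbrev rsp {k : Type*} [Field k] {n ι : Type*} (a : Matrix n ι k) : Submodule k (ι → k) :=
  Submodule.span k (Set.range a.row)

/-- the reindexing for the big side. -/
def cubeEps {n0 n1 n2 : Type*} (φ : Type*) (ε : n1 ⊕ n1 ≃ n0 ⊕ n2) :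
    (n1 ⊕ φ) ⊕ (n1 ⊕ φ) ≃ (n0 ⊕ φ) ⊕ (n2 ⊕ φ) :=
  (Equiv.sumSumSumComm n1 φ n1 φ).trans
    ((Equiv.sumCongr ε (Equiv.refl (φ ⊕ φ))).trans (Equiv.sumSumSumComm n0 φ n2 φ).symm)

/-- pencils with natural number coordinates -/
abbrev Gam (na ιm : Type) : Type := ((na → ιm) × na → ℕ) × ((na → ιm) × na → ℕ)

/-- the product family `T ⊗ G` (same pencil in both factors). -/
def Qval {ιm ι0 ι1 ι2 na n0 n1 n2 m0 : Type} [Fintype ιm] [Fintype ι0] [Fintype ι1] [Fintype ι2]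
    [Fintype na] [DecidableEq na] [Fintype n0] [DecidableEq n0] [Fintype n1] [DecidableEq n1]
    [Fintype n2] [DecidableEq n2] [Fintype m0] [DecidableEq m0]
    {R : Type*} [CommRing R] [Algebra ℚ R] (c01 : ιm → ι0 → ι1 → ℚ) (c12 : ιm → ι1 → ι2 → ℚ)
    (ε : n1 ⊕ n1 ≃ n0 ⊕ n2) (a : Matrix na ιm R) (b' : Matrix n1 ι1 R) (b0 : Matrix m0 ι0 R)
    (γ : Gam na ιm) (x : ((n0 → ι1 ⊕ ι1) × (n2 → ι2)) × (m0 → ι1 ⊕ ι1)) : R :=
  Tdet c12 ε b' (sOf a γ.1) (sOf a γ.2) x.1.1 x.1.2 * Gplu c01 b0 (sOf a γ.1) (sOf a γ.2) x.2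

end Fermat.Agent.S17Lib
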