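import Fermat.Agent.S17.Cube.MainAbs
import Fermat.Agent.S17.Cube.Semi
import Fermat.Agent.S17.Cube.Nat
import Fermat.Agent.S17.Closed.Bridge

/-!
# S17, CUBE on the curve, layer A: `semi_bound` twice + `MA5_cube_point`
-/

set_option autoImplicit false

namespace Fermat.Agent.S17Lib

open Matrix Height MvPolynomial

section

variable {n ιm ι0 ι1 ι2 : Type} [Fintype n] [DecidableEq n] [Fintype ιm] [Fintype ι0] [Fintype ι1]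
  [Fintype ι2]
variable {p0 p1 p2 q0 q1 q2 : Type} [Fintype p0] [DecidableEq p0] [Fintype p1] [DecidableEq p1]
  [Fintype p2] [DecidableEq p2] [Fintype q0] [DecidableEq q0] [Fintype q1] [DecidableEq q1]
  [Fintype q2] [DecidableEq q2]

/-- membership in a set of equations of one Stiefel block -/
def CC_In {R : Type*} [CommRing R] [Algebra ℚ R] {n ι : Type} (Z : Set (MvPolynomial (n × ι) ℚ))
    (a : Matrix n ι R) : Prop :=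
  ∀ f ∈ Z, aeval (fun x : n × ι => a x.1 x.2) f = 0

theorem CC_pack3_map {L : Type*} [Field L] [Algebra ℚ L] {n₁ ι₁ n₂ ι₂ n₃ ι₃ : Type}
    (a₁ : Matrix n₁ ι₁ ℚ) (a₂ : Matrix n₂ ι₂ ℚ) (a₃ : Matrix n₃ ι₃ ℚ) :
    pack3 (a₁.map (algebraMap ℚ L)) (a₂.map (algebraMap ℚ L)) (a₃.map (algebraMap ℚ L)) =
      fun i => algebraMap ℚ L (pack3 a₁ a₂ a₃ i) := by
  funext i
  rcases i with x | x | x <;> rfl

theorem CC_In_map {L : Type*} [Field L] [Algebra ℚ L] {n ι : Type}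
    (Z : Set (MvPolynomial (n × ι) ℚ)) (a : Matrix n ι ℚ) :
    CC_In Z (a.map (algebraMap ℚ L)) ↔ CC_In Z a := by
  unfold CC_In
  refine forall₂_congr fun f _ => ?_
  have h1 : aeval (fun x : n × ι => a x.1 x.2) f = eval (fun x : n × ι => a x.1 x.2) f :=
    DFunLike.congr_fun (coe_aeval_eq_eval _) f
  rw [h1]
  exact (CL_eval_eq_zero_iff (L := L) (fun x : n × ι => a x.1 x.2) f).symm

/-- one application of `semi_bound` -/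
theorem CC_semi (D : ℕ) (c01 : ιm → ι0 → ι1 → ℚ) (c12 : ιm → ι1 → ι2 → ℚ)
    (ε : p1 ⊕ p1 ≃ p0 ⊕ p2)
    (ZA : Set (MvPolynomial (n × ιm) ℚ)) (Z1 : Set (MvPolynomial (p1 × ι1) ℚ))
    (hZA : ∀ (g : Matrix n n ℚ) (a : Matrix n ιm ℚ), CC_In ZA a → CC_In ZA (g * a))
    (hZ1 : ∀ (g : Matrix p1 p1 ℚ) (a : Matrix p1 ι1 ℚ), CC_In Z1 a → CC_In Z1 (g * a))
    (hnv : ∀ (a : Matrix n ιm (AlgebraicClosure ℚ)) (b' : Matrix p1 ι1 (AlgebraicClosure ℚ))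
      (b0 : Matrix q0 ι0 (AlgebraicClosure ℚ)), CC_In ZA a → CC_In Z1 b' → plu a ≠ 0 →
      plu b' ≠ 0 → plu b0 ≠ 0 → MA5_Q D c01 c12 ε a b' b0 ≠ 0) :
    ∃ C : ℝ, ∀ (a : Matrix n ιm ℚ) (b' : Matrix p1 ι1 ℚ) (b0 : Matrix q0 ι0 ℚ),
      CC_In ZA a → CC_In Z1 b' → plu a ≠ 0 → plu b' ≠ 0 → plu b0 ≠ 0 →
      MA5_Q D c01 c12 ε a b' b0 ≠ 0 ∧
      |logHeight (MA5_Q D c01 c12 ε a b' b0) -
        (((Fintype.card p2 + Fintype.card q0 : ℕ) : ℝ) * logHeight (plu a) +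
          2 * logHeight (plu b') + 1 * logHeight (plu b0))| ≤ C := by
  classical
  have haev : ∀ {σ : Type} (x : σ → ℚ) (f : MvPolynomial σ ℚ), aeval x f = eval x f :=
    fun x f => DFunLike.congr_fun (coe_aeval_eq_eval x) f
  have hZiff : ∀ {R : Type} [CommRing R] [Algebra ℚ R] (a : Matrix n ιm R) (b' : Matrix p1 ι1 R)
      (b0 : Matrix q0 ι0 R),
      (∀ f ∈ CL_in1 p1 ι1 q0 ι0 ZA ∪ CL_in2 n ιm q0 ι0 Z1, aeval (pack3 a b' b0) f = 0) ↔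
        CC_In ZA a ∧ CC_In Z1 b' := by
    intro R _ _ a b' b0
    constructor
    · intro h
      exact ⟨(CL_in1_iff ZA a b' b0).mp fun f hf => h f (Or.inl hf),
        (CL_in2_iff Z1 a b' b0).mp fun f hf => h f (Or.inr hf)⟩
    · rintro ⟨h1, h2⟩ f (hf | hf)
      · exact (CL_in1_iff ZA a b' b0).mpr h1 f hf
      · exact (CL_in2_iff Z1 a b' b0).mpr h2 f hf
  obtain ⟨C, hC⟩ := semi_bound
    (κ := (MA5_Grid n ιm D × MA5_Grid n ιm D) × ((p0 → ι1 ⊕ ι1) × (p2 → ι2)) × (q0 → ι1 ⊕ ι1))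
    (fun x => Qpoly c01 c12 ε (fun y => (x.1.1 y : ℕ)) (fun y => (x.1.2 y : ℕ)) x.2.1.1 x.2.1.2
      x.2.2)
    (CL_in1 p1 ι1 q0 ι0 ZA ∪ CL_in2 n ιm q0 ι0 Z1) (Fintype.card p2 + Fintype.card q0) 2 1
    (fun g₁ g₂ g₃ a₁ a₂ a₃ j => NAT_hsemi c01 c12 ε _ _ _ _ _ g₁ g₂ g₃ a₁ a₂ a₃)
    (by
      intro g₁ g₂ g₃ a₁ a₂ a₃ h
      have h' : ∀ f ∈ CL_in1 p1 ι1 q0 ι0 ZA ∪ CL_in2 n ιm q0 ι0 Z1,
          aeval (pack3 a₁ a₂ a₃) f = 0 := fun f hf => by rw [haev]; exact h f hf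
      obtain ⟨h1, h2⟩ := (hZiff a₁ a₂ a₃).mp h'
      intro f hf
      rw [← haev]
      exact (hZiff (g₁ * a₁) (g₂ * a₂) (g₃ * a₃)).mpr ⟨hZA g₁ a₁ h1, hZ1 g₂ a₂ h2⟩ f hf)
    (by
      intro a₁ a₂ a₃ h h1 h2 h3
      obtain ⟨hA, hB⟩ := (hZiff a₁ a₂ a₃).mp h
      obtain ⟨x, hx⟩ := Function.ne_iff.mp (hnv a₁ a₂ a₃ hA hB h1 h2 h3)
      refine ⟨x, ?_⟩
      rw [NAT_aeval_Qpoly]
      exact hx)
  refine ⟨C, fun a b' b0 hA hB h1 h2 h3 => ?_⟩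
  have hfun : (fun x : (MA5_Grid n ιm D × MA5_Grid n ιm D) × ((p0 → ι1 ⊕ ι1) × (p2 → ι2)) ×
      (q0 → ι1 ⊕ ι1) => eval (pack3 a b' b0) (Qpoly c01 c12 ε (fun y => (x.1.1 y : ℕ))
        (fun y => (x.1.2 y : ℕ)) x.2.1.1 x.2.1.2 x.2.2)) = MA5_Q D c01 c12 ε a b' b0 := by
    funext x
    rw [NAT_eval_Qpoly]
    rfl
  constructor
  · -- non vanishing over `ℚ`
    have hmap : ∀ {k ι : Type} [Fintype k] [DecidableEq k] (B : Matrix k ι ℚ), plu B ≠ 0 →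
        plu (B.map (algebraMap ℚ (AlgebraicClosure ℚ))) ≠ 0 := by
      intro k ι _ _ B hB h0
      apply hB
      funext I
      have := congrFun h0 I
      rw [← NAT_map_plu] at this
      exact (map_eq_zero (algebraMap ℚ (AlgebraicClosure ℚ))).mp this
    have h := hnv (a.map (algebraMap ℚ _)) (b'.map (algebraMap ℚ _)) (b0.map (algebraMap ℚ _))
      ((CC_In_map ZA a).mpr hA) ((CC_In_map Z1 b').mpr hB) (hmap a h1) (hmap b' h2) (hmap b0 h3)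
    obtain ⟨x, hx⟩ := Function.ne_iff.mp h
    intro h0
    apply hx
    have e1 := NAT_aeval_Qpoly c01 c12 ε (fun y => (x.1.1 y : ℕ)) (fun y => (x.1.2 y : ℕ))
      x.2.1.1 x.2.1.2 x.2.2 (a.map (algebraMap ℚ (AlgebraicClosure ℚ)))
      (b'.map (algebraMap ℚ (AlgebraicClosure ℚ))) (b0.map (algebraMap ℚ (AlgebraicClosure ℚ)))
    have e2 : MA5_Q D c01 c12 ε (a.map (algebraMap ℚ (AlgebraicClosure ℚ)))
      (b'.map (algebraMap ℚ (AlgebraicClosure ℚ))) (b0.map (algebraMap ℚ (AlgebraicClosure ℚ))) x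
      = aeval (pack3 (a.map (algebraMap ℚ (AlgebraicClosure ℚ)))
      (b'.map (algebraMap ℚ (AlgebraicClosure ℚ))) (b0.map (algebraMap ℚ (AlgebraicClosure ℚ))))
      (Qpoly c01 c12 ε (fun y => (x.1.1 y : ℕ)) (fun y => (x.1.2 y : ℕ)) x.2.1.1 x.2.1.2
      x.2.2) := e1.symm
    rw [e2, CC_pack3_map]
    refine (CL_eval_eq_zero_iff (L := AlgebraicClosure ℚ) _ _).mp ?_
    have := congrFun hfun x
    rw [h0] at this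
    exact this
  · have := hC a b' b0 (fun f hf => by
      rw [← haev]; exact (hZiff a b' b0).mpr ⟨hA, hB⟩ f hf) h1 h2 h3
    rw [hfun] at this
    exact_mod_cast this

/-- layer A: the abstract cube -/
theorem CC_abs (D : ℕ) (c01 : ιm → ι0 → ι1 → ℚ) (c12 : ιm → ι1 → ι2 → ℚ)
    (ε₁ : p1 ⊕ p1 ≃ p0 ⊕ p2) (ε₂ : q1 ⊕ q1 ≃ q0 ⊕ q2)
    (hw : Fintype.card p2 + Fintype.card q0 = Fintype.card q2 + Fintype.card p0)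
    (ZA : Set (MvPolynomial (n × ιm) ℚ)) (Z1 : Set (MvPolynomial (p1 × ι1) ℚ))
    (Z2 : Set (MvPolynomial (q1 × ι1) ℚ))
    (hZA : ∀ (g : Matrix n n ℚ) (a : Matrix n ιm ℚ), CC_In ZA a → CC_In ZA (g * a))
    (hZ1 : ∀ (g : Matrix p1 p1 ℚ) (a : Matrix p1 ι1 ℚ), CC_In Z1 a → CC_In Z1 (g * a))
    (hZ2 : ∀ (g : Matrix q1 q1 ℚ) (a : Matrix q1 ι1 ℚ), CC_In Z2 a → CC_In Z2 (g * a))
    (hnv1 : ∀ (a : Matrix n ιm (AlgebraicClosure ℚ)) (b' : Matrix p1 ι1 (AlgebraicClosure ℚ))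
      (b0 : Matrix q0 ι0 (AlgebraicClosure ℚ)), CC_In ZA a → CC_In Z1 b' → plu a ≠ 0 →
      plu b' ≠ 0 → plu b0 ≠ 0 → MA5_Q D c01 c12 ε₁ a b' b0 ≠ 0)
    (hnv2 : ∀ (a : Matrix n ιm (AlgebraicClosure ℚ)) (b' : Matrix q1 ι1 (AlgebraicClosure ℚ))
      (b0 : Matrix p0 ι0 (AlgebraicClosure ℚ)), CC_In ZA a → CC_In Z2 b' → plu a ≠ 0 →
      plu b' ≠ 0 → plu b0 ≠ 0 → MA5_Q D c01 c12 ε₂ a b' b0 ≠ 0) :
    ∃ C : ℝ, ∀ (a : Matrix n ιm ℚ) (b0₁ : Matrix p0 ι0 ℚ) (b'₁ : Matrix p1 ι1 ℚ)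
      (b''₁ : Matrix p2 ι2 ℚ) (b0₂ : Matrix q0 ι0 ℚ) (b'₂ : Matrix q1 ι1 ℚ)
      (b''₂ : Matrix q2 ι2 ℚ), CC_In ZA a → CC_In Z1 b'₁ → CC_In Z2 b'₂ → plu a ≠ 0 →
      plu b0₁ ≠ 0 → plu b'₁ ≠ 0 → plu b''₁ ≠ 0 → plu b0₂ ≠ 0 → plu b'₂ ≠ 0 → plu b''₂ ≠ 0 →
      (∃ κ : ℚ, κ ≠ 0 ∧ MA5_Rel D c01 c12 ε₁ ε₂ a b0₁ b'₁ b''₁ b0₂ b'₂ b''₂ κ) →
      |(2 * logHeight (plu b'₁) - logHeight (plu b0₁) - logHeight (plu b''₁)) -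
        (2 * logHeight (plu b'₂) - logHeight (plu b0₂) - logHeight (plu b''₂))| ≤ C := by
  obtain ⟨C₁, hC₁⟩ := CC_semi D c01 c12 ε₁ ZA Z1 hZA hZ1 hnv1
  obtain ⟨C₂, hC₂⟩ := CC_semi D c01 c12 ε₂ ZA Z2 hZA hZ2 hnv2
  refine ⟨C₁ + C₂, ?_⟩
  intro a b0₁ b'₁ b''₁ b0₂ b'₂ b''₂ hA h1 h2 ha h01 h11 h21 h02 h12 h22 ⟨κ, hκ, hrel⟩
  obtain ⟨hQ, e1⟩ := hC₁ a b'₁ b0₂ hA h1 ha h11 h02
  obtain ⟨-, e2⟩ := hC₂ a b'₂ b0₁ hA h2 ha h12 h01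
  rw [← hw] at e2
  exact MA5_cube_point D c01 c12 ε₁ ε₂ a b0₁ b'₁ b''₁ b0₂ b'₂ b''₂ _ C₁ C₂ e1 e2 hQ h21 h22 κ hκ
    hrel

end

end Fermat.Agent.S17Lib
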