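import Fermat.Agent.S17.Cube.Fact

/-!
# S17, chapter CUBE, leaf FACT, part 2: the `Γ`-free form, the rank form and the span form
-/

set_option autoImplicit false
set_option linter.unusedSectionVars false

namespace Fermat.Agent.S17Lib

open Matrix

section Fact2

variable {R : Type*} [CommRing R] [Algebra ℚ R]
variable {ιm ι0 ι1 ι2 n0 n1 n2 : Type*} [Fintype ιm] [Fintype ι0] [Fintype ι1] [Fintype ι2]
  [Fintype n0] [DecidableEq n0] [Fintype n1] [DecidableEq n1] [Fintype n2] [DecidableEq n2]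

theorem FACT_Tmat_eq' (c12 : ιm → ι1 → ι2 → ℚ) (ε : n1 ⊕ n1 ≃ n0 ⊕ n2) (b' : Matrix n1 ι1 R)
    (s t : ιm → R) (J : n0 → ι1 ⊕ ι1) (I : n2 → ι2) :
    Tmat c12 ε b' s t J I =
      (Matrix.fromCols ((Matrix.of (Urow b') : Matrix (n1 ⊕ n1) (ι1 ⊕ ι1) R).submatrix id J)
        ((Matrix.of (UMrow c12 b' s t) : Matrix (n1 ⊕ n1) ι2 R).submatrix id I)).submatrix
          ε.symm id := by
  ext r x
  rcases x with j | i <;> simp [Tmat]

/-- **FACT**, `Γ`-free form (any commutative ring): `P U = G`, `P (U M) = 0`, `Q (U M) = b''`. -/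
theorem FACT_PQ (c01 : ιm → ι0 → ι1 → ℚ) (c12 : ιm → ι1 → ι2 → ℚ) (ε : n1 ⊕ n1 ≃ n0 ⊕ n2)
    (b0 : Matrix n0 ι0 R) (b' : Matrix n1 ι1 R) (b'' : Matrix n2 ι2 R) (s t : ιm → R)
    (P : Matrix n0 (n1 ⊕ n1) R) (Q : Matrix n2 (n1 ⊕ n1) R)
    (hP : P * (Matrix.of (Urow b') : Matrix (n1 ⊕ n1) (ι1 ⊕ ι1) R) = Gmat c01 b0 s t)
    (hPM : P * (Matrix.of (UMrow c12 b' s t) : Matrix (n1 ⊕ n1) ι2 R) = 0)
    (hQ : Q * (Matrix.of (UMrow c12 b' s t) : Matrix (n1 ⊕ n1) ι2 R) = b'')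
    (J : n0 → ι1 ⊕ ι1) (I : n2 → ι2) :
    FACT_sig ε P Q * Tdet c12 ε b' s t J I = Gplu c01 b0 s t J * plu b'' I := by
  unfold Tdet FACT_sig
  rw [FACT_Tmat_eq', ← Matrix.det_mul, Matrix.submatrix_mul_equiv, Matrix.submatrix_id_id,
    Matrix.fromRows_mul_fromCols]
  have h1 : P * (Matrix.of (Urow b') : Matrix (n1 ⊕ n1) (ι1 ⊕ ι1) R).submatrix id J
      = (Gmat c01 b0 s t).submatrix id J := by
    rw [← hP]; ext i j; simp [Matrix.mul_apply]
  have h2 : P * (Matrix.of (UMrow c12 b' s t) : Matrix (n1 ⊕ n1) ι2 R).submatrix id I = 0 := by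
    have : P * (Matrix.of (UMrow c12 b' s t) : Matrix (n1 ⊕ n1) ι2 R).submatrix id I
        = (P * (Matrix.of (UMrow c12 b' s t) : Matrix (n1 ⊕ n1) ι2 R)).submatrix id I := by
      ext i j; simp [Matrix.mul_apply]
    rw [this, hPM]; rfl
  have h3 : Q * (Matrix.of (UMrow c12 b' s t) : Matrix (n1 ⊕ n1) ι2 R).submatrix id I
      = b''.submatrix id I := by
    rw [← hQ]; ext i j; simp [Matrix.mul_apply]
  rw [h1, h2, h3, Matrix.det_fromBlocks_zero₁₂]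
  rfl

/-- `σ ≠ 0` is automatic (`Γ`-free form). -/
theorem FACT_PQ_sig_ne_zero [IsDomain R] (c01 : ιm → ι0 → ι1 → ℚ) (c12 : ιm → ι1 → ι2 → ℚ)
    (ε : n1 ⊕ n1 ≃ n0 ⊕ n2)
    (b0 : Matrix n0 ι0 R) (b' : Matrix n1 ι1 R) (b'' : Matrix n2 ι2 R) (s t : ιm → R)
    (P : Matrix n0 (n1 ⊕ n1) R) (Q : Matrix n2 (n1 ⊕ n1) R)
    (hP : P * (Matrix.of (Urow b') : Matrix (n1 ⊕ n1) (ι1 ⊕ ι1) R) = Gmat c01 b0 s t)
    (hPM : P * (Matrix.of (UMrow c12 b' s t) : Matrix (n1 ⊕ n1) ι2 R) = 0)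
    (hQ : Q * (Matrix.of (UMrow c12 b' s t) : Matrix (n1 ⊕ n1) ι2 R) = b'')
    (hG : Gplu c01 b0 s t ≠ 0) (hb'' : plu b'' ≠ 0) :
    FACT_sig ε P Q ≠ 0 := by
  intro h0
  obtain ⟨J, hJ⟩ := Function.ne_iff.mp hG
  obtain ⟨I, hI⟩ := Function.ne_iff.mp hb''
  have := FACT_PQ c01 c12 ε b0 b' b'' s t P Q hP hPM hQ J I
  rw [h0, zero_mul] at this
  exact mul_ne_zero hJ hI this.symm

/-- in the exact case `Tdet ≠ 0`. -/
theorem FACT_PQ_Tdet_ne_zero [IsDomain R] (c01 : ιm → ι0 → ι1 → ℚ) (c12 : ιm → ι1 → ι2 → ℚ)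
    (ε : n1 ⊕ n1 ≃ n0 ⊕ n2)
    (b0 : Matrix n0 ι0 R) (b' : Matrix n1 ι1 R) (b'' : Matrix n2 ι2 R) (s t : ιm → R)
    (P : Matrix n0 (n1 ⊕ n1) R) (Q : Matrix n2 (n1 ⊕ n1) R)
    (hP : P * (Matrix.of (Urow b') : Matrix (n1 ⊕ n1) (ι1 ⊕ ι1) R) = Gmat c01 b0 s t)
    (hPM : P * (Matrix.of (UMrow c12 b' s t) : Matrix (n1 ⊕ n1) ι2 R) = 0)
    (hQ : Q * (Matrix.of (UMrow c12 b' s t) : Matrix (n1 ⊕ n1) ι2 R) = b'')
    (J : n0 → ι1 ⊕ ι1) (I : n2 → ι2) (hJ : Gplu c01 b0 s t J ≠ 0) (hI : plu b'' I ≠ 0) :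
    Tdet c12 ε b' s t J I ≠ 0 := by
  intro h0
  have := FACT_PQ c01 c12 ε b0 b' b'' s t P Q hP hPM hQ J I
  rw [h0, mul_zero] at this
  exact mul_ne_zero hJ hI this.symm

end Fact2

section Field

variable {L : Type*} [Field L] [Algebra ℚ L]
variable {ιm ι0 ι1 ι2 n0 n1 n2 : Type*} [Fintype ιm] [Fintype ι0] [Fintype ι1] [Fintype ι2]
  [Fintype n0] [DecidableEq n0] [Fintype n1] [DecidableEq n1] [Fintype n2] [DecidableEq n2]

/-- `Tdet = 0` as soon as the rows `s u_i`, `t u_i` lie in a subspace of dimension `< card n2`. -/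
theorem FACT_zero_of_finrank_lt (c12 : ιm → ι1 → ι2 → ℚ) (ε : n1 ⊕ n1 ≃ n0 ⊕ n2)
    (b' : Matrix n1 ι1 L) (s t : ιm → L) (W : Submodule L (ι2 → L))
    (hW : ∀ r, UMrow c12 b' s t r ∈ W) (hdim : Module.finrank L W < Fintype.card n2)
    (J : n0 → ι1 ⊕ ι1) (I : n2 → ι2) :
    Tdet c12 ε b' s t J I = 0 := by
  classical
  unfold Tdet
  rw [← Matrix.exists_mulVec_eq_zero_iff]
  -- the projection of `W` to the coordinates `I` is a proper subspace
  let π : (ι2 → L) →ₗ[L] (n2 → L) := LinearMap.funLeft L L I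
  have hlt : W.map π < ⊤ := by
    rw [lt_top_iff_ne_top]
    intro h
    have h1 : Module.finrank L (W.map π) ≤ Module.finrank L W := Submodule.finrank_map_le π W
    rw [h, finrank_top, Module.finrank_fintype_fun_eq_card] at h1
    omega
  obtain ⟨f, hf, hle⟩ := Submodule.exists_le_ker_of_lt_top _ hlt
  have hfx : ∀ x : n2 → L, f x = ∑ i, x i * f (Pi.single i 1) := by
    intro x
    have hx : x = ∑ i, x i • (Pi.single i 1 : n2 → L) := by
      funext j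
      simp [Finset.sum_apply, Pi.single_apply]
    conv_lhs => rw [hx]
    simp [map_sum, smul_eq_mul]
  refine ⟨Sum.elim 0 (fun i => f (Pi.single i 1)), ?_, ?_⟩
  · intro h
    apply hf
    ext i
    simpa using congrFun h (Sum.inr i)
  · funext r
    have h1 : f (π (UMrow c12 b' s t (ε.symm r))) = 0 :=
      hle (Submodule.mem_map_of_mem (hW _))
    rw [hfx] at h1
    simpa [Matrix.mulVec, dotProduct, Fintype.sum_sum_type, Tmat, π, LinearMap.funLeft] using h1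

/-- `mulC c s` as a linear map -/
def FACT_mulL {ι ι' : Type*} [Fintype ι] (c : ιm → ι → ι' → ℚ) (s : ιm → L) :
    (ι → L) →ₗ[L] (ι' → L) where
  toFun := mulC c s
  map_add' x y := by
    funext k
    simp [mulC, mul_add, Finset.sum_add_distrib]
  map_smul' a x := by
    funext k
    simp only [mulC, Pi.smul_apply, smul_eq_mul, RingHom.id_apply, Finset.mul_sum]
    refine Finset.sum_congr rfl fun i _ => Finset.sum_congr rfl fun j _ => ?_
    ring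

theorem FACT_mulL_apply {ι ι' : Type*} [Fintype ι] (c : ιm → ι → ι' → ℚ) (s : ιm → L)
    (z : ι → L) : FACT_mulL c s z = mulC c s z := rfl

/-- **FACT**, span form over a field: `s W₀, t W₀ ⊆ W'`, `s W' + t W' ⊇ W''`,
`s (t z) = t (s z)`. -/
theorem FACT_span (c01 : ιm → ι0 → ι1 → ℚ) (c12 : ιm → ι1 → ι2 → ℚ) (ε : n1 ⊕ n1 ≃ n0 ⊕ n2)
    (b0 : Matrix n0 ι0 L) (b' : Matrix n1 ι1 L) (b'' : Matrix n2 ι2 L) (s t : ιm → L)
    (hcomm : ∀ z : ι0 → L, mulC c12 s (mulC c01 t z) = mulC c12 t (mulC c01 s z))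
    (h01s : ∀ i, mulC c01 s (b0 i) ∈ Submodule.span L (Set.range b'))
    (h01t : ∀ i, mulC c01 t (b0 i) ∈ Submodule.span L (Set.range b'))
    (hsurj : ∀ i, b'' i ∈ Submodule.span L (Set.range (UMrow c12 b' s t))) :
    ∃ (P : Matrix n0 (n1 ⊕ n1) L) (Q : Matrix n2 (n1 ⊕ n1) L),
      P * (Matrix.of (Urow b') : Matrix (n1 ⊕ n1) (ι1 ⊕ ι1) L) = Gmat c01 b0 s t ∧
      P * (Matrix.of (UMrow c12 b' s t) : Matrix (n1 ⊕ n1) ι2 L) = 0 ∧
      Q * (Matrix.of (UMrow c12 b' s t) : Matrix (n1 ⊕ n1) ι2 L) = b'' := by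
  classical
  have hs := fun i => (Submodule.mem_span_range_iff_exists_fun L).mp (h01s i)
  have ht := fun i => (Submodule.mem_span_range_iff_exists_fun L).mp (h01t i)
  have hq := fun i => (Submodule.mem_span_range_iff_exists_fun L).mp (hsurj i)
  choose β hβ using hs
  choose α hα using ht
  choose Q hQ using hq
  refine ⟨Matrix.fromCols (Matrix.of α) (-(Matrix.of β)), Matrix.of Q, ?_, ?_, ?_⟩
  · ext i x
    rcases x with k | k
    · have := congrFun (hα i) k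
      simpa [Matrix.mul_apply, Fintype.sum_sum_type, Urow, Gmat, Finset.sum_apply] using this
    · have := congrFun (hβ i) k
      simp only [Finset.sum_apply, Pi.smul_apply, smul_eq_mul] at this
      simp [Matrix.mul_apply, Fintype.sum_sum_type, Urow, Gmat, ← this]
  · ext i k
    have h1 : mulC c12 s (mulC c01 t (b0 i)) = ∑ j, α i j • mulC c12 s (b' j) := by
      rw [← hα i, ← FACT_mulL_apply, map_sum]
      simp [FACT_mulL_apply]
    have h2 : mulC c12 t (mulC c01 s (b0 i)) = ∑ j, β i j • mulC c12 t (b' j) := by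
      rw [← hβ i, ← FACT_mulL_apply, map_sum]
      simp [FACT_mulL_apply]
    have h3 := congrFun ((h1.symm.trans (hcomm (b0 i))).trans h2) k
    simp only [Finset.sum_apply, Pi.smul_apply, smul_eq_mul] at h3
    simp [Matrix.mul_apply, Fintype.sum_sum_type, UMrow, h3]
  · ext i k
    have := congrFun (hQ i) k
    simpa [Matrix.mul_apply, Finset.sum_apply] using this

/-- **FACT**, existential form. -/
theorem FACT_span_sigma (c01 : ιm → ι0 → ι1 → ℚ) (c12 : ιm → ι1 → ι2 → ℚ)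
    (ε : n1 ⊕ n1 ≃ n0 ⊕ n2)
    (b0 : Matrix n0 ι0 L) (b' : Matrix n1 ι1 L) (b'' : Matrix n2 ι2 L) (s t : ιm → L)
    (hcomm : ∀ z : ι0 → L, mulC c12 s (mulC c01 t z) = mulC c12 t (mulC c01 s z))
    (h01s : ∀ i, mulC c01 s (b0 i) ∈ Submodule.span L (Set.range b'))
    (h01t : ∀ i, mulC c01 t (b0 i) ∈ Submodule.span L (Set.range b'))
    (hsurj : ∀ i, b'' i ∈ Submodule.span L (Set.range (UMrow c12 b' s t)))
    (hG : Gplu c01 b0 s t ≠ 0) (hb'' : plu b'' ≠ 0) :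
    ∃ σ : L, σ ≠ 0 ∧ ∀ J I, σ * Tdet c12 ε b' s t J I = Gplu c01 b0 s t J * plu b'' I := by
  obtain ⟨P, Q, hP, hPM, hQ⟩ := FACT_span c01 c12 ε b0 b' b'' s t hcomm h01s h01t hsurj
  exact ⟨FACT_sig ε P Q, FACT_PQ_sig_ne_zero c01 c12 ε b0 b' b'' s t P Q hP hPM hQ hG hb'',
    fun J I => FACT_PQ c01 c12 ε b0 b' b'' s t P Q hP hPM hQ J I⟩

end Field

end Fermat.Agent.S17Lib
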