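import Fermat.Agent.S17.Cube.NVgeo
import Fermat.Agent.S17.Cube.Fact2
import Fermat.Agent.S17.Cube.Defs2
import Fermat.Agent.S17.FC.Fam
import Fermat.Agent.S17.FC.Thr
import Fermat.Agent.S17.FC.Mul

/-!
# S17, CUBE on the curve: the hypotheses `hT`, `hT'` of `cube_abs` and the rank equations
-/

set_option autoImplicit false
set_option synthInstance.maxHeartbeats 400000

open AlgebraicCurve ModularCurve

namespace Fermat.Agent.S17Lib

open Fermat.Agent.S18Lib Fermat.Agent.S24Lib Fermat.Agent.ESLib Fermat.Agent.FFLib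
  Fermat.Agent.S28Lib Height Matrix

variable (N : ℕ) [NeZero N]

theorem CC_dvo0 (b : ℕ) : dvo N b 0 = Finsupp.single (oo N) (b : ℤ) := sub_zero _

theorem CC_dvo0_sub (b : ℕ) (E : Divisor Qb (FB N)) : dvo N b 0 - E = dvo N b E := by
  rw [CC_dvo0]

theorem CC_deg_dvo0 (b : ℕ) : Divisor.degree (dvo N b 0) = b := by
  rw [CC_dvo0, degree_single' (isFF_FB N)]

/-- the rank equations of the block of level `b` and codimension `d` -/
def CC_Z (n : Type) (b : ℕ) (r : ℕ) : Set (MvPolynomial (n × Fin (dV N b)) ℚ) :=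
  CL_rkPolys n (tau N (b + cFC N) b) r

/-- full rank points of the rank equations are geometric -/
theorem CC_point {n : Type} [Fintype n] [DecidableEq n] (b d r : ℕ) (hb : d + cFC N + 1 ≤ b)
    (hn : (Fintype.card n : ℤ) = (b : ℤ) + 1 - genusR Qb (FB N) - d)
    (hr : (r : ℤ) = ((b : ℤ) + (b + cFC N)) + 1 - genusR Qb (FB N) - d)
    (a : Matrix n (Fin (dV N b)) Qb) (ha : plu a ≠ 0)
    (hZ : ∀ f ∈ CC_Z N n b r, MvPolynomial.aeval (fun x : n × Fin (dV N b) => a x.1 x.2) f = 0) :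
    ∃ E : Divisor Qb (FB N), 0 ≤ E ∧ Divisor.degree E = d ∧
      CL_rowSp (bas N b) a = riemannRochSpace (dvo N b 0 - E) := by
  have hc := cFC_rr N
  refine CL_point_geo (isFF_FB N) (Nat.cast_nonneg _) hc (dvo N b 0) (dvo N (b + cFC N) 0)
    (bas N (b + cFC N)) (bas N b) (bas N (b + (b + cFC N))) (tau N (b + cFC N) b)
    (CC_span_bas N _) (CC_span_bas N _) (CC_li_bas N _) (CC_li_bas N _)
    (CC_hcst N _ _ (FCM_tau_spec N _ _)) d r ?_ ?_ ?_ ?_ a ha hZ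
  · rw [hc _ (by rw [CC_deg_dvo0]; omega), CC_deg_dvo0, hn]
  · rw [hc _ (by rw [map_add, CC_deg_dvo0, CC_deg_dvo0]; push_cast; omega), map_add, CC_deg_dvo0,
      CC_deg_dvo0, hr]
    push_cast
    ring
  · rw [CC_deg_dvo0]; omega
  · rw [map_sub, CC_deg_dvo0, CC_deg_dvo0]; push_cast; omega

/-- geometric points satisfy the rank equations -/
theorem CC_geo {n : Type} [Fintype n] [DecidableEq n] (b d r : ℕ) (hb : d ≤ b)
    (hr : (r : ℤ) = ((b : ℤ) + (b + cFC N)) + 1 - genusR Qb (FB N) - d)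
    (a : Matrix n (Fin (dV N b)) Qb) (E : Divisor Qb (FB N)) (hE : Divisor.degree E = d)
    (ha : CL_rowSp (bas N b) a = riemannRochSpace (dvo N b E)) :
    ∀ f ∈ CC_Z N n b r, MvPolynomial.aeval (fun x : n × Fin (dV N b) => a x.1 x.2) f = 0 := by
  have hc := cFC_rr N
  refine CL_geo_point (isFF_FB N) hc (dvo N b 0) (dvo N (b + cFC N) 0)
    (bas N (b + cFC N)) (bas N b) (bas N (b + (b + cFC N))) (tau N (b + cFC N) b)
    (CC_span_bas N _) (CC_li_bas N _)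
    (CC_hcst N _ _ (FCM_tau_spec N _ _)) d r ?_ ?_ a E hE ?_
  · rw [hc _ (by rw [map_add, CC_deg_dvo0, CC_deg_dvo0]; push_cast; omega), map_add, CC_deg_dvo0,
      CC_deg_dvo0, hr]
    push_cast
    ring
  · rw [map_add, CC_deg_dvo0, CC_deg_dvo0]; push_cast; omega
  · rw [ha, CC_dvo0_sub]

/-- the hypotheses `hT`, `hT'` of `cube_abs` -/
theorem CC_hT {na n0 n1 n2 : Type} [Fintype na] [DecidableEq na] [Fintype n0] [DecidableEq n0]
    [Fintype n1] [DecidableEq n1] [Fintype n2] [DecidableEq n2] (m b1 dA dE rA rB : ℕ)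
    (hm : dA + cFC N + 1 ≤ m) (hb1 : dE + cFC N + 1 ≤ b1) (hb : cFC N + m + dE ≤ b1 + dA)
    (hna : (Fintype.card na : ℤ) = (m : ℤ) + 1 - genusR Qb (FB N) - dA)
    (hn1 : (Fintype.card n1 : ℤ) = (b1 : ℤ) + 1 - genusR Qb (FB N) - dE)
    (hn0 : (Fintype.card n0 : ℤ) = ((b1 : ℤ) - dE) - ((m : ℤ) - dA) + 1 - genusR Qb (FB N))
    (hn2 : (Fintype.card n2 : ℤ) = ((b1 : ℤ) - dE) + ((m : ℤ) - dA) + 1 - genusR Qb (FB N))
    (hrA : (rA : ℤ) = ((m : ℤ) + (m + cFC N)) + 1 - genusR Qb (FB N) - dA)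
    (hrB : (rB : ℤ) = ((b1 : ℤ) + (b1 + cFC N)) + 1 - genusR Qb (FB N) - dE)
    (ε : n1 ⊕ n1 ≃ n0 ⊕ n2)
    (a : Matrix na (Fin (dV N m)) Qb) (b' : Matrix n1 (Fin (dV N b1)) Qb)
    (hZA : ∀ f ∈ CC_Z N na m rA,
      MvPolynomial.aeval (fun x : na × Fin (dV N m) => a x.1 x.2) f = 0)
    (hZB : ∀ f ∈ CC_Z N n1 b1 rB,
      MvPolynomial.aeval (fun x : n1 × Fin (dV N b1) => b' x.1 x.2) f = 0)
    (ha : plu a ≠ 0) (hb' : plu b' ≠ 0) :
    ∃ s ∈ rsp a, ∃ t ∈ rsp a, Fintype.card n2 ≤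
      Module.finrank Qb (Submodule.span Qb (Set.range (UMrow (tau N m b1) b' s t))) := by
  have hc := cFC_rr N
  obtain ⟨A', -, hAd, hArow⟩ := CC_point N m dA rA hm hna hrA a ha hZA
  obtain ⟨E', -, hEd, hErow⟩ := CC_point N b1 dE rB hb1 hn1 hrB b' hb' hZB
  have hdD : Divisor.degree (dvo N m 0 - A') = (m : ℤ) - dA := by
    rw [map_sub, CC_deg_dvo0, hAd]
  have hdD1 : Divisor.degree (dvo N b1 0 - E') = (b1 : ℤ) - dE := by
    rw [map_sub, CC_deg_dvo0, hEd]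
  obtain ⟨sF, tF, hp⟩ := exists_pencil (isFF_FB N) hc (dvo N m 0 - A') (by rw [hdD]; omega)
  obtain ⟨s, hs, hsF⟩ := NV_exists_row_vec (bas N m) a sF (by rw [hArow]; exact hp.1)
  obtain ⟨t, ht, htF⟩ := NV_exists_row_vec (bas N m) a tF (by rw [hArow]; exact hp.2.1)
  subst hsF htF
  obtain ⟨J, I, hT⟩ := NV_T_ne_zero (isFF_FB N) hc (bas N m) (bas N b1) (bas N (b1 + m))
    (tau N m b1) (CC_li_bas N _) (CC_hcst N _ _ (FCM_tau_spec N _ _)) ε b' (dvo N m 0 - A')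
    (dvo N b1 0 - E') hErow
    (by
      have := hc (dvo N b1 0 - E' - (dvo N m 0 - A')) (by rw [map_sub, hdD, hdD1]; omega)
      rw [map_sub, hdD, hdD1] at this
      omega)
    (by
      have := hc (dvo N b1 0 - E' + (dvo N m 0 - A')) (by rw [map_add, hdD, hdD1]; omega)
      rw [map_add, hdD, hdD1] at this
      omega)
    (by rw [hdD]; omega) (by rw [map_sub, hdD, hdD1]; omega) s t hp
  refine ⟨s, hs, t, ht, ?_⟩
  by_contra hlt
  push Not at hlt
  exact hT (FACT_zero_of_finrank_lt (tau N m b1) ε b' s t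
    (Submodule.span Qb (Set.range (UMrow (tau N m b1) b' s t)))
    (fun r => Submodule.subset_span (Set.mem_range_self r)) hlt J I)

end Fermat.Agent.S17Lib
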