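import Mathlib

/-!
# S17, chapter CUBE, leaf EXT: completion of independent rows to an invertible matrix
-/

set_option autoImplicit false

namespace Fermat.Agent.S17Lib

open Matrix

theorem EXT_rows {n0 n2 : Type*} [Fintype n0] [DecidableEq n0] [Fintype n2] [DecidableEq n2]
    {k : Type*} [Field k] {ν : Type*} [Fintype ν] [DecidableEq ν]
    (ε : ν ≃ n0 ⊕ n2) (Λ : Matrix n0 ν k) (h : LinearIndependent k Λ.row) :
    ∃ Λ' : Matrix n2 ν k, ((Matrix.fromRows Λ Λ').submatrix id ε.symm).det ≠ 0 := by
  classical
  set W : Submodule k (ν → k) := Submodule.span k (Set.range Λ.row) with hW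
  have hcard : Fintype.card ν = Fintype.card n0 + Fintype.card n2 := by
    rw [Fintype.card_congr ε, Fintype.card_sum]
  have h1 : Module.finrank k W = Fintype.card n0 := finrank_span_eq_card h
  have h2 : Module.finrank k ((ν → k) ⧸ W) = Fintype.card n2 := by
    have := Submodule.finrank_quotient_add_finrank W
    rw [Module.finrank_fintype_fun_eq_card] at this
    omega
  let bq : Module.Basis n2 k ((ν → k) ⧸ W) :=
    (Module.finBasisOfFinrankEq k ((ν → k) ⧸ W) h2).reindex (Fintype.equivFin n2).symm
  let g : n2 → (ν → k) := fun i => Function.surjInv W.mkQ_surjective (bq i)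
  have hg : ∀ i, W.mkQ (g i) = bq i := fun i => Function.surjInv_eq W.mkQ_surjective (bq i)
  have hli : LinearIndependent k (Sum.elim Λ.row g) := by
    have := LinearIndependent.sumElim_of_quotient (M' := W) (linearIndependent_span h) g (by
      have e : (Submodule.Quotient.mk (p := W) ∘ g) = bq := funext hg
      rw [e]
      exact bq.linearIndependent)
    exact this
  refine ⟨Matrix.of g, ?_⟩
  set A := (Matrix.fromRows Λ (Matrix.of g)).submatrix id ε.symm with hA
  have hrow : A.row = (LinearMap.funLeft k k ε.symm) ∘ (Sum.elim Λ.row g) := by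
    funext r
    rcases r with r | r <;> rfl
  have hliA : LinearIndependent k A.row := by
    rw [hrow]
    exact hli.map' _ (LinearMap.ker_eq_bot.mpr
      (LinearMap.funLeft_injective_of_surjective k k _ ε.symm.surjective))
  have hu := Matrix.linearIndependent_rows_iff_isUnit.mp hliA
  exact ((Matrix.isUnit_iff_isUnit_det A).mp hu).ne_zero

end Fermat.Agent.S17Lib
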