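import Fermat.Agent.S17.Cube.Defs

/-!
# S17, chapter CUBE, leaf FACT (pure matrices)

`σ * Tdet(J,I) = Gplu(J) * plu b''(I)` for an exact complex `0 → W₀ → W' ⊕ W' → W'' → 0`,
and `Tdet = 0` if `μ_{s,t}` is not surjective.
-/

set_option autoImplicit false
set_option linter.unusedSectionVars false

namespace Fermat.Agent.S17Lib

open Matrix

section Fact

variable {R : Type*} [CommRing R] [Algebra ℚ R]
variable {ιm ι0 ι1 ι2 n0 n1 n2 : Type*} [Fintype ιm] [Fintype ι0] [Fintype ι1] [Fintype ι2]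
  [Fintype n0] [DecidableEq n0] [Fintype n1] [DecidableEq n1] [Fintype n2] [DecidableEq n2]

/-- the scalar `σ` attached to a splitting `[Λ ; Λ']` -/
def FACT_sig (ε : n1 ⊕ n1 ≃ n0 ⊕ n2) (Λ : Matrix n0 (n1 ⊕ n1) R) (Λ' : Matrix n2 (n1 ⊕ n1) R) : R :=
  ((Matrix.fromRows Λ Λ').submatrix id ε.symm).det

theorem FACT_Tmat_eq (c12 : ιm → ι1 → ι2 → ℚ) (ε : n1 ⊕ n1 ≃ n0 ⊕ n2) (b' : Matrix n1 ι1 R)
    (s t : ιm → R) (J : n0 → ι1 ⊕ ι1) (I : n2 → ι2) (b'' : Matrix n2 ι2 R)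
    (Γ : Matrix (n1 ⊕ n1) n2 R)
    (hΓ : (Matrix.of (UMrow c12 b' s t) : Matrix (n1 ⊕ n1) ι2 R) = Γ * b'') :
    Tmat c12 ε b' s t J I =
      ((Matrix.fromCols ((Matrix.of (Urow b') : Matrix (n1 ⊕ n1) (ι1 ⊕ ι1) R).submatrix id J)
        Γ).submatrix ε.symm id) * Matrix.fromBlocks 1 0 0 (b''.submatrix id I) := by
  ext r x
  have h : ∀ r' k, UMrow c12 b' s t r' k = (Γ * b'') r' k := fun r' k => by
    rw [← hΓ]; rfl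
  rcases x with j | i
  · simp [Tmat, Matrix.mul_apply, Fintype.sum_sum_type, Matrix.one_apply]
  · simp [Tmat, Matrix.mul_apply, Fintype.sum_sum_type, h]

/-- **FACT**, matrix form, any commutative ring. -/
theorem FACT_mat (c01 : ιm → ι0 → ι1 → ℚ) (c12 : ιm → ι1 → ι2 → ℚ) (ε : n1 ⊕ n1 ≃ n0 ⊕ n2)
    (b0 : Matrix n0 ι0 R) (b' : Matrix n1 ι1 R) (b'' : Matrix n2 ι2 R) (s t : ιm → R)
    (Γ : Matrix (n1 ⊕ n1) n2 R) (Λ : Matrix n0 (n1 ⊕ n1) R) (Λ' : Matrix n2 (n1 ⊕ n1) R)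
    (hΓ : (Matrix.of (UMrow c12 b' s t) : Matrix (n1 ⊕ n1) ι2 R) = Γ * b'')
    (hΛ : Gmat c01 b0 s t = Λ * (Matrix.of (Urow b') : Matrix (n1 ⊕ n1) (ι1 ⊕ ι1) R))
    (hΛΓ : Λ * Γ = 0) (J : n0 → ι1 ⊕ ι1) (I : n2 → ι2) :
    FACT_sig ε Λ Λ' * Tdet c12 ε b' s t J I =
      Gplu c01 b0 s t J * (Λ' * Γ).det * plu b'' I := by
  unfold Tdet FACT_sig
  rw [FACT_Tmat_eq c12 ε b' s t J I b'' Γ hΓ, Matrix.det_mul, ← mul_assoc, ← Matrix.det_mul,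
    Matrix.submatrix_mul_equiv, Matrix.submatrix_id_id, Matrix.fromRows_mul_fromCols, hΛΓ,
    Matrix.det_fromBlocks_zero₁₂, Matrix.det_fromBlocks_zero₁₂, Matrix.det_one, one_mul]
  have : Λ * (Matrix.of (Urow b') : Matrix (n1 ⊕ n1) (ι1 ⊕ ι1) R).submatrix id J
      = (Gmat c01 b0 s t).submatrix id J := by
    rw [hΛ]; ext i j; simp [Matrix.mul_apply]
  rw [this]
  rfl

/-- **FACT** for a split exact complex (`Λ' Γ = 1`). -/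
theorem FACT_exact (c01 : ιm → ι0 → ι1 → ℚ) (c12 : ιm → ι1 → ι2 → ℚ) (ε : n1 ⊕ n1 ≃ n0 ⊕ n2)
    (b0 : Matrix n0 ι0 R) (b' : Matrix n1 ι1 R) (b'' : Matrix n2 ι2 R) (s t : ιm → R)
    (Γ : Matrix (n1 ⊕ n1) n2 R) (Λ : Matrix n0 (n1 ⊕ n1) R) (Λ' : Matrix n2 (n1 ⊕ n1) R)
    (hΓ : (Matrix.of (UMrow c12 b' s t) : Matrix (n1 ⊕ n1) ι2 R) = Γ * b'')
    (hΛ : Gmat c01 b0 s t = Λ * (Matrix.of (Urow b') : Matrix (n1 ⊕ n1) (ι1 ⊕ ι1) R))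
    (hΛΓ : Λ * Γ = 0) (hΛ' : Λ' * Γ = 1) (J : n0 → ι1 ⊕ ι1) (I : n2 → ι2) :
    FACT_sig ε Λ Λ' * Tdet c12 ε b' s t J I = Gplu c01 b0 s t J * plu b'' I := by
  rw [FACT_mat c01 c12 ε b0 b' b'' s t Γ Λ Λ' hΓ hΛ hΛΓ J I, hΛ', Matrix.det_one, mul_one]

/-- `σ ≠ 0` is automatic. -/
theorem FACT_sig_ne_zero [IsDomain R] (c01 : ιm → ι0 → ι1 → ℚ) (c12 : ιm → ι1 → ι2 → ℚ)
    (ε : n1 ⊕ n1 ≃ n0 ⊕ n2)
    (b0 : Matrix n0 ι0 R) (b' : Matrix n1 ι1 R) (b'' : Matrix n2 ι2 R) (s t : ιm → R)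
    (Γ : Matrix (n1 ⊕ n1) n2 R) (Λ : Matrix n0 (n1 ⊕ n1) R) (Λ' : Matrix n2 (n1 ⊕ n1) R)
    (hΓ : (Matrix.of (UMrow c12 b' s t) : Matrix (n1 ⊕ n1) ι2 R) = Γ * b'')
    (hΛ : Gmat c01 b0 s t = Λ * (Matrix.of (Urow b') : Matrix (n1 ⊕ n1) (ι1 ⊕ ι1) R))
    (hΛΓ : Λ * Γ = 0) (hΛ' : Λ' * Γ = 1) (hG : Gplu c01 b0 s t ≠ 0) (hb'' : plu b'' ≠ 0) :
    FACT_sig ε Λ Λ' ≠ 0 := by
  intro h0
  obtain ⟨J, hJ⟩ := Function.ne_iff.mp hG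
  obtain ⟨I, hI⟩ := Function.ne_iff.mp hb''
  have := FACT_exact c01 c12 ε b0 b' b'' s t Γ Λ Λ' hΓ hΛ hΛΓ hΛ' J I
  rw [h0, zero_mul] at this
  exact mul_ne_zero hJ hI this.symm

/-- `Tdet = 0` if `Γ` kills a non-zero vector (`μ` not surjective onto `W''`). -/
theorem FACT_zero [IsDomain R] (c12 : ιm → ι1 → ι2 → ℚ) (ε : n1 ⊕ n1 ≃ n0 ⊕ n2)
    (b' : Matrix n1 ι1 R) (b'' : Matrix n2 ι2 R) (s t : ιm → R)
    (Γ : Matrix (n1 ⊕ n1) n2 R)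
    (hΓ : (Matrix.of (UMrow c12 b' s t) : Matrix (n1 ⊕ n1) ι2 R) = Γ * b'')
    (v : n2 → R) (hv : v ≠ 0) (hΓv : Γ.mulVec v = 0) (J : n0 → ι1 ⊕ ι1) (I : n2 → ι2) :
    Tdet c12 ε b' s t J I = 0 := by
  unfold Tdet
  rw [FACT_Tmat_eq c12 ε b' s t J I b'' Γ hΓ, Matrix.det_mul]
  have : ((Matrix.fromCols ((Matrix.of (Urow b') : Matrix (n1 ⊕ n1) (ι1 ⊕ ι1) R).submatrix id J)
        Γ).submatrix ε.symm id).det = 0 := by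
    rw [← Matrix.exists_mulVec_eq_zero_iff]
    refine ⟨Sum.elim 0 v, ?_, ?_⟩
    · intro h
      apply hv
      funext i
      simpa using congrFun h (Sum.inr i)
    · funext r
      have := congrFun hΓv (ε.symm r)
      simpa [Matrix.mulVec, dotProduct, Fintype.sum_sum_type] using this
  rw [this, zero_mul]

end Fact

end Fermat.Agent.S17Lib
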