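import Fermat.Agent.S17.Cube.PW
import Fermat.Agent.S17.Cube.Nat

/-!
# S17, chapter CUBE: (IDENT) the proportionality `T₁ ⊗ G₂ ⊗ P₂'' = κ T₂ ⊗ G₁ ⊗ P₁''`
-/

set_option autoImplicit false
set_option linter.unusedSectionVars false

namespace Fermat.Agent.S17Lib

open Matrix

section gen

variable {k : Type*} [Field k]

theorem ID_mem_rsp_iff {n ι : Type*} [Fintype n] (B : Matrix n ι k) (v : ι → k) :
    v ∈ rsp B ↔ ∃ x : n → k, x ᵥ* B = v := by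
  rw [Submodule.mem_span_range_iff_exists_fun]
  simp only [Matrix.vecMul_eq_sum]
  rfl

theorem ID_vecMul_mem {n ι : Type*} [Fintype n] (B : Matrix n ι k) (x : n → k) :
    x ᵥ* B ∈ rsp B := (ID_mem_rsp_iff B _).mpr ⟨x, rfl⟩

theorem ID_row_mem {n ι : Type*} (B : Matrix n ι k) (i : n) : B i ∈ rsp B :=
  Submodule.subset_span ⟨i, rfl⟩

theorem ID_L1 {n ι : Type*} [Fintype n] [DecidableEq n] [Fintype ι] (B : Matrix n ι k)
    (ρ : Matrix ι n k) (h : B * ρ = 1) (v : ι → k) (hv : v ∈ rsp B) : (v ᵥ* ρ) ᵥ* B = v := by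
  obtain ⟨x, rfl⟩ := (ID_mem_rsp_iff B v).mp hv
  rw [Matrix.vecMul_vecMul x B ρ, h, Matrix.vecMul_one]

theorem ID_L2 {n φ ι : Type*} [Fintype n] [DecidableEq n] [Fintype φ] [DecidableEq φ] [Fintype ι]
    (b : Matrix n ι k) (y : Matrix φ ι k) (ρ : Matrix ι (n ⊕ φ) k)
    (h : Matrix.fromRows b y * ρ = 1) (v : ι → k) (hv : v ∈ rsp b) (q : φ) :
    (v ᵥ* ρ) (Sum.inr q) = 0 := by
  obtain ⟨x, rfl⟩ := (ID_mem_rsp_iff b v).mp hv
  have : x ᵥ* b = (Sum.elim x (0 : φ → k)) ᵥ* Matrix.fromRows b y := by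
    rw [Matrix.sumElim_vecMul_fromRows, Matrix.zero_vecMul, add_zero]
  rw [this, Matrix.vecMul_vecMul, h, Matrix.vecMul_one]
  rfl

theorem ID_exists_rinv {n ι : Type*} [Fintype n] [DecidableEq n] [Fintype ι]
    (B : Matrix n ι k) (h : plu B ≠ 0) : ∃ ρ : Matrix ι n k, B * ρ = 1 := by
  classical
  rw [LA_plu_ne_zero_iff] at h
  exact LA_exists_right_inverse B (Matrix.vecMul_injective_iff.mpr h)

end gen

section mulC

variable {R : Type*} [CommRing R] [Algebra ℚ R]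
variable {ιm ι ι' : Type*} [Fintype ιm] [Fintype ι]

/-- the matrix of products `s * B_i` -/
def ID_M {n : Type*} (c : ιm → ι → ι' → ℚ) (B : Matrix n ι R) (s : ιm → R) : Matrix n ι' R :=
  Matrix.of fun i => mulC c s (B i)

theorem ID_mulC_vecMul {n : Type*} [Fintype n] (c : ιm → ι → ι' → ℚ) (B : Matrix n ι R)
    (s : ιm → R) (x : n → R) : mulC c s (x ᵥ* B) = x ᵥ* ID_M c B s := by
  funext j
  simp only [mulC, Matrix.vecMul, dotProduct, ID_M, Matrix.of_apply, Finset.mul_sum]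
  rw [Finset.sum_comm (s := (Finset.univ : Finset n))]
  refine Finset.sum_congr rfl fun i _ => ?_
  rw [Finset.sum_comm (s := (Finset.univ : Finset n))]
  refine Finset.sum_congr rfl fun i' _ => Finset.sum_congr rfl fun l _ => ?_
  ring

theorem ID_M_mul {n p : Type*} [Fintype n] (c : ιm → ι → ι' → ℚ) (g : Matrix p n R)
    (B : Matrix n ι R) (s : ιm → R) : ID_M c (g * B) s = g * ID_M c B s := by
  ext i j
  have := congrFun (ID_mulC_vecMul c B s (g i)) j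
  have h2 : (g * B) i = g i ᵥ* B := by
    funext l
    simp [Matrix.mul_apply, Matrix.vecMul, dotProduct]
  simp only [ID_M, Matrix.of_apply, h2, this]
  simp [Matrix.vecMul, Matrix.mul_apply, dotProduct, ID_M]

theorem ID_M_add {n : Type*} (c : ιm → ι → ι' → ℚ) (B : Matrix n ι R) (x y : R) (s t : ιm → R) :
    ID_M c B (x • s + y • t) = x • ID_M c B s + y • ID_M c B t := by
  ext i j
  simp only [ID_M, mulC, Matrix.of_apply, Pi.add_apply, Pi.smul_apply, smul_eq_mul,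
    Matrix.add_apply, Matrix.smul_apply, Finset.mul_sum, ← Finset.sum_add_distrib]
  exact Finset.sum_congr rfl fun _ _ => Finset.sum_congr rfl fun _ _ => by ring

end mulC

section blocks

variable {k : Type*} [Field k] [Algebra ℚ k]
variable {ιm ι ι' n n' φ : Type*} [Fintype ιm] [Fintype ι] [Fintype ι']
  [Fintype n] [DecidableEq n] [Fintype n'] [DecidableEq n'] [Fintype φ] [DecidableEq φ]

theorem ID_blocks (c : ιm → ι → ι' → ℚ) (b : Matrix n ι k) (y : Matrix φ ι k)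
    (b' : Matrix n' ι' k) (y' : Matrix φ ι' k) (ρ : Matrix ι' (n' ⊕ φ) k)
    (hρ : Matrix.fromRows b' y' * ρ = 1) (s : ιm → k)
    (h : ∀ z ∈ rsp b, mulC c s z ∈ rsp b')
    (h' : ∀ z ∈ rsp (Matrix.fromRows b y), mulC c s z ∈ rsp (Matrix.fromRows b' y')) :
    ID_M c (Matrix.fromRows b y) s = (ID_M c (Matrix.fromRows b y) s * ρ) * Matrix.fromRows b' y' ∧
      (ID_M c (Matrix.fromRows b y) s * ρ).toBlocks₁₂ = 0 := by
  constructor
  · ext i j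
    have h1 : ((ID_M c (Matrix.fromRows b y) s * ρ) * Matrix.fromRows b' y') i =
        mulC c s (Matrix.fromRows b y i) := by
      rw [Matrix.mul_apply_eq_vecMul, Matrix.mul_apply_eq_vecMul]
      exact ID_L1 _ ρ hρ _ (h' _ (ID_row_mem _ i))
    rw [h1]
    rfl
  · ext i q
    have h1 : (ID_M c (Matrix.fromRows b y) s * ρ) (Sum.inl i) = mulC c s (b i) ᵥ* ρ := by
      rw [Matrix.mul_apply_eq_vecMul]
      rfl
    show (ID_M c (Matrix.fromRows b y) s * ρ) (Sum.inl i) (Sum.inr q) = 0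
    rw [h1]
    exact ID_L2 b' y' ρ hρ _ (h _ (ID_row_mem b i)) q

theorem ID_det_ne (c : ιm → ι → ι' → ℚ) (b : Matrix n ι k) (y : Matrix φ ι k)
    (b' : Matrix n' ι' k) (y' : Matrix φ ι' k) (P : Matrix (n ⊕ φ) (n' ⊕ φ) k) (t0 : ιm → k)
    (hP : ID_M c (Matrix.fromRows b y) t0 = P * Matrix.fromRows b' y')
    (hb : plu (Matrix.fromRows b y) ≠ 0)
    (hinj : ∀ z ∈ rsp (Matrix.fromRows b y), mulC c t0 z ∈ rsp b' → z ∈ rsp b) :
    P.toBlocks₂₂.det ≠ 0 := by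
  classical
  intro hdet
  obtain ⟨x, hx0, hx⟩ := Matrix.exists_vecMul_eq_zero_iff.mpr hdet
  have hz : mulC c t0 ((Sum.elim (0 : n → k) x) ᵥ* Matrix.fromRows b y) =
      (x ᵥ* P.toBlocks₂₁) ᵥ* b' := by
    rw [ID_mulC_vecMul, hP, ← Matrix.vecMul_vecMul]
    have : (Sum.elim (0 : n → k) x) ᵥ* P = Sum.elim (x ᵥ* P.toBlocks₂₁) (0 : φ → k) := by
      conv_lhs => rw [← Matrix.fromBlocks_toBlocks P]
      rw [Matrix.vecMul_fromBlocks]
      have e1 : (Sum.elim (0 : n → k) x) ∘ Sum.inl = 0 := rfl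
      have e2 : (Sum.elim (0 : n → k) x) ∘ Sum.inr = x := rfl
      rw [e1, e2, hx, Matrix.zero_vecMul, Matrix.zero_vecMul, zero_add, zero_add]
    rw [this, Matrix.sumElim_vecMul_fromRows, Matrix.zero_vecMul, add_zero]
  have hz2 := hinj _ (ID_vecMul_mem _ _) (hz ▸ ID_vecMul_mem b' _)
  obtain ⟨w, hw⟩ := (ID_mem_rsp_iff b _).mp hz2
  have hw2 : (Sum.elim w (0 : φ → k)) ᵥ* Matrix.fromRows b y =
      (Sum.elim (0 : n → k) x) ᵥ* Matrix.fromRows b y := by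
    rw [← hw, Matrix.sumElim_vecMul_fromRows, Matrix.zero_vecMul, add_zero]
  rw [LA_plu_ne_zero_iff] at hb
  have := Matrix.vecMul_injective_iff.mpr hb hw2
  apply hx0
  funext q
  have := congrFun this (Sum.inr q)
  simpa using this.symm

end blocks

theorem ID_line (f g : Polynomial ℚ) (h : ∀ x : ℚ, f.eval x * g.eval x = 0)
    (h0 : f.eval 0 ≠ 0) : g.eval 1 = 0 := by
  have hfg : f * g = 0 := Polynomial.funext (fun x => by simp [h x])
  rcases mul_eq_zero.mp hfg with hf | hg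
  · exact absurd (by simp [hf]) h0
  · simp [hg]

section ident

variable {ιm ι0 ι1 ι2 n0 n1 n2 φ : Type*} [Fintype ιm] [Fintype ι0] [Fintype ι1] [Fintype ι2]
  [Fintype n0] [DecidableEq n0] [Fintype n1] [DecidableEq n1] [Fintype n2] [DecidableEq n2]
  [Fintype φ] [DecidableEq φ]

theorem ID_toBlocks₂₂_mul {k : Type*} [Field k] (A : Matrix (n0 ⊕ φ) (n1 ⊕ φ) k)
    (B : Matrix (n1 ⊕ φ) (n2 ⊕ φ) k) (hA : A.toBlocks₁₂ = 0) (hB : B.toBlocks₁₂ = 0) :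
    (A * B).toBlocks₂₂ = A.toBlocks₂₂ * B.toBlocks₂₂ := by
  conv_lhs => rw [← Matrix.fromBlocks_toBlocks A, ← Matrix.fromBlocks_toBlocks B,
    Matrix.fromBlocks_multiply, Matrix.toBlocks_fromBlocks₂₂, hB, Matrix.mul_zero, zero_add]

/-- (IDENT) the identity with a constant `κ`. -/
theorem cube_ident
    (c01 : ιm → ι0 → ι1 → ℚ) (c12 : ιm → ι1 → ι2 → ℚ)
    (hcomm : ∀ (s t : ιm → ℚ) (z : ι0 → ℚ),
      mulC c12 s (mulC c01 t z) = mulC c12 t (mulC c01 s z))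
    (ε : n1 ⊕ n1 ≃ n0 ⊕ n2) (S : Submodule ℚ (ιm → ℚ))
    (b0 : Matrix n0 ι0 ℚ) (y0 : Matrix φ ι0 ℚ) (b' : Matrix n1 ι1 ℚ) (y' : Matrix φ ι1 ℚ)
    (b'' : Matrix n2 ι2 ℚ) (y'' : Matrix φ ι2 ℚ)
    (hb0 : plu (Matrix.fromRows b0 y0) ≠ 0)
    (hb' : plu (Matrix.fromRows b' y') ≠ 0) (hb'' : plu (Matrix.fromRows b'' y'') ≠ 0)
    (h01 : ∀ s ∈ S, ∀ z ∈ rsp b0, mulC c01 s z ∈ rsp b')
    (h01' : ∀ s ∈ S, ∀ z ∈ rsp (Matrix.fromRows b0 y0), mulC c01 s z ∈ rsp (Matrix.fromRows b' y'))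
    (h12 : ∀ s ∈ S, ∀ z ∈ rsp b', mulC c12 s z ∈ rsp b'')
    (h12' : ∀ s ∈ S, ∀ z ∈ rsp (Matrix.fromRows b' y'),
      mulC c12 s z ∈ rsp (Matrix.fromRows b'' y''))
    (t0 : ιm → ℚ) (ht0 : t0 ∈ S)
    (ht01 : ∀ z ∈ rsp (Matrix.fromRows b0 y0), mulC c01 t0 z ∈ rsp b' → z ∈ rsp b0)
    (ht12 : ∀ z ∈ rsp (Matrix.fromRows b' y'), mulC c12 t0 z ∈ rsp b'' → z ∈ rsp b') :
    ∃ κ : ℚ, κ ≠ 0 ∧ ∀ s ∈ S, ∀ t ∈ S, ∀ (J1 : n0 ⊕ φ → ι1 ⊕ ι1) (I1 : n2 ⊕ φ → ι2)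
      (J2 : n0 → ι1 ⊕ ι1) (I2 : n2 → ι2),
      Tdet c12 (cubeEps φ ε) (Matrix.fromRows b' y') s t J1 I1 * Gplu c01 b0 s t J2 * plu b'' I2 =
      κ * (Tdet c12 ε b' s t J2 I2 * Gplu c01 (Matrix.fromRows b0 y0) s t J1
        * plu (Matrix.fromRows b'' y'') I1) := by
  classical
  obtain ⟨ρ1, hρ1⟩ := ID_exists_rinv _ hb'
  obtain ⟨ρ2, hρ2⟩ := ID_exists_rinv _ hb''
  set B0 := Matrix.fromRows b0 y0 with hB0
  set B1 := Matrix.fromRows b' y' with hB1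
  set B2 := Matrix.fromRows b'' y'' with hB2
  let P : (ιm → ℚ) → Matrix (n0 ⊕ φ) (n1 ⊕ φ) ℚ := fun s => ID_M c01 B0 s * ρ1
  let Rr : (ιm → ℚ) → Matrix (n1 ⊕ φ) (n2 ⊕ φ) ℚ := fun s => ID_M c12 B1 s * ρ2
  have hP : ∀ s ∈ S, ID_M c01 B0 s = P s * B1 ∧ (P s).toBlocks₁₂ = 0 := fun s hs =>
    ID_blocks c01 b0 y0 b' y' ρ1 hρ1 s (h01 s hs) (h01' s hs)
  have hR : ∀ s ∈ S, ID_M c12 B1 s = Rr s * B2 ∧ (Rr s).toBlocks₁₂ = 0 := fun s hs =>
    ID_blocks c12 b' y' b'' y'' ρ2 hρ2 s (h12 s hs) (h12' s hs)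
  have hcommM : ∀ t ∈ S, ∀ t' ∈ S, P t * Rr t' = P t' * Rr t := by
    intro t ht t' ht'
    show P t * (ID_M c12 B1 t' * ρ2) = P t' * (ID_M c12 B1 t * ρ2)
    rw [← Matrix.mul_assoc, ← Matrix.mul_assoc, ← ID_M_mul, ← ID_M_mul, ← (hP t ht).1,
      ← (hP t' ht').1]
    congr 1
    ext i j
    exact congrFun (hcomm t' t (B0 i)) j
  have hdet : ∀ t ∈ S, ∀ t' ∈ S, (P t).toBlocks₂₂.det * (Rr t').toBlocks₂₂.det =
      (P t').toBlocks₂₂.det * (Rr t).toBlocks₂₂.det := by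
    intro t ht t' ht'
    rw [← Matrix.det_mul, ← Matrix.det_mul, ← ID_toBlocks₂₂_mul _ _ (hP t ht).2 (hR t' ht').2,
      ← ID_toBlocks₂₂_mul _ _ (hP t' ht').2 (hR t ht).2, hcommM t ht t' ht']
  have hp0 : (P t0).toBlocks₂₂.det ≠ 0 :=
    ID_det_ne c01 b0 y0 b' y' (P t0) t0 (hP t0 ht0).1 hb0 ht01
  have hr0 : (Rr t0).toBlocks₂₂.det ≠ 0 :=
    ID_det_ne c12 b' y' b'' y'' (Rr t0) t0 (hR t0 ht0).1 hb' ht12
  refine ⟨(Rr t0).toBlocks₂₂.det / (P t0).toBlocks₂₂.det, div_ne_zero hr0 hp0, ?_⟩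
  set κ := (Rr t0).toBlocks₂₂.det / (P t0).toBlocks₂₂.det with hκ
  -- the identity up to the factor `det P'_t`
  have hpw : ∀ s ∈ S, ∀ t ∈ S, ∀ (J1 : n0 ⊕ φ → ι1 ⊕ ι1) (I1 : n2 ⊕ φ → ι2)
      (J2 : n0 → ι1 ⊕ ι1) (I2 : n2 → ι2), (P t).toBlocks₂₂.det *
      (Tdet c12 (cubeEps φ ε) B1 s t J1 I1 * Gplu c01 b0 s t J2 * plu b'' I2 -
      κ * (Tdet c12 ε b' s t J2 I2 * Gplu c01 B0 s t J1 * plu B2 I1)) = 0 := by
    intro s hs t ht J1 I1 J2 I2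
    have h1 := PW_ident c01 c12 hcomm ε b0 y0 b' y' b'' y'' hb'' s t
      (P s).toBlocks₁₁ (P t).toBlocks₁₁ (P s).toBlocks₂₁ (P t).toBlocks₂₁
      (P s).toBlocks₂₂ (P t).toBlocks₂₂
      (Rr s).toBlocks₁₁ (Rr t).toBlocks₁₁ (Rr s).toBlocks₂₁ (Rr t).toBlocks₂₁
      (Rr s).toBlocks₂₂ (Rr t).toBlocks₂₂
      (by rw [← (hP s hs).2, Matrix.fromBlocks_toBlocks]; exact (hP s hs).1)
      (by rw [← (hP t ht).2, Matrix.fromBlocks_toBlocks]; exact (hP t ht).1)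
      (by rw [← (hR s hs).2, Matrix.fromBlocks_toBlocks]; exact (hR s hs).1)
      (by rw [← (hR t ht).2, Matrix.fromBlocks_toBlocks]; exact (hR t ht).1) J1 I1 J2 I2
    have h2 := hdet t ht t0 ht0
    have h3 : (Rr t).toBlocks₂₂.det = (P t).toBlocks₂₂.det * κ := by
      rw [hκ]; field_simp; linarith
    rw [mul_sub, h1, h3]
    ring
  intro s hs t ht J1 I1 J2 I2
  let tX : ιm → Polynomial ℚ := fun i =>
    Polynomial.X * Polynomial.C (t i) + (1 - Polynomial.X) * Polynomial.C (t0 i)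
  let sC : ιm → Polynomial ℚ := fun i => Polynomial.C (s i)
  let g : Polynomial ℚ :=
    Tdet c12 (cubeEps φ ε) (B1.map Polynomial.C) sC tX J1 I1 *
      Gplu c01 (b0.map Polynomial.C) sC tX J2 * Polynomial.C (plu b'' I2) -
    Polynomial.C κ * (Tdet c12 ε (b'.map Polynomial.C) sC tX J2 I2 *
      Gplu c01 (B0.map Polynomial.C) sC tX J1 * Polynomial.C (plu B2 I1))
  let f : Polynomial ℚ := ((Polynomial.X : Polynomial ℚ) • ((P t).toBlocks₂₂.map Polynomial.C) +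
    ((1 : Polynomial ℚ) - Polynomial.X) • ((P t0).toBlocks₂₂.map Polynomial.C)).det
  have hg : ∀ x : ℚ, g.eval x =
      Tdet c12 (cubeEps φ ε) B1 s (x • t + (1 - x) • t0) J1 I1 *
        Gplu c01 b0 s (x • t + (1 - x) • t0) J2 * plu b'' I2 -
      κ * (Tdet c12 ε b' s (x • t + (1 - x) • t0) J2 I2 *
        Gplu c01 B0 s (x • t + (1 - x) • t0) J1 * plu B2 I1) := by
    intro x
    have e : ∀ p : Polynomial ℚ, p.eval x = Polynomial.aeval x p := fun p => by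
      rw [Polynomial.coe_aeval_eq_eval]
    have hs' : (Polynomial.aeval x : Polynomial ℚ →ₐ[ℚ] ℚ) ∘ sC = s := by
      funext i
      simp [sC]
    have ht' : (Polynomial.aeval x : Polynomial ℚ →ₐ[ℚ] ℚ) ∘ tX = x • t + (1 - x) • t0 := by
      funext i
      simp [tX]
      ring
    have hid : (Polynomial.eval x ∘ ⇑(Polynomial.C : ℚ →+* Polynomial ℚ)) = id := by
      funext y
      simp
    rw [e]
    simp only [g, map_sub, map_mul, NAT_map_Tdet, NAT_map_Gplu, hs', ht']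
    simp [hid]
  have hf : ∀ x : ℚ, f.eval x = (P (x • t + (1 - x) • t0)).toBlocks₂₂.det := by
    intro x
    have h1 : P (x • t + (1 - x) • t0) = x • P t + (1 - x) • P t0 := by
      show ID_M c01 B0 _ * ρ1 = x • (ID_M c01 B0 t * ρ1) + (1 - x) • (ID_M c01 B0 t0 * ρ1)
      rw [ID_M_add, Matrix.add_mul, Matrix.smul_mul, Matrix.smul_mul]
    rw [h1]
    show (Polynomial.evalRingHom x) f = _
    simp only [f]
    rw [RingHom.map_det]
    congr 1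
    ext i j
    simp [Matrix.toBlocks₂₂]
    ring
  have hfin := ID_line f g (fun x => by
    rw [hf, hg]
    exact hpw s hs _ (S.add_mem (S.smul_mem _ ht) (S.smul_mem _ ht0)) J1 I1 J2 I2)
    (by rw [hf]; simpa using hp0)
  rw [hg] at hfin
  simp only [one_smul, sub_self, zero_smul, add_zero] at hfin
  linarith

end ident

end Fermat.Agent.S17Lib
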