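import Fermat.Agent.S17.Cube.Defs2
import Fermat.Agent.S17.Cube.Nat
import Fermat.Agent.S17.Frame.LA

/-!
# S17, chapter CUBE: IDENT (from the pointwise identity PW)

`IDH_ident_of_PW`: the relation `T₁ G₂ P₂'' = κ T₂ G₁ P₁''` with a constant `κ ≠ 0` which does not
depend on the pencil `(s,t)`, from the pointwise identity
`det P'_t * (T₁ G₂ P₂'') = det R'_t * (T₂ G₁ P₁'')` (given as a hypothesis `PW`).
-/

set_option autoImplicit false
set_option linter.unusedSectionVars false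

namespace Fermat.Agent.S17Lib

open Matrix Polynomial

section LA

variable {k : Type*} [Field k]

theorem IDH_mem_rsp_iff {n ι : Type*} [Fintype n] (b : Matrix n ι k) (x : ι → k) :
    x ∈ rsp b ↔ ∃ v : n → k, v ᵥ* b = x := by
  rw [rsp, Submodule.mem_span_range_iff_exists_fun]
  refine exists_congr fun v => ?_
  have : v ᵥ* b = ∑ i, v i • b.row i := by
    funext j
    simp [Matrix.vecMul, dotProduct, Finset.sum_apply, Matrix.row]
  rw [this]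

end LA

section ring

variable {R : Type*} [CommRing R]

theorem IDH_elim_vecMul {n φ ι : Type*} [Fintype n] [Fintype φ] (b : Matrix n ι R)
    (y : Matrix φ ι R) (u : n → R) (v : φ → R) :
    (Sum.elim u v) ᵥ* (Matrix.fromRows b y) = u ᵥ* b + v ᵥ* y := by
  funext j
  simp [Matrix.vecMul, dotProduct, Fintype.sum_sum_type]

theorem IDH_toBlocks₂₂_mul {a b c d e f : Type*} [Fintype c] [Fintype d]
    (A : Matrix (a ⊕ b) (c ⊕ d) R) (B : Matrix (c ⊕ d) (e ⊕ f) R) (h : B.toBlocks₁₂ = 0) :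
    (A * B).toBlocks₂₂ = A.toBlocks₂₂ * B.toBlocks₂₂ := by
  ext i j
  have h1 : ∀ x, B (Sum.inl x) (Sum.inr j) = 0 := fun x => congrFun (congrFun h x) j
  simp [Matrix.toBlocks₂₂, Matrix.mul_apply, Fintype.sum_sum_type, h1]

variable [Algebra ℚ R]
variable {ιm ι ι' : Type*} [Fintype ιm] [Fintype ι]

theorem IDH_mulC_vecMul {p : Type*} [Fintype p] (c : ιm → ι → ι' → ℚ) (s : ιm → R)
    (v : p → R) (B : Matrix p ι R) :
    mulC c s (v ᵥ* B) = v ᵥ* (Matrix.of fun i => mulC c s (B i)) := by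
  funext l
  simp only [mulC, Matrix.vecMul, dotProduct, Matrix.of_apply, Finset.mul_sum]
  rw [Finset.sum_comm (s := (Finset.univ : Finset p))]
  refine Finset.sum_congr rfl fun i _ => ?_
  rw [Finset.sum_comm (s := (Finset.univ : Finset p))]
  refine Finset.sum_congr rfl fun j _ => Finset.sum_congr rfl fun r _ => ?_
  ring

theorem IDH_mulC_add_smul (c : ιm → ι → ι' → ℚ) (s u : ιm → R) (x : R) (z : ι → R) :
    mulC c (s + x • u) z = mulC c s z + x • mulC c u z := by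
  funext l
  simp only [mulC, Pi.add_apply, Pi.smul_apply, smul_eq_mul, Finset.mul_sum,
    ← Finset.sum_add_distrib]
  refine Finset.sum_congr rfl fun i _ => Finset.sum_congr rfl fun j _ => ?_
  ring

theorem IDH_mul_of {p q : Type*} [Fintype q] (c : ιm → ι → ι' → ℚ) (s : ιm → R)
    (g : Matrix p q R) (B : Matrix q ι R) :
    g * (Matrix.of fun i => mulC c s (B i)) = Matrix.of fun i => mulC c s ((g * B) i) := by
  funext i
  rw [Matrix.mul_apply_eq_vecMul]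
  show _ = mulC c s ((g * B) i)
  rw [Matrix.mul_apply_eq_vecMul, IDH_mulC_vecMul]

/-- the matrix of the multiplication by `s`, via a right inverse `ρ` of the target basis. -/
def IDH_M {p p' : Type*} [Fintype ι'] (c : ιm → ι → ι' → ℚ) (B : Matrix p ι R)
    (ρ : Matrix ι' p' R) (s : ιm → R) : Matrix p p' R :=
  (Matrix.of fun i => mulC c s (B i)) * ρ

theorem IDH_M_add_smul {p p' : Type*} [Fintype ι'] (c : ιm → ι → ι' → ℚ) (B : Matrix p ι R)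
    (ρ : Matrix ι' p' R) (s u : ιm → R) (x : R) :
    IDH_M c B ρ (s + x • u) = IDH_M c B ρ s + x • IDH_M c B ρ u := by
  have h : (Matrix.of fun i => mulC c (s + x • u) (B i))
      = (Matrix.of fun i => mulC c s (B i)) + x • (Matrix.of fun i => mulC c u (B i)) := by
    funext i
    exact IDH_mulC_add_smul c s u x (B i)
  rw [IDH_M, h, Matrix.add_mul, Matrix.smul_mul]
  rfl

end ring

section field

variable {k : Type*} [Field k] [Algebra ℚ k]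
variable {ιm ι ι' : Type*} [Fintype ιm] [Fintype ι] [Fintype ι']

theorem IDH_M_spec {p p' : Type*} [Fintype p'] [DecidableEq p'] (c : ιm → ι → ι' → ℚ)
    (B : Matrix p ι k) (B' : Matrix p' ι' k) (ρ : Matrix ι' p' k) (hρ : B' * ρ = 1) (s : ιm → k)
    (h : ∀ i, mulC c s (B i) ∈ rsp B') :
    (Matrix.of fun i => mulC c s (B i)) = IDH_M c B ρ s * B' := by
  obtain ⟨g, hg⟩ := LA_exists_mul_of_span B' (Matrix.of fun i => mulC c s (B i)) h
  rw [IDH_M, hg, Matrix.mul_assoc g B' ρ, hρ, Matrix.mul_one]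

theorem IDH_M_block {n n' φ : Type*} [Fintype n'] [DecidableEq n'] [Fintype φ] [DecidableEq φ]
    (c : ιm → ι → ι' → ℚ) (b : Matrix n ι k) (y : Matrix φ ι k) (b' : Matrix n' ι' k)
    (y' : Matrix φ ι' k) (ρ : Matrix ι' (n' ⊕ φ) k) (hρ : Matrix.fromRows b' y' * ρ = 1)
    (s : ιm → k) (h : ∀ i, mulC c s (b i) ∈ rsp b') :
    (IDH_M c (Matrix.fromRows b y) ρ s).toBlocks₁₂ = 0 := by
  obtain ⟨g, hg⟩ := LA_exists_mul_of_span b' (Matrix.of fun i => mulC c s (b i)) h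
  ext i j
  have h3 : (IDH_M c (Matrix.fromRows b y) ρ s).toBlocks₁₂ i j
      = ((Matrix.of fun i => mulC c s (b i)) * ρ) i (Sum.inr j) := rfl
  rw [h3, hg, Matrix.mul_assoc, Matrix.mul_apply]
  apply Finset.sum_eq_zero
  intro l _
  have h4 : (b' * ρ) l (Sum.inr j) = 0 := by
    have := congrFun (congrFun hρ (Sum.inl l)) (Sum.inr j)
    rw [Matrix.fromRows_mul] at this
    simpa using this
  rw [h4, mul_zero]

theorem IDH_det_ne {n n' φ : Type*} [Fintype n] [DecidableEq n] [Fintype n'] [Fintype φ]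
    [DecidableEq φ] (c : ιm → ι → ι' → ℚ) (t0 : ιm → k) (b : Matrix n ι k) (y : Matrix φ ι k)
    (b' : Matrix n' ι' k) (y' : Matrix φ ι' k) (hB : plu (Matrix.fromRows b y) ≠ 0)
    (M : Matrix (n ⊕ φ) (n' ⊕ φ) k)
    (hM : (Matrix.of fun i => mulC c t0 (Matrix.fromRows b y i)) = M * Matrix.fromRows b' y')
    (hcan : ∀ z ∈ rsp (Matrix.fromRows b y), mulC c t0 z ∈ rsp b' → z ∈ rsp b) :
    M.toBlocks₂₂.det ≠ 0 := by
  intro h0
  obtain ⟨v, hv, hv0⟩ := Matrix.exists_vecMul_eq_zero_iff.mpr h0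
  have hli := LA_linearIndependent_of_plu_ne_zero _ hB
  have hinj : Function.Injective (fun x : n ⊕ φ → k => x ᵥ* Matrix.fromRows b y) :=
    (Matrix.vecMul_injective_iff).mpr hli
  have hz : (Sum.elim 0 v : n ⊕ φ → k) ᵥ* Matrix.fromRows b y ∈ rsp (Matrix.fromRows b y) :=
    (IDH_mem_rsp_iff _ _).2 ⟨_, rfl⟩
  have hz' : mulC c t0 ((Sum.elim 0 v : n ⊕ φ → k) ᵥ* Matrix.fromRows b y) ∈ rsp b' := by
    rw [IDH_mulC_vecMul, hM, ← Matrix.vecMul_vecMul]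
    have h1 : (Sum.elim 0 v : n ⊕ φ → k) ᵥ* M
        = (Sum.elim (v ᵥ* M.toBlocks₂₁) 0 : n' ⊕ φ → k) := by
      funext q
      rcases q with q | q
      · simp [Matrix.vecMul, dotProduct, Fintype.sum_sum_type, Matrix.toBlocks₂₁]
      · have := congrFun hv0 q
        simpa [Matrix.vecMul, dotProduct, Fintype.sum_sum_type, Matrix.toBlocks₂₂] using this
    rw [h1, IDH_elim_vecMul, Matrix.zero_vecMul, add_zero]
    exact (IDH_mem_rsp_iff _ _).2 ⟨_, rfl⟩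
  obtain ⟨u, hu⟩ := (IDH_mem_rsp_iff _ _).1 (hcan _ hz hz')
  have h2 : (Sum.elim u 0 : n ⊕ φ → k) = (Sum.elim 0 v : n ⊕ φ → k) := hinj (by
    show (Sum.elim u 0 : n ⊕ φ → k) ᵥ* Matrix.fromRows b y
      = (Sum.elim 0 v : n ⊕ φ → k) ᵥ* Matrix.fromRows b y
    rw [← hu, IDH_elim_vecMul, Matrix.zero_vecMul, add_zero])
  apply hv
  funext q
  have := congrFun h2 (Sum.inr q)
  simpa using this.symm

end field

section comm

variable {k : Type*} [Field k] [Algebra ℚ k]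
variable {ιm ι0 ι1 ι2 : Type*} [Fintype ιm] [Fintype ι0] [Fintype ι1] [Fintype ι2]

theorem IDH_comm {p0 p1 p2 : Type*} [Fintype p1] [Fintype p2] [DecidableEq p2]
    (c01 : ιm → ι0 → ι1 → ℚ) (c12 : ιm → ι1 → ι2 → ℚ)
    (hcomm : ∀ (s t : ιm → k) (z : ι0 → k),
      mulC c12 s (mulC c01 t z) = mulC c12 t (mulC c01 s z))
    (B0 : Matrix p0 ι0 k) (B1 : Matrix p1 ι1 k) (B2 : Matrix p2 ι2 k)
    (ρ2 : Matrix ι2 p2 k) (hρ2 : B2 * ρ2 = 1) (s t : ιm → k)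
    (M01s M01t : Matrix p0 p1 k) (M12s M12t : Matrix p1 p2 k)
    (h01s : (Matrix.of fun i => mulC c01 s (B0 i)) = M01s * B1)
    (h01t : (Matrix.of fun i => mulC c01 t (B0 i)) = M01t * B1)
    (h12s : (Matrix.of fun i => mulC c12 s (B1 i)) = M12s * B2)
    (h12t : (Matrix.of fun i => mulC c12 t (B1 i)) = M12t * B2) :
    M01s * M12t = M01t * M12s := by
  have e1 : M01s * M12t * B2 = Matrix.of fun i => mulC c12 t (mulC c01 s (B0 i)) := by
    rw [Matrix.mul_assoc, ← h12t, IDH_mul_of, ← h01s]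
    rfl
  have e2 : M01t * M12s * B2 = Matrix.of fun i => mulC c12 s (mulC c01 t (B0 i)) := by
    rw [Matrix.mul_assoc, ← h12s, IDH_mul_of, ← h01t]
    rfl
  have e3 : M01s * M12t * B2 = M01t * M12s * B2 := by
    rw [e1, e2]
    funext i
    exact hcomm t s (B0 i)
  have e4 := congrArg (· * ρ2) e3
  simpa [Matrix.mul_assoc, hρ2] using e4

end comm

section main

variable {ιm ι0 ι1 ι2 n0 n1 n2 φ : Type*} [Fintype ιm] [Fintype ι0] [Fintype ι1] [Fintype ι2]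
  [DecidableEq ι0] [DecidableEq ι1] [DecidableEq ι2]
  [Fintype n0] [DecidableEq n0] [Fintype n1] [DecidableEq n1] [Fintype n2] [DecidableEq n2]
  [Fintype φ] [DecidableEq φ]

/-- a polynomial identity `D(x) * E(x) = 0` on the rational line with `D(0) ≠ 0` gives `E(1) = 0`. -/
theorem IDH_line (pD pE : ℚ[X]) (h : ∀ x : ℚ, pD.eval x * pE.eval x = 0) (h0 : pD.eval 0 ≠ 0) :
    pE.eval 1 = 0 := by
  have h1 : pD * pE = 0 := Polynomial.funext fun x => by rw [eval_mul, h x, eval_zero]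
  rcases mul_eq_zero.mp h1 with h2 | h2
  · exact absurd (by rw [h2, eval_zero]) h0
  · rw [h2, eval_zero]

theorem IDH_map_C_map {p q : Type*} (B : Matrix p q ℚ) (x : ℚ) :
    (B.map (C : ℚ → ℚ[X])).map (aeval x : ℚ[X] →ₐ[ℚ] ℚ) = B := by
  ext i j
  simp

/-- **IDENT**, from the pointwise identity `PW`. -/
theorem IDH_ident_of_PW
    (c01 : ιm → ι0 → ι1 → ℚ) (c12 : ιm → ι1 → ι2 → ℚ)
    (hcomm : ∀ (s t : ιm → ℚ) (z : ι0 → ℚ),
      mulC c12 s (mulC c01 t z) = mulC c12 t (mulC c01 s z))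
    (ε : n1 ⊕ n1 ≃ n0 ⊕ n2) (S : Submodule ℚ (ιm → ℚ))
    (b0 : Matrix n0 ι0 ℚ) (y0 : Matrix φ ι0 ℚ) (b' : Matrix n1 ι1 ℚ) (y' : Matrix φ ι1 ℚ)
    (b'' : Matrix n2 ι2 ℚ) (y'' : Matrix φ ι2 ℚ)
    (hb0 : plu (Matrix.fromRows b0 y0) ≠ 0)
    (hb' : plu (Matrix.fromRows b' y') ≠ 0) (hb'' : plu (Matrix.fromRows b'' y'') ≠ 0)
    (h01 : ∀ s ∈ S, ∀ z ∈ rsp b0, mulC c01 s z ∈ rsp b')
    (h01' : ∀ s ∈ S, ∀ z ∈ rsp (Matrix.fromRows b0 y0), mulC c01 s z ∈ rsp (Matrix.fromRows b' y'))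
    (h12 : ∀ s ∈ S, ∀ z ∈ rsp b', mulC c12 s z ∈ rsp b'')
    (h12' : ∀ s ∈ S, ∀ z ∈ rsp (Matrix.fromRows b' y'),
      mulC c12 s z ∈ rsp (Matrix.fromRows b'' y''))
    (t0 : ιm → ℚ) (ht0 : t0 ∈ S)
    (ht01 : ∀ z ∈ rsp (Matrix.fromRows b0 y0), mulC c01 t0 z ∈ rsp b' → z ∈ rsp b0)
    (ht12 : ∀ z ∈ rsp (Matrix.fromRows b' y'), mulC c12 t0 z ∈ rsp b'' → z ∈ rsp b')
    (PW : ∀ (s t : ιm → ℚ)
      (Ps Pt : Matrix n0 n1 ℚ) (Qs Qt : Matrix φ n1 ℚ) (Ps' Pt' : Matrix φ φ ℚ)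
      (Rs Rt : Matrix n1 n2 ℚ) (Ss St : Matrix φ n2 ℚ) (Rs' Rt' : Matrix φ φ ℚ),
      (Matrix.of fun i => mulC c01 s (Matrix.fromRows b0 y0 i)) =
        Matrix.fromBlocks Ps 0 Qs Ps' * Matrix.fromRows b' y' →
      (Matrix.of fun i => mulC c01 t (Matrix.fromRows b0 y0 i)) =
        Matrix.fromBlocks Pt 0 Qt Pt' * Matrix.fromRows b' y' →
      (Matrix.of fun i => mulC c12 s (Matrix.fromRows b' y' i)) =
        Matrix.fromBlocks Rs 0 Ss Rs' * Matrix.fromRows b'' y'' →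
      (Matrix.of fun i => mulC c12 t (Matrix.fromRows b' y' i)) =
        Matrix.fromBlocks Rt 0 St Rt' * Matrix.fromRows b'' y'' →
      ∀ (J1 : n0 ⊕ φ → ι1 ⊕ ι1) (I1 : n2 ⊕ φ → ι2) (J2 : n0 → ι1 ⊕ ι1) (I2 : n2 → ι2),
      Pt'.det * (Tdet c12 (cubeEps φ ε) (Matrix.fromRows b' y') s t J1 I1 * Gplu c01 b0 s t J2
          * plu b'' I2) =
        Rt'.det * (Tdet c12 ε b' s t J2 I2 * Gplu c01 (Matrix.fromRows b0 y0) s t J1
          * plu (Matrix.fromRows b'' y'') I1)) :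
    ∃ κ : ℚ, κ ≠ 0 ∧ ∀ s ∈ S, ∀ t ∈ S, ∀ (J1 : n0 ⊕ φ → ι1 ⊕ ι1) (I1 : n2 ⊕ φ → ι2)
      (J2 : n0 → ι1 ⊕ ι1) (I2 : n2 → ι2),
      Tdet c12 (cubeEps φ ε) (Matrix.fromRows b' y') s t J1 I1 * Gplu c01 b0 s t J2 * plu b'' I2 =
      κ * (Tdet c12 ε b' s t J2 I2 * Gplu c01 (Matrix.fromRows b0 y0) s t J1
        * plu (Matrix.fromRows b'' y'') I1) := by
  -- right inverses
  obtain ⟨ρ1, hρ1⟩ := LA_exists_right_inverse (Matrix.fromRows b' y')
    ((Matrix.vecMul_injective_iff).mpr (LA_linearIndependent_of_plu_ne_zero _ hb'))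
  obtain ⟨ρ2, hρ2⟩ := LA_exists_right_inverse (Matrix.fromRows b'' y'')
    ((Matrix.vecMul_injective_iff).mpr (LA_linearIndependent_of_plu_ne_zero _ hb''))
  set B0 := Matrix.fromRows b0 y0 with hB0
  set B1 := Matrix.fromRows b' y' with hB1
  set B2 := Matrix.fromRows b'' y'' with hB2
  -- the multiplication matrices
  have row0 : ∀ i, B0 i ∈ rsp B0 := fun i => Submodule.subset_span ⟨i, rfl⟩
  have row1 : ∀ i, B1 i ∈ rsp B1 := fun i => Submodule.subset_span ⟨i, rfl⟩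
  have row0' : ∀ i, b0 i ∈ rsp b0 := fun i => Submodule.subset_span ⟨i, rfl⟩
  have row1' : ∀ i, b' i ∈ rsp b' := fun i => Submodule.subset_span ⟨i, rfl⟩
  have s01 : ∀ s ∈ S, (Matrix.of fun i => mulC c01 s (B0 i)) = IDH_M c01 B0 ρ1 s * B1 :=
    fun s hs => IDH_M_spec c01 B0 B1 ρ1 hρ1 s fun i => h01' s hs _ (row0 i)
  have s12 : ∀ s ∈ S, (Matrix.of fun i => mulC c12 s (B1 i)) = IDH_M c12 B1 ρ2 s * B2 :=
    fun s hs => IDH_M_spec c12 B1 B2 ρ2 hρ2 s fun i => h12' s hs _ (row1 i)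
  have z01 : ∀ s ∈ S, (IDH_M c01 B0 ρ1 s).toBlocks₁₂ = 0 :=
    fun s hs => IDH_M_block c01 b0 y0 b' y' ρ1 hρ1 s fun i => h01 s hs _ (row0' i)
  have z12 : ∀ s ∈ S, (IDH_M c12 B1 ρ2 s).toBlocks₁₂ = 0 :=
    fun s hs => IDH_M_block c12 b' y' b'' y'' ρ2 hρ2 s fun i => h12 s hs _ (row1' i)
  have f01 : ∀ s ∈ S, IDH_M c01 B0 ρ1 s = Matrix.fromBlocks (IDH_M c01 B0 ρ1 s).toBlocks₁₁ 0
      (IDH_M c01 B0 ρ1 s).toBlocks₂₁ (IDH_M c01 B0 ρ1 s).toBlocks₂₂ := fun s hs => by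
    conv_lhs => rw [← Matrix.fromBlocks_toBlocks (IDH_M c01 B0 ρ1 s), z01 s hs]
  have f12 : ∀ s ∈ S, IDH_M c12 B1 ρ2 s = Matrix.fromBlocks (IDH_M c12 B1 ρ2 s).toBlocks₁₁ 0
      (IDH_M c12 B1 ρ2 s).toBlocks₂₁ (IDH_M c12 B1 ρ2 s).toBlocks₂₂ := fun s hs => by
    conv_lhs => rw [← Matrix.fromBlocks_toBlocks (IDH_M c12 B1 ρ2 s), z12 s hs]
  set D : (ιm → ℚ) → ℚ := fun t => (IDH_M c01 B0 ρ1 t).toBlocks₂₂.det with hD
  set E : (ιm → ℚ) → ℚ := fun t => (IDH_M c12 B1 ρ2 t).toBlocks₂₂.det with hE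
  have hD0 : D t0 ≠ 0 := IDH_det_ne c01 t0 b0 y0 b' y' hb0 _ (s01 t0 ht0) ht01
  have hE0 : E t0 ≠ 0 := IDH_det_ne c12 t0 b' y' b'' y'' hb' _ (s12 t0 ht0) ht12
  -- commutation
  have hDE : ∀ t ∈ S, D t * E t0 = D t0 * E t := fun t ht => by
    have h1 := IDH_comm c01 c12 hcomm B0 B1 B2 ρ2 hρ2 t t0 _ _ _ _ (s01 t ht) (s01 t0 ht0)
      (s12 t ht) (s12 t0 ht0)
    have h2 := congrArg Matrix.toBlocks₂₂ h1
    rw [IDH_toBlocks₂₂_mul _ _ (z12 t0 ht0), IDH_toBlocks₂₂_mul _ _ (z12 t ht)] at h2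
    have h3 := congrArg Matrix.det h2
    rwa [Matrix.det_mul, Matrix.det_mul] at h3
  refine ⟨E t0 / D t0, div_ne_zero hE0 hD0, fun s hs t ht J1 I1 J2 I2 => ?_⟩
  -- the pointwise identity
  have key : ∀ u ∈ S, D u * (Tdet c12 (cubeEps φ ε) B1 s u J1 I1 * Gplu c01 b0 s u J2 * plu b'' I2
      - E t0 / D t0 * (Tdet c12 ε b' s u J2 I2 * Gplu c01 B0 s u J1 * plu B2 I1)) = 0 := by
    intro u hu
    have h1 := PW s u _ _ _ _ _ _ _ _ _ _ _ _
      (by rw [← f01 s hs]; exact s01 s hs) (by rw [← f01 u hu]; exact s01 u hu)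
      (by rw [← f12 s hs]; exact s12 s hs) (by rw [← f12 u hu]; exact s12 u hu) J1 I1 J2 I2
    have h2 : E u = E t0 / D t0 * D u := by
      field_simp
      linarith [hDE u hu]
    have h1' : D u * (Tdet c12 (cubeEps φ ε) B1 s u J1 I1 * Gplu c01 b0 s u J2 * plu b'' I2)
        = E u * (Tdet c12 ε b' s u J2 I2 * Gplu c01 B0 s u J1 * plu B2 I1) := h1
    rw [mul_sub, h1', h2]
    ring
  -- the line through `t0` and `t`
  let tX : ιm → ℚ[X] := fun i => C (t0 i) + X * C (t i - t0 i)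
  have htX : ∀ x : ℚ, (⇑(aeval x : ℚ[X] →ₐ[ℚ] ℚ)) ∘ tX = t0 + x • (t - t0) := by
    intro x
    funext i
    simp [tX]
  have hsX : ∀ x : ℚ, (⇑(aeval x : ℚ[X] →ₐ[ℚ] ℚ)) ∘ ((C : ℚ → ℚ[X]) ∘ s) = s := by
    intro x
    funext i
    simp
  have hmem : ∀ x : ℚ, t0 + x • (t - t0) ∈ S := fun x =>
    S.add_mem ht0 (S.smul_mem x (S.sub_mem ht ht0))
  let pD : ℚ[X] := ((IDH_M c01 B0 ρ1 t0).toBlocks₂₂.map (C : ℚ → ℚ[X])
    + (X : ℚ[X]) • (IDH_M c01 B0 ρ1 (t - t0)).toBlocks₂₂.map (C : ℚ → ℚ[X])).det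
  let pE : ℚ[X] := Tdet c12 (cubeEps φ ε) (B1.map (C : ℚ → ℚ[X])) ((C : ℚ → ℚ[X]) ∘ s) tX J1 I1
      * Gplu c01 (b0.map (C : ℚ → ℚ[X])) ((C : ℚ → ℚ[X]) ∘ s) tX J2 * C (plu b'' I2)
    - C (E t0 / D t0) * (Tdet c12 ε (b'.map (C : ℚ → ℚ[X])) ((C : ℚ → ℚ[X]) ∘ s) tX J2 I2
      * Gplu c01 (B0.map (C : ℚ → ℚ[X])) ((C : ℚ → ℚ[X]) ∘ s) tX J1 * C (plu B2 I1))
  have hpD : ∀ x : ℚ, pD.eval x = D (t0 + x • (t - t0)) := by
    intro x
    have h1 := (Polynomial.evalRingHom x).map_det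
      ((IDH_M c01 B0 ρ1 t0).toBlocks₂₂.map (C : ℚ → ℚ[X])
      + (X : ℚ[X]) • (IDH_M c01 B0 ρ1 (t - t0)).toBlocks₂₂.map (C : ℚ → ℚ[X]))
    rw [Polynomial.coe_evalRingHom] at h1
    rw [h1, hD]
    show _ = (IDH_M c01 B0 ρ1 (t0 + x • (t - t0))).toBlocks₂₂.det
    rw [IDH_M_add_smul]
    congr 1
    ext i j
    simp only [Matrix.toBlocks₂₂, RingHom.mapMatrix_apply, Matrix.map_apply, Matrix.add_apply,
      Matrix.smul_apply, Matrix.of_apply, smul_eq_mul, Polynomial.coe_evalRingHom, eval_add,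
      eval_mul, eval_C, eval_X]
  have hpE : ∀ x : ℚ, pE.eval x
      = Tdet c12 (cubeEps φ ε) B1 s (t0 + x • (t - t0)) J1 I1
          * Gplu c01 b0 s (t0 + x • (t - t0)) J2 * plu b'' I2
        - E t0 / D t0 * (Tdet c12 ε b' s (t0 + x • (t - t0)) J2 I2
          * Gplu c01 B0 s (t0 + x • (t - t0)) J1 * plu B2 I1) := by
    intro x
    rw [← Polynomial.coe_aeval_eq_eval]
    simp only [pE, map_sub, map_mul, NAT_map_Tdet, NAT_map_Gplu, IDH_map_C_map, htX, hsX,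
      Polynomial.aeval_C, Algebra.algebraMap_self, RingHom.id_apply]
  have h1 := IDH_line pD pE (fun x => by rw [hpD, hpE]; exact key _ (hmem x))
    (by rw [hpD]; simpa using hD0)
  rw [hpE] at h1
  have e1 : t0 + (1 : ℚ) • (t - t0) = t := by rw [one_smul]; abel
  rw [e1] at h1
  linarith

end main

end Fermat.Agent.S17Lib
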