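import Mathlib
import Fermat.Agent.S17.Cube.Defs

/-!
# S17, chapter CUBE: the abstract MAIN step

From the two height estimates (SEMI) for the families `Q12`, `Q21` and the proportionality (REL)
`T₁ ⊗ G₂ ⊗ P₂'' = κ T₂ ⊗ G₁ ⊗ P₁''` we get that the second difference does not depend on the base
point.
-/

set_option autoImplicit false

namespace Fermat.Agent.S17Lib

open Matrix Height

section

variable {n ιm ι0 ι1 ι2 : Type} [Fintype n] [DecidableEq n] [Fintype ιm] [Fintype ι0] [Fintype ι1]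
  [Fintype ι2]
variable {p0 p1 p2 q0 q1 q2 : Type} [Fintype p0] [DecidableEq p0] [Fintype p1] [DecidableEq p1]
  [Fintype p2] [DecidableEq p2] [Fintype q0] [DecidableEq q0] [Fintype q1] [DecidableEq q1]
  [Fintype q2] [DecidableEq q2]

/-- the grid of pencils -/
abbrev MA5_Grid (n ιm : Type) (D : ℕ) : Type := (n → ιm) × n → Fin (D + 1)

/-- the vector of the row space of `a` attached to a grid point -/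
def MA5_s {R : Type*} [CommRing R] {D : ℕ} (a : Matrix n ιm R) (γ : MA5_Grid n ιm D) : ιm → R :=
  sOf a (fun x => (γ x : ℕ))

/-- the family `T(b') ⊗ G(b0)` on the grid; `(p0,p1,p2)` are the row types of the complex of `b'`,
`q0` is the row type of `b0`. -/
def MA5_Q {R : Type*} [CommRing R] [Algebra ℚ R] (D : ℕ) (c01 : ιm → ι0 → ι1 → ℚ)
    (c12 : ιm → ι1 → ι2 → ℚ) (ε : p1 ⊕ p1 ≃ p0 ⊕ p2) (a : Matrix n ιm R) (b' : Matrix p1 ι1 R)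
    (b0 : Matrix q0 ι0 R) :
    (MA5_Grid n ιm D × MA5_Grid n ιm D) × ((p0 → ι1 ⊕ ι1) × (p2 → ι2)) × (q0 → ι1 ⊕ ι1) → R :=
  fun x => Tdet c12 ε b' (MA5_s a x.1.1) (MA5_s a x.1.2) x.2.1.1 x.2.1.2 *
    Gplu c01 b0 (MA5_s a x.1.1) (MA5_s a x.1.2) x.2.2

/-- (REL) on the grid -/
def MA5_Rel {R : Type*} [CommRing R] [Algebra ℚ R] (D : ℕ) (c01 : ιm → ι0 → ι1 → ℚ)
    (c12 : ιm → ι1 → ι2 → ℚ) (ε₁ : p1 ⊕ p1 ≃ p0 ⊕ p2) (ε₂ : q1 ⊕ q1 ≃ q0 ⊕ q2) (a : Matrix n ιm R)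
    (b0₁ : Matrix p0 ι0 R) (b'₁ : Matrix p1 ι1 R) (b''₁ : Matrix p2 ι2 R)
    (b0₂ : Matrix q0 ι0 R) (b'₂ : Matrix q1 ι1 R) (b''₂ : Matrix q2 ι2 R) (κ : R) : Prop :=
  ∀ (γ γ' : MA5_Grid n ιm D) (J₁ : p0 → ι1 ⊕ ι1) (I₁ : p2 → ι2) (J₂ : q0 → ι1 ⊕ ι1) (I₂ : q2 → ι2),
    Tdet c12 ε₁ b'₁ (MA5_s a γ) (MA5_s a γ') J₁ I₁ * Gplu c01 b0₂ (MA5_s a γ) (MA5_s a γ') J₂ *
        plu b''₂ I₂ =
      κ * (Tdet c12 ε₂ b'₂ (MA5_s a γ) (MA5_s a γ') J₂ I₂ *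
        Gplu c01 b0₁ (MA5_s a γ) (MA5_s a γ') J₁ * plu b''₁ I₁)

/-- abstract MAIN, pointwise form. -/
theorem MA5_cube_point (D : ℕ) (c01 : ιm → ι0 → ι1 → ℚ) (c12 : ιm → ι1 → ι2 → ℚ)
    (ε₁ : p1 ⊕ p1 ≃ p0 ⊕ p2) (ε₂ : q1 ⊕ q1 ≃ q0 ⊕ q2) (a : Matrix n ιm ℚ)
    (b0₁ : Matrix p0 ι0 ℚ) (b'₁ : Matrix p1 ι1 ℚ) (b''₁ : Matrix p2 ι2 ℚ)
    (b0₂ : Matrix q0 ι0 ℚ) (b'₂ : Matrix q1 ι1 ℚ) (b''₂ : Matrix q2 ι2 ℚ)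
    (w C₁ C₂ : ℝ)
    (h12 : |logHeight (MA5_Q D c01 c12 ε₁ a b'₁ b0₂) -
      (w * logHeight (plu a) + 2 * logHeight (plu b'₁) + 1 * logHeight (plu b0₂))| ≤ C₁)
    (h21 : |logHeight (MA5_Q D c01 c12 ε₂ a b'₂ b0₁) -
      (w * logHeight (plu a) + 2 * logHeight (plu b'₂) + 1 * logHeight (plu b0₁))| ≤ C₂)
    (hQ : MA5_Q D c01 c12 ε₁ a b'₁ b0₂ ≠ 0)
    (hb₁ : plu b''₁ ≠ 0) (hb₂ : plu b''₂ ≠ 0)
    (κ : ℚ) (hκ : κ ≠ 0)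
    (hrel : MA5_Rel D c01 c12 ε₁ ε₂ a b0₁ b'₁ b''₁ b0₂ b'₂ b''₂ κ) :
    |(2 * logHeight (plu b'₁) - logHeight (plu b0₁) - logHeight (plu b''₁)) -
      (2 * logHeight (plu b'₂) - logHeight (plu b0₂) - logHeight (plu b''₂))| ≤ C₁ + C₂ := by
  classical
  set Q12 := MA5_Q D c01 c12 ε₁ a b'₁ b0₂ with hQ12
  set Q21 := MA5_Q D c01 c12 ε₂ a b'₂ b0₁ with hQ21
  -- `Q21 ≠ 0`
  have hQ' : Q21 ≠ 0 := by
    intro h0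
    obtain ⟨x, hx⟩ := Function.ne_iff.mp hQ
    obtain ⟨I₂, hI₂⟩ := Function.ne_iff.mp hb₂
    obtain ⟨I₁, -⟩ := Function.ne_iff.mp hb₁
    have h1 := hrel x.1.1 x.1.2 x.2.1.1 x.2.1.2 x.2.2 I₂
    have h2 : Tdet c12 ε₂ b'₂ (MA5_s a x.1.1) (MA5_s a x.1.2) x.2.2 I₂ *
        Gplu c01 b0₁ (MA5_s a x.1.1) (MA5_s a x.1.2) x.2.1.1 = 0 :=
      congrFun h0 ((x.1.1, x.1.2), (x.2.2, I₂), x.2.1.1)
    rw [h2, zero_mul, mul_zero] at h1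
    exact (mul_ne_zero hx hI₂) h1
  have e1 := logHeight_fun_mul_eq hQ hb₂
  have e2 := logHeight_fun_mul_eq hQ' hb₁
  -- the reindexing
  let e : (((MA5_Grid n ιm D × MA5_Grid n ιm D) × ((p0 → ι1 ⊕ ι1) × (p2 → ι2)) × (q0 → ι1 ⊕ ι1)) ×
      (q2 → ι2)) ≃
      (((MA5_Grid n ιm D × MA5_Grid n ιm D) × ((q0 → ι1 ⊕ ι1) × (q2 → ι2)) × (p0 → ι1 ⊕ ι1)) ×
      (p2 → ι2)) :=
    { toFun := fun x => ((x.1.1, (x.1.2.2, x.2), x.1.2.1.1), x.1.2.1.2)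
      invFun := fun y => ((y.1.1, (y.1.2.2, y.2), y.1.2.1.1), y.1.2.1.2)
      left_inv := fun x => rfl
      right_inv := fun y => rfl }
  have e3 : (fun x : ((MA5_Grid n ιm D × MA5_Grid n ιm D) × ((p0 → ι1 ⊕ ι1) × (p2 → ι2)) ×
      (q0 → ι1 ⊕ ι1)) × (q2 → ι2) => Q12 x.1 * plu b''₂ x.2) =
      κ • ((fun y : ((MA5_Grid n ιm D × MA5_Grid n ιm D) × ((q0 → ι1 ⊕ ι1) × (q2 → ι2)) ×
      (p0 → ι1 ⊕ ι1)) × (p2 → ι2) => Q21 y.1 * plu b''₁ y.2) ∘ e) := by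
    funext x
    exact hrel x.1.1.1 x.1.1.2 x.1.2.1.1 x.1.2.1.2 x.1.2.2 x.2
  have e4 : logHeight (fun x : ((MA5_Grid n ιm D × MA5_Grid n ιm D) ×
      ((p0 → ι1 ⊕ ι1) × (p2 → ι2)) × (q0 → ι1 ⊕ ι1)) × (q2 → ι2) => Q12 x.1 * plu b''₂ x.2) =
      logHeight (fun y : ((MA5_Grid n ιm D × MA5_Grid n ιm D) × ((q0 → ι1 ⊕ ι1) × (q2 → ι2)) ×
      (p0 → ι1 ⊕ ι1)) × (p2 → ι2) => Q21 y.1 * plu b''₁ y.2) := by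
    rw [e3, logHeight_smul_eq_logHeight _ hκ, logHeight_comp_equiv]
  rw [e1, e2] at e4
  rw [abs_le] at h12 h21 ⊢
  constructor <;> linarith [h12.1, h12.2, h21.1, h21.2]

end

end Fermat.Agent.S17Lib
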