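import Mathlib
import Fermat.Agent.S17.Cube.MainAbs
import Fermat.Agent.S17.Cube.Semi
import Fermat.Agent.S17.Cube.Nat

/-!
# S17, chapter CUBE: the abstract MAIN theorem `MA5_cube_abs` (uniform constant)
-/

set_option autoImplicit false

namespace Fermat.Agent.S17Lib

open Matrix Height MvPolynomial

section

variable {n ιm ι0 ι1 ι2 : Type} [Fintype n] [DecidableEq n] [Fintype ιm] [Fintype ι0] [Fintype ι1]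
  [Fintype ι2]
variable {p0 p1 p2 q0 q1 q2 : Type} [Fintype p0] [DecidableEq p0] [Fintype p1] [DecidableEq p1]
  [Fintype p2] [DecidableEq p2] [Fintype q0] [DecidableEq q0] [Fintype q1] [DecidableEq q1]
  [Fintype q2] [DecidableEq q2]

theorem MA5_pack3_map {R R' : Type*} [CommRing R] [CommRing R'] (φ : R →+* R')
    {n₁ ι₁ n₂ ι₂ n₃ ι₃ : Type} (a₁ : Matrix n₁ ι₁ R) (a₂ : Matrix n₂ ι₂ R) (a₃ : Matrix n₃ ι₃ R) :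
    pack3 (a₁.map φ) (a₂.map φ) (a₃.map φ) = φ ∘ pack3 a₁ a₂ a₃ := by
  funext x
  rcases x with x | x | x <;> rfl

theorem MA5_aeval_map {L : Type*} [Field L] [Algebra ℚ L]
    {n₁ ι₁ n₂ ι₂ n₃ ι₃ : Type} (a₁ : Matrix n₁ ι₁ ℚ) (a₂ : Matrix n₂ ι₂ ℚ) (a₃ : Matrix n₃ ι₃ ℚ)
    (f : MvPolynomial (Var3 n₁ ι₁ n₂ ι₂ n₃ ι₃) ℚ) :
    aeval (pack3 (a₁.map (algebraMap ℚ L)) (a₂.map (algebraMap ℚ L)) (a₃.map (algebraMap ℚ L))) f =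
      algebraMap ℚ L (eval (pack3 a₁ a₂ a₃) f) := by
  rw [MA5_pack3_map, aeval_algebraMap_apply]
  rfl

theorem MA5_plu_map_ne {L : Type*} [Field L] [Algebra ℚ L] {k ι : Type} [Fintype k] [DecidableEq k]
    (a : Matrix k ι ℚ) (ha : plu a ≠ 0) : plu (a.map (algebraMap ℚ L)) ≠ 0 := by
  obtain ⟨I, hI⟩ := Function.ne_iff.mp ha
  refine Function.ne_iff.mpr ⟨I, ?_⟩
  have h1 : plu (a.map (algebraMap ℚ L)) I = algebraMap ℚ L (plu a I) := by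
    unfold plu
    rw [RingHom.map_det]
    rfl
  rw [h1]
  exact (map_ne_zero_iff _ (algebraMap ℚ L).injective).mpr hI

/-- the polynomial family on the grid -/
noncomputable def MA5_P (D : ℕ) (c01 : ιm → ι0 → ι1 → ℚ) (c12 : ιm → ι1 → ι2 → ℚ)
    (ε : p1 ⊕ p1 ≃ p0 ⊕ p2) :
    (MA5_Grid n ιm D × MA5_Grid n ιm D) × ((p0 → ι1 ⊕ ι1) × (p2 → ι2)) × (q0 → ι1 ⊕ ι1) →
      MvPolynomial (Var3 n ιm p1 ι1 q0 ι0) ℚ :=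
  fun x => Qpoly c01 c12 ε (fun y => (x.1.1 y : ℕ)) (fun y => (x.1.2 y : ℕ)) x.2.1.1 x.2.1.2 x.2.2

theorem MA5_aeval_P {R : Type*} [CommRing R] [Algebra ℚ R] (D : ℕ) (c01 : ιm → ι0 → ι1 → ℚ)
    (c12 : ιm → ι1 → ι2 → ℚ) (ε : p1 ⊕ p1 ≃ p0 ⊕ p2) (a : Matrix n ιm R) (b' : Matrix p1 ι1 R)
    (b0 : Matrix q0 ι0 R) (x) :
    aeval (pack3 a b' b0) (MA5_P (q0 := q0) D c01 c12 ε x) = MA5_Q D c01 c12 ε a b' b0 x :=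
  NAT_aeval_Qpoly c01 c12 ε _ _ _ _ _ a b' b0

theorem MA5_eval_P (D : ℕ) (c01 : ιm → ι0 → ι1 → ℚ)
    (c12 : ιm → ι1 → ι2 → ℚ) (ε : p1 ⊕ p1 ≃ p0 ⊕ p2) (a : Matrix n ιm ℚ) (b' : Matrix p1 ι1 ℚ)
    (b0 : Matrix q0 ι0 ℚ) (x) :
    eval (pack3 a b' b0) (MA5_P (q0 := q0) D c01 c12 ε x) = MA5_Q D c01 c12 ε a b' b0 x :=
  NAT_eval_Qpoly c01 c12 ε _ _ _ _ _ a b' b0

/-- the non-vanishing hypothesis (NV) for one family -/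
def MA5_NV (D : ℕ) (c01 : ιm → ι0 → ι1 → ℚ) (c12 : ιm → ι1 → ι2 → ℚ) (ε : p1 ⊕ p1 ≃ p0 ⊕ p2)
    (Z : Set (MvPolynomial (Var3 n ιm p1 ι1 q0 ι0) ℚ)) : Prop :=
  ∀ (a : Matrix n ιm (AlgebraicClosure ℚ)) (b' : Matrix p1 ι1 (AlgebraicClosure ℚ))
    (b0 : Matrix q0 ι0 (AlgebraicClosure ℚ)), (∀ f ∈ Z, aeval (pack3 a b' b0) f = 0) →
    plu a ≠ 0 → plu b' ≠ 0 → plu b0 ≠ 0 → ∃ x, MA5_Q D c01 c12 ε a b' b0 x ≠ 0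

/-- stability of the equations under `GL × GL × GL` -/
def MA5_Stable {n₁ ι₁ n₂ ι₂ n₃ ι₃ : Type} [Fintype n₁] [Fintype n₂] [Fintype n₃]
    (Z : Set (MvPolynomial (Var3 n₁ ι₁ n₂ ι₂ n₃ ι₃) ℚ)) : Prop :=
  ∀ (g₁ : Matrix n₁ n₁ ℚ) (g₂ : Matrix n₂ n₂ ℚ) (g₃ : Matrix n₃ n₃ ℚ)
    (a₁ : Matrix n₁ ι₁ ℚ) (a₂ : Matrix n₂ ι₂ ℚ) (a₃ : Matrix n₃ ι₃ ℚ),
    (∀ f ∈ Z, eval (pack3 a₁ a₂ a₃) f = 0) →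
      ∀ f ∈ Z, eval (pack3 (g₁ * a₁) (g₂ * a₂) (g₃ * a₃)) f = 0

/-- (SEMI) for the family `Q`. -/
theorem MA5_semi (D : ℕ) (c01 : ιm → ι0 → ι1 → ℚ) (c12 : ιm → ι1 → ι2 → ℚ)
    (ε : p1 ⊕ p1 ≃ p0 ⊕ p2) (Z : Set (MvPolynomial (Var3 n ιm p1 ι1 q0 ι0) ℚ))
    (hZ : MA5_Stable Z) (hnv : MA5_NV D c01 c12 ε Z) :
    ∃ C : ℝ, ∀ (a : Matrix n ιm ℚ) (b' : Matrix p1 ι1 ℚ) (b0 : Matrix q0 ι0 ℚ),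
      (∀ f ∈ Z, eval (pack3 a b' b0) f = 0) → plu a ≠ 0 → plu b' ≠ 0 → plu b0 ≠ 0 →
      |logHeight (MA5_Q D c01 c12 ε a b' b0) -
        (((Fintype.card p2 + Fintype.card q0 : ℕ) : ℝ) * logHeight (plu a) +
          2 * logHeight (plu b') + 1 * logHeight (plu b0))| ≤ C := by
  have hs : ∀ (g₁ : Matrix n n ℚ) (g₂ : Matrix p1 p1 ℚ) (g₃ : Matrix q0 q0 ℚ)
      (a₁ : Matrix n ιm ℚ) (a₂ : Matrix p1 ι1 ℚ) (a₃ : Matrix q0 ι0 ℚ) (j),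
      eval (pack3 (g₁ * a₁) (g₂ * a₂) (g₃ * a₃)) (MA5_P (q0 := q0) D c01 c12 ε j) =
        g₁.det ^ (Fintype.card p2 + Fintype.card q0) * g₂.det ^ 2 * g₃.det ^ 1 *
          eval (pack3 a₁ a₂ a₃) (MA5_P (q0 := q0) D c01 c12 ε j) := by
    intro g₁ g₂ g₃ a₁ a₂ a₃ j
    exact NAT_hsemi c01 c12 ε _ _ _ _ _ g₁ g₂ g₃ a₁ a₂ a₃
  have hn : ∀ (a₁ : Matrix n ιm (AlgebraicClosure ℚ)) (a₂ : Matrix p1 ι1 (AlgebraicClosure ℚ))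
      (a₃ : Matrix q0 ι0 (AlgebraicClosure ℚ)), (∀ f ∈ Z, aeval (pack3 a₁ a₂ a₃) f = 0) →
      plu a₁ ≠ 0 → plu a₂ ≠ 0 → plu a₃ ≠ 0 →
      ∃ j, aeval (pack3 a₁ a₂ a₃) (MA5_P (q0 := q0) D c01 c12 ε j) ≠ 0 := by
    intro a₁ a₂ a₃ h h1 h2 h3
    obtain ⟨x, hx⟩ := hnv a₁ a₂ a₃ h h1 h2 h3
    exact ⟨x, by rw [MA5_aeval_P]; exact hx⟩
  have : Fintype ((MA5_Grid n ιm D × MA5_Grid n ιm D) × ((p0 → ι1 ⊕ ι1) × (p2 → ι2)) ×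
      (q0 → ι1 ⊕ ι1)) := Fintype.ofFinite _
  have key := semi_bound (MA5_P (q0 := q0) D c01 c12 ε) Z
    (Fintype.card p2 + Fintype.card q0) 2 1 hs hZ hn
  obtain ⟨C, hC⟩ := key
  refine ⟨C, fun a b' b0 h h1 h2 h3 => ?_⟩
  have h4 := hC a b' b0 h h1 h2 h3
  have e : (fun j => eval (pack3 a b' b0) (MA5_P (q0 := q0) D c01 c12 ε j)) =
      MA5_Q D c01 c12 ε a b' b0 := by
    funext x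
    rw [MA5_eval_P]
  rw [e] at h4
  have e2 : ((2 : ℕ) : ℝ) = 2 := by norm_num
  have e3 : ((1 : ℕ) : ℝ) = 1 := by norm_num
  rw [e2, e3] at h4
  exact h4

/-- `Q ≠ 0` at rational points of `Z`. -/
theorem MA5_Q_ne (D : ℕ) (c01 : ιm → ι0 → ι1 → ℚ) (c12 : ιm → ι1 → ι2 → ℚ)
    (ε : p1 ⊕ p1 ≃ p0 ⊕ p2) (Z : Set (MvPolynomial (Var3 n ιm p1 ι1 q0 ι0) ℚ))
    (hnv : MA5_NV D c01 c12 ε Z) (a : Matrix n ιm ℚ) (b' : Matrix p1 ι1 ℚ) (b0 : Matrix q0 ι0 ℚ)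
    (h : ∀ f ∈ Z, eval (pack3 a b' b0) f = 0) (h1 : plu a ≠ 0) (h2 : plu b' ≠ 0)
    (h3 : plu b0 ≠ 0) : MA5_Q D c01 c12 ε a b' b0 ≠ 0 := by
  obtain ⟨x, hx⟩ := hnv (a.map (algebraMap ℚ _)) (b'.map (algebraMap ℚ _))
    (b0.map (algebraMap ℚ _)) (fun f hf => by rw [MA5_aeval_map, h f hf, map_zero])
    (MA5_plu_map_ne a h1) (MA5_plu_map_ne b' h2) (MA5_plu_map_ne b0 h3)
  intro h0
  apply hx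
  rw [← MA5_aeval_P, MA5_aeval_map, MA5_eval_P, h0]
  simp

/-- **abstract MAIN**: the second difference does not depend on the base point. -/
theorem MA5_cube_abs (D : ℕ) (c01 : ιm → ι0 → ι1 → ℚ) (c12 : ιm → ι1 → ι2 → ℚ)
    (ε₁ : p1 ⊕ p1 ≃ p0 ⊕ p2) (ε₂ : q1 ⊕ q1 ≃ q0 ⊕ q2)
    (Z₁ : Set (MvPolynomial (Var3 n ιm p1 ι1 q0 ι0) ℚ))
    (Z₂ : Set (MvPolynomial (Var3 n ιm q1 ι1 p0 ι0) ℚ))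
    (hZ₁ : MA5_Stable Z₁) (hZ₂ : MA5_Stable Z₂)
    (hnv₁ : MA5_NV D c01 c12 ε₁ Z₁) (hnv₂ : MA5_NV D c01 c12 ε₂ Z₂)
    (hcard : Fintype.card p2 + Fintype.card q0 = Fintype.card q2 + Fintype.card p0) :
    ∃ C : ℝ, ∀ (a : Matrix n ιm ℚ)
      (b0₁ : Matrix p0 ι0 ℚ) (b'₁ : Matrix p1 ι1 ℚ) (b''₁ : Matrix p2 ι2 ℚ)
      (b0₂ : Matrix q0 ι0 ℚ) (b'₂ : Matrix q1 ι1 ℚ) (b''₂ : Matrix q2 ι2 ℚ),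
      (∀ f ∈ Z₁, eval (pack3 a b'₁ b0₂) f = 0) → (∀ f ∈ Z₂, eval (pack3 a b'₂ b0₁) f = 0) →
      plu a ≠ 0 → plu b0₁ ≠ 0 → plu b'₁ ≠ 0 → plu b''₁ ≠ 0 →
      plu b0₂ ≠ 0 → plu b'₂ ≠ 0 → plu b''₂ ≠ 0 →
      (∃ κ : ℚ, κ ≠ 0 ∧ MA5_Rel D c01 c12 ε₁ ε₂ a b0₁ b'₁ b''₁ b0₂ b'₂ b''₂ κ) →
      |(2 * logHeight (plu b'₁) - logHeight (plu b0₁) - logHeight (plu b''₁)) -
        (2 * logHeight (plu b'₂) - logHeight (plu b0₂) - logHeight (plu b''₂))| ≤ C := by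
  obtain ⟨C₁, hC₁⟩ := MA5_semi D c01 c12 ε₁ Z₁ hZ₁ hnv₁
  obtain ⟨C₂, hC₂⟩ := MA5_semi D c01 c12 ε₂ Z₂ hZ₂ hnv₂
  refine ⟨C₁ + C₂, fun a b0₁ b'₁ b''₁ b0₂ b'₂ b''₂ hz₁ hz₂ ha h01 h11 h21 h02 h12 h22 hk => ?_⟩
  obtain ⟨κ, hκ, hrel⟩ := hk
  have e1 := hC₁ a b'₁ b0₂ hz₁ ha h11 h02
  have e2 := hC₂ a b'₂ b0₁ hz₂ ha h12 h01
  rw [← hcard] at e2
  exact MA5_cube_point D c01 c12 ε₁ ε₂ a b0₁ b'₁ b''₁ b0₂ b'₂ b''₂ _ C₁ C₂ e1 e2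
    (MA5_Q_ne D c01 c12 ε₁ Z₁ hnv₁ a b'₁ b0₂ hz₁ ha h11 h02) h21 h22 κ hκ hrel

end

end Fermat.Agent.S17Lib
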