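import Mathlib
import Fermat.Agent.S17.Cube.MainAbs2

/-!
# S17, chapter CUBE: descent of the constant `κ` of (REL) from an extension field to `ℚ`
-/

set_option autoImplicit false

namespace Fermat.Agent.S17Lib

open Matrix

section

variable {n ιm ι0 ι1 ι2 : Type} [Fintype n] [DecidableEq n] [Fintype ιm] [Fintype ι0] [Fintype ι1]
  [Fintype ι2]
variable {p0 p1 p2 q0 q1 q2 : Type} [Fintype p0] [DecidableEq p0] [Fintype p1] [DecidableEq p1]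
  [Fintype p2] [DecidableEq p2] [Fintype q0] [DecidableEq q0] [Fintype q1] [DecidableEq q1]
  [Fintype q2] [DecidableEq q2]
variable {L : Type*} [Field L] [Algebra ℚ L]

theorem MA5_s_map {D : ℕ} (a : Matrix n ιm ℚ) (γ : MA5_Grid n ιm D) :
    MA5_s (a.map (algebraMap ℚ L)) γ = (Algebra.ofId ℚ L) ∘ MA5_s a γ :=
  (NAT_map_sOf' (algebraMap ℚ L) a _).symm

theorem MA5_Tdet_map {D : ℕ} (c12 : ιm → ι1 → ι2 → ℚ) (ε : p1 ⊕ p1 ≃ p0 ⊕ p2) (a : Matrix n ιm ℚ)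
    (b' : Matrix p1 ι1 ℚ) (γ γ' : MA5_Grid n ιm D) (J : p0 → ι1 ⊕ ι1) (I : p2 → ι2) :
    Tdet c12 ε (b'.map (algebraMap ℚ L)) (MA5_s (a.map (algebraMap ℚ L)) γ)
        (MA5_s (a.map (algebraMap ℚ L)) γ') J I =
      algebraMap ℚ L (Tdet c12 ε b' (MA5_s a γ) (MA5_s a γ') J I) := by
  rw [MA5_s_map, MA5_s_map]
  exact (NAT_map_Tdet (Algebra.ofId ℚ L) c12 ε b' _ _ J I).symm

theorem MA5_Gplu_map {D : ℕ} (c01 : ιm → ι0 → ι1 → ℚ) (a : Matrix n ιm ℚ)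
    (b0 : Matrix p0 ι0 ℚ) (γ γ' : MA5_Grid n ιm D) (J : p0 → ι1 ⊕ ι1) :
    Gplu c01 (b0.map (algebraMap ℚ L)) (MA5_s (a.map (algebraMap ℚ L)) γ)
        (MA5_s (a.map (algebraMap ℚ L)) γ') J =
      algebraMap ℚ L (Gplu c01 b0 (MA5_s a γ) (MA5_s a γ') J) := by
  rw [MA5_s_map, MA5_s_map]
  exact (NAT_map_Gplu (Algebra.ofId ℚ L) c01 b0 _ _ J).symm

/-- descent of `κ`: (REL) over `L` for rational matrices gives (REL) over `ℚ`. -/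
theorem MA5_rel_descent (D : ℕ) (c01 : ιm → ι0 → ι1 → ℚ) (c12 : ιm → ι1 → ι2 → ℚ)
    (ε₁ : p1 ⊕ p1 ≃ p0 ⊕ p2) (ε₂ : q1 ⊕ q1 ≃ q0 ⊕ q2) (a : Matrix n ιm ℚ)
    (b0₁ : Matrix p0 ι0 ℚ) (b'₁ : Matrix p1 ι1 ℚ) (b''₁ : Matrix p2 ι2 ℚ)
    (b0₂ : Matrix q0 ι0 ℚ) (b'₂ : Matrix q1 ι1 ℚ) (b''₂ : Matrix q2 ι2 ℚ)
    (hQ : MA5_Q D c01 c12 ε₂ a b'₂ b0₁ ≠ 0) (hb₁ : plu b''₁ ≠ 0)
    (κ : L) (hκ : κ ≠ 0)
    (hrel : MA5_Rel D c01 c12 ε₁ ε₂ (a.map (algebraMap ℚ L))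
      (b0₁.map (algebraMap ℚ L)) (b'₁.map (algebraMap ℚ L)) (b''₁.map (algebraMap ℚ L))
      (b0₂.map (algebraMap ℚ L)) (b'₂.map (algebraMap ℚ L)) (b''₂.map (algebraMap ℚ L)) κ) :
    ∃ κ' : ℚ, κ' ≠ 0 ∧ MA5_Rel D c01 c12 ε₁ ε₂ a b0₁ b'₁ b''₁ b0₂ b'₂ b''₂ κ' := by
  have hinj : Function.Injective (algebraMap ℚ L) := (algebraMap ℚ L).injective
  -- the relation, transported
  have h1 : ∀ (γ γ' : MA5_Grid n ιm D) (J₁ : p0 → ι1 ⊕ ι1) (I₁ : p2 → ι2) (J₂ : q0 → ι1 ⊕ ι1)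
      (I₂ : q2 → ι2),
      algebraMap ℚ L (Tdet c12 ε₁ b'₁ (MA5_s a γ) (MA5_s a γ') J₁ I₁ *
        Gplu c01 b0₂ (MA5_s a γ) (MA5_s a γ') J₂ * plu b''₂ I₂) =
      κ * algebraMap ℚ L (Tdet c12 ε₂ b'₂ (MA5_s a γ) (MA5_s a γ') J₂ I₂ *
        Gplu c01 b0₁ (MA5_s a γ) (MA5_s a γ') J₁ * plu b''₁ I₁) := by
    intro γ γ' J₁ I₁ J₂ I₂
    have h := hrel γ γ' J₁ I₁ J₂ I₂
    rw [MA5_Tdet_map, MA5_Tdet_map, MA5_Gplu_map, MA5_Gplu_map, ← NAT_map_plu, ← NAT_map_plu] at h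
    rw [map_mul, map_mul, map_mul, map_mul]
    exact h
  obtain ⟨x, hx⟩ := Function.ne_iff.mp hQ
  obtain ⟨I₁, hI₁⟩ := Function.ne_iff.mp hb₁
  set Y : ℚ := Tdet c12 ε₂ b'₂ (MA5_s a x.1.1) (MA5_s a x.1.2) x.2.1.1 x.2.1.2 *
    Gplu c01 b0₁ (MA5_s a x.1.1) (MA5_s a x.1.2) x.2.2 * plu b''₁ I₁ with hY
  have hY0 : Y ≠ 0 := mul_ne_zero hx hI₁
  set X : ℚ := Tdet c12 ε₁ b'₁ (MA5_s a x.1.1) (MA5_s a x.1.2) x.2.2 I₁ *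
    Gplu c01 b0₂ (MA5_s a x.1.1) (MA5_s a x.1.2) x.2.1.1 * plu b''₂ x.2.1.2 with hX
  have h2 : algebraMap ℚ L X = κ * algebraMap ℚ L Y := h1 x.1.1 x.1.2 x.2.2 I₁ x.2.1.1 x.2.1.2
  have hY0' : algebraMap ℚ L Y ≠ 0 := (map_ne_zero_iff _ hinj).mpr hY0
  have h3 : κ = algebraMap ℚ L (X / Y) := by
    rw [map_div₀, h2]
    field_simp
  refine ⟨X / Y, ?_, ?_⟩
  · intro h0
    rw [h0, map_zero] at h3
    exact hκ h3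
  · intro γ γ' J₁ I₁ J₂ I₂
    apply hinj
    rw [h1, h3, ← map_mul]

end

end Fermat.Agent.S17Lib
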