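import Fermat.Agent.S17.Closed.Point
import Fermat.Agent.S17.Frame.LA

/-!
# S17, chapter CUBE, leaf NV (geometric part)

At a base point free pencil `(s,t)` of `L(D)` inside the row space of `a`, some `Tdet` and some
`Gplu` are non-zero.
-/

set_option autoImplicit false
set_option linter.unusedSectionVars false

open AlgebraicCurve Fermat.Agent.S24Lib Fermat.Agent.FFLib

namespace Fermat.Agent.S17Lib

open Matrix

section LA

variable {R : Type*} [CommRing R]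
variable {n0 n2 cX cY : Type*} [Fintype n0] [DecidableEq n0] [Fintype n2] [DecidableEq n2]

theorem NV_fact (X : Matrix (n0 ⊕ n2) cX R) (Y : Matrix (n0 ⊕ n2) cY R)
    (P : Matrix n0 (n0 ⊕ n2) R) (Q : Matrix n2 (n0 ⊕ n2) R) (hPY : P * Y = 0)
    (J : n0 → cX) (I : n2 → cY) :
    (Matrix.fromRows P Q).det *
        (Matrix.fromCols (X.submatrix id J) (Y.submatrix id I)).det =
      ((P * X).submatrix id J).det * ((Q * Y).submatrix id I).det := by
  rw [← Matrix.det_mul, Matrix.fromRows_mul_fromCols]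
  have h1 : P * Y.submatrix id I = 0 := by
    have : P * Y.submatrix id I = (P * Y).submatrix id I := by
      ext i j; simp [Matrix.mul_apply]
    rw [this, hPY]; rfl
  have h2 : P * X.submatrix id J = (P * X).submatrix id J := by
    ext i j; simp [Matrix.mul_apply]
  have h3 : Q * Y.submatrix id I = (Q * Y).submatrix id I := by
    ext i j; simp [Matrix.mul_apply]
  rw [h1, Matrix.det_fromBlocks_zero₁₂, h2, h3]

end LA

section Coord

variable {K F : Type*} [Field K] [Field F] [Algebra K F] [Algebra ℚ K]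
variable {ιm ι0 ι1 ι2 n n0 n1 n2 : Type*} [Fintype ιm] [Fintype ι0] [Fintype ι1] [Fintype ι2]
  [Fintype n] [DecidableEq n]
  [Fintype n0] [DecidableEq n0] [Fintype n1] [DecidableEq n1] [Fintype n2] [DecidableEq n2]

/-- rows of `U`, reindexed. -/
def NV_X (ε : n1 ⊕ n1 ≃ n0 ⊕ n2) (b' : Matrix n1 ι1 K) : Matrix (n0 ⊕ n2) (ι1 ⊕ ι1) K :=
  Matrix.of fun r => Urow b' (ε.symm r)

/-- rows of `U M_{s,t}`, reindexed. -/
def NV_Y (c12 : ιm → ι1 → ι2 → ℚ) (ε : n1 ⊕ n1 ≃ n0 ⊕ n2) (b' : Matrix n1 ι1 K) (s t : ιm → K) :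
    Matrix (n0 ⊕ n2) ι2 K :=
  Matrix.of fun r => UMrow c12 b' s t (ε.symm r)

theorem NV_Tmat_eq (c12 : ιm → ι1 → ι2 → ℚ) (ε : n1 ⊕ n1 ≃ n0 ⊕ n2) (b' : Matrix n1 ι1 K)
    (s t : ιm → K) (J : n0 → ι1 ⊕ ι1) (I : n2 → ι2) :
    Tmat c12 ε b' s t J I =
      Matrix.fromCols ((NV_X ε b').submatrix id J) ((NV_Y c12 ε b' s t).submatrix id I) := by
  ext r x
  rcases x with j | i <;> rfl

theorem NV_mulC_add (c : ιm → ι1 → ι2 → ℚ) (s : ιm → K) (z z' : ι1 → K) :
    mulC c s (z + z') = mulC c s z + mulC c s z' := by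
  funext k
  simp only [mulC, Pi.add_apply, mul_add, Finset.sum_add_distrib]

theorem NV_mulC_smul (c : ιm → ι1 → ι2 → ℚ) (s : ιm → K) (x : K) (z : ι1 → K) :
    mulC c s (x • z) = x • mulC c s z := by
  funext k
  simp only [mulC, Pi.smul_apply, smul_eq_mul, Finset.mul_sum]
  refine Finset.sum_congr rfl fun i _ => Finset.sum_congr rfl fun j _ => ?_
  ring

theorem NV_mulC_vecMul (c : ιm → ι1 → ι2 → ℚ) (s : ιm → K) (q : n1 → K) (b' : Matrix n1 ι1 K) :
    mulC c s (q ᵥ* b') = ∑ i, q i • mulC c s (b' i) := by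
  have h : q ᵥ* b' = ∑ i, q i • b' i := by
    funext x
    simp [Matrix.vecMul, dotProduct, Finset.sum_apply]
  rw [h]
  have hz : mulC c s (0 : ι1 → K) = 0 := by
    funext k; simp [mulC]
  have key : ∀ S : Finset n1, mulC c s (∑ i ∈ S, q i • b' i) = ∑ i ∈ S, q i • mulC c s (b' i) := by
    intro S
    induction S using Finset.induction_on with
    | empty => simpa using hz
    | insert x S hx ih =>
      rw [Finset.sum_insert hx, Finset.sum_insert hx, NV_mulC_add, NV_mulC_smul, ih]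
  exact key Finset.univ

theorem NV_vecMul_X (ε : n1 ⊕ n1 ≃ n0 ⊕ n2) (b' : Matrix n1 ι1 K) (p : n1 ⊕ n1 → K) :
    (p ∘ ε.symm) ᵥ* NV_X ε b' = Sum.elim ((p ∘ Sum.inl) ᵥ* b') ((p ∘ Sum.inr) ᵥ* b') := by
  funext x
  simp only [Matrix.vecMul, dotProduct, NV_X, Matrix.of_apply, Function.comp_apply]
  rw [Equiv.sum_comp ε.symm (fun r => p r * Urow b' r x), Fintype.sum_sum_type]
  rcases x with j | j <;> simp [Urow, Matrix.vecMul, dotProduct]

theorem NV_vecMul_Y (c12 : ιm → ι1 → ι2 → ℚ) (ε : n1 ⊕ n1 ≃ n0 ⊕ n2) (b' : Matrix n1 ι1 K)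
    (s t : ιm → K) (p : n1 ⊕ n1 → K) :
    (p ∘ ε.symm) ᵥ* NV_Y c12 ε b' s t =
      mulC c12 s ((p ∘ Sum.inl) ᵥ* b') + mulC c12 t ((p ∘ Sum.inr) ᵥ* b') := by
  rw [NV_mulC_vecMul, NV_mulC_vecMul]
  funext x
  simp only [Matrix.vecMul, dotProduct, NV_Y, Matrix.of_apply, Function.comp_apply]
  rw [Equiv.sum_comp ε.symm (fun r => p r * UMrow c12 b' s t r x), Fintype.sum_sum_type]
  simp [UMrow, Finset.sum_apply]

theorem NV_real_vecMul (e : ι1 → F) (q : n1 → K) (b' : Matrix n1 ι1 K) :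
    CL_real e (q ᵥ* b') = ∑ i, q i • CL_real e (b' i) := by
  have : q ᵥ* b' = ∑ i, q i • b' i := by
    funext x
    simp [Matrix.vecMul, dotProduct, Finset.sum_apply]
  rw [this, map_sum]
  simp

theorem NV_exists_vec (e : ι1 → F) (b' : Matrix n1 ι1 K) (u : F) (hu : u ∈ CL_rowSp e b') :
    ∃ q : n1 → K, CL_real e (q ᵥ* b') = u := by
  unfold CL_rowSp at hu
  rw [Submodule.mem_span_range_iff_exists_fun] at hu
  obtain ⟨q, hq⟩ := hu
  exact ⟨q, by rw [NV_real_vecMul]; exact hq⟩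

theorem NV_exists_row_vec (e : ιm → F) (a : Matrix n ιm K) (u : F) (hu : u ∈ CL_rowSp e a) :
    ∃ s ∈ Submodule.span K (Set.range a.row), CL_real e s = u := by
  unfold CL_rowSp at hu
  rw [Submodule.mem_span_range_iff_exists_fun] at hu
  obtain ⟨q, hq⟩ := hu
  refine ⟨∑ i, q i • a.row i, Submodule.sum_mem _ fun i _ =>
    Submodule.smul_mem _ _ (Submodule.subset_span ⟨i, rfl⟩), ?_⟩
  rw [map_sum, ← hq]
  simp [Matrix.row]

/-- the linear map `(x, x') ↦ (real x, real x')`. -/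
noncomputable def NV_pair (e : ι1 → F) : (ι1 ⊕ ι1 → K) →ₗ[K] F × F :=
  LinearMap.prod ((CL_real e).comp (LinearMap.funLeft K K Sum.inl))
    ((CL_real e).comp (LinearMap.funLeft K K Sum.inr))

theorem NV_pair_elim (e : ι1 → F) (x x' : ι1 → K) :
    NV_pair e (Sum.elim x x') = (CL_real e x, CL_real e x') := by
  rfl

theorem NV_li_pair {m : Type*} (e : ι1 → F) (sF tF : F) (hst : sF ≠ 0 ∨ tF ≠ 0) (z : m → F)
    (hz : LinearIndependent K z) (Rm : Matrix m (ι1 ⊕ ι1) K)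
    (hR : ∀ i, NV_pair e (Rm i) = (tF * z i, -(sF * z i))) : LinearIndependent K Rm.row := by
  apply LinearIndependent.of_comp (NV_pair e)
  have h1 : (NV_pair e) ∘ Rm.row =
      (LinearMap.prod (LinearMap.mulLeft K tF) (-(LinearMap.mulLeft K sF))) ∘ z := by
    funext i
    show NV_pair e (Rm i) = _
    rw [hR]
    simp
  rw [h1]
  apply hz.map'
  rw [LinearMap.ker_eq_bot']
  intro x hx
  simp only [LinearMap.prod_apply, Function.prod, LinearMap.mulLeft_apply, LinearMap.neg_apply,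
    Prod.mk_eq_zero, neg_eq_zero, mul_eq_zero] at hx
  rcases hst with h | h
  · exact hx.2.resolve_left h
  · exact hx.1.resolve_left h

theorem NV_exists_basis (W : Submodule K F) [FiniteDimensional K W] (m : Type*) [Fintype m]
    (hm : Fintype.card m = Module.finrank K W) :
    ∃ z : m → F, LinearIndependent K z ∧ ∀ j, z j ∈ W := by
  let bs := Module.finBasis K W
  let e : m ≃ Fin (Module.finrank K W) := Fintype.equivFinOfCardEq hm
  refine ⟨fun j => (bs (e j) : F), ?_, fun j => (bs (e j)).2⟩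
  have h1 : LinearIndependent K (fun j => bs (e j)) := bs.linearIndependent.comp e e.injective
  exact h1.map' W.subtype (Submodule.ker_subtype W)

theorem NV_G_ne_zero (eM : ιm → F) (e0 : ι0 → F) (e1 : ι1 → F) (c01 : ιm → ι0 → ι1 → ℚ)
    (hc01 : ∀ u j, eM u * e0 j = ∑ k, (algebraMap ℚ K (c01 u j k)) • e1 k)
    (h0li : LinearIndependent K e0) (b0 : Matrix n0 ι0 K) (hb0 : plu b0 ≠ 0) (s t : ιm → K)
    (hst : CL_real eM s ≠ 0 ∨ CL_real eM t ≠ 0) : ∃ J, Gplu c01 b0 s t J ≠ 0 := by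
  classical
  have hz : LinearIndependent K (fun i => CL_real e0 (b0 i)) := by
    have : (fun i => CL_real e0 (b0 i)) = (CL_real (K := K) e0) ∘ b0.row := rfl
    rw [this]
    exact (CL_li_of_plu_ne_zero b0 hb0).map' _
      (LinearMap.ker_eq_bot.mpr (CL_real_injective e0 h0li))
  have hli : LinearIndependent K (Gmat c01 b0 s t).row := by
    refine NV_li_pair e1 (CL_real eM s) (CL_real eM t) hst _ hz _ fun i => ?_
    have : (Gmat c01 b0 s t) i = Sum.elim (mulC c01 t (b0 i)) (-(mulC c01 s (b0 i))) := rfl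
    rw [this, NV_pair_elim, map_neg, CL_real_mulC eM e0 e1 c01 hc01,
      CL_real_mulC eM e0 e1 c01 hc01]
  exact Function.ne_iff.mp (LA_plu_ne_zero _ hli)

theorem NV_T_ne_zero [IsAlgClosed K] (h : IsFF K F) {c : ℤ} (hc : IsRRBound K F c)
    (eM : ιm → F) (e1 : ι1 → F) (e2 : ι2 → F) (c12 : ιm → ι1 → ι2 → ℚ)
    (h2li : LinearIndependent K e2)
    (hc12 : ∀ u j, eM u * e1 j = ∑ k, (algebraMap ℚ K (c12 u j k)) • e2 k)
    (ε : n1 ⊕ n1 ≃ n0 ⊕ n2) (b' : Matrix n1 ι1 K)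
    (D D1 : Divisor K F) (hb' : CL_rowSp e1 b' = riemannRochSpace D1)
    (hn0 : Fintype.card n0 = ell (D1 - D)) (hn2 : Fintype.card n2 = ell (D1 + D))
    (hD : 0 ≤ Divisor.degree D) (hD1 : c ≤ Divisor.degree (D1 - D))
    (s t : ιm → K) (hp : IsPencil D (CL_real eM s) (CL_real eM t)) :
    ∃ J I, Tdet c12 ε b' s t J I ≠ 0 := by
  classical
  obtain ⟨v₀⟩ := exists_place h
  set sF := CL_real eM s with hsF
  set tF := CL_real eM t with htF
  have hst : sF ≠ 0 ∨ tF ≠ 0 := (hp.2.2 v₀).imp (fun x => x.1) (fun x => x.1)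
  have hfd0 := finiteDimensional_L h (D1 - D)
  have hfd2 := finiteDimensional_L h (D1 + D)
  obtain ⟨z, hzli, hz⟩ := NV_exists_basis (riemannRochSpace (D1 - D)) n0 hn0
  obtain ⟨w, hwli, hw⟩ := NV_exists_basis (riemannRochSpace (D1 + D)) n2 hn2
  have hDD : D + (D1 - D) = D1 := by abel
  -- the matrix `P`
  have hP1 : ∀ j, ∃ q : n1 → K, CL_real e1 (q ᵥ* b') = tF * z j := fun j =>
    NV_exists_vec e1 b' _ (by rw [hb', ← hDD]; exact mul_mem_L hp.2.1 (hz j))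
  have hP2 : ∀ j, ∃ q : n1 → K, CL_real e1 (q ᵥ* b') = -(sF * z j) := fun j =>
    NV_exists_vec e1 b' _ (by
      rw [hb', ← hDD]; exact Submodule.neg_mem _ (mul_mem_L hp.1 (hz j)))
  choose p hp1 using hP1
  choose p' hp2 using hP2
  let P : Matrix n0 (n0 ⊕ n2) K := Matrix.of fun j => (Sum.elim (p j) (p' j)) ∘ ε.symm
  have hPX : ∀ j, (P * NV_X ε b') j = Sum.elim (p j ᵥ* b') (p' j ᵥ* b') := fun j => by
    rw [Matrix.mul_apply_eq_vecMul]
    exact NV_vecMul_X ε b' (Sum.elim (p j) (p' j))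
  have hPY : P * NV_Y c12 ε b' s t = 0 := by
    ext j k
    have h1 : (P * NV_Y c12 ε b' s t) j = 0 := by
      rw [Matrix.mul_apply_eq_vecMul]
      have h2 := NV_vecMul_Y c12 ε b' s t (Sum.elim (p j) (p' j))
      apply CL_real_injective e2 h2li
      rw [map_zero]
      show CL_real e2 (((Sum.elim (p j) (p' j)) ∘ ε.symm) ᵥ* NV_Y c12 ε b' s t) = 0
      rw [h2, map_add, CL_real_mulC eM e1 e2 c12 hc12, CL_real_mulC eM e1 e2 c12 hc12]
      show sF * CL_real e1 (p j ᵥ* b') + tF * CL_real e1 (p' j ᵥ* b') = 0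
      rw [hp1, hp2]
      ring
    exact congrFun h1 k
  have hPXli : LinearIndependent K (P * NV_X ε b').row := by
    refine NV_li_pair e1 sF tF hst z hzli _ fun j => ?_
    rw [hPX, NV_pair_elim, hp1, hp2]
  -- the matrix `Q`
  have hQ0 : ∀ i, ∃ u ∈ riemannRochSpace D1, ∃ u' ∈ riemannRochSpace D1,
      w i = sF * u + tF * u' := fun i => pencil_surj h hc hp hD hD1 (w i) (hw i)
  choose u hu u' hu' hwu using hQ0
  have hQ1 : ∀ i, ∃ q : n1 → K, CL_real e1 (q ᵥ* b') = u i := fun i =>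
    NV_exists_vec e1 b' _ (by rw [hb']; exact hu i)
  have hQ2 : ∀ i, ∃ q : n1 → K, CL_real e1 (q ᵥ* b') = u' i := fun i =>
    NV_exists_vec e1 b' _ (by rw [hb']; exact hu' i)
  choose q hq1 using hQ1
  choose q' hq2 using hQ2
  let Q : Matrix n2 (n0 ⊕ n2) K := Matrix.of fun i => (Sum.elim (q i) (q' i)) ∘ ε.symm
  have hQYli : LinearIndependent K (Q * NV_Y c12 ε b' s t).row := by
    apply LinearIndependent.of_comp (CL_real e2)
    have : (CL_real (K := K) e2) ∘ (Q * NV_Y c12 ε b' s t).row = w := by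
      funext i
      show CL_real e2 ((Q * NV_Y c12 ε b' s t) i) = w i
      rw [Matrix.mul_apply_eq_vecMul]
      have h2 := NV_vecMul_Y c12 ε b' s t (Sum.elim (q i) (q' i))
      show CL_real e2 (((Sum.elim (q i) (q' i)) ∘ ε.symm) ᵥ* NV_Y c12 ε b' s t) = w i
      rw [h2, map_add, CL_real_mulC eM e1 e2 c12 hc12, CL_real_mulC eM e1 e2 c12 hc12]
      show sF * CL_real e1 (q i ᵥ* b') + tF * CL_real e1 (q' i ᵥ* b') = w i
      rw [hq1, hq2, hwu]
    rw [this]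
    exact hwli
  obtain ⟨J, hJ⟩ := Function.ne_iff.mp (LA_plu_ne_zero _ hPXli)
  obtain ⟨I, hI⟩ := Function.ne_iff.mp (LA_plu_ne_zero _ hQYli)
  refine ⟨J, I, ?_⟩
  have hfact := NV_fact (NV_X ε b') (NV_Y c12 ε b' s t) P Q hPY J I
  unfold Tdet
  rw [NV_Tmat_eq]
  intro h0
  rw [h0, mul_zero] at hfact
  exact mul_ne_zero hJ hI hfact.symm

/-- **NV, geometric part.** -/
theorem NV_geo [IsAlgClosed K] (h : IsFF K F) {c : ℤ} (hc : IsRRBound K F c)
    (eM : ιm → F) (e0 : ι0 → F) (e1 : ι1 → F) (e2 : ι2 → F)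
    (c01 : ιm → ι0 → ι1 → ℚ) (c12 : ιm → ι1 → ι2 → ℚ)
    (h0li : LinearIndependent K e0) (h2li : LinearIndependent K e2)
    (hc01 : ∀ u j, eM u * e0 j = ∑ k, (algebraMap ℚ K (c01 u j k)) • e1 k)
    (hc12 : ∀ u j, eM u * e1 j = ∑ k, (algebraMap ℚ K (c12 u j k)) • e2 k)
    (ε : n1 ⊕ n1 ≃ n0 ⊕ n2) (a : Matrix n ιm K) (b' : Matrix n1 ι1 K) (b0 : Matrix n0 ι0 K)
    (D D1 : Divisor K F) (ha : CL_rowSp eM a = riemannRochSpace D)
    (hb' : CL_rowSp e1 b' = riemannRochSpace D1) (hb0 : plu b0 ≠ 0)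
    (hn0 : Fintype.card n0 = ell (D1 - D)) (hn2 : Fintype.card n2 = ell (D1 + D))
    (hD : c + 1 ≤ Divisor.degree D) (hc0 : 0 ≤ c) (hD1 : c ≤ Divisor.degree (D1 - D)) :
    ∃ s ∈ Submodule.span K (Set.range a.row), ∃ t ∈ Submodule.span K (Set.range a.row),
      (∃ J I, Tdet c12 ε b' s t J I ≠ 0) ∧ ∃ J, Gplu c01 b0 s t J ≠ 0 := by
  obtain ⟨v₀⟩ := exists_place h
  obtain ⟨sF, tF, hp⟩ := exists_pencil h hc D hD
  obtain ⟨s, hs, hsF⟩ := NV_exists_row_vec eM a sF (by rw [ha]; exact hp.1)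
  obtain ⟨t, ht, htF⟩ := NV_exists_row_vec eM a tF (by rw [ha]; exact hp.2.1)
  subst hsF htF
  refine ⟨s, hs, t, ht, ?_, ?_⟩
  · exact NV_T_ne_zero h hc eM e1 e2 c12 h2li hc12 ε b' D D1 hb' hn0 hn2 (by omega) hD1 s t hp
  · exact NV_G_ne_zero eM e0 e1 c01 hc01 h0li b0 hb0 s t
      ((hp.2.2 v₀).imp (fun x => x.1) (fun x => x.1))

end Coord

end Fermat.Agent.S17Lib
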