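import Fermat.Agent.S17.Cube.Nat

/-!
# S17, chapter CUBE, leaf NV (grid part)

If `Tdet * Gplu` is non-zero at some pair `(s,t)` of the row space of `a`, it is non-zero at some
`(sOf a γ, sOf a γ')` with `γ, γ' ≤ D = card n2 + card n0'`.
-/

set_option autoImplicit false
set_option linter.unusedSectionVars false

namespace Fermat.Agent.S17Lib

open Matrix MvPolynomial

theorem NV_grid_core {V K : Type*} [Finite V] [Field K] [CharZero K] (P : MvPolynomial V K)
    (D : ℕ) (hD : P.totalDegree ≤ D) (hP : P ≠ 0) :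
    ∃ γ : V → ℕ, (∀ v, γ v ≤ D) ∧ eval (fun v => (γ v : K)) P ≠ 0 := by
  classical
  by_contra hcon
  push Not at hcon
  apply hP
  apply eq_zero_of_eval_zero_at_prod_finset P
    (fun _ => (Finset.range (D + 1)).image (fun k : ℕ => (k : K)))
  · intro i
    rw [Finset.card_image_of_injective _ Nat.cast_injective, Finset.card_range]
    exact Nat.lt_succ_of_le ((degreeOf_le_totalDegree P i).trans hD)
  · intro x hx
    have : ∀ i, ∃ k : ℕ, k ≤ D ∧ (k : K) = x i := by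
      intro i
      obtain ⟨k, hk, hkx⟩ := Finset.mem_image.mp (hx i)
      exact ⟨k, Nat.lt_succ_iff.mp (Finset.mem_range.mp hk), hkx⟩
    choose γ hγ hγx using this
    have h := hcon γ hγ
    rwa [show (fun v => (γ v : K)) = x from funext hγx] at h

theorem NV_totalDegree_det_le {V K m : Type*} [Field K] [Fintype m] [DecidableEq m]
    (M : Matrix m m (MvPolynomial V K)) (d : m → ℕ) (h : ∀ i j, (M i j).totalDegree ≤ d j) :
    M.det.totalDegree ≤ ∑ j, d j := by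
  rw [Matrix.det_apply']
  apply totalDegree_finsetSum_le
  intro σ _
  refine (totalDegree_mul _ _).trans ?_
  have h1 : ((((Equiv.Perm.sign σ : ℤˣ) : ℤ) : MvPolynomial V K)).totalDegree = 0 := by
    rw [← map_intCast (C : K →+* MvPolynomial V K)]
    exact totalDegree_C _
  rw [h1, zero_add]
  refine (totalDegree_finsetProd _ _).trans ?_
  exact Finset.sum_le_sum fun i _ => h _ _

section Grid

variable {K : Type*} [Field K] [Algebra ℚ K] [CharZero K]
variable {ιm ι0 ι1 ι2 n0 n0' n1 n2 X : Type*} [Fintype ιm] [Fintype ι0] [Fintype ι1] [Fintype ι2]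
  [Fintype n0] [DecidableEq n0] [Fintype n0'] [DecidableEq n0'] [Fintype n1] [DecidableEq n1]
  [Fintype n2] [DecidableEq n2] [Fintype X]

/-- generic combination of the vectors `ρ x` (first set of variables). -/
noncomputable def NV_sg (ρ : X → ιm → K) : ιm → MvPolynomial (X ⊕ X) K :=
  fun j => ∑ x, MvPolynomial.X (Sum.inl x) * C (ρ x j)

/-- generic combination of the vectors `ρ x` (second set of variables). -/
noncomputable def NV_tg (ρ : X → ιm → K) : ιm → MvPolynomial (X ⊕ X) K :=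
  fun j => ∑ x, MvPolynomial.X (Sum.inr x) * C (ρ x j)

theorem NV_deg_sg (ρ : X → ιm → K) (j : ιm) : (NV_sg ρ j).totalDegree ≤ 1 := by
  apply totalDegree_finsetSum_le
  intro x _
  refine (totalDegree_mul _ _).trans ?_
  rw [totalDegree_X, totalDegree_C]

theorem NV_deg_tg (ρ : X → ιm → K) (j : ιm) : (NV_tg ρ j).totalDegree ≤ 1 := by
  apply totalDegree_finsetSum_le
  intro x _
  refine (totalDegree_mul _ _).trans ?_
  rw [totalDegree_X, totalDegree_C]

theorem NV_deg_mulC {V ι ι' : Type*} [Fintype ι] (c : ιm → ι → ι' → ℚ)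
    (s : ιm → MvPolynomial V K) (hs : ∀ i, (s i).totalDegree ≤ 1) (z : ι → K) (k : ι') :
    (mulC c s (fun j => C (z j)) k).totalDegree ≤ 1 := by
  unfold mulC
  apply totalDegree_finsetSum_le
  intro i _
  apply totalDegree_finsetSum_le
  intro j _
  refine (totalDegree_mul _ _).trans ?_
  rw [totalDegree_C, add_zero]
  refine (totalDegree_mul _ _).trans ?_
  have : (algebraMap ℚ (MvPolynomial V K) (c i j k)).totalDegree = 0 := by
    rw [IsScalarTower.algebraMap_apply ℚ K (MvPolynomial V K), MvPolynomial.algebraMap_eq]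
    exact totalDegree_C _
  rw [this, zero_add]
  exact hs i

/-- evaluation as a `ℚ`-algebra hom. -/
noncomputable def NV_ev (y : X ⊕ X → K) : MvPolynomial (X ⊕ X) K →ₐ[ℚ] K :=
  (MvPolynomial.aeval y).restrictScalars ℚ

theorem NV_ev_apply (y : X ⊕ X → K) (P : MvPolynomial (X ⊕ X) K) : NV_ev y P = eval y P := by
  simp [NV_ev, MvPolynomial.aeval_eq_eval]

theorem NV_ev_map_C {m ι : Type*} (y : X ⊕ X → K) (b : Matrix m ι K) :
    (b.map (C : K → MvPolynomial (X ⊕ X) K)).map (NV_ev y) = b := by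
  ext i j
  simp [NV_ev_apply]

theorem NV_ev_sg (y : X ⊕ X → K) (ρ : X → ιm → K) :
    (NV_ev y) ∘ NV_sg ρ = ∑ x, y (Sum.inl x) • ρ x := by
  funext j
  simp [NV_ev_apply, NV_sg, Finset.sum_apply]

theorem NV_ev_tg (y : X ⊕ X → K) (ρ : X → ιm → K) :
    (NV_ev y) ∘ NV_tg ρ = ∑ x, y (Sum.inr x) • ρ x := by
  funext j
  simp [NV_ev_apply, NV_tg, Finset.sum_apply]

theorem NV_deg_Tdet (c12 : ιm → ι1 → ι2 → ℚ) (ε : n1 ⊕ n1 ≃ n0 ⊕ n2) (b' : Matrix n1 ι1 K)
    (ρ : X → ιm → K) (J : n0 → ι1 ⊕ ι1) (I : n2 → ι2) :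
    (Tdet c12 ε (b'.map (C : K → MvPolynomial (X ⊕ X) K)) (NV_sg ρ) (NV_tg ρ) J I).totalDegree ≤
      Fintype.card n2 := by
  unfold Tdet
  refine (NV_totalDegree_det_le _ (Sum.elim (fun _ => 0) (fun _ => 1)) ?_).trans ?_
  · intro r q
    rcases q with j | i
    · simp only [Tmat, Matrix.of_apply, Sum.elim_inl]
      rcases ε.symm r with x | x <;> rcases J j with y | y <;> simp [Urow]
    · simp only [Tmat, Matrix.of_apply, Sum.elim_inr]
      rcases ε.symm r with x | x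
      · exact NV_deg_mulC c12 (NV_sg ρ) (NV_deg_sg ρ) (b' x) (I i)
      · exact NV_deg_mulC c12 (NV_tg ρ) (NV_deg_tg ρ) (b' x) (I i)
  · simp [Fintype.sum_sum_type]

theorem NV_deg_Gplu (c01 : ιm → ι0 → ι1 → ℚ) (b0 : Matrix n0' ι0 K)
    (ρ : X → ιm → K) (J : n0' → ι1 ⊕ ι1) :
    (Gplu c01 (b0.map (C : K → MvPolynomial (X ⊕ X) K)) (NV_sg ρ) (NV_tg ρ) J).totalDegree ≤
      Fintype.card n0' := by
  unfold Gplu plu
  refine (NV_totalDegree_det_le _ (fun _ => 1) ?_).trans ?_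
  · intro r q
    simp only [Matrix.submatrix_apply, id, Gmat, Matrix.of_apply]
    rcases J q with y | y
    · exact NV_deg_mulC c01 (NV_tg ρ) (NV_deg_tg ρ) (b0 r) y
    · simp only [Sum.elim_inr, Pi.neg_apply, totalDegree_neg]
      exact NV_deg_mulC c01 (NV_sg ρ) (NV_deg_sg ρ) (b0 r) y
  · simp

/-- **GRID**, abstract form. -/
theorem NV_grid_abs (c01 : ιm → ι0 → ι1 → ℚ) (c12 : ιm → ι1 → ι2 → ℚ) (ε : n1 ⊕ n1 ≃ n0 ⊕ n2)
    (b' : Matrix n1 ι1 K) (b0 : Matrix n0' ι0 K) (ρ : X → ιm → K) (J : n0 → ι1 ⊕ ι1)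
    (I : n2 → ι2) (J2 : n0' → ι1 ⊕ ι1) (σ σ' : X → K)
    (hne : Tdet c12 ε b' (∑ x, σ x • ρ x) (∑ x, σ' x • ρ x) J I *
      Gplu c01 b0 (∑ x, σ x • ρ x) (∑ x, σ' x • ρ x) J2 ≠ 0) :
    ∃ γ γ' : X → ℕ, (∀ x, γ x ≤ Fintype.card n2 + Fintype.card n0') ∧
      (∀ x, γ' x ≤ Fintype.card n2 + Fintype.card n0') ∧
      Tdet c12 ε b' (∑ x, (γ x : K) • ρ x) (∑ x, (γ' x : K) • ρ x) J I *
        Gplu c01 b0 (∑ x, (γ x : K) • ρ x) (∑ x, (γ' x : K) • ρ x) J2 ≠ 0 := by
  set Pol : MvPolynomial (X ⊕ X) K :=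
    Tdet c12 ε (b'.map (C : K → MvPolynomial (X ⊕ X) K)) (NV_sg ρ) (NV_tg ρ) J I *
      Gplu c01 (b0.map (C : K → MvPolynomial (X ⊕ X) K)) (NV_sg ρ) (NV_tg ρ) J2 with hPol
  have hev : ∀ y : X ⊕ X → K, eval y Pol =
      Tdet c12 ε b' (∑ x, y (Sum.inl x) • ρ x) (∑ x, y (Sum.inr x) • ρ x) J I *
        Gplu c01 b0 (∑ x, y (Sum.inl x) • ρ x) (∑ x, y (Sum.inr x) • ρ x) J2 := by
    intro y
    rw [← NV_ev_apply, hPol, map_mul, NAT_map_Tdet, NAT_map_Gplu, NV_ev_map_C, NV_ev_map_C,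
      NV_ev_sg, NV_ev_tg]
  have hdeg : Pol.totalDegree ≤ Fintype.card n2 + Fintype.card n0' :=
    (totalDegree_mul _ _).trans (add_le_add (NV_deg_Tdet c12 ε b' ρ J I) (NV_deg_Gplu c01 b0 ρ J2))
  have hP0 : Pol ≠ 0 := by
    intro h0
    have := hev (Sum.elim σ σ')
    rw [h0, map_zero] at this
    exact hne this.symm
  obtain ⟨γ, hγ, hγne⟩ := NV_grid_core Pol _ hdeg hP0
  refine ⟨fun x => γ (Sum.inl x), fun x => γ (Sum.inr x), fun x => hγ _, fun x => hγ _, ?_⟩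
  rw [hev] at hγne
  exact hγne

end Grid

section RowSpace

variable {K : Type*} [Field K]
variable {n ι : Type*} [Fintype n] [DecidableEq n] [Fintype ι]

theorem NV_row_mem_span_rv (a : Matrix n ι K) (ha : plu a ≠ 0) (l : n) :
    a.row l ∈ Submodule.span K (Set.range fun x : (n → ι) × n => rv a x.1 x.2) := by
  obtain ⟨I0, hI0⟩ := Function.ne_iff.mp ha
  have hdet : (a.submatrix id I0).det ≠ 0 := hI0
  have h1 : (a.submatrix id I0) * ((a.submatrix id I0).adjugate * a) =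
      (a.submatrix id I0).det • a := by
    rw [← Matrix.mul_assoc, Matrix.mul_adjugate, Matrix.smul_mul, Matrix.one_mul]
  have h2 : a.row l = ((a.submatrix id I0).det)⁻¹ •
      ∑ l', (a.submatrix id I0) l l' • rv a I0 l' := by
    have h3 : (∑ l', (a.submatrix id I0) l l' • rv a I0 l') = (a.submatrix id I0).det • a.row l := by
      funext j
      have := congrFun (congrFun h1 l) j
      simp only [Matrix.mul_apply, Matrix.smul_apply] at this
      simp only [Finset.sum_apply, Pi.smul_apply, smul_eq_mul, Matrix.row]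
      simpa [rv, Matrix.mul_apply] using this
    rw [h3, smul_smul, inv_mul_cancel₀ hdet, one_smul]
  rw [h2]
  exact Submodule.smul_mem _ _ (Submodule.sum_mem _ fun l' _ =>
    Submodule.smul_mem _ _ (Submodule.subset_span ⟨(I0, l'), rfl⟩))

theorem NV_exists_coeff (a : Matrix n ι K) (ha : plu a ≠ 0) (s : ι → K)
    (hs : s ∈ Submodule.span K (Set.range a.row)) :
    ∃ σ : (n → ι) × n → K, s = ∑ x, σ x • rv a x.1 x.2 := by
  have h1 : Submodule.span K (Set.range a.row) ≤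
      Submodule.span K (Set.range fun x : (n → ι) × n => rv a x.1 x.2) := by
    rw [Submodule.span_le]
    rintro _ ⟨l, rfl⟩
    exact NV_row_mem_span_rv a ha l
  obtain ⟨σ, hσ⟩ := (Submodule.mem_span_range_iff_exists_fun K).mp (h1 hs)
  exact ⟨σ, hσ.symm⟩

end RowSpace

section Final

variable {K : Type*} [Field K] [Algebra ℚ K] [CharZero K]
variable {ιm ι0 ι1 ι2 n n0 n0' n1 n2 : Type*} [Fintype ιm] [Fintype ι0] [Fintype ι1] [Fintype ι2]
  [Fintype n] [DecidableEq n]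
  [Fintype n0] [DecidableEq n0] [Fintype n0'] [DecidableEq n0'] [Fintype n1] [DecidableEq n1]
  [Fintype n2] [DecidableEq n2]

/-- **GRID.** -/
theorem NV_grid (c01 : ιm → ι0 → ι1 → ℚ) (c12 : ιm → ι1 → ι2 → ℚ) (ε : n1 ⊕ n1 ≃ n0 ⊕ n2)
    (a : Matrix n ιm K) (ha : plu a ≠ 0) (b' : Matrix n1 ι1 K) (b0 : Matrix n0' ι0 K)
    (J : n0 → ι1 ⊕ ι1) (I : n2 → ι2) (J2 : n0' → ι1 ⊕ ι1) (s t : ιm → K)
    (hs : s ∈ Submodule.span K (Set.range a.row)) (ht : t ∈ Submodule.span K (Set.range a.row))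
    (hne : Tdet c12 ε b' s t J I * Gplu c01 b0 s t J2 ≠ 0) :
    ∃ γ γ' : (n → ιm) × n → ℕ, (∀ x, γ x ≤ Fintype.card n2 + Fintype.card n0') ∧
      (∀ x, γ' x ≤ Fintype.card n2 + Fintype.card n0') ∧
      Tdet c12 ε b' (sOf a γ) (sOf a γ') J I * Gplu c01 b0 (sOf a γ) (sOf a γ') J2 ≠ 0 := by
  obtain ⟨σ, rfl⟩ := NV_exists_coeff a ha s hs
  obtain ⟨σ', rfl⟩ := NV_exists_coeff a ha t ht
  exact NV_grid_abs c01 c12 ε b' b0 (fun x : (n → ιm) × n => rv a x.1 x.2) J I J2 σ σ' hne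

end Final

end Fermat.Agent.S17Lib
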