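import Fermat.Agent.S17.Cube.CurveA
import Fermat.Agent.S17.Cube.NVgrid
import Fermat.Agent.S17.Cube.NVgeo
import Fermat.Agent.S17.Cube.Defs2
import Fermat.Agent.S17.Frame.LA

/-!
# S17, chapter CUBE: `cube_abs` without `HQ_bound`

`MH5_cube_abs_of`: the abstract cube for adapted bases, from the landed `CC_abs` (two applications
of `semi_bound`), `NV_grid` (non-vanishing on the integer grid), the non-vanishing of `T`
(hypotheses `hT`, `hT'`) and the identity `cube_ident` (hypothesis `hid`).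
-/

set_option autoImplicit false

namespace Fermat.Agent.S17Lib

open Matrix Height MvPolynomial

section LA

variable {K : Type*} [Field K]

theorem MH5_rv_mem {n ι : Type*} [Fintype n] [DecidableEq n] (a : Matrix n ι K) (I : n → ι)
    (l : n) : rv a I l ∈ rsp a := by
  have h : rv a I l = ∑ k, (a.submatrix id I).adjugate l k • a.row k := by
    funext j
    simp [rv, Matrix.mul_apply, Finset.sum_apply, Matrix.row]
  rw [h]
  exact Submodule.sum_mem _ fun k _ => Submodule.smul_mem _ _ (Submodule.subset_span ⟨k, rfl⟩)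

theorem MH5_sOf_mem {n ι : Type*} [Fintype n] [DecidableEq n] [Fintype ι] (a : Matrix n ι K)
    (γ : (n → ι) × n → ℕ) : sOf a γ ∈ rsp a := by
  unfold sOf
  exact Submodule.sum_mem _ fun x _ => Submodule.smul_mem _ _ (MH5_rv_mem a x.1 x.2)

theorem MH5_plu_inl_ne {n φ ι : Type*} [Fintype n] [DecidableEq n] [Fintype φ] [DecidableEq φ]
    [Fintype ι] [DecidableEq ι] (b : Matrix n ι K) (y : Matrix φ ι K)
    (h : plu (Matrix.fromRows b y) ≠ 0) : plu b ≠ 0 := by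
  rw [LA_plu_ne_zero_iff] at h ⊢
  have h2 := h.comp Sum.inl Sum.inl_injective
  exact h2

end LA

section NV

variable {K : Type*} [Field K] [Algebra ℚ K]
variable {ιm ι0 ι1 ι2 n0 n1 n2 m0 : Type*} [Fintype ιm] [Fintype ι0] [Fintype ι1] [Fintype ι2]
  [Fintype n0] [DecidableEq n0] [Fintype n1] [DecidableEq n1] [Fintype n2] [DecidableEq n2]
  [Fintype m0] [DecidableEq m0]

theorem MH5_mulC_zero_left {ι ι' : Type*} [Fintype ι] (c : ιm → ι → ι' → ℚ) (z : ι → K) :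
    mulC c (0 : ιm → K) z = 0 := by
  funext k
  simp [mulC]

/-- `T ≠ 0` forces the pencil to be nonzero. -/
theorem MH5_st_ne [Nonempty n2] (c12 : ιm → ι1 → ι2 → ℚ) (ε : n1 ⊕ n1 ≃ n0 ⊕ n2)
    (b' : Matrix n1 ι1 K) (s t : ιm → K) (J : n0 → ι1 ⊕ ι1) (I : n2 → ι2)
    (h : Tdet c12 ε b' s t J I ≠ 0) : s ≠ 0 ∨ t ≠ 0 := by
  by_contra hc
  push Not at hc
  obtain ⟨rfl, rfl⟩ := hc
  apply h
  obtain ⟨i0⟩ := ‹Nonempty n2›
  unfold Tdet
  apply Matrix.det_eq_zero_of_column_eq_zero (Sum.inr i0)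
  intro r
  simp only [Tmat, Matrix.of_apply, Sum.elim_inr, UMrow]
  rcases ε.symm r with i | i <;> simp [MH5_mulC_zero_left]

theorem MH5_vecMul_Gmat (c01 : ιm → ι0 → ι1 → ℚ) (b0 : Matrix m0 ι0 K) (s t : ιm → K)
    (w : m0 → K) : w ᵥ* Gmat c01 b0 s t =
      Sum.elim (mulC c01 t (w ᵥ* b0)) (-(mulC c01 s (w ᵥ* b0))) := by
  rw [NV_mulC_vecMul, NV_mulC_vecMul]
  funext x
  rcases x with j | j
  · simp [Matrix.vecMul, dotProduct, Gmat, Finset.sum_apply]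
  · simp [Matrix.vecMul, dotProduct, Gmat, Finset.sum_apply]

/-- `G ≠ 0` for a nonzero pencil. -/
theorem MH5_G_ne (c01 : ιm → ι0 → ι1 → ℚ)
    (hdom : ∀ (t : ιm → K) (z : ι0 → K), mulC c01 t z = 0 → t = 0 ∨ z = 0)
    (b0 : Matrix m0 ι0 K) (hb0 : plu b0 ≠ 0) (s t : ιm → K) (hst : s ≠ 0 ∨ t ≠ 0) :
    ∃ J2, Gplu c01 b0 s t J2 ≠ 0 := by
  classical
  have hli := LA_linearIndependent_of_plu_ne_zero b0 hb0
  have hinj : Function.Injective (fun x : m0 → K => x ᵥ* b0) :=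
    (Matrix.vecMul_injective_iff (M := b0)).mpr hli
  have h1 : plu (Gmat c01 b0 s t) ≠ 0 := by
    rw [LA_plu_ne_zero_iff]
    rw [← Matrix.vecMul_injective_iff]
    intro x y hxy
    have h2 : (x - y) ᵥ* Gmat c01 b0 s t = 0 := by
      rw [Matrix.sub_vecMul]
      exact sub_eq_zero.mpr hxy
    rw [MH5_vecMul_Gmat] at h2
    have h3 : mulC c01 t ((x - y) ᵥ* b0) = 0 := by
      funext j
      exact congrFun h2 (Sum.inl j)
    have h4 : mulC c01 s ((x - y) ᵥ* b0) = 0 := by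
      funext j
      have := congrFun h2 (Sum.inr j)
      simpa using this
    have h5 : (x - y) ᵥ* b0 = 0 := by
      rcases hst with hs | ht
      · exact (hdom _ _ h4).resolve_left hs
      · exact (hdom _ _ h3).resolve_left ht
    have h6 : x ᵥ* b0 = y ᵥ* b0 := by
      rw [Matrix.sub_vecMul] at h5
      exact sub_eq_zero.mp h5
    exact hinj h6
  exact Function.ne_iff.mp h1

end NV

section Main

variable {ιm ι0 ι1 ι2 na n0 n1 n2 m0 φ : Type} [Fintype ιm] [Fintype ι0] [Fintype ι1] [Fintype ι2]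
  [Fintype na] [DecidableEq na]
  [Fintype n0] [DecidableEq n0] [Fintype n1] [DecidableEq n1] [Fintype n2] [DecidableEq n2]
  [Fintype m0] [DecidableEq m0] [Fintype φ] [DecidableEq φ]

/-- the hypothesis `hnv` of `CC_abs` / `CC_semi` from the non-vanishing of `T`. -/
theorem MH5_hnv [Nonempty n2] (D : ℕ) (hD : Fintype.card n2 + Fintype.card m0 ≤ D)
    (c01 : ιm → ι0 → ι1 → ℚ) (c12 : ιm → ι1 → ι2 → ℚ) (ε : n1 ⊕ n1 ≃ n0 ⊕ n2)
    (hdom : ∀ (t : ιm → AlgebraicClosure ℚ) (z : ι0 → AlgebraicClosure ℚ),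
      mulC c01 t z = 0 → t = 0 ∨ z = 0)
    (ZA : Set (MvPolynomial (na × ιm) ℚ)) (ZB : Set (MvPolynomial (n1 × ι1) ℚ))
    (hT : ∀ (a : Matrix na ιm (AlgebraicClosure ℚ)) (b' : Matrix n1 ι1 (AlgebraicClosure ℚ)),
      CC_In ZA a → CC_In ZB b' → plu a ≠ 0 → plu b' ≠ 0 →
      ∃ s ∈ rsp a, ∃ t ∈ rsp a, ∃ J I, Tdet c12 ε b' s t J I ≠ 0)
    (a : Matrix na ιm (AlgebraicClosure ℚ)) (b' : Matrix n1 ι1 (AlgebraicClosure ℚ))
    (b0 : Matrix m0 ι0 (AlgebraicClosure ℚ)) (hA : CC_In ZA a) (hB : CC_In ZB b')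
    (ha : plu a ≠ 0) (hb' : plu b' ≠ 0) (hb0 : plu b0 ≠ 0) :
    MA5_Q D c01 c12 ε a b' b0 ≠ 0 := by
  obtain ⟨s, hs, t, ht, J, I, hne⟩ := hT a b' hA hB ha hb'
  obtain ⟨J2, hJ2⟩ := MH5_G_ne c01 hdom b0 hb0 s t (MH5_st_ne c12 ε b' s t J I hne)
  obtain ⟨γ, γ', hγ, hγ', h⟩ := NV_grid c01 c12 ε a ha b' b0 J I J2 s t hs ht (mul_ne_zero hne hJ2)
  intro h0
  apply h
  have h1 := congrFun h0 ((fun x => ⟨γ x, by have := hγ x; omega⟩,
    fun x => ⟨γ' x, by have := hγ' x; omega⟩), (J, I), J2)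
  exact h1

/-- **abstract cube for adapted bases**, the identity being a pointwise hypothesis. -/
theorem MH5_cube_abs_of [Nonempty n2] (c01 : ιm → ι0 → ι1 → ℚ) (c12 : ιm → ι1 → ι2 → ℚ)
    (ε : n1 ⊕ n1 ≃ n0 ⊕ n2)
    (hdom : ∀ (t : ιm → AlgebraicClosure ℚ) (z : ι0 → AlgebraicClosure ℚ),
      mulC c01 t z = 0 → t = 0 ∨ z = 0)
    (ZA : Set (MvPolynomial (na × ιm) ℚ)) (ZB : Set (MvPolynomial (n1 × ι1) ℚ))
    (ZB' : Set (MvPolynomial ((n1 ⊕ φ) × ι1) ℚ))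
    (hZA : ∀ (g : Matrix na na ℚ) (a : Matrix na ιm ℚ), CC_In ZA a → CC_In ZA (g * a))
    (hZB : ∀ (g : Matrix n1 n1 ℚ) (a : Matrix n1 ι1 ℚ), CC_In ZB a → CC_In ZB (g * a))
    (hZB' : ∀ (g : Matrix (n1 ⊕ φ) (n1 ⊕ φ) ℚ) (a : Matrix (n1 ⊕ φ) ι1 ℚ),
      CC_In ZB' a → CC_In ZB' (g * a))
    (hT : ∀ (a : Matrix na ιm (AlgebraicClosure ℚ)) (b' : Matrix n1 ι1 (AlgebraicClosure ℚ)),
      CC_In ZA a → CC_In ZB b' → plu a ≠ 0 → plu b' ≠ 0 →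
      ∃ s ∈ rsp a, ∃ t ∈ rsp a, ∃ J I, Tdet c12 ε b' s t J I ≠ 0)
    (hT' : ∀ (a : Matrix na ιm (AlgebraicClosure ℚ))
      (b' : Matrix (n1 ⊕ φ) ι1 (AlgebraicClosure ℚ)),
      CC_In ZA a → CC_In ZB' b' → plu a ≠ 0 → plu b' ≠ 0 →
      ∃ s ∈ rsp a, ∃ t ∈ rsp a, ∃ J I, Tdet c12 (cubeEps φ ε) b' s t J I ≠ 0) :
    ∃ C : ℝ, ∀ (a : Matrix na ιm ℚ)
      (b0 : Matrix n0 ι0 ℚ) (y0 : Matrix φ ι0 ℚ) (b' : Matrix n1 ι1 ℚ) (y' : Matrix φ ι1 ℚ)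
      (b'' : Matrix n2 ι2 ℚ) (y'' : Matrix φ ι2 ℚ),
      CC_In ZA a → CC_In ZB b' → CC_In ZB' (Matrix.fromRows b' y') →
      plu a ≠ 0 → plu (Matrix.fromRows b0 y0) ≠ 0 → plu (Matrix.fromRows b' y') ≠ 0 →
      plu (Matrix.fromRows b'' y'') ≠ 0 →
      (∃ κ : ℚ, κ ≠ 0 ∧ ∀ s ∈ rsp a, ∀ t ∈ rsp a, ∀ (J1 : n0 ⊕ φ → ι1 ⊕ ι1) (I1 : n2 ⊕ φ → ι2)
        (J2 : n0 → ι1 ⊕ ι1) (I2 : n2 → ι2),
        Tdet c12 (cubeEps φ ε) (Matrix.fromRows b' y') s t J1 I1 * Gplu c01 b0 s t J2 *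
            plu b'' I2 =
          κ * (Tdet c12 ε b' s t J2 I2 * Gplu c01 (Matrix.fromRows b0 y0) s t J1
            * plu (Matrix.fromRows b'' y'') I1)) →
      |(logHeight (plu (Matrix.fromRows b'' y'')) + logHeight (plu (Matrix.fromRows b0 y0))
          - 2 * logHeight (plu (Matrix.fromRows b' y'))) -
        (logHeight (plu b'') + logHeight (plu b0) - 2 * logHeight (plu b'))| ≤ C := by
  classical
  have hw : Fintype.card (n2 ⊕ φ) + Fintype.card n0 = Fintype.card n2 + Fintype.card (n0 ⊕ φ) := by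
    simp only [Fintype.card_sum]
    omega
  have key := CC_abs (Fintype.card (n2 ⊕ φ) + Fintype.card n0) c01 c12 (cubeEps φ ε) ε hw
    ZA ZB' ZB hZA hZB' hZB
    (fun a b' b0 => MH5_hnv _ le_rfl c01 c12 (cubeEps φ ε) hdom ZA ZB' hT' a b' b0)
    (fun a b' b0 => MH5_hnv _ hw.ge c01 c12 ε hdom ZA ZB hT a b' b0)
  obtain ⟨C, hC⟩ := key
  refine ⟨C, fun a b0 y0 b' y' b'' y'' hA hB hB' ha h0 h1 h2 hk => ?_⟩
  obtain ⟨κ, hκ, hrel⟩ := hk
  have h := hC a (Matrix.fromRows b0 y0) (Matrix.fromRows b' y') (Matrix.fromRows b'' y'')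
    b0 b' b'' hA hB' hB ha h0 h1 h2 (MH5_plu_inl_ne _ _ h0) (MH5_plu_inl_ne _ _ h1)
    (MH5_plu_inl_ne _ _ h2)
    ⟨κ, hκ, fun γ γ' J₁ I₁ J₂ I₂ =>
      hrel _ (MH5_sOf_mem a _) _ (MH5_sOf_mem a _) J₁ I₁ J₂ I₂⟩
  rw [abs_le] at h ⊢
  constructor <;> linarith [h.1, h.2]

end Main

end Fermat.Agent.S17Lib
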