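import Fermat.Agent.S17.Cube.MainH
import Fermat.Agent.S17.Cube.TnzH
import Fermat.Agent.S17.Cube.Ident

/-!
# S17, chapter CUBE: `cube_abs` (hedge, without `HQ_bound`)
-/

set_option autoImplicit false

namespace Fermat.Agent.S17Lib

open Matrix Height MvPolynomial

section Main

variable {ιm ι0 ι1 ι2 na n0 n1 n2 φ : Type} [Fintype ιm] [Fintype ι0] [Fintype ι1] [Fintype ι2]
  [Fintype na] [DecidableEq na]
  [Fintype n0] [DecidableEq n0] [Fintype n1] [DecidableEq n1] [Fintype n2] [DecidableEq n2]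
  [Fintype φ] [DecidableEq φ]

/-- **abstract cube for adapted bases**. -/
theorem MH5_cube_abs [Nonempty n2] (c01 : ιm → ι0 → ι1 → ℚ) (c12 : ιm → ι1 → ι2 → ℚ)
    (ε : n1 ⊕ n1 ≃ n0 ⊕ n2)
    (hcomm : ∀ (s t : ιm → ℚ) (z : ι0 → ℚ),
      mulC c12 s (mulC c01 t z) = mulC c12 t (mulC c01 s z))
    (hdom : ∀ (t : ιm → AlgebraicClosure ℚ) (z : ι0 → AlgebraicClosure ℚ),
      mulC c01 t z = 0 → t = 0 ∨ z = 0)
    (ZA : Set (MvPolynomial (na × ιm) ℚ)) (ZB : Set (MvPolynomial (n1 × ι1) ℚ))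
    (ZB' : Set (MvPolynomial ((n1 ⊕ φ) × ι1) ℚ))
    (hZA : ∀ (g : Matrix na na ℚ) (a : Matrix na ιm ℚ),
      (∀ f ∈ ZA, aeval (fun x : na × ιm => a x.1 x.2) f = 0) →
        ∀ f ∈ ZA, aeval (fun x : na × ιm => (g * a) x.1 x.2) f = 0)
    (hZB : ∀ (g : Matrix n1 n1 ℚ) (a : Matrix n1 ι1 ℚ),
      (∀ f ∈ ZB, aeval (fun x : n1 × ι1 => a x.1 x.2) f = 0) →
        ∀ f ∈ ZB, aeval (fun x : n1 × ι1 => (g * a) x.1 x.2) f = 0)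
    (hZB' : ∀ (g : Matrix (n1 ⊕ φ) (n1 ⊕ φ) ℚ) (a : Matrix (n1 ⊕ φ) ι1 ℚ),
      (∀ f ∈ ZB', aeval (fun x : (n1 ⊕ φ) × ι1 => a x.1 x.2) f = 0) →
        ∀ f ∈ ZB', aeval (fun x : (n1 ⊕ φ) × ι1 => (g * a) x.1 x.2) f = 0)
    (hT : ∀ (a : Matrix na ιm (AlgebraicClosure ℚ)) (b' : Matrix n1 ι1 (AlgebraicClosure ℚ)),
      (∀ f ∈ ZA, aeval (fun x : na × ιm => a x.1 x.2) f = 0) →
      (∀ f ∈ ZB, aeval (fun x : n1 × ι1 => b' x.1 x.2) f = 0) → plu a ≠ 0 → plu b' ≠ 0 →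
      ∃ s ∈ rsp a, ∃ t ∈ rsp a, Fintype.card n2 ≤
        Module.finrank (AlgebraicClosure ℚ)
          (Submodule.span (AlgebraicClosure ℚ) (Set.range (UMrow c12 b' s t))))
    (hT' : ∀ (a : Matrix na ιm (AlgebraicClosure ℚ))
      (b' : Matrix (n1 ⊕ φ) ι1 (AlgebraicClosure ℚ)),
      (∀ f ∈ ZA, aeval (fun x : na × ιm => a x.1 x.2) f = 0) →
      (∀ f ∈ ZB', aeval (fun x : (n1 ⊕ φ) × ι1 => b' x.1 x.2) f = 0) → plu a ≠ 0 → plu b' ≠ 0 →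
      ∃ s ∈ rsp a, ∃ t ∈ rsp a, Fintype.card (n2 ⊕ φ) ≤
        Module.finrank (AlgebraicClosure ℚ)
          (Submodule.span (AlgebraicClosure ℚ) (Set.range (UMrow c12 b' s t)))) :
    ∃ C : ℝ, ∀ (a : Matrix na ιm ℚ)
      (b0 : Matrix n0 ι0 ℚ) (y0 : Matrix φ ι0 ℚ) (b' : Matrix n1 ι1 ℚ) (y' : Matrix φ ι1 ℚ)
      (b'' : Matrix n2 ι2 ℚ) (y'' : Matrix φ ι2 ℚ),
      (∀ f ∈ ZA, aeval (fun x : na × ιm => a x.1 x.2) f = 0) →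
      (∀ f ∈ ZB, aeval (fun x : n1 × ι1 => b' x.1 x.2) f = 0) →
      (∀ f ∈ ZB', aeval (fun x : (n1 ⊕ φ) × ι1 => (Matrix.fromRows b' y') x.1 x.2) f = 0) →
      plu a ≠ 0 → plu (Matrix.fromRows b0 y0) ≠ 0 → plu (Matrix.fromRows b' y') ≠ 0 →
      plu (Matrix.fromRows b'' y'') ≠ 0 →
      (∀ s ∈ rsp a, ∀ z ∈ rsp b0, mulC c01 s z ∈ rsp b') →
      (∀ s ∈ rsp a, ∀ z ∈ rsp (Matrix.fromRows b0 y0),
        mulC c01 s z ∈ rsp (Matrix.fromRows b' y')) →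
      (∀ s ∈ rsp a, ∀ z ∈ rsp b', mulC c12 s z ∈ rsp b'') →
      (∀ s ∈ rsp a, ∀ z ∈ rsp (Matrix.fromRows b' y'),
        mulC c12 s z ∈ rsp (Matrix.fromRows b'' y'')) →
      (∃ t0 ∈ rsp a,
        (∀ z ∈ rsp (Matrix.fromRows b0 y0), mulC c01 t0 z ∈ rsp b' → z ∈ rsp b0) ∧
        (∀ z ∈ rsp (Matrix.fromRows b' y'), mulC c12 t0 z ∈ rsp b'' → z ∈ rsp b')) →
      |(Height.logHeight (plu (Matrix.fromRows b'' y'')) +
          Height.logHeight (plu (Matrix.fromRows b0 y0))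
          - 2 * Height.logHeight (plu (Matrix.fromRows b' y'))) -
        (Height.logHeight (plu b'') + Height.logHeight (plu b0)
          - 2 * Height.logHeight (plu b'))| ≤ C := by
  have key := MH5_cube_abs_of (φ := φ) c01 c12 ε hdom ZA ZB ZB' hZA hZB hZB'
    (fun a b' hA hB ha hb => by
      obtain ⟨s, hs, t, ht, hr⟩ := hT a b' hA hB ha hb
      exact ⟨s, hs, t, ht, TZ_TNZ c12 ε b' s t hb hr⟩)
    (fun a b' hA hB ha hb => by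
      obtain ⟨s, hs, t, ht, hr⟩ := hT' a b' hA hB ha hb
      exact ⟨s, hs, t, ht, TZ_TNZ c12 (cubeEps φ ε) b' s t hb hr⟩)
  obtain ⟨C, hC⟩ := key
  refine ⟨C, fun a b0 y0 b' y' b'' y'' hA hB hB' ha h0 h1 h2 h01 h01' h12 h12' ht0 => ?_⟩
  obtain ⟨t0, ht0, ht01, ht12⟩ := ht0
  exact hC a b0 y0 b' y' b'' y'' hA hB hB' ha h0 h1 h2
    (cube_ident c01 c12 hcomm ε (rsp a) b0 y0 b' y' b'' y'' h0 h1 h2 h01 h01' h12 h12' t0 ht0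
      ht01 ht12)

end Main

end Fermat.Agent.S17Lib
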