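import Fermat.Agent.S17.Cube.NVgeo
import Fermat.Agent.S17.Cube.NVgrid
import Fermat.Agent.S17.Cube.MainAbs
import Fermat.Agent.S17.Cube.Defs2

/-!
# S17, chapter CUBE, leaf NV: the non-vanishing hypotheses of `cube_abs` / `CC_semi` / `MA5_NV`
(abstract function field setting, equations = `CL_rkPolys`)
-/

set_option autoImplicit false
set_option linter.unusedSectionVars false

open AlgebraicCurve Fermat.Agent.S24Lib Fermat.Agent.FFLib

namespace Fermat.Agent.S17Lib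

open Matrix

section Rank

variable {K F : Type*} [Field K] [Field F] [Algebra K F] [Algebra ℚ K]
variable {ιm ι1 ι2 n1 : Type*} [Fintype ιm] [Fintype ι1] [Fintype ι2]
  [Fintype n1] [DecidableEq n1]

theorem NV_rank [IsAlgClosed K] (h : IsFF K F) {c : ℤ} (hc : IsRRBound K F c)
    (eM : ιm → F) (e1 : ι1 → F) (e2 : ι2 → F) (c12 : ιm → ι1 → ι2 → ℚ)
    (h2li : LinearIndependent K e2)
    (hc12 : ∀ u j, eM u * e1 j = ∑ k, (algebraMap ℚ K (c12 u j k)) • e2 k)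
    (b' : Matrix n1 ι1 K)
    (D D1 : Divisor K F) (hb' : CL_rowSp e1 b' = riemannRochSpace D1)
    (hD : 0 ≤ Divisor.degree D) (hD1 : c ≤ Divisor.degree (D1 - D))
    (s t : ιm → K) (hp : IsPencil D (CL_real eM s) (CL_real eM t)) :
    ell (D1 + D) ≤
      Module.finrank K (Submodule.span K (Set.range (UMrow c12 b' s t))) := by
  set S := Submodule.span K (Set.range (UMrow c12 b' s t)) with hS
  have hle : riemannRochSpace (D1 + D) ≤ S.map (CL_real e2) := by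
    intro w hw
    obtain ⟨u, hu, u', hu', rfl⟩ := pencil_surj h hc hp hD hD1 w hw
    obtain ⟨q, hq⟩ := NV_exists_vec e1 b' u (by rw [hb']; exact hu)
    obtain ⟨q', hq'⟩ := NV_exists_vec e1 b' u' (by rw [hb']; exact hu')
    refine ⟨mulC c12 s (q ᵥ* b') + mulC c12 t (q' ᵥ* b'), ?_, ?_⟩
    · rw [NV_mulC_vecMul, NV_mulC_vecMul]
      refine Submodule.add_mem _ (Submodule.sum_mem _ fun i _ => Submodule.smul_mem _ _
        (Submodule.subset_span ⟨Sum.inl i, rfl⟩)) (Submodule.sum_mem _ fun i _ =>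
        Submodule.smul_mem _ _ (Submodule.subset_span ⟨Sum.inr i, rfl⟩))
    · rw [map_add, CL_real_mulC eM e1 e2 c12 hc12, CL_real_mulC eM e1 e2 c12 hc12, hq, hq']
  have h1 : Module.finrank K S = Module.finrank K (S.map (CL_real e2)) :=
    (Submodule.equivMapOfInjective _ (CL_real_injective e2 h2li) S).finrank_eq
  rw [h1]
  exact Submodule.finrank_mono hle

end Rank

section Main

variable {K F : Type*} [Field K] [Field F] [Algebra K F] [Algebra ℚ K]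
variable {ιm ι0 ι1 ι2 ιcm ιmc ιc1 ι1c n n0 n0' n1 n2 : Type*}
  [Fintype ιm] [Fintype ι0] [Fintype ι1] [Fintype ι2]
  [Fintype ιcm] [Fintype ιmc] [Fintype ιc1] [Fintype ι1c]
  [Fintype n] [DecidableEq n]
  [Fintype n0] [DecidableEq n0] [Fintype n0'] [DecidableEq n0'] [Fintype n1] [DecidableEq n1]
  [Fintype n2] [DecidableEq n2]

/-- the geometric data behind the two blocks `a`, `b'`. -/
structure NV_Setup (K F : Type*) [Field K] [Field F] [Algebra K F] [Algebra ℚ K]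
    (c : ℤ) (M CM B1 C1 : Divisor K F)
    (eCM : ιcm → F) (eM : ιm → F) (eMC : ιmc → F) (cstM : ιcm → ιm → ιmc → ℚ)
    (eC1 : ιc1 → F) (e1 : ι1 → F) (e1C : ι1c → F) (cst1 : ιc1 → ι1 → ι1c → ℚ)
    (dA rA dE r1 kA k1 : ℕ) : Prop where
  hFF : IsFF K F
  hc0 : 0 ≤ c
  hc : IsRRBound K F c
  hCM : Submodule.span K (Set.range eCM) = riemannRochSpace CM
  hM : Submodule.span K (Set.range eM) = riemannRochSpace M
  hMli : LinearIndependent K eM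
  hMCli : LinearIndependent K eMC
  hcstM : ∀ u j, eCM u * eM j = ∑ k, (algebraMap ℚ K (cstM u j k)) • eMC k
  hkA : (kA : ℤ) = (ell M : ℤ) - dA
  hrA : (rA : ℤ) = (ell (M + CM) : ℤ) - dA
  hdM : c + dA + 1 ≤ Divisor.degree M
  hdCM : c ≤ Divisor.degree (CM - M)
  hC1 : Submodule.span K (Set.range eC1) = riemannRochSpace C1
  hB1 : Submodule.span K (Set.range e1) = riemannRochSpace B1
  h1li : LinearIndependent K e1
  h1Cli : LinearIndependent K e1C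
  hcst1 : ∀ u j, eC1 u * e1 j = ∑ k, (algebraMap ℚ K (cst1 u j k)) • e1C k
  hk1 : (k1 : ℤ) = (ell B1 : ℤ) - dE
  hr1 : (r1 : ℤ) = (ell (B1 + C1) : ℤ) - dE
  hdB1 : c + dE + 1 ≤ Divisor.degree B1
  hdC1 : c ≤ Divisor.degree (C1 - B1)

variable {c : ℤ} {M CM B1 C1 : Divisor K F}
    {eCM : ιcm → F} {eM : ιm → F} {eMC : ιmc → F} {cstM : ιcm → ιm → ιmc → ℚ}
    {eC1 : ιc1 → F} {e1 : ι1 → F} {e1C : ι1c → F} {cst1 : ιc1 → ι1 → ι1c → ℚ}
    {dA rA dE r1 : ℕ}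

theorem NV_core [IsAlgClosed K]
    (H : NV_Setup K F c M CM B1 C1 eCM eM eMC cstM eC1 e1 e1C cst1 dA rA dE r1
      (Fintype.card n) (Fintype.card n1))
    (a : Matrix n ιm K) (b' : Matrix n1 ι1 K)
    (hZA : ∀ f ∈ CL_rkPolys n cstM rA, MvPolynomial.aeval (fun x : n × ιm => a x.1 x.2) f = 0)
    (hZB : ∀ f ∈ CL_rkPolys n1 cst1 r1, MvPolynomial.aeval (fun x : n1 × ι1 => b' x.1 x.2) f = 0)
    (ha : plu a ≠ 0) (hb : plu b' ≠ 0) :
    ∃ D D1 : Divisor K F, CL_rowSp eM a = riemannRochSpace D ∧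
      CL_rowSp e1 b' = riemannRochSpace D1 ∧ Divisor.degree D = Divisor.degree M - dA ∧
      Divisor.degree D1 = Divisor.degree B1 - dE := by
  obtain ⟨A, -, hA, hA'⟩ := CL_point_geo H.hFF H.hc0 H.hc M CM eCM eM eMC cstM H.hCM H.hM H.hMli
    H.hMCli H.hcstM dA rA H.hkA H.hrA H.hdM H.hdCM a ha hZA
  obtain ⟨E, -, hE, hE'⟩ := CL_point_geo H.hFF H.hc0 H.hc B1 C1 eC1 e1 e1C cst1 H.hC1 H.hB1 H.h1li
    H.h1Cli H.hcst1 dE r1 H.hk1 H.hr1 H.hdB1 H.hdC1 b' hb hZB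
  exact ⟨M - A, B1 - E, hA', hE', by rw [map_sub, hA], by rw [map_sub, hE]⟩

/-- **hT / hT' of `cube_abs`.** -/
theorem NV_hT [IsAlgClosed K]
    (H : NV_Setup K F c M CM B1 C1 eCM eM eMC cstM eC1 e1 e1C cst1 dA rA dE r1
      (Fintype.card n) (Fintype.card n1))
    (e2 : ι2 → F) (c12 : ιm → ι1 → ι2 → ℚ) (h2li : LinearIndependent K e2)
    (hc12 : ∀ u j, eM u * e1 j = ∑ k, (algebraMap ℚ K (c12 u j k)) • e2 k)
    (hn2 : (Fintype.card n2 : ℤ) =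
      Divisor.degree B1 - dE + (Divisor.degree M - dA) + 1 - (genusR K F : ℤ))
    (ht1 : c + 1 ≤ Divisor.degree M - dA)
    (ht2 : c ≤ Divisor.degree B1 - dE - (Divisor.degree M - dA))
    (a : Matrix n ιm K) (b' : Matrix n1 ι1 K)
    (hZA : ∀ f ∈ CL_rkPolys n cstM rA, MvPolynomial.aeval (fun x : n × ιm => a x.1 x.2) f = 0)
    (hZB : ∀ f ∈ CL_rkPolys n1 cst1 r1, MvPolynomial.aeval (fun x : n1 × ι1 => b' x.1 x.2) f = 0)
    (ha : plu a ≠ 0) (hb : plu b' ≠ 0) :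
    ∃ s ∈ rsp a, ∃ t ∈ rsp a, Fintype.card n2 ≤
      Module.finrank K (Submodule.span K (Set.range (UMrow c12 b' s t))) := by
  obtain ⟨D, D1, haD, hbD, hdD, hdD1⟩ := NV_core H a b' hZA hZB ha hb
  have hc0 := H.hc0
  obtain ⟨sF, tF, hp⟩ := exists_pencil H.hFF H.hc D (by omega)
  obtain ⟨s, hs, hsF⟩ := NV_exists_row_vec eM a sF (by rw [haD]; exact hp.1)
  obtain ⟨t, ht, htF⟩ := NV_exists_row_vec eM a tF (by rw [haD]; exact hp.2.1)
  subst hsF htF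
  refine ⟨s, hs, t, ht, ?_⟩
  have h1 := NV_rank H.hFF H.hc eM e1 e2 c12 h2li hc12 b' D D1 hbD (by omega)
    (by rw [map_sub]; omega) s t hp
  have h2 := H.hc (D1 + D) (by rw [map_add]; omega)
  rw [map_add] at h2
  have h3 : (Fintype.card n2 : ℤ) = (ell (D1 + D) : ℤ) := by omega
  have h4 : Fintype.card n2 = ell (D1 + D) := by exact_mod_cast h3
  rw [h4]
  exact h1

/-- **hnv of `CC_semi` / `MA5_NV`** in `∃`-form. -/
theorem NV_hnv_exists [IsAlgClosed K] [CharZero K]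
    (H : NV_Setup K F c M CM B1 C1 eCM eM eMC cstM eC1 e1 e1C cst1 dA rA dE r1
      (Fintype.card n) (Fintype.card n1))
    (e0 : ι0 → F) (e2 : ι2 → F) (c01 : ιm → ι0 → ι1 → ℚ) (c12 : ιm → ι1 → ι2 → ℚ)
    (h0li : LinearIndependent K e0) (h2li : LinearIndependent K e2)
    (hc01 : ∀ u j, eM u * e0 j = ∑ k, (algebraMap ℚ K (c01 u j k)) • e1 k)
    (hc12 : ∀ u j, eM u * e1 j = ∑ k, (algebraMap ℚ K (c12 u j k)) • e2 k)
    (ε : n1 ⊕ n1 ≃ n0 ⊕ n2)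
    (hn0 : (Fintype.card n0 : ℤ) =
      Divisor.degree B1 - dE - (Divisor.degree M - dA) + 1 - (genusR K F : ℤ))
    (hn2 : (Fintype.card n2 : ℤ) =
      Divisor.degree B1 - dE + (Divisor.degree M - dA) + 1 - (genusR K F : ℤ))
    (ht1 : c + 1 ≤ Divisor.degree M - dA)
    (ht2 : c ≤ Divisor.degree B1 - dE - (Divisor.degree M - dA))
    (a : Matrix n ιm K) (b' : Matrix n1 ι1 K) (b0 : Matrix n0' ι0 K)
    (hZA : ∀ f ∈ CL_rkPolys n cstM rA, MvPolynomial.aeval (fun x : n × ιm => a x.1 x.2) f = 0)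
    (hZB : ∀ f ∈ CL_rkPolys n1 cst1 r1, MvPolynomial.aeval (fun x : n1 × ι1 => b' x.1 x.2) f = 0)
    (ha : plu a ≠ 0) (hb : plu b' ≠ 0) (hb0 : plu b0 ≠ 0) :
    ∃ (γ γ' : (n → ιm) × n → ℕ) (J : n0 → ι1 ⊕ ι1) (I : n2 → ι2) (J2 : n0' → ι1 ⊕ ι1),
      (∀ x, γ x ≤ Fintype.card n2 + Fintype.card n0') ∧
      (∀ x, γ' x ≤ Fintype.card n2 + Fintype.card n0') ∧
      Tdet c12 ε b' (sOf a γ) (sOf a γ') J I * Gplu c01 b0 (sOf a γ) (sOf a γ') J2 ≠ 0 := by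
  obtain ⟨D, D1, haD, hbD, hdD, hdD1⟩ := NV_core H a b' hZA hZB ha hb
  have hc0 := H.hc0
  obtain ⟨v₀⟩ := exists_place H.hFF
  obtain ⟨sF, tF, hp⟩ := exists_pencil H.hFF H.hc D (by omega)
  obtain ⟨s, hs, hsF⟩ := NV_exists_row_vec eM a sF (by rw [haD]; exact hp.1)
  obtain ⟨t, ht, htF⟩ := NV_exists_row_vec eM a tF (by rw [haD]; exact hp.2.1)
  subst hsF htF
  have h2 := H.hc (D1 + D) (by rw [map_add]; omega)
  have h0 := H.hc (D1 - D) (by rw [map_sub]; omega)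
  rw [map_add] at h2
  rw [map_sub] at h0
  have h4 : Fintype.card n2 = ell (D1 + D) := by
    have : (Fintype.card n2 : ℤ) = (ell (D1 + D) : ℤ) := by omega
    exact_mod_cast this
  have h5 : Fintype.card n0 = ell (D1 - D) := by
    have : (Fintype.card n0 : ℤ) = (ell (D1 - D) : ℤ) := by omega
    exact_mod_cast this
  obtain ⟨J, I, hT⟩ := NV_T_ne_zero H.hFF H.hc eM e1 e2 c12 h2li hc12 ε b' D D1 hbD h5 h4
    (by omega) (by rw [map_sub]; omega) s t hp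
  obtain ⟨J2, hG⟩ := NV_G_ne_zero eM e0 e1 c01 hc01 h0li b0 hb0 s t
    ((hp.2.2 v₀).imp (fun x => x.1) (fun x => x.1))
  obtain ⟨γ, γ', hγ, hγ', hne⟩ := NV_grid c01 c12 ε a ha b' b0 J I J2 s t hs ht (mul_ne_zero hT hG)
  exact ⟨γ, γ', J, I, J2, hγ, hγ', hne⟩

end Main

section MA5

variable {K F : Type*} [Field K] [Field F] [Algebra K F] [Algebra ℚ K]
variable {ιm ι0 ι1 ι2 n n0 n0' n1 n2 : Type} {ιcm ιmc ιc1 ι1c : Type*}
  [Fintype ιm] [Fintype ι0] [Fintype ι1] [Fintype ι2]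
  [Fintype ιcm] [Fintype ιmc] [Fintype ιc1] [Fintype ι1c]
  [Fintype n] [DecidableEq n]
  [Fintype n0] [DecidableEq n0] [Fintype n0'] [DecidableEq n0'] [Fintype n1] [DecidableEq n1]
  [Fintype n2] [DecidableEq n2]
variable {c : ℤ} {M CM B1 C1 : Divisor K F}
    {eCM : ιcm → F} {eM : ιm → F} {eMC : ιmc → F} {cstM : ιcm → ιm → ιmc → ℚ}
    {eC1 : ιc1 → F} {e1 : ι1 → F} {e1C : ι1c → F} {cst1 : ιc1 → ι1 → ι1c → ℚ}
    {dA rA dE r1 : ℕ}

/-- **hnv of `CC_semi`.** -/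
theorem NV_hnv [IsAlgClosed K] [CharZero K]
    (H : NV_Setup K F c M CM B1 C1 eCM eM eMC cstM eC1 e1 e1C cst1 dA rA dE r1
      (Fintype.card n) (Fintype.card n1))
    (e0 : ι0 → F) (e2 : ι2 → F) (c01 : ιm → ι0 → ι1 → ℚ) (c12 : ιm → ι1 → ι2 → ℚ)
    (h0li : LinearIndependent K e0) (h2li : LinearIndependent K e2)
    (hc01 : ∀ u j, eM u * e0 j = ∑ k, (algebraMap ℚ K (c01 u j k)) • e1 k)
    (hc12 : ∀ u j, eM u * e1 j = ∑ k, (algebraMap ℚ K (c12 u j k)) • e2 k)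
    (ε : n1 ⊕ n1 ≃ n0 ⊕ n2)
    (hn0 : (Fintype.card n0 : ℤ) =
      Divisor.degree B1 - dE - (Divisor.degree M - dA) + 1 - (genusR K F : ℤ))
    (hn2 : (Fintype.card n2 : ℤ) =
      Divisor.degree B1 - dE + (Divisor.degree M - dA) + 1 - (genusR K F : ℤ))
    (ht1 : c + 1 ≤ Divisor.degree M - dA)
    (ht2 : c ≤ Divisor.degree B1 - dE - (Divisor.degree M - dA))
    (Dg : ℕ) (hDg : Fintype.card n2 + Fintype.card n0' ≤ Dg)
    (a : Matrix n ιm K) (b' : Matrix n1 ι1 K) (b0 : Matrix n0' ι0 K)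
    (hZA : ∀ f ∈ CL_rkPolys n cstM rA, MvPolynomial.aeval (fun x : n × ιm => a x.1 x.2) f = 0)
    (hZB : ∀ f ∈ CL_rkPolys n1 cst1 r1, MvPolynomial.aeval (fun x : n1 × ι1 => b' x.1 x.2) f = 0)
    (ha : plu a ≠ 0) (hb : plu b' ≠ 0) (hb0 : plu b0 ≠ 0) :
    MA5_Q Dg c01 c12 ε a b' b0 ≠ 0 := by
  obtain ⟨γ, γ', J, I, J2, hγ, hγ', hne⟩ := NV_hnv_exists H e0 e2 c01 c12 h0li h2li hc01 hc12 ε
    hn0 hn2 ht1 ht2 a b' b0 hZA hZB ha hb hb0
  intro h0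
  apply hne
  have := congrFun h0 ((fun x => ⟨γ x, Nat.lt_succ_of_le ((hγ x).trans hDg)⟩,
    fun x => ⟨γ' x, Nat.lt_succ_of_le ((hγ' x).trans hDg)⟩), (J, I), J2)
  exact this

end MA5

end Fermat.Agent.S17Lib
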