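import Fermat.Agent.S17.Cube.Defs2
import Fermat.Agent.S17.Cube.Fact2
import Fermat.Agent.S17.Frame.LA

/-!
# S17, chapter CUBE, leaf PW: the pointwise identity
`det Pt' * (T₁ G₂ P''₂) = det Rt' * (T₂ G₁ P''₁)` for adapted bases.
-/

set_option autoImplicit false
set_option linter.unusedSectionVars false

namespace Fermat.Agent.S17Lib

open Matrix

section PW

variable {k : Type*} [Field k] [Algebra ℚ k]
variable {ιm ι0 ι1 ι2 n0 n1 n2 φ : Type*} [Fintype ιm] [Fintype ι0] [Fintype ι1] [Fintype ι2]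
  [DecidableEq ιm] [DecidableEq ι0] [DecidableEq ι1] [DecidableEq ι2]
  [Fintype n0] [DecidableEq n0] [Fintype n1] [DecidableEq n1] [Fintype n2] [DecidableEq n2]
  [Fintype φ] [DecidableEq φ]

/-- right cancellation of a full rank matrix -/
theorem PW_cancel {m n ι : Type*} [Fintype n] [DecidableEq n] (B : Matrix n ι k) (hB : plu B ≠ 0)
    (X Y : Matrix m n k) (h : X * B = Y * B) : X = Y := by
  obtain ⟨I, hI⟩ := Function.ne_iff.mp hB
  have hdet : IsUnit (B.submatrix id I).det := isUnit_iff_ne_zero.mpr hI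
  have h1 : X * B.submatrix id I = Y * B.submatrix id I := by
    have e : ∀ Z : Matrix m n k, Z * B.submatrix id I = (Z * B).submatrix id I := by
      intro Z; ext i j; simp [Matrix.mul_apply]
    rw [e, e, h]
  calc X = X * (B.submatrix id I * (B.submatrix id I)⁻¹) := by
        rw [Matrix.mul_nonsing_inv _ hdet, Matrix.mul_one]
    _ = Y * (B.submatrix id I * (B.submatrix id I)⁻¹) := by
        rw [← Matrix.mul_assoc, h1, Matrix.mul_assoc]
    _ = Y := by rw [Matrix.mul_nonsing_inv _ hdet, Matrix.mul_one]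

/-- `Gmat = [Mt | -Ms] * U`. -/
theorem PW_Gmat {m0 m1 : Type*} [Fintype m0] [DecidableEq m0] [Fintype m1] [DecidableEq m1]
    (c01 : ιm → ι0 → ι1 → ℚ) (b0 : Matrix m0 ι0 k) (b' : Matrix m1 ι1 k) (s t : ιm → k)
    (Ms Mt : Matrix m0 m1 k)
    (hs : (Matrix.of fun i => mulC c01 s (b0 i)) = Ms * b')
    (ht : (Matrix.of fun i => mulC c01 t (b0 i)) = Mt * b') :
    Gmat c01 b0 s t = Matrix.fromCols Mt (-Ms) *
      (Matrix.of (Urow b') : Matrix (m1 ⊕ m1) (ι1 ⊕ ι1) k) := by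
  ext i x
  rcases x with x | x
  · have := congrFun (congrFun ht i) x
    simp only [Matrix.of_apply] at this
    simp [Gmat, Matrix.mul_apply, Fintype.sum_sum_type, Urow, this]
  · have := congrFun (congrFun hs i) x
    simp only [Matrix.of_apply] at this
    simp [Gmat, Matrix.mul_apply, Fintype.sum_sum_type, Urow, this]

/-- `U M = [Ns ; Nt] * b''`. -/
theorem PW_UM {m1 m2 : Type*} [Fintype m1] [DecidableEq m1] [Fintype m2] [DecidableEq m2]
    (c12 : ιm → ι1 → ι2 → ℚ) (b' : Matrix m1 ι1 k) (b'' : Matrix m2 ι2 k) (s t : ιm → k)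
    (Ns Nt : Matrix m1 m2 k)
    (hs : (Matrix.of fun i => mulC c12 s (b' i)) = Ns * b'')
    (ht : (Matrix.of fun i => mulC c12 t (b' i)) = Nt * b'') :
    (Matrix.of (UMrow c12 b' s t) : Matrix (m1 ⊕ m1) ι2 k) = Matrix.fromRows Ns Nt * b'' := by
  ext r x
  rcases r with i | i
  · have := congrFun (congrFun hs i) x
    simp only [Matrix.of_apply] at this
    simp [UMrow, this, Matrix.fromRows_mul]
  · have := congrFun (congrFun ht i) x
    simp only [Matrix.of_apply] at this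
    simp [UMrow, this, Matrix.fromRows_mul]

/-- `mulC c s` of the rows of a product. -/
theorem PW_mulC_mul {m0 m1 ι ι' : Type*} [Fintype m1] [Fintype ι]
    (c : ιm → ι → ι' → ℚ) (s : ιm → k) (M : Matrix m0 m1 k) (b : Matrix m1 ι k) :
    (Matrix.of fun i => mulC c s ((M * b) i)) = M * (Matrix.of fun i => mulC c s (b i)) := by
  ext i x
  have h : (M * b) i = ∑ j, M i j • b j := by
    funext y
    simp [Matrix.mul_apply, Finset.sum_apply]
  simp only [Matrix.of_apply, Matrix.mul_apply]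
  rw [h, ← FACT_mulL_apply, map_sum]
  simp [FACT_mulL_apply, Finset.sum_apply]

/-- `Λ Γ = 0`. -/
theorem PW_LamGam {m0 m1 m2 : Type*} [Fintype m0] [DecidableEq m0] [Fintype m1] [DecidableEq m1]
    [Fintype m2] [DecidableEq m2]
    (c01 : ιm → ι0 → ι1 → ℚ) (c12 : ιm → ι1 → ι2 → ℚ)
    (hcomm : ∀ (s t : ιm → k) (z : ι0 → k),
      mulC c12 s (mulC c01 t z) = mulC c12 t (mulC c01 s z))
    (b0 : Matrix m0 ι0 k) (b' : Matrix m1 ι1 k) (b'' : Matrix m2 ι2 k) (hb'' : plu b'' ≠ 0)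
    (s t : ιm → k) (Ms Mt : Matrix m0 m1 k) (Ns Nt : Matrix m1 m2 k)
    (h01s : (Matrix.of fun i => mulC c01 s (b0 i)) = Ms * b')
    (h01t : (Matrix.of fun i => mulC c01 t (b0 i)) = Mt * b')
    (h12s : (Matrix.of fun i => mulC c12 s (b' i)) = Ns * b'')
    (h12t : (Matrix.of fun i => mulC c12 t (b' i)) = Nt * b'') :
    Mt * Ns = Ms * Nt := by
  apply PW_cancel b'' hb''
  rw [Matrix.mul_assoc, Matrix.mul_assoc, ← h12s, ← h12t, ← PW_mulC_mul, ← PW_mulC_mul,
    ← h01t, ← h01s]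
  ext i x
  exact congrFun (hcomm s t (b0 i)) x

/-- the splitting of the big side -/
def PW_Lam' (A B : Matrix n2 n1 k) : Matrix (n2 ⊕ φ) ((n1 ⊕ φ) ⊕ (n1 ⊕ φ)) k :=
  Matrix.fromCols (Matrix.fromBlocks A 0 0 0) (Matrix.fromBlocks B 0 0 1)

theorem PW_det_LamGam (A B : Matrix n2 n1 k) (Rs Rt : Matrix n1 n2 k) (Ss St : Matrix φ n2 k)
    (Rs' Rt' : Matrix φ φ k) :
    ((PW_Lam' A B : Matrix (n2 ⊕ φ) ((n1 ⊕ φ) ⊕ (n1 ⊕ φ)) k) *
      Matrix.fromRows (Matrix.fromBlocks Rs 0 Ss Rs') (Matrix.fromBlocks Rt 0 St Rt')).det =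
      (Matrix.fromCols A B * Matrix.fromRows Rs Rt).det * Rt'.det := by
  unfold PW_Lam'
  rw [Matrix.fromCols_mul_fromRows, Matrix.fromCols_mul_fromRows, Matrix.fromBlocks_multiply,
    Matrix.fromBlocks_multiply, Matrix.fromBlocks_add]
  simp only [Matrix.zero_mul, Matrix.mul_zero, add_zero, zero_add, Matrix.one_mul]
  rw [Matrix.det_fromBlocks_zero₁₂]

theorem PW_sig (ε : n1 ⊕ n1 ≃ n0 ⊕ n2) (A B : Matrix n2 n1 k)
    (Ps Pt : Matrix n0 n1 k) (Qs Qt : Matrix φ n1 k) (Ps' Pt' : Matrix φ φ k) :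
    FACT_sig (cubeEps φ ε)
      (Matrix.fromCols (Matrix.fromBlocks Pt 0 Qt Pt') (-(Matrix.fromBlocks Ps 0 Qs Ps')))
      (PW_Lam' A B) =
    FACT_sig ε (Matrix.fromCols Pt (-Ps)) (Matrix.fromCols A B) * Pt'.det := by
  unfold FACT_sig
  rw [← Matrix.det_submatrix_equiv_self (Equiv.sumSumSumComm n0 φ n2 φ).symm]
  have key : (((Matrix.fromRows
      (Matrix.fromCols (Matrix.fromBlocks Pt 0 Qt Pt') (-(Matrix.fromBlocks Ps 0 Qs Ps')))
      (PW_Lam' A B)).submatrix id (cubeEps φ ε).symm).submatrix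
        (Equiv.sumSumSumComm n0 φ n2 φ).symm (Equiv.sumSumSumComm n0 φ n2 φ).symm) =
      Matrix.fromBlocks
        ((Matrix.fromRows (Matrix.fromCols Pt (-Ps)) (Matrix.fromCols A B)).submatrix id ε.symm)
        0
        ((Matrix.fromRows (Matrix.fromCols Qt (-Qs)) (0 : Matrix φ (n1 ⊕ n1) k)).submatrix
          id ε.symm)
        (Matrix.fromBlocks Pt' (-Ps') 0 1) := by
    ext r x
    rcases x with x | x
    · rcases h : ε.symm x with j | j <;> rcases r with (r | r) | (r | r) <;>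
        simp [cubeEps, PW_Lam', h]
    · rcases x with x | x <;> rcases r with (r | r) | (r | r) <;>
        simp [cubeEps, PW_Lam']
  rw [key, Matrix.det_fromBlocks_zero₁₂, Matrix.det_fromBlocks_zero₂₁, Matrix.det_one, mul_one]

/-- local copy of (EXT): independent rows can be completed to an invertible matrix -/
theorem PW_ext_rows {ν : Type*} [Fintype ν] [DecidableEq ν]
    (ε : ν ≃ n0 ⊕ n2) (Λ : Matrix n0 ν k) (h : LinearIndependent k Λ.row) :
    ∃ Λ' : Matrix n2 ν k, ((Matrix.fromRows Λ Λ').submatrix id ε.symm).det ≠ 0 := by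
  classical
  obtain ⟨W', hW'⟩ := Submodule.exists_isCompl (Submodule.span k (Set.range Λ.row))
  have hd : Module.finrank k W' = Fintype.card n2 := by
    have h1 := Submodule.finrank_add_eq_of_isCompl hW'
    rw [finrank_span_eq_card h, Module.finrank_fintype_fun_eq_card, Fintype.card_congr ε,
      Fintype.card_sum] at h1
    omega
  let bW : Module.Basis n2 k W' :=
    (Module.finBasisOfFinrankEq k W' hd).reindex (Fintype.equivFin n2).symm
  refine ⟨Matrix.of fun i => (bW i : ν → k), ?_⟩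
  have hli' : LinearIndependent k (fun i => (bW i : ν → k)) :=
    bW.linearIndependent.map' W'.subtype (Submodule.ker_subtype _)
  have hsp : Submodule.span k (Set.range fun i => (bW i : ν → k)) ≤ W' := by
    rw [Submodule.span_le]
    rintro _ ⟨i, rfl⟩
    exact (bW i).2
  have hrow : (Matrix.fromRows Λ (Matrix.of fun i => (bW i : ν → k))).row =
      Sum.elim Λ.row (fun i => (bW i : ν → k)) := by
    funext r
    rcases r with r | r <;> rfl
  have hli : LinearIndependent k (Matrix.fromRows Λ (Matrix.of fun i => (bW i : ν → k))).row := by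
    rw [hrow]
    exact h.sum_type hli' (hW'.disjoint.mono_right hsp)
  have hli2 : LinearIndependent k
      ((Matrix.fromRows Λ (Matrix.of fun i => (bW i : ν → k))).submatrix id ε.symm).row := by
    have := hli.map' (LinearMap.funLeft k k ε.symm)
      (LinearMap.ker_eq_bot.mpr (LinearMap.funLeft_injective_of_surjective k k _ ε.symm.surjective))
    exact this
  have hu := Matrix.linearIndependent_rows_iff_isUnit.mp hli2
  exact ((Matrix.isUnit_iff_isUnit_det _).mp hu).ne_zero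

/-- restriction of a block relation to the small side -/
theorem PW_small {ι ι' m0 m1 : Type*} [Fintype ι] [Fintype m1] [DecidableEq m1]
    (c : ιm → ι → ι' → ℚ) (s : ιm → k) (b0 : Matrix m0 ι k) (y0 : Matrix φ ι k)
    (b' : Matrix m1 ι' k) (y' : Matrix φ ι' k) (P : Matrix m0 m1 k) (Q : Matrix φ m1 k)
    (P' : Matrix φ φ k)
    (h : (Matrix.of fun i => mulC c s (Matrix.fromRows b0 y0 i)) =
      Matrix.fromBlocks P 0 Q P' * Matrix.fromRows b' y') :
    (Matrix.of fun i => mulC c s (b0 i)) = P * b' := by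
  rw [Matrix.fromBlocks_mul_fromRows] at h
  ext i x
  have := congrFun (congrFun h (Sum.inl i)) x
  have e : (Matrix.fromRows b0 y0 (Sum.inl i)) = b0 i := rfl
  simpa [e] using this

/-- **PW**: the pointwise identity. -/
theorem PW_ident
    (c01 : ιm → ι0 → ι1 → ℚ) (c12 : ιm → ι1 → ι2 → ℚ)
    (hcomm : ∀ (s t : ιm → k) (z : ι0 → k),
      mulC c12 s (mulC c01 t z) = mulC c12 t (mulC c01 s z))
    (ε : n1 ⊕ n1 ≃ n0 ⊕ n2)
    (b0 : Matrix n0 ι0 k) (y0 : Matrix φ ι0 k) (b' : Matrix n1 ι1 k) (y' : Matrix φ ι1 k)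
    (b'' : Matrix n2 ι2 k) (y'' : Matrix φ ι2 k) (hb'' : plu (Matrix.fromRows b'' y'') ≠ 0)
    (s t : ιm → k)
    (Ps Pt : Matrix n0 n1 k) (Qs Qt : Matrix φ n1 k) (Ps' Pt' : Matrix φ φ k)
    (Rs Rt : Matrix n1 n2 k) (Ss St : Matrix φ n2 k) (Rs' Rt' : Matrix φ φ k)
    (h01s : (Matrix.of fun i => mulC c01 s (Matrix.fromRows b0 y0 i)) =
      Matrix.fromBlocks Ps 0 Qs Ps' * Matrix.fromRows b' y')
    (h01t : (Matrix.of fun i => mulC c01 t (Matrix.fromRows b0 y0 i)) =
      Matrix.fromBlocks Pt 0 Qt Pt' * Matrix.fromRows b' y')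
    (h12s : (Matrix.of fun i => mulC c12 s (Matrix.fromRows b' y' i)) =
      Matrix.fromBlocks Rs 0 Ss Rs' * Matrix.fromRows b'' y'')
    (h12t : (Matrix.of fun i => mulC c12 t (Matrix.fromRows b' y' i)) =
      Matrix.fromBlocks Rt 0 St Rt' * Matrix.fromRows b'' y'')
    (J1 : n0 ⊕ φ → ι1 ⊕ ι1) (I1 : n2 ⊕ φ → ι2) (J2 : n0 → ι1 ⊕ ι1) (I2 : n2 → ι2) :
    Pt'.det * (Tdet c12 (cubeEps φ ε) (Matrix.fromRows b' y') s t J1 I1 * Gplu c01 b0 s t J2
        * plu b'' I2) =
      Rt'.det * (Tdet c12 ε b' s t J2 I2 * Gplu c01 (Matrix.fromRows b0 y0) s t J1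
        * plu (Matrix.fromRows b'' y'') I1) := by
  classical
  -- the big side
  have hG1 := PW_Gmat c01 (Matrix.fromRows b0 y0) (Matrix.fromRows b' y') s t _ _ h01s h01t
  have hU1 := PW_UM c12 (Matrix.fromRows b' y') (Matrix.fromRows b'' y'') s t _ _ h12s h12t
  have hLG1 := PW_LamGam c01 c12 hcomm (Matrix.fromRows b0 y0) (Matrix.fromRows b' y')
    (Matrix.fromRows b'' y'') hb'' s t _ _ _ _ h01s h01t h12s h12t
  have hZ1 : Matrix.fromCols (Matrix.fromBlocks Pt 0 Qt Pt') (-(Matrix.fromBlocks Ps 0 Qs Ps')) *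
      Matrix.fromRows (Matrix.fromBlocks Rs 0 Ss Rs') (Matrix.fromBlocks Rt 0 St Rt') = 0 := by
    rw [Matrix.fromCols_mul_fromRows, hLG1, Matrix.neg_mul, add_neg_cancel]
  -- the small side
  have g01s := PW_small c01 s b0 y0 b' y' Ps Qs Ps' h01s
  have g01t := PW_small c01 t b0 y0 b' y' Pt Qt Pt' h01t
  have g12s := PW_small c12 s b' y' b'' y'' Rs Ss Rs' h12s
  have g12t := PW_small c12 t b' y' b'' y'' Rt St Rt' h12t
  have hG2 := PW_Gmat c01 b0 b' s t _ _ g01s g01t
  have hU2 := PW_UM c12 b' b'' s t _ _ g12s g12t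
  have hLG2 : Pt * Rs = Ps * Rt := by
    rw [Matrix.fromBlocks_multiply, Matrix.fromBlocks_multiply] at hLG1
    have := (Matrix.fromBlocks_inj.mp hLG1).1
    simpa using this
  have hZ2 : Matrix.fromCols Pt (-Ps) * Matrix.fromRows Rs Rt = 0 := by
    rw [Matrix.fromCols_mul_fromRows, hLG2, Matrix.neg_mul, add_neg_cancel]
  by_cases hG : Gplu c01 b0 s t = 0
  · -- both sides vanish
    have h1 : Gplu c01 (Matrix.fromRows b0 y0) s t J1 = 0 := by
      by_contra hne
      have hp : plu (Gmat c01 (Matrix.fromRows b0 y0) s t) ≠ 0 := fun h0 => hne (congrFun h0 J1)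
      have hli := LA_linearIndependent_of_plu_ne_zero _ hp
      have hli2 : LinearIndependent k (Gmat c01 b0 s t).row := by
        have := hli.comp Sum.inl Sum.inl_injective
        exact this
      exact LA_plu_ne_zero _ hli2 hG
    rw [h1, congrFun hG J2]
    simp
  · have hli : LinearIndependent k (Gmat c01 b0 s t).row :=
      LA_linearIndependent_of_plu_ne_zero _ hG
    have hliΛ : LinearIndependent k (Matrix.fromCols Pt (-Ps)).row := by
      rw [← Matrix.vecMul_injective_iff] at hli ⊢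
      intro x y hxy
      apply hli
      show x ᵥ* Gmat c01 b0 s t = y ᵥ* Gmat c01 b0 s t
      have hxy' : x ᵥ* Matrix.fromCols Pt (-Ps) = y ᵥ* Matrix.fromCols Pt (-Ps) := hxy
      rw [hG2, ← Matrix.vecMul_vecMul, ← Matrix.vecMul_vecMul, hxy']
    obtain ⟨Λ', hΛ'⟩ := PW_ext_rows ε _ hliΛ
    obtain ⟨A, B, rfl⟩ : ∃ A B : Matrix n2 n1 k, Λ' = Matrix.fromCols A B :=
      ⟨Λ'.toCols₁, Λ'.toCols₂, (Matrix.fromCols_toCols Λ').symm⟩
    have e2 := FACT_mat c01 c12 ε b0 b' b'' s t _ _ (Matrix.fromCols A B) hU2 hG2 hZ2 J2 I2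
    have e1 := FACT_mat c01 c12 (cubeEps φ ε) (Matrix.fromRows b0 y0) (Matrix.fromRows b' y')
      (Matrix.fromRows b'' y'') s t _ _ (PW_Lam' A B) hU1 hG1 hZ1 J1 I1
    rw [PW_sig, PW_det_LamGam] at e1
    have hσ : FACT_sig ε (Matrix.fromCols Pt (-Ps)) (Matrix.fromCols A B) ≠ 0 := hΛ'
    apply mul_left_cancel₀ hσ
    calc FACT_sig ε (Matrix.fromCols Pt (-Ps)) (Matrix.fromCols A B) *
          (Pt'.det * (Tdet c12 (cubeEps φ ε) (Matrix.fromRows b' y') s t J1 I1 *
            Gplu c01 b0 s t J2 * plu b'' I2))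
        = (FACT_sig ε (Matrix.fromCols Pt (-Ps)) (Matrix.fromCols A B) * Pt'.det *
            Tdet c12 (cubeEps φ ε) (Matrix.fromRows b' y') s t J1 I1) *
            (Gplu c01 b0 s t J2 * plu b'' I2) := by ring
      _ = Rt'.det * ((Gplu c01 b0 s t J2 *
            (Matrix.fromCols A B * Matrix.fromRows Rs Rt).det * plu b'' I2) *
            Gplu c01 (Matrix.fromRows b0 y0) s t J1 * plu (Matrix.fromRows b'' y'') I1) := by
          rw [e1]; ring
      _ = FACT_sig ε (Matrix.fromCols Pt (-Ps)) (Matrix.fromCols A B) *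
          (Rt'.det * (Tdet c12 ε b' s t J2 I2 * Gplu c01 (Matrix.fromRows b0 y0) s t J1
            * plu (Matrix.fromRows b'' y'') I1)) := by
          rw [← e2]; ring

end PW

end Fermat.Agent.S17Lib
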