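import Fermat.Agent.S17.Cube.Defs2
import Fermat.Agent.S17.Cube.Fact2
import Fermat.Agent.S17.Cube.Ext
import Fermat.Agent.S17.Frame.LA

/-!
# S17, chapter CUBE, leaf PW (hedge): the pointwise identity for adapted bases
-/

set_option autoImplicit false
set_option linter.unusedSectionVars false

namespace Fermat.Agent.S17Lib

open Matrix

section PWK

variable {ιm ι0 ι1 ι2 n0 n1 n2 φ : Type*} [Fintype ιm] [DecidableEq ιm] [Fintype ι0]
  [DecidableEq ι0] [Fintype ι1] [DecidableEq ι1] [Fintype ι2] [DecidableEq ι2]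
  [Fintype n0] [DecidableEq n0] [Fintype n1] [DecidableEq n1] [Fintype n2] [DecidableEq n2]
  [Fintype φ] [DecidableEq φ]

variable {k : Type*} [Field k] [Algebra ℚ k]

/-- `mulC c s` of a row of a product -/
theorem PWK_mulC_mul {p q ι ι' : Type*} [Fintype q] [Fintype ι]
    (c : ιm → ι → ι' → ℚ) (s : ιm → k) (M : Matrix p q k) (B : Matrix q ι k) (i : p) :
    mulC c s ((M * B) i) = ∑ j, M i j • mulC c s (B j) := by
  have h : (M * B) i = ∑ j, M i j • B j := by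
    funext x
    simp [Matrix.mul_apply, Finset.sum_apply]
  rw [h, ← FACT_mulL_apply, map_sum]
  simp [FACT_mulL_apply]

/-- generic complex data: `Γ`, `Λ` and the three hypotheses of `FACT_mat` -/
theorem PWK_hΓ {p1 p2 : Type*} [Fintype p1] [Fintype p2]
    (c12 : ιm → ι1 → ι2 → ℚ) (B' : Matrix p1 ι1 k) (B'' : Matrix p2 ι2 k) (s t : ιm → k)
    (Ms Mt : Matrix p1 p2 k)
    (hs : (Matrix.of fun i => mulC c12 s (B' i)) = Ms * B'')
    (ht : (Matrix.of fun i => mulC c12 t (B' i)) = Mt * B'') :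
    (Matrix.of (UMrow c12 B' s t) : Matrix (p1 ⊕ p1) ι2 k) = Matrix.fromRows Ms Mt * B'' := by
  rw [Matrix.fromRows_mul, ← hs, ← ht]
  ext r x
  rcases r with i | i <;> rfl

theorem PWK_hΛ {p0 p1 : Type*} [Fintype p0] [Fintype p1] [DecidableEq p0]
    (c01 : ιm → ι0 → ι1 → ℚ) (B0 : Matrix p0 ι0 k) (B' : Matrix p1 ι1 k) (s t : ιm → k)
    (Ms Mt : Matrix p0 p1 k)
    (hs : (Matrix.of fun i => mulC c01 s (B0 i)) = Ms * B')
    (ht : (Matrix.of fun i => mulC c01 t (B0 i)) = Mt * B') :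
    Gmat c01 B0 s t =
      Matrix.fromCols Mt (-Ms) * (Matrix.of (Urow B') : Matrix (p1 ⊕ p1) (ι1 ⊕ ι1) k) := by
  ext i x
  have hs' : ∀ y, mulC c01 s (B0 i) y = (Ms * B') i y := fun y => by rw [← hs]; rfl
  have ht' : ∀ y, mulC c01 t (B0 i) y = (Mt * B') i y := fun y => by rw [← ht]; rfl
  rcases x with x | x
  · simp [Gmat, Matrix.mul_apply, Fintype.sum_sum_type, Urow, ht']
  · simp [Gmat, Matrix.mul_apply, Fintype.sum_sum_type, Urow, hs']

theorem PWK_hΛΓ {p0 p1 p2 : Type*} [Fintype p0] [Fintype p1] [Fintype p2] [DecidableEq p2]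
    (c01 : ιm → ι0 → ι1 → ℚ) (c12 : ιm → ι1 → ι2 → ℚ)
    (hcomm : ∀ (s t : ιm → k) (z : ι0 → k),
      mulC c12 s (mulC c01 t z) = mulC c12 t (mulC c01 s z))
    (B0 : Matrix p0 ι0 k) (B' : Matrix p1 ι1 k) (B'' : Matrix p2 ι2 k) (hB'' : plu B'' ≠ 0)
    (s t : ιm → k)
    (M01s M01t : Matrix p0 p1 k) (M12s M12t : Matrix p1 p2 k)
    (h01s : (Matrix.of fun i => mulC c01 s (B0 i)) = M01s * B')
    (h01t : (Matrix.of fun i => mulC c01 t (B0 i)) = M01t * B')
    (h12s : (Matrix.of fun i => mulC c12 s (B' i)) = M12s * B'')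
    (h12t : (Matrix.of fun i => mulC c12 t (B' i)) = M12t * B'') :
    M01t * M12s = M01s * M12t := by
  have hinj : Function.Injective (fun x : p2 → k => x ᵥ* B'') :=
    (Matrix.vecMul_injective_iff (M := B'')).mpr (LA_linearIndependent_of_plu_ne_zero B'' hB'')
  obtain ⟨L, hL⟩ := LA_exists_right_inverse B'' hinj
  have key : (M01t * M12s) * B'' = (M01s * M12t) * B'' := by
    ext i x
    have e1 : mulC c12 s (mulC c01 t (B0 i)) = ((M01t * M12s) * B'') i := by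
      have : mulC c01 t (B0 i) = (M01t * B') i := by rw [← h01t]; rfl
      rw [this, PWK_mulC_mul]
      have h2 : ∀ j, mulC c12 s (B' j) = (M12s * B'') j := fun j => by rw [← h12s]; rfl
      simp only [h2]
      funext y
      rw [Matrix.mul_assoc]
      simp [Matrix.mul_apply, Finset.sum_apply]
    have e2 : mulC c12 t (mulC c01 s (B0 i)) = ((M01s * M12t) * B'') i := by
      have : mulC c01 s (B0 i) = (M01s * B') i := by rw [← h01s]; rfl
      rw [this, PWK_mulC_mul]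
      have h2 : ∀ j, mulC c12 t (B' j) = (M12t * B'') j := fun j => by rw [← h12t]; rfl
      simp only [h2]
      funext y
      rw [Matrix.mul_assoc]
      simp [Matrix.mul_apply, Finset.sum_apply]
    exact congrFun (e1.symm.trans ((hcomm s t (B0 i)).trans e2)) x
  have := congrArg (fun X => X * L) key
  simpa [Matrix.mul_assoc, hL] using this

/-- the complement for the big side -/
def PWK_L (φ : Type*) [DecidableEq φ] (Λ' : Matrix n2 (n1 ⊕ n1) k) :
    Matrix (n2 ⊕ φ) ((n1 ⊕ φ) ⊕ (n1 ⊕ φ)) k :=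
  (Matrix.fromBlocks Λ' 0 0 (Matrix.fromCols (0 : Matrix φ φ k) 1)).submatrix id
    (Equiv.sumSumSumComm n1 φ n1 φ)

theorem PWK_claimB (Λ' : Matrix n2 (n1 ⊕ n1) k) (Rs Rt : Matrix n1 n2 k) (Ss St : Matrix φ n2 k)
    (Rs' Rt' : Matrix φ φ k) :
    PWK_L φ Λ' * Matrix.fromRows (Matrix.fromBlocks Rs 0 Ss Rs') (Matrix.fromBlocks Rt 0 St Rt') =
      Matrix.fromBlocks (Λ' * Matrix.fromRows Rs Rt) 0 St Rt' := by
  ext i j
  rcases i with i | i <;> rcases j with j | j <;>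
    simp [PWK_L, Matrix.mul_apply, Fintype.sum_sum_type, Matrix.one_apply]

theorem PWK_claimA (ε : n1 ⊕ n1 ≃ n0 ⊕ n2) (Ps Pt : Matrix n0 n1 k) (Qs Qt : Matrix φ n1 k)
    (Ps' Pt' : Matrix φ φ k) (Λ' : Matrix n2 (n1 ⊕ n1) k) :
    FACT_sig (cubeEps φ ε)
        (Matrix.fromCols (Matrix.fromBlocks Pt 0 Qt Pt') (-(Matrix.fromBlocks Ps 0 Qs Ps')))
        (PWK_L φ Λ') =
      FACT_sig ε (Matrix.fromCols Pt (-Ps)) Λ' * Pt'.det := by
  unfold FACT_sig
  rw [← Matrix.det_submatrix_equiv_self (Equiv.sumSumSumComm n0 φ n2 φ).symm]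
  set Λ1 := Matrix.fromCols (Matrix.fromBlocks Pt 0 Qt Pt') (-(Matrix.fromBlocks Ps 0 Qs Ps'))
    with hΛ1
  have h11 : ∀ (x : n0 ⊕ n2) (r : n1 ⊕ n1),
      (Matrix.fromRows Λ1 (PWK_L φ Λ')) ((Equiv.sumSumSumComm n0 φ n2 φ).symm (Sum.inl x))
        ((Equiv.sumSumSumComm n1 φ n1 φ).symm (Sum.inl r)) =
      (Matrix.fromRows (Matrix.fromCols Pt (-Ps)) Λ') x r := by
    intro x r
    rcases x with x | x <;> rcases r with r | r <;> simp [hΛ1, PWK_L]
  have h12 : ∀ (x : n0 ⊕ n2) (p : φ ⊕ φ),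
      (Matrix.fromRows Λ1 (PWK_L φ Λ')) ((Equiv.sumSumSumComm n0 φ n2 φ).symm (Sum.inl x))
        ((Equiv.sumSumSumComm n1 φ n1 φ).symm (Sum.inr p)) = 0 := by
    intro x p
    rcases x with x | x <;> rcases p with p | p <;> simp [hΛ1, PWK_L]
  have h22 : ∀ (q : φ ⊕ φ) (p : φ ⊕ φ),
      (Matrix.fromRows Λ1 (PWK_L φ Λ')) ((Equiv.sumSumSumComm n0 φ n2 φ).symm (Sum.inr q))
        ((Equiv.sumSumSumComm n1 φ n1 φ).symm (Sum.inr p)) =
      (Matrix.fromBlocks Pt' (-Ps') 0 1 : Matrix (φ ⊕ φ) (φ ⊕ φ) k) q p := by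
    intro q p
    rcases q with q | q <;> rcases p with p | p <;> simp [hΛ1, PWK_L]
  have he1 : ∀ y : n0 ⊕ n2, (cubeEps φ ε).symm ((Equiv.sumSumSumComm n0 φ n2 φ).symm (Sum.inl y)) =
      (Equiv.sumSumSumComm n1 φ n1 φ).symm (Sum.inl (ε.symm y)) := by
    intro y
    unfold cubeEps
    simp only [Equiv.symm_trans_apply, Equiv.symm_symm, Equiv.apply_symm_apply]
    rfl
  have he2 : ∀ p : φ ⊕ φ, (cubeEps φ ε).symm ((Equiv.sumSumSumComm n0 φ n2 φ).symm (Sum.inr p)) =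
      (Equiv.sumSumSumComm n1 φ n1 φ).symm (Sum.inr p) := by
    intro p
    unfold cubeEps
    simp only [Equiv.symm_trans_apply, Equiv.symm_symm, Equiv.apply_symm_apply]
    rfl
  have key : (((Matrix.fromRows Λ1 (PWK_L φ Λ')).submatrix id (cubeEps φ ε).symm).submatrix
      (Equiv.sumSumSumComm n0 φ n2 φ).symm (Equiv.sumSumSumComm n0 φ n2 φ).symm) =
      Matrix.fromBlocks ((Matrix.fromRows (Matrix.fromCols Pt (-Ps)) Λ').submatrix id ε.symm) 0
        (Matrix.of fun (q : φ ⊕ φ) (y : n0 ⊕ n2) =>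
          (Matrix.fromRows Λ1 (PWK_L φ Λ')) ((Equiv.sumSumSumComm n0 φ n2 φ).symm (Sum.inr q))
            ((Equiv.sumSumSumComm n1 φ n1 φ).symm (Sum.inl (ε.symm y))))
        (Matrix.fromBlocks Pt' (-Ps') 0 1) := by
    ext x y
    rcases x with x | q <;> rcases y with y | p
    · simp only [Matrix.submatrix_apply, id_eq, Matrix.fromBlocks_apply₁₁, he1, h11]
    · simp only [Matrix.submatrix_apply, id_eq, Matrix.fromBlocks_apply₁₂, he2, h12,
        Matrix.zero_apply]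
    · simp only [Matrix.submatrix_apply, id_eq, Matrix.fromBlocks_apply₂₁, he1, Matrix.of_apply]
    · simp only [Matrix.submatrix_apply, id_eq, Matrix.fromBlocks_apply₂₂, he2, h22]
  rw [key, Matrix.det_fromBlocks_zero₁₂, Matrix.det_fromBlocks_zero₂₁, Matrix.det_one, mul_one]

theorem PWK_li {p0 p1 : Type*} [Fintype p0] [DecidableEq p0] [Fintype p1]
    (c01 : ιm → ι0 → ι1 → ℚ) (B0 : Matrix p0 ι0 k) (s t : ιm → k)
    (Λ : Matrix p0 (p1 ⊕ p1) k) (U : Matrix (p1 ⊕ p1) (ι1 ⊕ ι1) k)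
    (hΛ : Gmat c01 B0 s t = Λ * U) (hli : LinearIndependent k (Gmat c01 B0 s t).row) :
    LinearIndependent k Λ.row := by
  rw [← Matrix.vecMul_injective_iff] at hli ⊢
  have : (fun x : p0 → k => x ᵥ* Gmat c01 B0 s t) =
      (fun y : p1 ⊕ p1 → k => y ᵥ* U) ∘ (fun x : p0 → k => x ᵥ* Λ) := by
    funext x
    simp [hΛ, Matrix.vecMul_vecMul]
  rw [this] at hli
  exact hli.of_comp

/-- **PW** -/
theorem PWK_ident
    (c01 : ιm → ι0 → ι1 → ℚ) (c12 : ιm → ι1 → ι2 → ℚ)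
    (hcomm : ∀ (s t : ιm → k) (z : ι0 → k),
      mulC c12 s (mulC c01 t z) = mulC c12 t (mulC c01 s z))
    (ε : n1 ⊕ n1 ≃ n0 ⊕ n2)
    (b0 : Matrix n0 ι0 k) (y0 : Matrix φ ι0 k) (b' : Matrix n1 ι1 k) (y' : Matrix φ ι1 k)
    (b'' : Matrix n2 ι2 k) (y'' : Matrix φ ι2 k) (hb'' : plu (Matrix.fromRows b'' y'') ≠ 0)
    (s t : ιm → k)
    (Ps Pt : Matrix n0 n1 k) (Qs Qt : Matrix φ n1 k) (Ps' Pt' : Matrix φ φ k)
    (Rs Rt : Matrix n1 n2 k) (Ss St : Matrix φ n2 k) (Rs' Rt' : Matrix φ φ k)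
    (h01s : (Matrix.of fun i => mulC c01 s (Matrix.fromRows b0 y0 i)) =
      Matrix.fromBlocks Ps 0 Qs Ps' * Matrix.fromRows b' y')
    (h01t : (Matrix.of fun i => mulC c01 t (Matrix.fromRows b0 y0 i)) =
      Matrix.fromBlocks Pt 0 Qt Pt' * Matrix.fromRows b' y')
    (h12s : (Matrix.of fun i => mulC c12 s (Matrix.fromRows b' y' i)) =
      Matrix.fromBlocks Rs 0 Ss Rs' * Matrix.fromRows b'' y'')
    (h12t : (Matrix.of fun i => mulC c12 t (Matrix.fromRows b' y' i)) =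
      Matrix.fromBlocks Rt 0 St Rt' * Matrix.fromRows b'' y'')
    (J1 : n0 ⊕ φ → ι1 ⊕ ι1) (I1 : n2 ⊕ φ → ι2) (J2 : n0 → ι1 ⊕ ι1) (I2 : n2 → ι2) :
    Pt'.det * (Tdet c12 (cubeEps φ ε) (Matrix.fromRows b' y') s t J1 I1 * Gplu c01 b0 s t J2
        * plu b'' I2) =
      Rt'.det * (Tdet c12 ε b' s t J2 I2 * Gplu c01 (Matrix.fromRows b0 y0) s t J1
        * plu (Matrix.fromRows b'' y'') I1) := by
  -- the small side
  have g01s : (Matrix.of fun i => mulC c01 s (b0 i)) = Ps * b' := by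
    ext i x
    have := congrFun (congrFun h01s (Sum.inl i)) x
    rw [Matrix.fromBlocks_mul_fromRows] at this
    simp only [Matrix.zero_mul, add_zero, Matrix.fromRows_apply_inl] at this
    exact this
  have g01t : (Matrix.of fun i => mulC c01 t (b0 i)) = Pt * b' := by
    ext i x
    have := congrFun (congrFun h01t (Sum.inl i)) x
    rw [Matrix.fromBlocks_mul_fromRows] at this
    simp only [Matrix.zero_mul, add_zero, Matrix.fromRows_apply_inl] at this
    exact this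
  have g12s : (Matrix.of fun i => mulC c12 s (b' i)) = Rs * b'' := by
    ext i x
    have := congrFun (congrFun h12s (Sum.inl i)) x
    rw [Matrix.fromBlocks_mul_fromRows] at this
    simp only [Matrix.zero_mul, add_zero, Matrix.fromRows_apply_inl] at this
    exact this
  have g12t : (Matrix.of fun i => mulC c12 t (b' i)) = Rt * b'' := by
    ext i x
    have := congrFun (congrFun h12t (Sum.inl i)) x
    rw [Matrix.fromBlocks_mul_fromRows] at this
    simp only [Matrix.zero_mul, add_zero, Matrix.fromRows_apply_inl] at this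
    exact this
  -- commutation
  have hc1 := PWK_hΛΓ c01 c12 hcomm _ _ _ hb'' s t _ _ _ _ h01s h01t h12s h12t
  have hc2 : Pt * Rs = Ps * Rt := by
    have := congrArg Matrix.toBlocks₁₁ hc1
    simpa [Matrix.fromBlocks_multiply] using this
  have hΛΓ1 : Matrix.fromCols (Matrix.fromBlocks Pt 0 Qt Pt') (-(Matrix.fromBlocks Ps 0 Qs Ps')) *
      Matrix.fromRows (Matrix.fromBlocks Rs 0 Ss Rs') (Matrix.fromBlocks Rt 0 St Rt') = 0 := by
    rw [Matrix.fromCols_mul_fromRows, hc1, Matrix.neg_mul, add_neg_cancel]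
  have hΛΓ2 : Matrix.fromCols Pt (-Ps) * Matrix.fromRows Rs Rt = 0 := by
    rw [Matrix.fromCols_mul_fromRows, hc2, Matrix.neg_mul, add_neg_cancel]
  have hΓ1 := PWK_hΓ c12 _ _ s t _ _ h12s h12t
  have hΓ2 := PWK_hΓ c12 _ _ s t _ _ g12s g12t
  have hΛ1 := PWK_hΛ c01 _ _ s t _ _ h01s h01t
  have hΛ2 := PWK_hΛ c01 _ _ s t _ _ g01s g01t
  by_cases hli : LinearIndependent k (Matrix.fromCols Pt (-Ps)).row
  · obtain ⟨Λ', hΛ'⟩ := EXT_rows ε _ hli
    have hσ : FACT_sig ε (Matrix.fromCols Pt (-Ps)) Λ' ≠ 0 := hΛ'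
    have f1 := FACT_mat c01 c12 (cubeEps φ ε) _ _ _ s t _ _ (PWK_L φ Λ') hΓ1 hΛ1 hΛΓ1 J1 I1
    have f2 := FACT_mat c01 c12 ε _ _ _ s t _ _ Λ' hΓ2 hΛ2 hΛΓ2 J2 I2
    rw [PWK_claimA, PWK_claimB, Matrix.det_fromBlocks_zero₁₂] at f1
    apply mul_left_cancel₀ hσ
    calc FACT_sig ε (Matrix.fromCols Pt (-Ps)) Λ' * (Pt'.det *
          (Tdet c12 (cubeEps φ ε) (Matrix.fromRows b' y') s t J1 I1 * Gplu c01 b0 s t J2
            * plu b'' I2))
        = (FACT_sig ε (Matrix.fromCols Pt (-Ps)) Λ' * Pt'.det *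
          Tdet c12 (cubeEps φ ε) (Matrix.fromRows b' y') s t J1 I1) * Gplu c01 b0 s t J2
            * plu b'' I2 := by ring
      _ = Rt'.det * ((Gplu c01 b0 s t J2 * (Λ' * Matrix.fromRows Rs Rt).det * plu b'' I2) *
          Gplu c01 (Matrix.fromRows b0 y0) s t J1 * plu (Matrix.fromRows b'' y'') I1) := by
          rw [f1]; ring
      _ = FACT_sig ε (Matrix.fromCols Pt (-Ps)) Λ' * (Rt'.det * (Tdet c12 ε b' s t J2 I2 *
          Gplu c01 (Matrix.fromRows b0 y0) s t J1 * plu (Matrix.fromRows b'' y'') I1)) := by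
          rw [← f2]; ring
  · have hG2 : Gplu c01 b0 s t J2 = 0 := by
      by_contra hne
      apply hli
      refine PWK_li c01 b0 s t _ _ hΛ2 (LA_linearIndependent_of_plu_ne_zero _ ?_)
      exact fun h0 => hne (congrFun h0 J2)
    have hG1 : Gplu c01 (Matrix.fromRows b0 y0) s t J1 = 0 := by
      by_contra hne
      apply hli
      refine PWK_li c01 b0 s t _ _ hΛ2 ?_
      have h1 : LinearIndependent k (Gmat c01 (Matrix.fromRows b0 y0) s t).row :=
        LA_linearIndependent_of_plu_ne_zero _ (fun h0 => hne (congrFun h0 J1))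
      exact h1.comp Sum.inl Sum.inl_injective
    rw [hG1, hG2]
    ring

end PWK

end Fermat.Agent.S17Lib
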