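import Mathlib

/-!
# S17, chapter CUBE, leaf SIG, part 1: determinants and short exact sequences (Mathlib only)
-/

set_option autoImplicit false

namespace Fermat.Agent.S17Lib

open Matrix

variable {K : Type*} [Field K]

/-- `IsTau` : the determinant identity attached to a short complex `A → B → C` with bases. -/
def SGIsTau {A B C : Type*} [AddCommGroup A] [Module K A] [AddCommGroup B] [Module K B]
    [AddCommGroup C] [Module K C] {nA nC : Type*} [Fintype nA] [DecidableEq nA] [Fintype nC]
    [DecidableEq nC]
    (bA : Module.Basis nA K A) (bB : Module.Basis (nA ⊕ nC) K B) (bC : Module.Basis nC K C)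
    (i : A →ₗ[K] B) (mu : B →ₗ[K] C) (tau : K) : Prop :=
  ∀ (xi : nA → B →ₗ[K] K) (eta : nC → C →ₗ[K] K),
      (Matrix.of fun (r c : nA ⊕ nC) =>
        Sum.elim (fun j => xi j (bB r)) (fun k => eta k (mu (bB r))) c).det
        = tau * (Matrix.of fun (a j : nA) => xi j (i (bA a))).det
          * (Matrix.of fun (c k : nC) => eta k (bC c)).det

theorem SG_fact {A B C : Type*} [AddCommGroup A] [Module K A] [AddCommGroup B] [Module K B]
    [AddCommGroup C] [Module K C] {nA nC : Type*} [Fintype nA] [DecidableEq nA] [Fintype nC]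
    [DecidableEq nC]
    (bA : Module.Basis nA K A) (bB : Module.Basis (nA ⊕ nC) K B) (bC : Module.Basis nC K C)
    (i : A →ₗ[K] B) (mu : B →ₗ[K] C) (hi : Function.Injective i) (hmi : ∀ a, mu (i a) = 0)
    (hmu : Function.Surjective mu) :
    ∃ tau : K, tau ≠ 0 ∧ SGIsTau bA bB bC i mu tau := by
  classical
  choose v hv using fun c => hmu (bC c)
  set fam : nA ⊕ nC → B := Sum.elim (fun a => i (bA a)) v with hfam
  have hli : LinearIndependent K fam := by
    rw [Fintype.linearIndependent_iff]
    intro g hg
    rw [Fintype.sum_sum_type] at hg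
    simp only [hfam, Sum.elim_inl, Sum.elim_inr] at hg
    have h1 := congrArg mu hg
    simp only [map_add, map_sum, map_smul, hmi, smul_zero, Finset.sum_const_zero, zero_add, hv,
      map_zero] at h1
    have h2 := Fintype.linearIndependent_iff.mp bC.linearIndependent _ h1
    simp only [h2, zero_smul, Finset.sum_const_zero, add_zero] at hg
    have h3 : i (∑ a, g (Sum.inl a) • bA a) = 0 := by
      simpa only [map_sum, map_smul] using hg
    have h4 := hi (h3.trans (map_zero i).symm)
    have h5 := Fintype.linearIndependent_iff.mp bA.linearIndependent _ h4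
    rintro (a | c)
    · exact h5 a
    · exact h2 c
  have : Module.Finite K B := Module.Finite.of_basis bB
  have hspan : Submodule.span K (Set.range fam) = ⊤ :=
    hli.span_eq_top_of_card_eq_finrank' (Module.finrank_eq_card_basis bB).symm
  have hunit : IsUnit (bB.det fam) := (Module.Basis.is_basis_iff_det bB).mp ⟨hli, hspan⟩
  set G : Matrix (nA ⊕ nC) (nA ⊕ nC) K := bB.toMatrix fam with hG
  have hGdet : G.det ≠ 0 := by
    have : bB.det fam = G.det := by rw [Module.Basis.det_apply]
    rw [← this]; exact hunit.ne_zero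
  refine ⟨(G.det)⁻¹, inv_ne_zero hGdet, ?_⟩
  intro xi eta
  set M : Matrix (nA ⊕ nC) (nA ⊕ nC) K := Matrix.of fun (r c : nA ⊕ nC) =>
        Sum.elim (fun j => xi j (bB r)) (fun k => eta k (mu (bB r))) c with hM
  have hexp : ∀ (φ : B →ₗ[K] K) (r : nA ⊕ nC), φ (fam r) = ∑ r', G r' r * φ (bB r') := by
    intro φ r
    conv_lhs => rw [← bB.sum_repr (fam r)]
    simp only [map_sum, map_smul, smul_eq_mul, hG, Module.Basis.toMatrix_apply]
  have key : Gᵀ * M = Matrix.fromBlocks (Matrix.of fun (a j : nA) => xi j (i (bA a))) 0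
      (Matrix.of fun (c : nC) (j : nA) => xi j (v c)) (Matrix.of fun (c k : nC) => eta k (bC c)) := by
    ext r c
    rw [Matrix.mul_apply]
    simp only [Matrix.transpose_apply, hM, Matrix.of_apply]
    rcases c with j | k
    · simp only [Sum.elim_inl]
      rw [← hexp (xi j) r]
      rcases r with a | c <;> simp [hfam]
    · simp only [Sum.elim_inr]
      have h1 := hexp ((eta k).comp mu) r
      simp only [LinearMap.comp_apply] at h1
      rw [← h1]
      rcases r with a | c <;> simp [hfam, hmi, hv]
  have hdet := congrArg Matrix.det key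
  rw [Matrix.det_mul, Matrix.det_transpose, Matrix.det_fromBlocks_zero₁₂] at hdet
  rw [mul_assoc, ← hdet, ← mul_assoc, inv_mul_cancel₀ hGdet, one_mul]

/-- if `mu` is not surjective, the big determinant vanishes. -/
theorem SG_fact_zero {B C : Type*} [AddCommGroup B] [Module K B]
    [AddCommGroup C] [Module K C] {nA nC : Type*} [Fintype nA] [DecidableEq nA] [Fintype nC]
    [DecidableEq nC]
    (bC : Module.Basis nC K C) (w : nA ⊕ nC → B)
    (mu : B →ₗ[K] C) (hmu : ¬ Function.Surjective mu)
    (xi : nA → B →ₗ[K] K) (eta : nC → C →ₗ[K] K) :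
    (Matrix.of fun (r c : nA ⊕ nC) =>
        Sum.elim (fun j => xi j (w r)) (fun k => eta k (mu (w r))) c).det = 0 := by
  classical
  have : Module.Finite K C := Module.Finite.of_basis bC
  -- a nonzero combination of the `eta k` vanishing on the range of `mu`
  obtain ⟨x, hx0, hx⟩ : ∃ x : nC → K, x ≠ 0 ∧ ∀ b, ∑ k, x k * eta k (mu b) = 0 := by
    by_cases hli : LinearIndependent K eta
    · -- `eta` is a basis of the dual
      have hcard : Fintype.card nC = Module.finrank K (Module.Dual K C) := by
        rw [Subspace.dual_finrank_eq, Module.finrank_eq_card_basis bC]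
      have hspan : Submodule.span K (Set.range eta) = ⊤ :=
        hli.span_eq_top_of_card_eq_finrank' hcard
      have hrange : LinearMap.range mu ≠ ⊤ := fun h => hmu (LinearMap.range_eq_top.mp h)
      obtain ⟨y, hy⟩ : ∃ y, y ∉ LinearMap.range mu := by
        by_contra hcon
        push Not at hcon
        exact hrange (eq_top_iff.mpr fun y _ => hcon y)
      obtain ⟨ψ, hψy, hψ⟩ := Submodule.exists_le_ker_of_notMem hy
      have hmem : ψ ∈ Submodule.span K (Set.range eta) := by rw [hspan]; trivial
      obtain ⟨x, hx⟩ := (Submodule.mem_span_range_iff_exists_fun K).mp hmem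
      refine ⟨x, ?_, fun b => ?_⟩
      · rintro rfl
        apply hψy
        rw [← hx]; simp
      · have h1 : ψ (mu b) = 0 := hψ ⟨b, rfl⟩
        rw [← hx] at h1
        simpa [LinearMap.sum_apply] using h1
    · rw [Fintype.linearIndependent_iff] at hli
      push Not at hli
      obtain ⟨x, hx, k, hk⟩ := hli
      refine ⟨x, fun h => hk (by rw [h]; rfl), fun b => ?_⟩
      have := congrArg (fun φ : C →ₗ[K] K => φ (mu b)) hx
      simpa [LinearMap.sum_apply] using this
  apply Matrix.exists_mulVec_eq_zero_iff.mp
  refine ⟨Sum.elim 0 x, ?_, ?_⟩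
  · intro h
    apply hx0
    funext k
    have := congrFun h (Sum.inr k)
    simpa using this
  · funext r
    simp only [Matrix.mulVec, dotProduct, Fintype.sum_sum_type, Matrix.of_apply, Sum.elim_inl,
      Sum.elim_inr, Pi.zero_apply, mul_zero, Finset.sum_const_zero, zero_add]
    rw [← hx (w r)]
    exact Finset.sum_congr rfl fun k _ => mul_comm _ _

end Fermat.Agent.S17Lib
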