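import Fermat.Agent.S17.Cube.Defs

/-!
# S17, chapter CUBE, leaf SIG-LA: the matrix side of (S)

A *level* is `(n0, n1, n2, ε, b0, b1, b2)`.  `IsDelta … s t δ` says `δ • T(s,t) = G(s,t) ⊗ plu b2`.
We prove: existence and uniqueness of `δ` from an exact complex in matrix form (`SIG_Good`),
independence of the bases / index types / `ε` up to a constant (`SIG_same_span`),
the one point step (`SIG_step`), transitivity and the relation (REL).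
-/

set_option autoImplicit false
set_option linter.unusedSectionVars false

namespace Fermat.Agent.S17Lib

open Matrix

section SigLA

variable {L : Type*} [Field L] [Algebra ℚ L]
variable {ιm ι0 ι1 ι2 : Type*} [Fintype ιm] [Fintype ι0] [Fintype ι1] [Fintype ι2]

/-- multiplication by `s` as a matrix -/
def SIG_M {ι ι' : Type*} (c : ιm → ι → ι' → ℚ) (s : ιm → L) : Matrix ι ι' L :=
  Matrix.of fun j k => ∑ i, algebraMap ℚ L (c i j k) * s i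

theorem SIG_mulC_eq {ι ι' : Type*} [Fintype ι] (c : ιm → ι → ι' → ℚ) (s : ιm → L) (z : ι → L) :
    mulC c s z = z ᵥ* SIG_M c s := by
  ext k
  simp only [mulC, SIG_M, Matrix.vecMul, dotProduct, Matrix.of_apply, Finset.mul_sum]
  rw [Finset.sum_comm]
  refine Finset.sum_congr rfl fun j _ => Finset.sum_congr rfl fun i _ => ?_
  ring

variable {n0 n1 n2 : Type*} [Fintype n0] [DecidableEq n0] [Fintype n1] [DecidableEq n1]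
  [Fintype n2] [DecidableEq n2]

/-- `U = diag(b1, b1)` -/
def SIG_U (b1 : Matrix n1 ι1 L) : Matrix (n1 ⊕ n1) (ι1 ⊕ ι1) L := fromBlocks b1 0 0 b1

/-- `U M_{s,t}` -/
def SIG_UM (c12 : ιm → ι1 → ι2 → ℚ) (b1 : Matrix n1 ι1 L) (s t : ιm → L) :
    Matrix (n1 ⊕ n1) ι2 L := fromRows (b1 * SIG_M c12 s) (b1 * SIG_M c12 t)

theorem SIG_Urow_eq (b1 : Matrix n1 ι1 L) (r : n1 ⊕ n1) (k : ι1 ⊕ ι1) :
    Urow b1 r k = SIG_U b1 r k := by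
  rcases r with r | r <;> rcases k with k | k <;> simp [Urow, SIG_U]

theorem SIG_UMrow_eq (c12 : ιm → ι1 → ι2 → ℚ) (b1 : Matrix n1 ι1 L) (s t : ιm → L)
    (r : n1 ⊕ n1) (k : ι2) : UMrow c12 b1 s t r k = SIG_UM c12 b1 s t r k := by
  rcases r with r | r <;> simp [UMrow, SIG_UM, SIG_mulC_eq, Matrix.mul_apply, Matrix.vecMul,
    dotProduct]

theorem SIG_Gmat_eq (c01 : ιm → ι0 → ι1 → ℚ) (b0 : Matrix n0 ι0 L) (s t : ιm → L) :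
    Gmat c01 b0 s t = fromCols (b0 * SIG_M c01 t) (-(b0 * SIG_M c01 s)) := by
  ext i k
  rcases k with k | k <;> simp [Gmat, SIG_mulC_eq, Matrix.mul_apply, Matrix.vecMul, dotProduct]

theorem SIG_Tmat_eq (c12 : ιm → ι1 → ι2 → ℚ) (ε : n1 ⊕ n1 ≃ n0 ⊕ n2) (b1 : Matrix n1 ι1 L)
    (s t : ιm → L) (J : n0 → ι1 ⊕ ι1) (I : n2 → ι2) :
    Tmat c12 ε b1 s t J I =
      (fromCols ((SIG_U b1).submatrix id J) ((SIG_UM c12 b1 s t).submatrix id I)).submatrix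
        ε.symm id := by
  ext r k
  rcases k with k | k <;> simp [Tmat, SIG_Urow_eq, SIG_UMrow_eq]

theorem SIG_mul_submatrix {α β γ γ' : Type*} [Fintype β] (X : Matrix α β L) (Y : Matrix β γ L)
    (f : γ' → γ) : X * Y.submatrix id f = (X * Y).submatrix id f := by
  ext i j
  simp [Matrix.mul_apply]

/-- `δ • T = G ⊗ plu b2` -/
def IsDelta (c01 : ιm → ι0 → ι1 → ℚ) (c12 : ιm → ι1 → ι2 → ℚ) (ε : n1 ⊕ n1 ≃ n0 ⊕ n2)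
    (b0 : Matrix n0 ι0 L) (b1 : Matrix n1 ι1 L) (b2 : Matrix n2 ι2 L) (s t : ιm → L) (δ : L) :
    Prop :=
  δ ≠ 0 ∧ ∀ (J : n0 → ι1 ⊕ ι1) (I : n2 → ι2),
    δ * Tdet c12 ε b1 s t J I = Gplu c01 b0 s t J * plu b2 I

/-- the determinant of the complex with respect to the section `Q` -/
def SIG_D (ε : n1 ⊕ n1 ≃ n0 ⊕ n2) (P : Matrix n0 (n1 ⊕ n1) L) (Q : Matrix n2 (n1 ⊕ n1) L) : L :=
  ((fromRows P Q).submatrix id ε.symm).det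

theorem SIG_fact (c01 : ιm → ι0 → ι1 → ℚ) (c12 : ιm → ι1 → ι2 → ℚ) (ε : n1 ⊕ n1 ≃ n0 ⊕ n2)
    (b0 : Matrix n0 ι0 L) (b1 : Matrix n1 ι1 L) (b2 : Matrix n2 ι2 L) (s t : ιm → L)
    (P : Matrix n0 (n1 ⊕ n1) L) (Q : Matrix n2 (n1 ⊕ n1) L)
    (hP : P * SIG_U b1 = Gmat c01 b0 s t) (hPM : P * SIG_UM c12 b1 s t = 0)
    (hQ : Q * SIG_UM c12 b1 s t = b2) (J : n0 → ι1 ⊕ ι1) (I : n2 → ι2) :
    SIG_D ε P Q * Tdet c12 ε b1 s t J I = Gplu c01 b0 s t J * plu b2 I := by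
  rw [SIG_D, Tdet, ← Matrix.det_mul, SIG_Tmat_eq, Matrix.submatrix_mul_equiv,
    Matrix.fromRows_mul_fromCols, SIG_mul_submatrix, SIG_mul_submatrix, SIG_mul_submatrix,
    SIG_mul_submatrix, hP, hPM, hQ]
  rw [Matrix.submatrix_id_id]
  have : (0 : Matrix n0 ι2 L).submatrix id I = 0 := rfl
  rw [this, Matrix.det_fromBlocks_zero₁₂]
  rfl

/-- the complex is exact at `(s,t)`, in matrix form -/
def SIG_Good (c01 : ιm → ι0 → ι1 → ℚ) (c12 : ιm → ι1 → ι2 → ℚ)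
    (b0 : Matrix n0 ι0 L) (b1 : Matrix n1 ι1 L) (b2 : Matrix n2 ι2 L) (s t : ιm → L) : Prop :=
  (∃ J, Gplu c01 b0 s t J ≠ 0) ∧ (∃ I, plu b2 I ≠ 0) ∧
    ∃ (P : Matrix n0 (n1 ⊕ n1) L) (Q : Matrix n2 (n1 ⊕ n1) L),
      P * SIG_U b1 = Gmat c01 b0 s t ∧ P * SIG_UM c12 b1 s t = 0 ∧ Q * SIG_UM c12 b1 s t = b2

theorem SIG_isDelta_D (c01 : ιm → ι0 → ι1 → ℚ) (c12 : ιm → ι1 → ι2 → ℚ) (ε : n1 ⊕ n1 ≃ n0 ⊕ n2)
    (b0 : Matrix n0 ι0 L) (b1 : Matrix n1 ι1 L) (b2 : Matrix n2 ι2 L) (s t : ιm → L)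
    (hG : ∃ J, Gplu c01 b0 s t J ≠ 0) (hb : ∃ I, plu b2 I ≠ 0)
    (P : Matrix n0 (n1 ⊕ n1) L) (Q : Matrix n2 (n1 ⊕ n1) L)
    (hP : P * SIG_U b1 = Gmat c01 b0 s t) (hPM : P * SIG_UM c12 b1 s t = 0)
    (hQ : Q * SIG_UM c12 b1 s t = b2) :
    IsDelta c01 c12 ε b0 b1 b2 s t (SIG_D ε P Q) := by
  refine ⟨?_, SIG_fact c01 c12 ε b0 b1 b2 s t P Q hP hPM hQ⟩
  obtain ⟨J, hJ⟩ := hG
  obtain ⟨I, hI⟩ := hb
  intro h0
  have := SIG_fact c01 c12 ε b0 b1 b2 s t P Q hP hPM hQ J I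
  rw [h0, zero_mul] at this
  exact mul_ne_zero hJ hI this.symm

theorem SIG_Good.exists_delta {c01 : ιm → ι0 → ι1 → ℚ} {c12 : ιm → ι1 → ι2 → ℚ}
    {b0 : Matrix n0 ι0 L} {b1 : Matrix n1 ι1 L} {b2 : Matrix n2 ι2 L} {s t : ιm → L}
    (h : SIG_Good c01 c12 b0 b1 b2 s t) (ε : n1 ⊕ n1 ≃ n0 ⊕ n2) :
    ∃ δ, IsDelta c01 c12 ε b0 b1 b2 s t δ := by
  obtain ⟨hG, hb, P, Q, hP, hPM, hQ⟩ := h
  exact ⟨_, SIG_isDelta_D c01 c12 ε b0 b1 b2 s t hG hb P Q hP hPM hQ⟩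

theorem SIG_unique {c01 : ιm → ι0 → ι1 → ℚ} {c12 : ιm → ι1 → ι2 → ℚ} {ε : n1 ⊕ n1 ≃ n0 ⊕ n2}
    {b0 : Matrix n0 ι0 L} {b1 : Matrix n1 ι1 L} {b2 : Matrix n2 ι2 L} {s t : ιm → L}
    (hG : ∃ J, Gplu c01 b0 s t J ≠ 0) (hb : ∃ I, plu b2 I ≠ 0) {δ δ' : L}
    (h : IsDelta c01 c12 ε b0 b1 b2 s t δ) (h' : IsDelta c01 c12 ε b0 b1 b2 s t δ') : δ = δ' := by
  obtain ⟨J, hJ⟩ := hG
  obtain ⟨I, hI⟩ := hb
  have h1 := h.2 J I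
  have h2 := h'.2 J I
  have hT : Tdet c12 ε b1 s t J I ≠ 0 := by
    intro h0
    rw [h0, mul_zero] at h1
    exact mul_ne_zero hJ hI h1.symm
  exact mul_right_cancel₀ hT (h1.trans h2.symm)

variable {n0' n1' n2' : Type*} [Fintype n0'] [DecidableEq n0'] [Fintype n1'] [DecidableEq n1']
  [Fintype n2'] [DecidableEq n2']

/-- the ratio of the `δ`'s of two levels is constant on `S` -/
def SigRel (S : Set ((ιm → L) × (ιm → L))) (c01 : ιm → ι0 → ι1 → ℚ) (c12 : ιm → ι1 → ι2 → ℚ)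
    (ε : n1 ⊕ n1 ≃ n0 ⊕ n2) (b0 : Matrix n0 ι0 L) (b1 : Matrix n1 ι1 L) (b2 : Matrix n2 ι2 L)
    (ε' : n1' ⊕ n1' ≃ n0' ⊕ n2') (b0' : Matrix n0' ι0 L) (b1' : Matrix n1' ι1 L)
    (b2' : Matrix n2' ι2 L) : Prop :=
  ∃ κ : L, κ ≠ 0 ∧ ∀ s t, (s, t) ∈ S → ∀ δ δ', IsDelta c01 c12 ε b0 b1 b2 s t δ →
    IsDelta c01 c12 ε' b0' b1' b2' s t δ' → δ' = κ * δ

theorem SIG_U_mul (g1 : Matrix n1' n1 L) (b1 : Matrix n1 ι1 L) :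
    SIG_U (g1 * b1) = fromBlocks g1 0 0 g1 * SIG_U b1 := by
  simp [SIG_U, Matrix.fromBlocks_multiply]

theorem SIG_UM_mul (c12 : ιm → ι1 → ι2 → ℚ) (g1 : Matrix n1' n1 L) (b1 : Matrix n1 ι1 L)
    (s t : ιm → L) :
    SIG_UM c12 (g1 * b1) s t = fromBlocks g1 0 0 g1 * SIG_UM c12 b1 s t := by
  simp [SIG_UM, Matrix.fromBlocks_mul_fromRows, Matrix.mul_assoc]

theorem SIG_Gmat_mul (c01 : ιm → ι0 → ι1 → ℚ) (g0 : Matrix n0' n0 L) (b0 : Matrix n0 ι0 L)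
    (s t : ιm → L) : Gmat c01 (g0 * b0) s t = g0 * Gmat c01 b0 s t := by
  simp [SIG_Gmat_eq, Matrix.mul_fromCols, Matrix.mul_assoc]

/-- change of bases, of index types and of `ε` -/
theorem SIG_same_span (c01 : ιm → ι0 → ι1 → ℚ) (c12 : ιm → ι1 → ι2 → ℚ)
    (ε : n1 ⊕ n1 ≃ n0 ⊕ n2) (ε' : n1' ⊕ n1' ≃ n0' ⊕ n2')
    (b0 : Matrix n0 ι0 L) (b1 : Matrix n1 ι1 L) (b2 : Matrix n2 ι2 L)
    (g0 : Matrix n0' n0 L) (h0 : Matrix n0 n0' L) (g1 : Matrix n1' n1 L) (h1 : Matrix n1 n1' L)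
    (g2 : Matrix n2' n2 L) (h2 : Matrix n2 n2' L)
    (e0 : g0 * h0 = 1) (e0' : h0 * g0 = 1) (e1 : g1 * h1 = 1) (e1' : h1 * g1 = 1)
    (e2 : g2 * h2 = 1) (e2' : h2 * g2 = 1) :
    ∃ κ : L, κ ≠ 0 ∧ ∀ s t, SIG_Good c01 c12 b0 b1 b2 s t →
      (∃ J, Gplu c01 (g0 * b0) s t J ≠ 0) → (∃ I, plu (g2 * b2) I ≠ 0) →
      SIG_Good c01 c12 (g0 * b0) (g1 * b1) (g2 * b2) s t ∧
      ∀ δ δ', IsDelta c01 c12 ε b0 b1 b2 s t δ →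
        IsDelta c01 c12 ε' (g0 * b0) (g1 * b1) (g2 * b2) s t δ' → δ' = κ * δ := by
  set H : Matrix (n1 ⊕ n1) (n1' ⊕ n1') L := fromBlocks h1 0 0 h1 with hH
  set Gd : Matrix (n1' ⊕ n1') (n1 ⊕ n1) L := fromBlocks g1 0 0 g1 with hGd
  set A : Matrix (n0' ⊕ n2') (n0 ⊕ n2) L := fromBlocks g0 0 0 g2 with hA
  set A' : Matrix (n0 ⊕ n2) (n0' ⊕ n2') L := fromBlocks h0 0 0 h2 with hA'
  have hHG : H * Gd = 1 := by
    simp [hH, hGd, Matrix.fromBlocks_multiply, e1']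
  have hAA' : A * A' = 1 := by
    simp [hA, hA', Matrix.fromBlocks_multiply, e0, e2]
  have hA'A : A' * A = 1 := by
    simp [hA, hA', Matrix.fromBlocks_multiply, e0', e2']
  set B' : Matrix (n0 ⊕ n2) (n0' ⊕ n2') L := H.submatrix ε.symm ε'.symm with hB'
  set B'' : Matrix (n0' ⊕ n2') (n0 ⊕ n2) L := Gd.submatrix ε'.symm ε.symm with hB''
  have hBB : B' * B'' = 1 := by
    rw [hB', hB'', Matrix.submatrix_mul_equiv, hHG, Matrix.submatrix_one_equiv]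
  refine ⟨(B' * A).det, ?_, ?_⟩
  · apply Matrix.det_ne_zero_of_right_inverse (B := A' * B'')
    calc B' * A * (A' * B'') = B' * (A * A') * B'' := by simp only [Matrix.mul_assoc]
      _ = 1 := by rw [hAA', Matrix.mul_one, hBB]
  · rintro s t ⟨hG, hb, P, Q, hP, hPM, hQ⟩ hG' hb'
    have hP' : (g0 * P * H) * SIG_U (g1 * b1) = Gmat c01 (g0 * b0) s t := by
      rw [SIG_U_mul, SIG_Gmat_mul, ← hP]
      calc g0 * P * H * (Gd * SIG_U b1) = g0 * P * (H * Gd) * SIG_U b1 := by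
            simp only [Matrix.mul_assoc]
        _ = g0 * (P * SIG_U b1) := by rw [hHG, Matrix.mul_one, Matrix.mul_assoc]
    have hPM' : (g0 * P * H) * SIG_UM c12 (g1 * b1) s t = 0 := by
      rw [SIG_UM_mul]
      calc g0 * P * H * (Gd * SIG_UM c12 b1 s t) = g0 * P * (H * Gd) * SIG_UM c12 b1 s t := by
            simp only [Matrix.mul_assoc]
        _ = 0 := by rw [hHG, Matrix.mul_one, Matrix.mul_assoc, hPM, Matrix.mul_zero]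
    have hQ' : (g2 * Q * H) * SIG_UM c12 (g1 * b1) s t = g2 * b2 := by
      rw [SIG_UM_mul]
      calc g2 * Q * H * (Gd * SIG_UM c12 b1 s t) = g2 * Q * (H * Gd) * SIG_UM c12 b1 s t := by
            simp only [Matrix.mul_assoc]
        _ = g2 * b2 := by rw [hHG, Matrix.mul_one, Matrix.mul_assoc, hQ]
    refine ⟨⟨hG', hb', _, _, hP', hPM', hQ'⟩, fun δ δ' hδ hδ' => ?_⟩
    have h1 := SIG_unique hG hb hδ (SIG_isDelta_D c01 c12 ε b0 b1 b2 s t hG hb P Q hP hPM hQ)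
    have h2 := SIG_unique hG' hb' hδ'
      (SIG_isDelta_D c01 c12 ε' _ _ _ s t hG' hb' _ _ hP' hPM' hQ')
    rw [h1, h2, SIG_D, SIG_D]
    have h3 : fromRows (g0 * P * H) (g2 * Q * H) = A * (fromRows P Q * H) := by
      rw [hA, Matrix.fromRows_mul, Matrix.fromBlocks_mul_fromRows]
      simp [Matrix.mul_assoc]
    rw [h3, ← SIG_mul_submatrix, ← Matrix.submatrix_mul_equiv (fromRows P Q) H id ε.symm ε'.symm,
      Matrix.det_comm' hAA' hA'A, Matrix.mul_assoc, Matrix.det_mul, mul_comm]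

theorem SIG_trans {n0'' n1'' n2'' : Type*} [Fintype n0''] [DecidableEq n0''] [Fintype n1'']
    [DecidableEq n1''] [Fintype n2''] [DecidableEq n2'']
    {S : Set ((ιm → L) × (ιm → L))} {c01 : ιm → ι0 → ι1 → ℚ} {c12 : ιm → ι1 → ι2 → ℚ}
    {ε : n1 ⊕ n1 ≃ n0 ⊕ n2} {b0 : Matrix n0 ι0 L} {b1 : Matrix n1 ι1 L} {b2 : Matrix n2 ι2 L}
    {ε' : n1' ⊕ n1' ≃ n0' ⊕ n2'} {b0' : Matrix n0' ι0 L} {b1' : Matrix n1' ι1 L}
    {b2' : Matrix n2' ι2 L}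
    {ε'' : n1'' ⊕ n1'' ≃ n0'' ⊕ n2''} {b0'' : Matrix n0'' ι0 L} {b1'' : Matrix n1'' ι1 L}
    {b2'' : Matrix n2'' ι2 L}
    (h12 : SigRel S c01 c12 ε b0 b1 b2 ε' b0' b1' b2')
    (h23 : SigRel S c01 c12 ε' b0' b1' b2' ε'' b0'' b1'' b2'')
    (hmid : ∀ s t, (s, t) ∈ S → ∃ δ, IsDelta c01 c12 ε' b0' b1' b2' s t δ) :
    SigRel S c01 c12 ε b0 b1 b2 ε'' b0'' b1'' b2'' := by
  obtain ⟨κ, hκ, h1⟩ := h12
  obtain ⟨κ', hκ', h2⟩ := h23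
  refine ⟨κ' * κ, mul_ne_zero hκ' hκ, fun s t hst δ δ'' hδ hδ'' => ?_⟩
  obtain ⟨δ', hδ'⟩ := hmid s t hst
  rw [h2 s t hst δ' δ'' hδ' hδ'', h1 s t hst δ δ' hδ hδ', mul_assoc]

/-- (REL) on `S` -/
theorem SIG_rel {S : Set ((ιm → L) × (ιm → L))} {c01 : ιm → ι0 → ι1 → ℚ}
    {c12 : ιm → ι1 → ι2 → ℚ}
    {ε : n1 ⊕ n1 ≃ n0 ⊕ n2} {b0 : Matrix n0 ι0 L} {b1 : Matrix n1 ι1 L} {b2 : Matrix n2 ι2 L}
    {ε' : n1' ⊕ n1' ≃ n0' ⊕ n2'} {b0' : Matrix n0' ι0 L} {b1' : Matrix n1' ι1 L}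
    {b2' : Matrix n2' ι2 L}
    (h12 : SigRel S c01 c12 ε b0 b1 b2 ε' b0' b1' b2')
    (h1 : ∀ s t, (s, t) ∈ S → ∃ δ, IsDelta c01 c12 ε b0 b1 b2 s t δ)
    (h2 : ∀ s t, (s, t) ∈ S → ∃ δ, IsDelta c01 c12 ε' b0' b1' b2' s t δ) :
    ∃ κ : L, κ ≠ 0 ∧ ∀ s t, (s, t) ∈ S → ∀ J1 I1 J2 I2,
      Tdet c12 ε b1 s t J1 I1 * Gplu c01 b0' s t J2 * plu b2' I2 =
        κ * (Tdet c12 ε' b1' s t J2 I2 * Gplu c01 b0 s t J1 * plu b2 I1) := by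
  obtain ⟨κ, hκ, h⟩ := h12
  refine ⟨κ, hκ, fun s t hst J1 I1 J2 I2 => ?_⟩
  obtain ⟨δ, hδ⟩ := h1 s t hst
  obtain ⟨δ', hδ'⟩ := h2 s t hst
  have e := h s t hst δ δ' hδ hδ'
  have a1 := hδ.2 J1 I1
  have a2 := hδ'.2 J2 I2
  rw [mul_assoc, ← a2, mul_assoc (Tdet c12 ε' b1' s t J2 I2), ← a1, e]
  ring

end SigLA

end Fermat.Agent.S17Lib
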