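import Fermat.Agent.S17.Cube.SigStep
import Fermat.Agent.S17.Closed.Bridge

/-!
# S17, chapter CUBE, leaf SIG, part 3: link between `SGIsTau` and `Tdet`, `Gplu`, `plu`
-/

set_option autoImplicit false
set_option linter.unusedSectionVars false

namespace Fermat.Agent.S17Lib

open Matrix

section Coord

variable {K F : Type*} [Field K] [Algebra ℚ K] [Field F] [Algebra K F]
variable {ι n : Type*} [Fintype ι] [Fintype n]

/-- the basis of the row space given by the rows. -/
noncomputable def SGbas (e : ι → F) (b : Matrix n ι K)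
    (hb : LinearIndependent K (fun l => CL_real e (b l))) :
    Module.Basis n K ↥(CL_rowSp e b) := Module.Basis.span hb

theorem SGbas_apply (e : ι → F) (b : Matrix n ι K)
    (hb : LinearIndependent K (fun l => CL_real e (b l))) (i : n) :
    ((SGbas e b hb i : ↥(CL_rowSp e b)) : F) = CL_real e (b i) :=
  congrArg Subtype.val (Module.Basis.span_apply hb i)

/-- the coordinate functionals on the row space. -/
noncomputable def SGco (e : ι → F) (b : Matrix n ι K)
    (hb : LinearIndependent K (fun l => CL_real e (b l))) (c : ι) :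
    ↥(CL_rowSp e b) →ₗ[K] K := (SGbas e b hb).constr K (fun i => b i c)

theorem SGco_bas (e : ι → F) (b : Matrix n ι K)
    (hb : LinearIndependent K (fun l => CL_real e (b l))) (c : ι) (i : n) :
    SGco e b hb c (SGbas e b hb i) = b i c := by
  rw [SGco, Module.Basis.constr_basis]

theorem SGco_eq (e : ι → F) (he : LinearIndependent K e) (b : Matrix n ι K)
    (hb : LinearIndependent K (fun l => CL_real e (b l))) (u : ↥(CL_rowSp e b)) (y : ι → K)
    (hy : (u : F) = CL_real e y) (c : ι) : SGco e b hb c u = y c := by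
  have h1 : (u : F) = CL_real e (∑ i, (SGbas e b hb).equivFun u i • b i) := by
    conv_lhs => rw [← (SGbas e b hb).sum_equivFun u]
    rw [map_sum, Submodule.coe_sum]
    refine Finset.sum_congr rfl fun i _ => ?_
    rw [map_smul, Submodule.coe_smul, SGbas_apply]
  have h2 : y = ∑ i, (SGbas e b hb).equivFun u i • b i :=
    CL_real_injective e he (hy.symm.trans h1)
  rw [SGco, Module.Basis.constr_apply_fintype, h2, Finset.sum_apply]
  rfl

end Coord

section Link

variable {K F : Type*} [Field K] [Algebra ℚ K] [Field F] [Algebra K F]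
variable {ιm ι0 ι1 ι2 n0 n1 n2 : Type*} [Fintype ιm] [Fintype ι0] [Fintype ι1] [Fintype ι2]
  [Fintype n0] [DecidableEq n0] [Fintype n1] [DecidableEq n1] [Fintype n2] [DecidableEq n2]

/-- multiplication by `y` between two subspaces. -/
noncomputable def SGmul (y : F) (V W : Submodule K F) (h : ∀ z ∈ V, y * z ∈ W) : ↥V →ₗ[K] ↥W :=
  (LinearMap.mulLeft K y).restrict h

@[simp] theorem SGmul_coe (y : F) (V W : Submodule K F) (h : ∀ z ∈ V, y * z ∈ W) (z : ↥V) :
    ((SGmul y V W h z : ↥W) : F) = y * (z : F) := rfl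

/-- the first map of the pencil complex. -/
noncomputable def SGi (s t : F) (V W : Submodule K F) (hs : ∀ z ∈ V, s * z ∈ W)
    (ht : ∀ z ∈ V, t * z ∈ W) : ↥V →ₗ[K] ↥W × ↥W :=
  (SGmul t V W ht).prod (-(SGmul s V W hs))

/-- the second map of the pencil complex. -/
noncomputable def SGmu (s t : F) (V W : Submodule K F) (hs : ∀ z ∈ V, s * z ∈ W)
    (ht : ∀ z ∈ V, t * z ∈ W) : ↥V × ↥V →ₗ[K] ↥W :=
  (SGmul s V W hs).coprod (SGmul t V W ht)

/-- the coordinate functionals on `W × W`. -/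
noncomputable def SGxi (e1 : ι1 → F) (b1 : Matrix n1 ι1 K)
    (hb1 : LinearIndependent K (fun l => CL_real e1 (b1 l))) (c : ι1 ⊕ ι1) :
    (↥(CL_rowSp e1 b1) × ↥(CL_rowSp e1 b1)) →ₗ[K] K :=
  Sum.elim (fun c => SGco e1 b1 hb1 c ∘ₗ LinearMap.fst K _ _)
    (fun c => SGco e1 b1 hb1 c ∘ₗ LinearMap.snd K _ _) c

variable (em : ιm → F) (e0 : ι0 → F) (e1 : ι1 → F) (e2 : ι2 → F)
  (c01 : ιm → ι0 → ι1 → ℚ) (c12 : ιm → ι1 → ι2 → ℚ)
  (hc01 : ∀ u j, em u * e0 j = ∑ k, (algebraMap ℚ K (c01 u j k)) • e1 k)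
  (hc12 : ∀ u j, em u * e1 j = ∑ k, (algebraMap ℚ K (c12 u j k)) • e2 k)
  (he1 : LinearIndependent K e1) (he2 : LinearIndependent K e2)
  (ε : n1 ⊕ n1 ≃ n0 ⊕ n2)
  (b0 : Matrix n0 ι0 K) (b1 : Matrix n1 ι1 K) (b2 : Matrix n2 ι2 K)
  (hb0 : LinearIndependent K (fun l => CL_real e0 (b0 l)))
  (hb1 : LinearIndependent K (fun l => CL_real e1 (b1 l)))
  (hb2 : LinearIndependent K (fun l => CL_real e2 (b2 l)))

include hc12 he2 in
theorem SG_link_T (s t : ιm → K)
    (hs : ∀ z ∈ CL_rowSp e1 b1, CL_real em s * z ∈ CL_rowSp e2 b2)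
    (ht : ∀ z ∈ CL_rowSp e1 b1, CL_real em t * z ∈ CL_rowSp e2 b2)
    (J : n0 → ι1 ⊕ ι1) (I : n2 → ι2) :
    Tdet c12 ε b1 s t J I =
      (Matrix.of fun (r c : n0 ⊕ n2) =>
        Sum.elim (fun j => SGxi e1 b1 hb1 (J j)
            ((((SGbas e1 b1 hb1).prod (SGbas e1 b1 hb1)).reindex ε) r))
          (fun k => SGco e2 b2 hb2 (I k)
            (SGmu (CL_real em s) (CL_real em t) _ _ hs ht
              ((((SGbas e1 b1 hb1).prod (SGbas e1 b1 hb1)).reindex ε) r))) c).det := by
  unfold Tdet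
  congr 1
  ext r c
  rcases c with j | k
  · simp only [Tmat, Matrix.of_apply, Sum.elim_inl, Module.Basis.reindex_apply]
    rcases hr : ε.symm r with i | i <;> rcases hJ : J j with c | c <;>
      simp [SGxi, Urow, SGco_bas]
  · simp only [Tmat, Matrix.of_apply, Sum.elim_inr, Module.Basis.reindex_apply]
    rcases hr : ε.symm r with i | i
    · simp only [UMrow, Sum.elim_inl]
      symm
      apply SGco_eq e2 he2
      rw [CL_real_mulC em e1 e2 c12 hc12]
      simp [SGmu, SGbas_apply]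
    · simp only [UMrow, Sum.elim_inr]
      symm
      apply SGco_eq e2 he2
      rw [CL_real_mulC em e1 e2 c12 hc12]
      simp [SGmu, SGbas_apply]

include hc01 he1 in
theorem SG_link_G (s t : ιm → K)
    (hs : ∀ z ∈ CL_rowSp e0 b0, CL_real em s * z ∈ CL_rowSp e1 b1)
    (ht : ∀ z ∈ CL_rowSp e0 b0, CL_real em t * z ∈ CL_rowSp e1 b1)
    (J : n0 → ι1 ⊕ ι1) :
    Gplu c01 b0 s t J =
      (Matrix.of fun (a j : n0) => SGxi e1 b1 hb1 (J j)
        (SGi (CL_real em s) (CL_real em t) _ _ hs ht (SGbas e0 b0 hb0 a))).det := by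
  unfold Gplu plu
  congr 1
  ext a j
  simp only [Matrix.submatrix_apply, id, Matrix.of_apply, Gmat]
  rcases hJ : J j with c | c
  · simp only [Sum.elim_inl, SGxi, LinearMap.comp_apply, LinearMap.fst_apply]
    symm
    apply SGco_eq e1 he1
    rw [CL_real_mulC em e0 e1 c01 hc01]
    simp [SGi, SGbas_apply]
  · simp only [Sum.elim_inr, SGxi, LinearMap.comp_apply, LinearMap.snd_apply]
    symm
    apply SGco_eq e1 he1
    rw [map_neg, CL_real_mulC em e0 e1 c01 hc01]
    simp [SGi, SGbas_apply]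

theorem SG_link_P (I : n2 → ι2) :
    plu b2 I = (Matrix.of fun (c k : n2) => SGco e2 b2 hb2 (I k) (SGbas e2 b2 hb2 c)).det := by
  unfold plu
  congr 1
  ext c k
  simp [SGco_bas]

end Link

end Fermat.Agent.S17Lib
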