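import Fermat.Agent.S17.Cube.SigFact

/-!
# S17, chapter CUBE, leaf SIG, part 2: the 3 x 3 diagram (Mathlib only)
-/

set_option autoImplicit false

namespace Fermat.Agent.S17Lib

open Matrix

variable {K : Type*} [Field K]

theorem SG_det_coord {n V : Type*} [Fintype n] [DecidableEq n] [AddCommGroup V] [Module K V]
    (b : Module.Basis n K V) (x : n → V) (hx : ∀ a, x a = b a) :
    (Matrix.of fun (a j : n) => b.coord j (x a)).det = 1 := by
  have : (Matrix.of fun (a j : n) => b.coord j (x a)) = 1 := by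
    ext a j
    simp only [Matrix.of_apply, hx, Module.Basis.coord_apply, Module.Basis.repr_self,
      Matrix.one_apply, Finsupp.single_apply]
  rw [this, Matrix.det_one]

theorem SG_det_lin {n : Type*} [Fintype n] [DecidableEq n] (M : (n → K) →ₗ[K] (n → K)) :
    (Matrix.of fun (c k : n) => M (Pi.basisFun K n c) k).det = LinearMap.det M := by
  rw [← LinearMap.det_toMatrix', ← Matrix.det_transpose]
  congr 1
  ext c k
  simp [LinearMap.toMatrix'_apply, Pi.basisFun_apply]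

theorem SG3_step
    {L0 L1 L2 L0' L1' L2' : Type*}
    [AddCommGroup L0] [Module K L0] [AddCommGroup L1] [Module K L1] [AddCommGroup L2] [Module K L2]
    [AddCommGroup L0'] [Module K L0'] [AddCommGroup L1'] [Module K L1']
    [AddCommGroup L2'] [Module K L2']
    {n0 n2 n0' n2' nF : Type*} [Fintype n0] [DecidableEq n0] [Fintype n2] [DecidableEq n2]
    [Fintype n0'] [DecidableEq n0'] [Fintype n2'] [DecidableEq n2'] [Fintype nF] [DecidableEq nF]
    (b0 : Module.Basis n0 K L0) (bB : Module.Basis (n0 ⊕ n2) K (L1 × L1))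
    (b2 : Module.Basis n2 K L2)
    (b0' : Module.Basis n0' K L0') (bB' : Module.Basis (n0' ⊕ n2') K (L1' × L1'))
    (b2' : Module.Basis n2' K L2')
    (eA : n0 ≃ n0' ⊕ nF) (eC : n2 ≃ n2' ⊕ nF)
    (j0 : L0' →ₗ[K] L0) (j1 : L1' →ₗ[K] L1) (j2 : L2' →ₗ[K] L2)
    (hj0 : Function.Injective j0) (hj1 : Function.Injective j1) (hj2 : Function.Injective j2)
    (l0 : L0 →ₗ[K] (nF → K)) (l1 : L1 →ₗ[K] (nF → K)) (l2 : L2 →ₗ[K] (nF → K))
    (hl0 : Function.Surjective l0) (hl1 : Function.Surjective l1) (hl2 : Function.Surjective l2)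
    (h0 : ∀ x, l0 (j0 x) = 0) (h1 : ∀ x, l1 (j1 x) = 0) (h2 : ∀ x, l2 (j2 x) = 0) :
    ∃ cst : K, cst ≠ 0 ∧
      ∀ (i : L0 →ₗ[K] L1 × L1) (mu : L1 × L1 →ₗ[K] L2)
        (i' : L0' →ₗ[K] L1' × L1') (mu' : L1' × L1' →ₗ[K] L2')
        (_ : Function.Injective i)
        (_ : ∀ x, i (j0 x) = (j1 (i' x).1, j1 (i' x).2))
        (_ : ∀ x, mu (j1 x.1, j1 x.2) = j2 (mu' x))
        (lam : K) (M0 M1a M1b : (nF → K) →ₗ[K] (nF → K))
        (_ : ∀ z, l1 (i z).1 + lam • l1 (i z).2 = M0 (l0 z))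
        (_ : ∀ x, l2 (mu x) = M1a (l1 x.1) + M1b (l1 x.2))
        (tau1 tau2 : K) (_ : SGIsTau b0 bB b2 i mu tau1) (_ : SGIsTau b0' bB' b2' i' mu' tau2),
        tau1 * LinearMap.det M0 = cst * tau2 * LinearMap.det (M1b - lam • M1a) := by
  classical
  obtain ⟨tA, htA, HA⟩ := SG_fact b0' (b0.reindex eA) (Pi.basisFun K nF) j0 l0 hj0 h0 hl0
  obtain ⟨tC, htC, HC⟩ := SG_fact b2' (b2.reindex eC) (Pi.basisFun K nF) j2 l2 hj2 h2 hl2
  set eB : n0 ⊕ n2 ≃ (n0' ⊕ n2') ⊕ (nF ⊕ nF) :=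
    (Equiv.sumCongr eA eC).trans (Equiv.sumSumSumComm n0' nF n2' nF) with heB
  obtain ⟨tB, htB, HB⟩ := SG_fact bB' (bB.reindex eB)
    ((Pi.basisFun K nF).prod (Pi.basisFun K nF)) (j1.prodMap j1) (l1.prodMap l1)
    (fun x y hxy => by
      simp only [LinearMap.prodMap_apply, Prod.mk.injEq] at hxy
      exact Prod.ext (hj1 hxy.1) (hj1 hxy.2))
    (fun x => by simp [h1])
    (fun y => by
      obtain ⟨a, ha⟩ := hl1 y.1
      obtain ⟨b, hb⟩ := hl1 y.2
      exact ⟨(a, b), by simp [ha, hb]⟩)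
  refine ⟨tB / (tA * tC), div_ne_zero htB (mul_ne_zero htA htC), ?_⟩
  intro i mu i' mu' hi hc1 hc2 lam M0 M1a M1b hM0 hM1 tau1 tau2 H1 H2
  -- left inverses
  obtain ⟨g0, hg0⟩ := LinearMap.exists_leftInverse_of_injective (i ∘ₗ j0)
    (LinearMap.ker_eq_bot.mpr (hi.comp hj0))
  obtain ⟨g2, hg2⟩ := LinearMap.exists_leftInverse_of_injective j2 (LinearMap.ker_eq_bot.mpr hj2)
  have hg0' : ∀ x, g0 (i (j0 x)) = x := fun x => LinearMap.congr_fun hg0 x
  have hg2' : ∀ x, g2 (j2 x) = x := fun x => LinearMap.congr_fun hg2 x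
  set xi' : n0' → (L1 × L1) →ₗ[K] K := fun j => (b0'.coord j) ∘ₗ g0 with hxi'
  set eta' : n2' → L2 →ₗ[K] K := fun k => (b2'.coord k) ∘ₗ g2 with heta'
  set lx : (L1 × L1) →ₗ[K] (nF → K) :=
    l1 ∘ₗ LinearMap.fst K L1 L1 + lam • (l1 ∘ₗ LinearMap.snd K L1 L1) with hlx
  set xi1 : n0 → (L1 × L1) →ₗ[K] K :=
    fun j => Sum.elim xi' (fun f => (LinearMap.proj f) ∘ₗ lx) (eA j) with hxi1
  set eta1 : n2 → L2 →ₗ[K] K :=
    fun k => Sum.elim eta' (fun f => (LinearMap.proj f) ∘ₗ l2) (eC k) with heta1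
  have E1 := H1 xi1 eta1
  -- column A
  have EA := HA (fun j => xi' j ∘ₗ i) (fun f => (LinearMap.proj f) ∘ₗ M0)
  have dA : (Matrix.of fun (a j : n0) => xi1 j (i (b0 a))).det = tA * LinearMap.det M0 := by
    rw [← Matrix.det_submatrix_equiv_self eA.symm]
    have e1 : (Matrix.of fun (a j : n0') => (xi' j ∘ₗ i) (j0 (b0' a))).det = 1 :=
      SG_det_coord b0' (fun a => g0 (i (j0 (b0' a)))) (fun a => hg0' _)
    have e2 : (Matrix.of fun (c k : nF) =>
        ((LinearMap.proj k : (nF → K) →ₗ[K] K) ∘ₗ M0) (Pi.basisFun K nF c)).det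
        = LinearMap.det M0 := SG_det_lin M0
    rw [e1, e2, mul_one] at EA
    rw [← EA]
    congr 1
    ext r c
    rcases c with j | f
    · simp [hxi1]
    · simp [hxi1, hlx, ← hM0]
  -- column C
  have EC := HC eta' (fun f => (LinearMap.proj f))
  have dC : (Matrix.of fun (c k : n2) => eta1 k (b2 c)).det = tC := by
    rw [← Matrix.det_submatrix_equiv_self eC.symm]
    have e1 : (Matrix.of fun (a j : n2') => (eta' j) (j2 (b2' a))).det = 1 :=
      SG_det_coord b2' (fun a => g2 (j2 (b2' a))) (fun a => hg2' _)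
    have e2 : (Matrix.of fun (c k : nF) =>
        (LinearMap.proj k : (nF → K) →ₗ[K] K) (Pi.basisFun K nF c)).det = 1 := by
      have := SG_det_lin (LinearMap.id : (nF → K) →ₗ[K] (nF → K))
      rw [LinearMap.det_id] at this
      exact this
    rw [e1, e2, mul_one, mul_one] at EC
    rw [← EC]
    congr 1
    ext r c
    rcases c with j | f
    · simp [heta1]
    · simp [heta1]
  -- column B
  have EB := HB (Sum.elim xi' (fun k => eta' k ∘ₗ mu))
    (Sum.elim (fun f => (LinearMap.proj f) ∘ₗ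
        (LinearMap.fst K (nF → K) (nF → K) + lam • LinearMap.snd K (nF → K) (nF → K)))
      (fun f => (LinearMap.proj f) ∘ₗ
        (M1a ∘ₗ LinearMap.fst K (nF → K) (nF → K) + M1b ∘ₗ LinearMap.snd K (nF → K) (nF → K))))
  have E2 := H2 (fun j => xi' j ∘ₗ (j1.prodMap j1)) (fun k => eta' k ∘ₗ j2)
  have e21 : (Matrix.of fun (a j : n0') => (xi' j ∘ₗ (j1.prodMap j1)) (i' (b0' a))).det = 1 :=
    SG_det_coord b0' (fun a => g0 ((j1.prodMap j1) (i' (b0' a)))) (fun a => by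
      have : (j1.prodMap j1) (i' (b0' a)) = i (j0 (b0' a)) := by
        rw [hc1]; rfl
      rw [this, hg0'])
  have e22 : (Matrix.of fun (a j : n2') => (eta' j ∘ₗ j2) (b2' a)).det = 1 :=
    SG_det_coord b2' (fun a => g2 (j2 (b2' a))) (fun a => hg2' _)
  rw [e21, e22, mul_one, mul_one] at E2
  have dB1 : (Matrix.of fun (a j : n0' ⊕ n2') =>
      (Sum.elim xi' (fun k => eta' k ∘ₗ mu) j) ((j1.prodMap j1) (bB' a))).det = tau2 := by
    rw [← E2]
    congr 1
    ext r c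
    rcases c with j | k
    · simp
    · simp [hc2]
  have dB2 : (Matrix.of fun (c k : nF ⊕ nF) =>
      (Sum.elim (fun f => (LinearMap.proj f : (nF → K) →ₗ[K] K) ∘ₗ
        (LinearMap.fst K (nF → K) (nF → K) + lam • LinearMap.snd K (nF → K) (nF → K)))
      (fun f => (LinearMap.proj f) ∘ₗ
        (M1a ∘ₗ LinearMap.fst K (nF → K) (nF → K) + M1b ∘ₗ LinearMap.snd K (nF → K) (nF → K))) k)
      (((Pi.basisFun K nF).prod (Pi.basisFun K nF)) c)).det
      = LinearMap.det (M1b - lam • M1a) := by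
    have : (Matrix.of fun (c k : nF ⊕ nF) =>
      (Sum.elim (fun f => (LinearMap.proj f : (nF → K) →ₗ[K] K) ∘ₗ
        (LinearMap.fst K (nF → K) (nF → K) + lam • LinearMap.snd K (nF → K) (nF → K)))
      (fun f => (LinearMap.proj f) ∘ₗ
        (M1a ∘ₗ LinearMap.fst K (nF → K) (nF → K) + M1b ∘ₗ LinearMap.snd K (nF → K) (nF → K))) k)
      (((Pi.basisFun K nF).prod (Pi.basisFun K nF)) c))
      = Matrix.fromBlocks 1 (Matrix.of fun (c k : nF) => M1a (Pi.basisFun K nF c) k)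
        (lam • (1 : Matrix nF nF K)) (Matrix.of fun (c k : nF) => M1b (Pi.basisFun K nF c) k) := by
      ext c k
      rcases c with c | c <;> rcases k with k | k <;>
        simp [Matrix.one_apply, Pi.single_apply, eq_comm]
    rw [this, Matrix.det_fromBlocks_one₁₁, ← SG_det_lin]
    congr 1
    ext c k
    simp [Matrix.sub_apply]
  rw [dB1, dB2] at EB
  have dBig : (Matrix.of fun (r c : n0 ⊕ n2) =>
        Sum.elim (fun j => xi1 j (bB r)) (fun k => eta1 k (mu (bB r))) c).det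
      = tB * tau2 * LinearMap.det (M1b - lam • M1a) := by
    rw [← Matrix.det_submatrix_equiv_self eB.symm, ← EB]
    congr 1
    ext r c
    rcases c with (j | k) | (f | f)
    · simp [heB, hxi1]
    · simp [heB, heta1]
    · simp [heB, hxi1, hlx]
    · simp [heB, heta1, hM1]
  rw [dBig, dA, dC] at E1
  field_simp
  linear_combination -E1

end Fermat.Agent.S17Lib
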