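import Fermat.Agent.S17.Cube.SigLA

/-!
# S17, chapter CUBE, leaf SIG-LA: the one point step
-/

set_option autoImplicit false
set_option linter.unusedSectionVars false

namespace Fermat.Agent.S17Lib

open Matrix

section SigStep

variable {L : Type*} [Field L] [Algebra ℚ L]
variable {ιm ι0 ι1 ι2 : Type*} [Fintype ιm] [Fintype ι0] [Fintype ι1] [Fintype ι2]
variable {n0 n1 n2 : Type*} [Fintype n0] [DecidableEq n0] [Fintype n1] [DecidableEq n1]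
  [Fintype n2] [DecidableEq n2]

/-- add one row on top -/
def SIG_cons {n ι : Type*} (x : ι → L) (b : Matrix n ι L) : Matrix (Unit ⊕ n) ι L :=
  Matrix.of (Sum.elim (fun _ => x) b)

@[simp] theorem SIG_cons_inl {n ι : Type*} (x : ι → L) (b : Matrix n ι L) (u : Unit) (k : ι) :
    SIG_cons x b (Sum.inl u) k = x k := rfl

@[simp] theorem SIG_cons_inr {n ι : Type*} (x : ι → L) (b : Matrix n ι L) (i : n) (k : ι) :
    SIG_cons x b (Sum.inr i) k = b i k := rfl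

/-- the `ε` of the bigger level -/
def SIG_eps (ε : n1 ⊕ n1 ≃ n0 ⊕ n2) : (Unit ⊕ n1) ⊕ (Unit ⊕ n1) ≃ (Unit ⊕ n0) ⊕ (Unit ⊕ n2) :=
  (Equiv.sumSumSumComm Unit n1 Unit n1).trans
    (((Equiv.refl (Unit ⊕ Unit)).sumCongr ε).trans (Equiv.sumSumSumComm Unit Unit n0 n2))

/-- a row vector on `(Unit ⊕ n1) ⊕ (Unit ⊕ n1)` -/
def SIG_bord (u v : L) (x : n1 ⊕ n1 → L) : (Unit ⊕ n1) ⊕ (Unit ⊕ n1) → L :=
  Sum.elim (Sum.elim (fun _ => u) (fun i => x (Sum.inl i)))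
    (Sum.elim (fun _ => v) (fun i => x (Sum.inr i)))

theorem SIG_bord_U (u v : L) (x : n1 ⊕ n1 → L) (w : ι1 → L) (b1 : Matrix n1 ι1 L) :
    SIG_bord u v x ᵥ* SIG_U (SIG_cons w b1) = Sum.elim (u • w) (v • w) + x ᵥ* SIG_U b1 := by
  ext k
  rcases k with k | k <;>
    simp [SIG_bord, SIG_U, Matrix.vecMul, dotProduct, Fintype.sum_sum_type]

theorem SIG_bord_UM (c12 : ιm → ι1 → ι2 → ℚ) (s t : ιm → L) (u v : L) (x : n1 ⊕ n1 → L)
    (w : ι1 → L) (b1 : Matrix n1 ι1 L) :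
    SIG_bord u v x ᵥ* SIG_UM c12 (SIG_cons w b1) s t =
      u • mulC c12 s w + v • mulC c12 t w + x ᵥ* SIG_UM c12 b1 s t := by
  ext k
  simp [SIG_bord, SIG_UM, Matrix.vecMul, dotProduct, Fintype.sum_sum_type,
    SIG_mulC_eq, Matrix.mul_apply]
  ring

/-- `Fin 2 ≃ Unit ⊕ Unit` -/
def SIG_e2 : Fin 2 ≃ Unit ⊕ Unit where
  toFun i := if i = 0 then Sum.inl () else Sum.inr ()
  invFun := Sum.elim (fun _ => 0) (fun _ => 1)
  left_inv := by intro i; fin_cases i <;> rfl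
  right_inv := by rintro (⟨⟩ | ⟨⟩) <;> rfl

/-- the bordered `P` (or `Q`) -/
def SIG_bordM {n : Type*} (u v : L) (x : n1 ⊕ n1 → L) (P : Matrix n (n1 ⊕ n1) L) :
    Matrix (Unit ⊕ n) ((Unit ⊕ n1) ⊕ (Unit ⊕ n1)) L :=
  Matrix.of (Sum.elim (fun _ => SIG_bord u v x) (fun a => SIG_bord 0 0 (P a)))

theorem SIG_D_bord (ε : n1 ⊕ n1 ≃ n0 ⊕ n2) (P : Matrix n0 (n1 ⊕ n1) L)
    (Q : Matrix n2 (n1 ⊕ n1) L) (u v u' v' : L) (x x' : n1 ⊕ n1 → L) :
    SIG_D (SIG_eps ε) (SIG_bordM u v x P) (SIG_bordM u' v' x' Q) =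
      (u * v' - v * u') * SIG_D ε P Q := by
  set e : Fin 2 ⊕ (n0 ⊕ n2) ≃ (Unit ⊕ n0) ⊕ (Unit ⊕ n2) :=
    (SIG_e2.sumCongr (Equiv.refl _)).trans (Equiv.sumSumSumComm Unit Unit n0 n2) with he
  rw [SIG_D, SIG_D, ← Matrix.det_submatrix_equiv_self e]
  set M := (((fromRows (SIG_bordM u v x P) (SIG_bordM u' v' x' Q)).submatrix id
    (SIG_eps ε).symm).submatrix e e) with hM
  have h11 : M.toBlocks₁₁ = !![u, v; u', v'] := by
    ext i j
    fin_cases i <;> fin_cases j <;> rfl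
  have h21 : M.toBlocks₂₁ = 0 := by
    ext i j
    rcases i with i | i <;> fin_cases j <;> rfl
  have h22 : M.toBlocks₂₂ = (fromRows P Q).submatrix id ε.symm := by
    ext i j
    rcases i with i | i
    · simp only [hM, he, Matrix.toBlocks₂₂, Matrix.of_apply, Matrix.submatrix_apply]
      show SIG_bord 0 0 (P i) ((SIG_eps ε).symm _) = P i (ε.symm j)
      have : (SIG_eps ε).symm (((SIG_e2.sumCongr (Equiv.refl (n0 ⊕ n2))).trans
          (Equiv.sumSumSumComm Unit Unit n0 n2)) (Sum.inr j)) =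
          (Equiv.sumSumSumComm Unit n1 Unit n1).symm (Sum.inr (ε.symm j)) := by
        rcases j with j | j <;> rfl
      rw [this]
      rcases ε.symm j with k | k <;> rfl
    · simp only [hM, he, Matrix.toBlocks₂₂, Matrix.of_apply, Matrix.submatrix_apply]
      show SIG_bord 0 0 (Q i) ((SIG_eps ε).symm _) = Q i (ε.symm j)
      have : (SIG_eps ε).symm (((SIG_e2.sumCongr (Equiv.refl (n0 ⊕ n2))).trans
          (Equiv.sumSumSumComm Unit Unit n0 n2)) (Sum.inr j)) =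
          (Equiv.sumSumSumComm Unit n1 Unit n1).symm (Sum.inr (ε.symm j)) := by
        rcases j with j | j <;> rfl
      rw [this]
      rcases ε.symm j with k | k <;> rfl
  rw [← Matrix.fromBlocks_toBlocks M, h21, Matrix.det_fromBlocks_zero₂₁, h11, h22,
    Matrix.det_fin_two_of]

/-- the one point step -/
theorem SIG_step (c01 : ιm → ι0 → ι1 → ℚ) (c12 : ιm → ι1 → ι2 → ℚ) (ε : n1 ⊕ n1 ≃ n0 ⊕ n2)
    (b0 : Matrix n0 ι0 L) (b1 : Matrix n1 ι1 L) (b2 : Matrix n2 ι2 L)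
    (z : ι0 → L) (w : ι1 → L) (y : ι2 → L) (s t : ιm → L)
    (hgood : SIG_Good c01 c12 b0 b1 b2 s t)
    (hG1 : ∃ J, Gplu c01 (SIG_cons z b0) s t J ≠ 0) (hb1 : ∃ I, plu (SIG_cons y b2) I ≠ 0)
    (σ τ α β : L) (xs xt : n1 → L) (q : n1 ⊕ n1 → L)
    (hzt : mulC c01 t z = τ • w + xt ᵥ* b1) (hzs : mulC c01 s z = σ • w + xs ᵥ* b1)
    (hcomm : mulC c12 s (mulC c01 t z) = mulC c12 t (mulC c01 s z))
    (hy : y = α • mulC c12 s w + β • mulC c12 t w + q ᵥ* SIG_UM c12 b1 s t)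
    (hab : α * σ + β * τ = 1) :
    SIG_Good c01 c12 (SIG_cons z b0) (SIG_cons w b1) (SIG_cons y b2) s t ∧
    ∀ δ1 δ2, IsDelta c01 c12 (SIG_eps ε) (SIG_cons z b0) (SIG_cons w b1) (SIG_cons y b2) s t δ1 →
      IsDelta c01 c12 ε b0 b1 b2 s t δ2 → δ2 = δ1 := by
  obtain ⟨hG, hb, P, Q, hP, hPM, hQ⟩ := hgood
  set x : n1 ⊕ n1 → L := Sum.elim xt (-xs) with hx
  have hP1 : SIG_bordM τ (-σ) x P * SIG_U (SIG_cons w b1) = Gmat c01 (SIG_cons z b0) s t := by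
    have : ∀ i, (SIG_bordM τ (-σ) x P * SIG_U (SIG_cons w b1)) i =
        Gmat c01 (SIG_cons z b0) s t i := by
      intro i
      rw [Matrix.mul_apply_eq_vecMul]
      rcases i with i | a
      · show SIG_bord τ (-σ) x ᵥ* _ = Sum.elim (mulC c01 t z) (-(mulC c01 s z))
        rw [SIG_bord_U, hx, SIG_U, Matrix.vecMul_fromBlocks, hzt, hzs]
        ext k
        rcases k with k | k <;> simp [Matrix.neg_vecMul] <;> ring
      · show SIG_bord 0 0 (P a) ᵥ* _ = Gmat c01 b0 s t a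
        rw [SIG_bord_U, ← hP, Matrix.mul_apply_eq_vecMul]
        ext k
        rcases k with k | k <;> simp
    exact funext this
  have hc : τ • mulC c12 s w + xt ᵥ* (b1 * SIG_M c12 s) =
      σ • mulC c12 t w + xs ᵥ* (b1 * SIG_M c12 t) := by
    rw [hzt, hzs, SIG_mulC_eq c12 s, SIG_mulC_eq c12 t, Matrix.add_vecMul, Matrix.add_vecMul,
      Matrix.smul_vecMul, Matrix.smul_vecMul, Matrix.vecMul_vecMul, Matrix.vecMul_vecMul] at hcomm
    rw [SIG_mulC_eq c12 s, SIG_mulC_eq c12 t]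
    exact hcomm
  have hPM1 : SIG_bordM τ (-σ) x P * SIG_UM c12 (SIG_cons w b1) s t = 0 := by
    have : ∀ i, (SIG_bordM τ (-σ) x P * SIG_UM c12 (SIG_cons w b1) s t) i =
        (0 : Matrix (Unit ⊕ n0) ι2 L) i := by
      intro i
      rw [Matrix.mul_apply_eq_vecMul]
      rcases i with i | a
      · show SIG_bord τ (-σ) x ᵥ* _ = 0
        rw [SIG_bord_UM, hx, SIG_UM, Matrix.vecMul_fromRows, Sum.elim_comp_inl, Sum.elim_comp_inr,
          Matrix.neg_vecMul]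
        have := hc
        ext k
        have h1 := congrFun this k
        simp only [Pi.add_apply, Pi.smul_apply, smul_eq_mul, Pi.neg_apply, Pi.zero_apply] at h1 ⊢
        linear_combination h1
      · show SIG_bord 0 0 (P a) ᵥ* _ = 0
        rw [SIG_bord_UM, ← Matrix.mul_apply_eq_vecMul, hPM]
        ext k
        simp
    exact funext this
  have hQ1 : SIG_bordM α β q Q * SIG_UM c12 (SIG_cons w b1) s t = SIG_cons y b2 := by
    have : ∀ i, (SIG_bordM α β q Q * SIG_UM c12 (SIG_cons w b1) s t) i = SIG_cons y b2 i := by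
      intro i
      rw [Matrix.mul_apply_eq_vecMul]
      rcases i with i | a
      · show SIG_bord α β q ᵥ* _ = y
        rw [SIG_bord_UM, ← hy]
      · show SIG_bord 0 0 (Q a) ᵥ* _ = b2 a
        rw [SIG_bord_UM, ← Matrix.mul_apply_eq_vecMul, hQ]
        ext k
        simp
    exact funext this
  refine ⟨⟨hG1, hb1, _, _, hP1, hPM1, hQ1⟩, fun δ1 δ2 h1 h2 => ?_⟩
  have e1 := SIG_unique hG1 hb1 h1
    (SIG_isDelta_D c01 c12 (SIG_eps ε) _ _ _ s t hG1 hb1 _ _ hP1 hPM1 hQ1)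
  have e2 := SIG_unique hG hb h2 (SIG_isDelta_D c01 c12 ε _ _ _ s t hG hb _ _ hP hPM hQ)
  rw [e1, e2, SIG_D_bord]
  have : τ * β - -σ * α = 1 := by linear_combination hab
  rw [this, one_mul]

/-- the data of the one point step at `(s,t)` -/
def SIG_StepData (c01 : ιm → ι0 → ι1 → ℚ) (c12 : ιm → ι1 → ι2 → ℚ)
    (b1 : Matrix n1 ι1 L) (z : ι0 → L) (w : ι1 → L) (y : ι2 → L) (s t : ιm → L) : Prop :=
  ∃ (σ τ α β : L) (xs xt : n1 → L) (q : n1 ⊕ n1 → L),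
    mulC c01 t z = τ • w + xt ᵥ* b1 ∧ mulC c01 s z = σ • w + xs ᵥ* b1 ∧
    mulC c12 s (mulC c01 t z) = mulC c12 t (mulC c01 s z) ∧
    y = α • mulC c12 s w + β • mulC c12 t w + q ᵥ* SIG_UM c12 b1 s t ∧ α * σ + β * τ = 1

theorem SIG_step_rel (S : Set ((ιm → L) × (ιm → L))) (c01 : ιm → ι0 → ι1 → ℚ)
    (c12 : ιm → ι1 → ι2 → ℚ) (ε : n1 ⊕ n1 ≃ n0 ⊕ n2)
    (b0 : Matrix n0 ι0 L) (b1 : Matrix n1 ι1 L) (b2 : Matrix n2 ι2 L)
    (z : ι0 → L) (w : ι1 → L) (y : ι2 → L)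
    (hgood : ∀ s t, (s, t) ∈ S → SIG_Good c01 c12 b0 b1 b2 s t)
    (hG1 : ∀ s t, (s, t) ∈ S → ∃ J, Gplu c01 (SIG_cons z b0) s t J ≠ 0)
    (hb1 : ∃ I, plu (SIG_cons y b2) I ≠ 0)
    (hdata : ∀ s t, (s, t) ∈ S → SIG_StepData c01 c12 b1 z w y s t) :
    (∀ s t, (s, t) ∈ S →
      SIG_Good c01 c12 (SIG_cons z b0) (SIG_cons w b1) (SIG_cons y b2) s t) ∧
    SigRel S c01 c12 (SIG_eps ε) (SIG_cons z b0) (SIG_cons w b1) (SIG_cons y b2) ε b0 b1 b2 := by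
  refine ⟨fun s t hst => ?_, 1, one_ne_zero, fun s t hst δ δ' hδ hδ' => ?_⟩
  · obtain ⟨σ, τ, α, β, xs, xt, q, h1, h2, h3, h4, h5⟩ := hdata s t hst
    exact (SIG_step c01 c12 ε b0 b1 b2 z w y s t (hgood s t hst) (hG1 s t hst) hb1 σ τ α β xs xt q
      h1 h2 h3 h4 h5).1
  · obtain ⟨σ, τ, α, β, xs, xt, q, h1, h2, h3, h4, h5⟩ := hdata s t hst
    rw [one_mul]
    exact (SIG_step c01 c12 ε b0 b1 b2 z w y s t (hgood s t hst) (hG1 s t hst) hb1 σ τ α β xs xt q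
      h1 h2 h3 h4 h5).2 δ δ' hδ hδ'

variable {n0' n1' n2' : Type*} [Fintype n0'] [DecidableEq n0'] [Fintype n1'] [DecidableEq n1']
  [Fintype n2'] [DecidableEq n2']

theorem SIG_same_span_rel (S : Set ((ιm → L) × (ιm → L))) (c01 : ιm → ι0 → ι1 → ℚ)
    (c12 : ιm → ι1 → ι2 → ℚ)
    (ε : n1 ⊕ n1 ≃ n0 ⊕ n2) (ε' : n1' ⊕ n1' ≃ n0' ⊕ n2')
    (b0 : Matrix n0 ι0 L) (b1 : Matrix n1 ι1 L) (b2 : Matrix n2 ι2 L)
    (g0 : Matrix n0' n0 L) (h0 : Matrix n0 n0' L) (g1 : Matrix n1' n1 L) (h1 : Matrix n1 n1' L)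
    (g2 : Matrix n2' n2 L) (h2 : Matrix n2 n2' L)
    (e0 : g0 * h0 = 1) (e0' : h0 * g0 = 1) (e1 : g1 * h1 = 1) (e1' : h1 * g1 = 1)
    (e2 : g2 * h2 = 1) (e2' : h2 * g2 = 1)
    (hgood : ∀ s t, (s, t) ∈ S → SIG_Good c01 c12 b0 b1 b2 s t)
    (hG' : ∀ s t, (s, t) ∈ S → ∃ J, Gplu c01 (g0 * b0) s t J ≠ 0)
    (hb' : ∃ I, plu (g2 * b2) I ≠ 0) :
    (∀ s t, (s, t) ∈ S → SIG_Good c01 c12 (g0 * b0) (g1 * b1) (g2 * b2) s t) ∧
    SigRel S c01 c12 ε b0 b1 b2 ε' (g0 * b0) (g1 * b1) (g2 * b2) := by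
  obtain ⟨κ, hκ, h⟩ := SIG_same_span c01 c12 ε ε' b0 b1 b2 g0 h0 g1 h1 g2 h2 e0 e0' e1 e1' e2 e2'
  exact ⟨fun s t hst => (h s t (hgood s t hst) (hG' s t hst) hb').1,
    κ, hκ, fun s t hst => (h s t (hgood s t hst) (hG' s t hst) hb').2⟩

end SigStep

end Fermat.Agent.S17Lib
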