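import Fermat.Agent.S17.Cube.SigLink

/-!
# S17, chapter CUBE, leaf SIG, part 4: (S) for subspaces of a field
-/

set_option autoImplicit false
set_option linter.unusedSectionVars false

namespace Fermat.Agent.S17Lib

open Matrix

section Aux

variable {K : Type*} [Field K]

theorem SG_exists_l {V : Type*} [AddCommGroup V] [Module K V] [Module.Finite K V]
    (W : Submodule K V) {nF : Type*} [Fintype nF]
    (h : Module.finrank K V = Module.finrank K W + Fintype.card nF) :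
    ∃ l : V →ₗ[K] (nF → K), Function.Surjective l ∧ LinearMap.ker l = W := by
  have h1 := Submodule.finrank_quotient_add_finrank W
  have h2 : Module.finrank K (V ⧸ W) = Module.finrank K (nF → K) := by
    rw [Module.finrank_fintype_fun_eq_card]; omega
  let e : (V ⧸ W) ≃ₗ[K] (nF → K) := LinearEquiv.ofFinrankEq _ _ h2
  refine ⟨e.toLinearMap ∘ₗ W.mkQ, e.surjective.comp (Submodule.mkQ_surjective W), ?_⟩
  rw [LinearEquiv.ker_comp, Submodule.ker_mkQ]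

theorem SG_factor {V Q Q' : Type*} [AddCommGroup V] [Module K V] [AddCommGroup Q] [Module K Q]
    [AddCommGroup Q'] [Module K Q'] (l : V →ₗ[K] Q) (hl : Function.Surjective l)
    (φ : V →ₗ[K] Q') (h : ∀ z, l z = 0 → φ z = 0) : ∃ M : Q →ₗ[K] Q', ∀ z, φ z = M (l z) := by
  obtain ⟨g, hg⟩ := LinearMap.exists_rightInverse_of_surjective l (LinearMap.range_eq_top.mpr hl)
  refine ⟨φ ∘ₗ g, fun z => ?_⟩
  have h1 : l (z - g (l z)) = 0 := by
    rw [map_sub, sub_eq_zero]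
    exact (LinearMap.congr_fun hg (l z)).symm
  have h2 := h _ h1
  rw [map_sub, sub_eq_zero] at h2
  exact h2

theorem SG_det_ne_zero {n : Type*} [Fintype n] [DecidableEq n] (M : (n → K) →ₗ[K] (n → K))
    (h : ∀ q, M q = 0 → q = 0) : LinearMap.det M ≠ 0 := by
  intro h0
  have := LinearMap.bot_lt_ker_of_det_eq_zero h0
  obtain ⟨q, hq, hq0⟩ := SetLike.exists_of_lt this
  exact hq0 (by rw [Submodule.mem_bot]; exact h q hq)

end Aux

section Main

variable {K F : Type*} [Field K] [Algebra ℚ K] [Field F] [Algebra K F]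
variable {ιm ι0 ι1 ι2 n0 n1 n2 n0' n1' n2' : Type*} [Fintype ιm] [Fintype ι0] [Fintype ι1]
  [Fintype ι2]
  [Fintype n0] [DecidableEq n0] [Fintype n1] [DecidableEq n1] [Fintype n2] [DecidableEq n2]
  [Fintype n0'] [DecidableEq n0'] [Fintype n1'] [DecidableEq n1'] [Fintype n2'] [DecidableEq n2']

theorem SGi_fst (s t : F) (V W : Submodule K F) (hs : ∀ z ∈ V, s * z ∈ W)
    (ht : ∀ z ∈ V, t * z ∈ W) (z : ↥V) : (((SGi s t V W hs ht z).1 : ↥W) : F) = t * (z : F) := rfl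

theorem SGi_snd (s t : F) (V W : Submodule K F) (hs : ∀ z ∈ V, s * z ∈ W)
    (ht : ∀ z ∈ V, t * z ∈ W) (z : ↥V) :
    (((SGi s t V W hs ht z).2 : ↥W) : F) = -(s * (z : F)) := rfl

theorem SGmu_coe (s t : F) (V W : Submodule K F) (hs : ∀ z ∈ V, s * z ∈ W)
    (ht : ∀ z ∈ V, t * z ∈ W) (x : ↥V × ↥V) :
    ((SGmu s t V W hs ht x : ↥W) : F) = s * (x.1 : F) + t * (x.2 : F) := rfl

/-- surjectivity of the pencil map `V × V → W`. -/
def SGSurj (s t : F) (V W : Submodule K F) : Prop :=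
  ∀ w ∈ W, ∃ u ∈ V, ∃ u' ∈ V, w = s * u + t * u'

theorem SG_sig_sub (em : ιm → F) (e0 : ι0 → F) (e1 : ι1 → F) (e2 : ι2 → F)
    (c01 : ιm → ι0 → ι1 → ℚ) (c12 : ιm → ι1 → ι2 → ℚ)
    (hc01 : ∀ u j, em u * e0 j = ∑ k, (algebraMap ℚ K (c01 u j k)) • e1 k)
    (hc12 : ∀ u j, em u * e1 j = ∑ k, (algebraMap ℚ K (c12 u j k)) • e2 k)
    (he1 : LinearIndependent K e1) (he2 : LinearIndependent K e2)
    (ε : n1 ⊕ n1 ≃ n0 ⊕ n2) (ε' : n1' ⊕ n1' ≃ n0' ⊕ n2')
    (b0 : Matrix n0 ι0 K) (b1 : Matrix n1 ι1 K) (b2 : Matrix n2 ι2 K)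
    (hb0 : LinearIndependent K (fun l => CL_real e0 (b0 l)))
    (hb1 : LinearIndependent K (fun l => CL_real e1 (b1 l)))
    (hb2 : LinearIndependent K (fun l => CL_real e2 (b2 l)))
    (b0' : Matrix n0' ι0 K) (b1' : Matrix n1' ι1 K) (b2' : Matrix n2' ι2 K)
    (hb0' : LinearIndependent K (fun l => CL_real e0 (b0' l)))
    (hb1' : LinearIndependent K (fun l => CL_real e1 (b1' l)))
    (hb2' : LinearIndependent K (fun l => CL_real e2 (b2' l)))
    (S : Submodule K F)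
    (hS0 : ∀ y ∈ S, ∀ z ∈ CL_rowSp e0 b0, y * z ∈ CL_rowSp e1 b1)
    (hS1 : ∀ y ∈ S, ∀ z ∈ CL_rowSp e1 b1, y * z ∈ CL_rowSp e2 b2)
    (hS0' : ∀ y ∈ S, ∀ z ∈ CL_rowSp e0 b0', y * z ∈ CL_rowSp e1 b1')
    (hS1' : ∀ y ∈ S, ∀ z ∈ CL_rowSp e1 b1', y * z ∈ CL_rowSp e2 b2')
    (h0le : CL_rowSp e0 b0' ≤ CL_rowSp e0 b0) (h1le : CL_rowSp e1 b1' ≤ CL_rowSp e1 b1)
    (h2le : CL_rowSp e2 b2' ≤ CL_rowSp e2 b2)
    (f : ℕ) (hk0 : Fintype.card n0 = Fintype.card n0' + f)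
    (hk1 : Fintype.card n1 = Fintype.card n1' + f)
    (hk2 : Fintype.card n2 = Fintype.card n2' + f)
    (hgood : ∀ s ∈ S, ∀ t ∈ S,
      ((s ≠ 0 ∨ t ≠ 0) ∧ SGSurj s t (CL_rowSp e1 b1) (CL_rowSp e2 b2) ∧
        SGSurj s t (CL_rowSp e1 b1') (CL_rowSp e2 b2') ∧
        ∃ lam : K, (∀ z ∈ CL_rowSp e0 b0, (t - lam • s) * z ∈ CL_rowSp e1 b1' →
            z ∈ CL_rowSp e0 b0') ∧
          (∀ z ∈ CL_rowSp e1 b1, (t - lam • s) * z ∈ CL_rowSp e2 b2' → z ∈ CL_rowSp e1 b1')) ∨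
      (¬ SGSurj s t (CL_rowSp e1 b1) (CL_rowSp e2 b2) ∧
        ¬ SGSurj s t (CL_rowSp e1 b1') (CL_rowSp e2 b2'))) :
    ∃ κ : K, κ ≠ 0 ∧ ∀ s t : ιm → K, CL_real em s ∈ S → CL_real em t ∈ S →
      ∀ (J1 : n0 → ι1 ⊕ ι1) (I1 : n2 → ι2) (J2 : n0' → ι1 ⊕ ι1) (I2 : n2' → ι2),
        Tdet c12 ε b1 s t J1 I1 * Gplu c01 b0' s t J2 * plu b2' I2 =
          κ * (Tdet c12 ε' b1' s t J2 I2 * Gplu c01 b0 s t J1 * plu b2 I1) := by
  classical
  -- bases
  set β0 := SGbas e0 b0 hb0 with hβ0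
  set β1 := SGbas e1 b1 hb1 with hβ1
  set β2 := SGbas e2 b2 hb2 with hβ2
  set β0' := SGbas e0 b0' hb0' with hβ0'
  set β1' := SGbas e1 b1' hb1' with hβ1'
  set β2' := SGbas e2 b2' hb2' with hβ2'
  have fin0 : Module.Finite K ↥(CL_rowSp e0 b0) := Module.Finite.of_basis β0
  have fin1 : Module.Finite K ↥(CL_rowSp e1 b1) := Module.Finite.of_basis β1
  have fin2 : Module.Finite K ↥(CL_rowSp e2 b2) := Module.Finite.of_basis β2
  let eA : n0 ≃ n0' ⊕ Fin f := Fintype.equivOfCardEq (by simp [hk0])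
  let eC : n2 ≃ n2' ⊕ Fin f := Fintype.equivOfCardEq (by simp [hk2])
  set j0 := Submodule.inclusion h0le with hj0
  set j1 := Submodule.inclusion h1le with hj1
  set j2 := Submodule.inclusion h2le with hj2
  have ij0 : Function.Injective j0 := Submodule.inclusion_injective h0le
  have ij1 : Function.Injective j1 := Submodule.inclusion_injective h1le
  have ij2 : Function.Injective j2 := Submodule.inclusion_injective h2le
  obtain ⟨l0, sl0, kl0⟩ := SG_exists_l (nF := Fin f) (LinearMap.range j0) (by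
    rw [LinearMap.finrank_range_of_inj ij0, Module.finrank_eq_card_basis β0,
      Module.finrank_eq_card_basis β0', hk0, Fintype.card_fin])
  obtain ⟨l1, sl1, kl1⟩ := SG_exists_l (nF := Fin f) (LinearMap.range j1) (by
    rw [LinearMap.finrank_range_of_inj ij1, Module.finrank_eq_card_basis β1,
      Module.finrank_eq_card_basis β1', hk1, Fintype.card_fin])
  obtain ⟨l2, sl2, kl2⟩ := SG_exists_l (nF := Fin f) (LinearMap.range j2) (by
    rw [LinearMap.finrank_range_of_inj ij2, Module.finrank_eq_card_basis β2,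
      Module.finrank_eq_card_basis β2', hk2, Fintype.card_fin])
  have z0 : ∀ z : ↥(CL_rowSp e0 b0), l0 z = 0 ↔ (z : F) ∈ CL_rowSp e0 b0' := by
    intro z
    rw [← LinearMap.mem_ker, kl0, LinearMap.mem_range]
    constructor
    · rintro ⟨x, rfl⟩; exact x.2
    · intro hz; exact ⟨⟨z, hz⟩, rfl⟩
  have z1 : ∀ z : ↥(CL_rowSp e1 b1), l1 z = 0 ↔ (z : F) ∈ CL_rowSp e1 b1' := by
    intro z
    rw [← LinearMap.mem_ker, kl1, LinearMap.mem_range]
    constructor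
    · rintro ⟨x, rfl⟩; exact x.2
    · intro hz; exact ⟨⟨z, hz⟩, rfl⟩
  have z2 : ∀ z : ↥(CL_rowSp e2 b2), l2 z = 0 ↔ (z : F) ∈ CL_rowSp e2 b2' := by
    intro z
    rw [← LinearMap.mem_ker, kl2, LinearMap.mem_range]
    constructor
    · rintro ⟨x, rfl⟩; exact x.2
    · intro hz; exact ⟨⟨z, hz⟩, rfl⟩
  obtain ⟨cst, hcst, Hstep⟩ := SG3_step β0 ((β1.prod β1).reindex ε) β2 β0'
    ((β1'.prod β1').reindex ε') β2' eA eC j0 j1 j2 ij0 ij1 ij2 l0 l1 l2 sl0 sl1 sl2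
    (fun x => (z0 _).mpr x.2) (fun x => (z1 _).mpr x.2) (fun x => (z2 _).mpr x.2)
  -- the induced maps on the quotients
  have hM01 : ∀ y (hy : y ∈ S), ∃ M : (Fin f → K) →ₗ[K] (Fin f → K),
      ∀ z, l1 (SGmul y _ _ (hS0 y hy) z) = M (l0 z) := by
    intro y hy
    obtain ⟨M, hM⟩ := SG_factor l0 sl0 (l1 ∘ₗ SGmul y _ _ (hS0 y hy)) (fun z hz => by
      rw [LinearMap.comp_apply, z1]
      exact hS0' y hy _ ((z0 z).mp hz))
    exact ⟨M, hM⟩
  have hM12 : ∀ y (hy : y ∈ S), ∃ M : (Fin f → K) →ₗ[K] (Fin f → K),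
      ∀ z, l2 (SGmul y _ _ (hS1 y hy) z) = M (l1 z) := by
    intro y hy
    obtain ⟨M, hM⟩ := SG_factor l1 sl1 (l2 ∘ₗ SGmul y _ _ (hS1 y hy)) (fun z hz => by
      rw [LinearMap.comp_apply, z2]
      exact hS1' y hy _ ((z1 z).mp hz))
    exact ⟨M, hM⟩
  choose M01 hM01 using hM01
  choose M12 hM12 using hM12
  -- commutation
  have hcomm : ∀ y (hy : y ∈ S) y' (hy' : y' ∈ S),
      LinearMap.det (M12 y hy) * LinearMap.det (M01 y' hy') =
        LinearMap.det (M12 y' hy') * LinearMap.det (M01 y hy) := by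
    intro y hy y' hy'
    rw [← LinearMap.det_comp, ← LinearMap.det_comp]
    congr 1
    apply LinearMap.ext
    intro q
    obtain ⟨z, rfl⟩ := sl0 q
    rw [LinearMap.comp_apply, LinearMap.comp_apply, ← hM01, ← hM01, ← hM12, ← hM12]
    congr 1
    apply Subtype.ext
    simp only [SGmul_coe]
    ring
  -- units
  have hunit : ∀ y (hy : y ∈ S),
      (∀ z ∈ CL_rowSp e0 b0, y * z ∈ CL_rowSp e1 b1' → z ∈ CL_rowSp e0 b0') →
      (∀ z ∈ CL_rowSp e1 b1, y * z ∈ CL_rowSp e2 b2' → z ∈ CL_rowSp e1 b1') →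
      LinearMap.det (M01 y hy) ≠ 0 ∧ LinearMap.det (M12 y hy) ≠ 0 := by
    intro y hy hu0 hu1
    constructor
    · apply SG_det_ne_zero
      intro q hq
      obtain ⟨z, rfl⟩ := sl0 q
      rw [← hM01, z1] at hq
      exact (z0 z).mpr (hu0 z z.2 hq)
    · apply SG_det_ne_zero
      intro q hq
      obtain ⟨z, rfl⟩ := sl1 q
      rw [← hM12, z2] at hq
      exact (z1 z).mpr (hu1 z z.2 hq)
  -- the relation for a good pencil
  have hrel : ∀ (s t : F) (hs : s ∈ S) (ht : t ∈ S), (s ≠ 0 ∨ t ≠ 0) →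
      SGSurj s t (CL_rowSp e1 b1) (CL_rowSp e2 b2) →
      SGSurj s t (CL_rowSp e1 b1') (CL_rowSp e2 b2') → ∀ (lam : K),
      ∃ tau1 tau2 : K,
        SGIsTau β0 ((β1.prod β1).reindex ε) β2 (SGi s t _ _ (hS0 s hs) (hS0 t ht))
          (SGmu s t _ _ (hS1 s hs) (hS1 t ht)) tau1 ∧
        SGIsTau β0' ((β1'.prod β1').reindex ε') β2' (SGi s t _ _ (hS0' s hs) (hS0' t ht))
          (SGmu s t _ _ (hS1' s hs) (hS1' t ht)) tau2 ∧
        tau1 * LinearMap.det (M01 (t - lam • s) (S.sub_mem ht (S.smul_mem lam hs))) =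
          cst * tau2 * LinearMap.det (M12 (t - lam • s) (S.sub_mem ht (S.smul_mem lam hs))) := by
    intro s t hs ht hne hsu hsu' lam
    have inj : ∀ (V W : Submodule K F) (h1 : ∀ z ∈ V, s * z ∈ W) (h2 : ∀ z ∈ V, t * z ∈ W),
        Function.Injective (SGi s t V W h1 h2) := by
      intro V W h1 h2
      rw [← LinearMap.ker_eq_bot, LinearMap.ker_eq_bot']
      intro z hz
      have e1 : t * (z : F) = 0 := congrArg (fun x : ↥W × ↥W => (x.1 : F)) hz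
      have e2 : -(s * (z : F)) = 0 := congrArg (fun x : ↥W × ↥W => (x.2 : F)) hz
      apply Subtype.ext
      rcases hne with h | h
      · have : s * (z : F) = 0 := by simpa using e2
        exact (mul_eq_zero.mp this).resolve_left h
      · exact (mul_eq_zero.mp e1).resolve_left h
    have cmp : ∀ (U V W : Submodule K F) (h1 : ∀ z ∈ U, s * z ∈ V) (h2 : ∀ z ∈ U, t * z ∈ V)
        (h3 : ∀ z ∈ V, s * z ∈ W) (h4 : ∀ z ∈ V, t * z ∈ W) (a : ↥U),
        SGmu s t V W h3 h4 (SGi s t U V h1 h2 a) = 0 := by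
      intro U V W h1 h2 h3 h4 a
      apply Subtype.ext
      rw [SGmu_coe, SGi_fst, SGi_snd, Submodule.coe_zero]
      ring
    have sur : ∀ (V W : Submodule K F) (h3 : ∀ z ∈ V, s * z ∈ W) (h4 : ∀ z ∈ V, t * z ∈ W),
        SGSurj s t V W → Function.Surjective (SGmu s t V W h3 h4) := by
      intro V W h3 h4 h w
      obtain ⟨u, hu, u', hu', hw⟩ := h w w.2
      refine ⟨(⟨u, hu⟩, ⟨u', hu'⟩), ?_⟩
      apply Subtype.ext
      rw [SGmu_coe]
      exact hw.symm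
    obtain ⟨tau1, -, H1⟩ := SG_fact β0 ((β1.prod β1).reindex ε) β2
      (SGi s t _ _ (hS0 s hs) (hS0 t ht)) (SGmu s t _ _ (hS1 s hs) (hS1 t ht))
      (inj _ _ _ _) (cmp _ _ _ _ _ _ _) (sur _ _ _ _ hsu)
    obtain ⟨tau2, -, H2⟩ := SG_fact β0' ((β1'.prod β1').reindex ε') β2'
      (SGi s t _ _ (hS0' s hs) (hS0' t ht)) (SGmu s t _ _ (hS1' s hs) (hS1' t ht))
      (inj _ _ _ _) (cmp _ _ _ _ _ _ _) (sur _ _ _ _ hsu')
    refine ⟨tau1, tau2, H1, H2, ?_⟩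
    have hy : t - lam • s ∈ S := S.sub_mem ht (S.smul_mem lam hs)
    have key := Hstep (SGi s t _ _ (hS0 s hs) (hS0 t ht)) (SGmu s t _ _ (hS1 s hs) (hS1 t ht))
      (SGi s t _ _ (hS0' s hs) (hS0' t ht)) (SGmu s t _ _ (hS1' s hs) (hS1' t ht))
      (inj _ _ _ _) (fun x => rfl) (fun x => rfl) lam (M01 _ hy) (M12 s hs) (M12 t ht)
      (fun z => by
        rw [← hM01, ← map_smul, ← map_add]
        congr 1
        apply Subtype.ext
        rw [Submodule.coe_add, Submodule.coe_smul, SGi_fst, SGi_snd, SGmul_coe,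
          sub_mul, smul_mul_assoc, smul_neg, sub_eq_add_neg])
      (fun x => by
        rw [← hM12, ← hM12, ← map_add]
        rfl)
      tau1 tau2 H1 H2
    have hlin : M12 t ht - lam • M12 s hs = M12 _ hy := by
      apply LinearMap.ext
      intro q
      obtain ⟨z, rfl⟩ := sl1 q
      rw [LinearMap.sub_apply, LinearMap.smul_apply, ← hM12, ← hM12, ← hM12, ← map_smul, ← map_sub]
      congr 1
      apply Subtype.ext
      simp only [Submodule.coe_sub, Submodule.coe_smul, SGmul_coe]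
      rw [sub_mul, smul_mul_assoc]
    rw [hlin] at key
    exact key
  -- the constant
  obtain ⟨ρ, hρ, Hρ⟩ : ∃ ρ : K, ρ ≠ 0 ∧ ∀ y (hy : y ∈ S),
      (∀ z ∈ CL_rowSp e0 b0, y * z ∈ CL_rowSp e1 b1' → z ∈ CL_rowSp e0 b0') →
      (∀ z ∈ CL_rowSp e1 b1, y * z ∈ CL_rowSp e2 b2' → z ∈ CL_rowSp e1 b1') →
      LinearMap.det (M12 y hy) = ρ * LinearMap.det (M01 y hy) := by
    by_cases hU : ∃ y, ∃ hy : y ∈ S,
      (∀ z ∈ CL_rowSp e0 b0, y * z ∈ CL_rowSp e1 b1' → z ∈ CL_rowSp e0 b0') ∧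
      (∀ z ∈ CL_rowSp e1 b1, y * z ∈ CL_rowSp e2 b2' → z ∈ CL_rowSp e1 b1')
    · obtain ⟨y0, hy0, hu0, hu1⟩ := hU
      obtain ⟨d0, d1⟩ := hunit y0 hy0 hu0 hu1
      refine ⟨LinearMap.det (M12 y0 hy0) / LinearMap.det (M01 y0 hy0), div_ne_zero d1 d0, ?_⟩
      intro y hy _ _
      have := hcomm y hy y0 hy0
      field_simp
      linear_combination this
    · refine ⟨1, one_ne_zero, ?_⟩
      intro y hy h1 h2
      exact absurd ⟨y, hy, h1, h2⟩ hU
  refine ⟨cst * ρ, mul_ne_zero hcst hρ, ?_⟩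
  intro s t hs ht J1 I1 J2 I2
  rw [SG_link_T em e1 e2 c12 hc12 he2 ε b1 b2 hb1 hb2 s t (hS1 _ hs) (hS1 _ ht) J1 I1,
    SG_link_T em e1 e2 c12 hc12 he2 ε' b1' b2' hb1' hb2' s t (hS1' _ hs) (hS1' _ ht) J2 I2]
  rcases hgood _ hs _ ht with ⟨hne, hsu, hsu', lam, hu0, hu1⟩ | ⟨hns, hns'⟩
  · obtain ⟨tau1, tau2, H1, H2, hrl⟩ := hrel _ _ hs ht hne hsu hsu' lam
    have hy : CL_real em t - lam • CL_real em s ∈ S := S.sub_mem ht (S.smul_mem lam hs)
    obtain ⟨d0, d1⟩ := hunit _ hy hu0 hu1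
    rw [Hρ _ hy hu0 hu1] at hrl
    have htau : tau1 = cst * ρ * tau2 := by
      apply mul_right_cancel₀ d0
      linear_combination hrl
    rw [H1 (fun j => SGxi e1 b1 hb1 (J1 j)) (fun k => SGco e2 b2 hb2 (I1 k)),
      H2 (fun j => SGxi e1 b1' hb1' (J2 j)) (fun k => SGco e2 b2' hb2' (I2 k)),
      SG_link_G em e0 e1 c01 hc01 he1 b0 b1 hb0 hb1 s t (hS0 _ hs) (hS0 _ ht) J1,
      SG_link_G em e0 e1 c01 hc01 he1 b0' b1' hb0' hb1' s t (hS0' _ hs) (hS0' _ ht) J2,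
      SG_link_P e2 b2 hb2 I1, SG_link_P e2 b2' hb2' I2, htau]
    ring
  · have hz1 : ¬ Function.Surjective
        (SGmu (CL_real em s) (CL_real em t) _ _ (hS1 _ hs) (hS1 _ ht)) := by
      intro h
      apply hns
      intro w hw
      obtain ⟨x, hx⟩ := h ⟨w, hw⟩
      refine ⟨x.1, x.1.2, x.2, x.2.2, ?_⟩
      have := congrArg Subtype.val hx
      rw [SGmu_coe] at this
      exact this.symm
    have hz2 : ¬ Function.Surjective
        (SGmu (CL_real em s) (CL_real em t) _ _ (hS1' _ hs) (hS1' _ ht)) := by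
      intro h
      apply hns'
      intro w hw
      obtain ⟨x, hx⟩ := h ⟨w, hw⟩
      refine ⟨x.1, x.1.2, x.2, x.2.2, ?_⟩
      have := congrArg Subtype.val hx
      rw [SGmu_coe] at this
      exact this.symm
    rw [SG_fact_zero β2 _ _ hz1 (fun j => SGxi e1 b1 hb1 (J1 j)) (fun k => SGco e2 b2 hb2 (I1 k)),
      SG_fact_zero β2' _ _ hz2 (fun j => SGxi e1 b1' hb1' (J2 j))
        (fun k => SGco e2 b2' hb2' (I2 k))]
    ring

end Main

end Fermat.Agent.S17Lib
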