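import Fermat.Agent.S17.Cube.Defs
import Fermat.Agent.S17.Cube.Ext
import Fermat.Agent.S17.Frame.LA

/-!
# S17, chapter CUBE, leaf TNZ: some `Tdet` is non-zero as soon as `U M_{s,t}` has rank `≥ card n2`
-/

set_option autoImplicit false
set_option linter.unusedSectionVars false

namespace Fermat.Agent.S17Lib

open Matrix

section TNZ

variable {n0 n2 : Type*} [Fintype n0] [DecidableEq n0] [Fintype n2] [DecidableEq n2]

/-- if all the mixed minors vanish, then `det [X A | Y B] = 0` for all `A`, `B`. -/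
theorem TNZ_expand {R : Type*} [CommRing R] {cX cY : Type*} [Fintype cX] [DecidableEq cX]
    [Fintype cY] [DecidableEq cY]
    (X : Matrix (n0 ⊕ n2) cX R) (Y : Matrix (n0 ⊕ n2) cY R)
    (h : ∀ (J : n0 → cX) (I : n2 → cY),
      (Matrix.fromCols (X.submatrix id J) (Y.submatrix id I)).det = 0)
    (A : Matrix cX n0 R) (B : Matrix cY n2 R) :
    (Matrix.fromCols (X * A) (Y * B)).det = 0 := by
  have e : Matrix.fromCols (X * A) (Y * B) =
      Matrix.fromCols X Y * Matrix.fromBlocks A 0 0 B := by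
    rw [Matrix.fromCols_mul_fromBlocks]
    simp
  rw [e, LA_det_mul_expand]
  refine Finset.sum_eq_zero fun K _ => ?_
  by_cases hK : (∀ j, ∃ x, K (Sum.inl j) = Sum.inl x) ∧ (∀ i, ∃ y, K (Sum.inr i) = Sum.inr y)
  · obtain ⟨h1, h2⟩ := hK
    choose J hJ using h1
    choose I hI using h2
    have e2 : (Matrix.fromCols X Y).submatrix id K =
        Matrix.fromCols (X.submatrix id J) (Y.submatrix id I) := by
      ext r c
      rcases c with c | c
      · simp [hJ]
      · simp [hI]
    rw [LA_plu_apply, e2, h, zero_mul]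
  · have h0 : ∃ a, (Matrix.fromBlocks A 0 0 B) (K a) a = 0 := by
      by_contra hne
      push Not at hne
      apply hK
      constructor
      · intro j
        rcases hKj : K (Sum.inl j) with x | y
        · exact ⟨x, rfl⟩
        · exact absurd (by rw [hKj]; rfl) (hne (Sum.inl j))
      · intro i
        rcases hKi : K (Sum.inr i) with x | y
        · exact absurd (by rw [hKi]; rfl) (hne (Sum.inr i))
        · exact ⟨y, rfl⟩
    obtain ⟨a, ha⟩ := h0
    have hp : ∏ a, (Matrix.fromBlocks A 0 0 B) (K a) a = 0 :=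
      Finset.prod_eq_zero (f := fun a => (Matrix.fromBlocks A 0 0 B) (K a) a)
        (Finset.mem_univ a) ha
    rw [hp, mul_zero]

/-- choice of `card n2` independent rows. -/
theorem TNZ_rho {k : Type*} [Field k] {r cY : Type*} [Fintype r]
    (Y : Matrix r cY k)
    (hY : Fintype.card n2 ≤ Module.finrank k (Submodule.span k (Set.range Y.row))) :
    ∃ ρ : n2 → r, LinearIndependent k (Y.submatrix ρ id).row := by
  classical
  obtain ⟨κ, a, ha, hsp, hli⟩ := exists_linearIndependent' k Y.row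
  have : Finite κ := Finite.of_injective a ha
  have : Fintype κ := Fintype.ofFinite κ
  have h1 := finrank_span_eq_card hli
  rw [hsp] at h1
  rw [h1] at hY
  obtain ⟨f⟩ := Function.Embedding.nonempty_of_card_le hY
  exact ⟨a ∘ f, hli.comp f f.injective⟩

/-- abstract form of TNZ. -/
theorem TNZ_abs {k : Type*} [Field k] {cX cY : Type*} [Fintype cX] [DecidableEq cX]
    [Fintype cY] [DecidableEq cY]
    (X : Matrix (n0 ⊕ n2) cX k) (Y : Matrix (n0 ⊕ n2) cY k)
    (hX : ∃ L : Matrix cX (n0 ⊕ n2) k, X * L = 1)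
    (hY : Fintype.card n2 ≤ Module.finrank k (Submodule.span k (Set.range Y.row))) :
    ∃ (J : n0 → cX) (I : n2 → cY),
      (Matrix.fromCols (X.submatrix id J) (Y.submatrix id I)).det ≠ 0 := by
  classical
  by_contra hcon
  push Not at hcon
  obtain ⟨L, hL⟩ := hX
  obtain ⟨ρ, hρ⟩ := TNZ_rho (n2 := n2) Y hY
  obtain ⟨B, hB⟩ := LA_exists_right_inverse (Y.submatrix ρ id)
    (Matrix.vecMul_injective_iff.mpr hρ)
  have hsub : (Y * B).submatrix ρ id = 1 := by
    rw [← hB]
    ext i j
    simp [Matrix.mul_apply]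
  have hcol : LinearIndependent k (Y * B)ᵀ.row := by
    have hinj : Function.Injective (Y * B).mulVec := by
      intro v w hvw
      funext i
      have h1 := congrFun hvw (ρ i)
      have h2 : ∀ u : n2 → k, ((Y * B) *ᵥ u) (ρ i) = u i := by
        intro u
        have : ((Y * B) *ᵥ u) (ρ i) = (((Y * B).submatrix ρ id) *ᵥ u) i := rfl
        rw [this, hsub, Matrix.one_mulVec]
      rwa [h2, h2] at h1
    exact Matrix.mulVec_injective_iff.mp hinj
  obtain ⟨Z, hZ⟩ := EXT_rows (Equiv.sumComm n0 n2) (Y * B)ᵀ hcol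
  have e : (Matrix.fromRows (Y * B)ᵀ Z).submatrix id (Equiv.sumComm n0 n2).symm =
      ((Matrix.fromCols Zᵀ (Y * B)).submatrix (Equiv.sumComm n2 n0) (Equiv.sumComm n2 n0))ᵀ := by
    ext r c
    rcases r with r | r <;> rcases c with c | c <;> rfl
  rw [e, Matrix.det_transpose, Matrix.det_submatrix_equiv_self] at hZ
  apply hZ
  have h3 := TNZ_expand X Y hcon (L * Zᵀ) B
  rwa [← Matrix.mul_assoc, hL, Matrix.one_mul] at h3

end TNZ

variable {ιm ι1 ι2 n0 n1 n2 : Type*} [Fintype ιm] [DecidableEq ιm] [Fintype ι1] [DecidableEq ι1]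
  [Fintype ι2] [DecidableEq ι2] [Fintype n0] [DecidableEq n0] [Fintype n1] [DecidableEq n1]
  [Fintype n2] [DecidableEq n2]

/-- **TNZ.** -/
theorem TNZ {k : Type*} [Field k] [Algebra ℚ k] (c12 : ιm → ι1 → ι2 → ℚ)
    (ε : n1 ⊕ n1 ≃ n0 ⊕ n2) (b' : Matrix n1 ι1 k) (s t : ιm → k) (hb : plu b' ≠ 0)
    (hr : Fintype.card n2 ≤
      Module.finrank k (Submodule.span k (Set.range (UMrow c12 b' s t)))) :
    ∃ J I, Tdet c12 ε b' s t J I ≠ 0 := by
  classical
  set X : Matrix (n0 ⊕ n2) (ι1 ⊕ ι1) k := Matrix.of fun r => Urow b' (ε.symm r) with hXdef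
  set Y : Matrix (n0 ⊕ n2) ι2 k := Matrix.of fun r => UMrow c12 b' s t (ε.symm r) with hYdef
  obtain ⟨β, hβ⟩ := LA_exists_right_inverse b'
    (Matrix.vecMul_injective_iff.mpr (LA_linearIndependent_of_plu_ne_zero b' hb))
  have hX : ∃ L : Matrix (ι1 ⊕ ι1) (n0 ⊕ n2) k, X * L = 1 := by
    refine ⟨(Matrix.fromBlocks β 0 0 β).submatrix id ε.symm, ?_⟩
    have e1 : X = (Matrix.fromBlocks b' 0 0 b').submatrix ε.symm id := by
      ext r c
      show Urow b' (ε.symm r) c = (Matrix.fromBlocks b' 0 0 b') (ε.symm r) c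
      rcases ε.symm r with i | i <;> rcases c with c | c <;> rfl
    rw [e1, ← Matrix.submatrix_mul _ _ _ id _ Function.bijective_id, Matrix.fromBlocks_multiply]
    simp [hβ]
  have hY : Fintype.card n2 ≤ Module.finrank k (Submodule.span k (Set.range Y.row)) := by
    have e2 : Set.range Y.row = Set.range (UMrow c12 b' s t) := by
      have : Y.row = UMrow c12 b' s t ∘ ε.symm := rfl
      rw [this, EquivLike.range_comp]
    rw [e2]
    exact hr
  obtain ⟨J, I, hJI⟩ := TNZ_abs X Y hX hY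
  refine ⟨J, I, ?_⟩
  have e3 : Tmat c12 ε b' s t J I =
      Matrix.fromCols (X.submatrix id J) (Y.submatrix id I) := by
    ext r x
    rcases x with j | i <;> rfl
  unfold Tdet
  rw [e3]
  exact hJI

end Fermat.Agent.S17Lib
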